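import Fermat.Agent.S55.Idele.Transition

/-!
# S55 / block [G0]: Galois descent for the idele model

`K ⊆ L` number fields, `H ≤ (L ≃ₐ[ℚ] L)` with `id_IsGal K L H` (`H` fixes `K` and the fixed field
of `H` is `K`).  Then

* `(ℚ_[q] ⊗ L)^H = ℚ_[q] ⊗ K` (`id_IsGal.Amap_range`, `id_IsGal.AmapU_range` on units),
* `H` is transitive on the primes of `L` over a prime of `K` (`id_IsGal.exists_smul_eq`),
* if `L/K` is unramified outside `S`: `I^S(L)^H = I^S(K)` (`id_IsGal.Imap_range`) and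
  `J_S(L)^H = J_S(K)` (`id_IsGal.Jmap_range`),
* Hilbert 90 (`id_hilbert90`); every `H`-invariant class of `C_S(L)` has an `H`-invariant
  representative (`id_exists_invariant_rep`, `S ≠ ∅`),
* `C_S(K) → C_S(L)` is injective (`id_IsGal.Cmap_injective`) with image `C_S(L)^H`
  (`id_IsGal.Cmap_range`).
-/

set_option autoImplicit false
set_option linter.unusedSectionVars false

open scoped TensorProduct NumberField nonZeroDivisors Pointwise
open IsDedekindDomain

noncomputable section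

namespace Fermat.Agent.S55

section Rel

variable {k : Type*} {K' L' : Type*} (F : Type*) [Field k] [Field K'] [Field L'] [Field F]
  [Algebra k K'] [Algebra k L'] [Algebra k F]

open Classical in
/-- Relative Galois descent for `F ⊗[k] -`: if the elements of `L'` fixed by a set `G` of
automorphisms all come from `K'`, then the `G`-fixed elements of `F ⊗[k] L'` come from
`F ⊗[k] K'`. -/
theorem ga_exists_of_fixed_rel (ι : K' →ₐ[k] L') (G : Set (L' ≃ₐ[k] L'))
    (hfix : ∀ y : L', (∀ σ ∈ G, σ y = y) → ∃ x : K', ι x = y) (z : F ⊗[k] L')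
    (hz : ∀ σ ∈ G, ga_act F σ z = z) :
    ∃ z₀ : F ⊗[k] K', Algebra.TensorProduct.map (AlgHom.id F F) ι z₀ = z := by
  set b := Module.Basis.ofVectorSpace k F with hb
  set e := TensorProduct.equivFinsuppOfBasisLeft (N := L') b with he
  have hc : ∀ i, ∃ c : K', ι c = e z i := by
    intro i
    apply hfix
    intro σ hσ
    rw [he, hb, ← ga_coord_act, hz σ hσ]
  choose c hc using hc
  refine ⟨∑ i ∈ (e z).support, b i ⊗ₜ[k] c i, ?_⟩
  rw [map_sum]
  simp only [Algebra.TensorProduct.map_tmul, AlgHom.coe_id, id_eq, hc]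
  have h1 := TensorProduct.equivFinsuppOfBasisLeft_symm_apply (N := L') b (e z)
  rw [he, LinearEquiv.symm_apply_apply] at h1
  rw [he]
  exact h1.symm

end Rel

universe u

section H90

variable (S : Finset Nat.Primes) (L : Type u) [Field L] [NumberField L]

/-- Hilbert 90 for a group of automorphisms of a number field. -/
theorem id_hilbert90 (H : Subgroup (L ≃ₐ[ℚ] L)) (y : ↥H → Lˣ)
    (hy : ∀ σ τ : ↥H, y (σ * τ) = (σ : L ≃ₐ[ℚ] L) • y τ * y σ) :
    ∃ b : Lˣ, ∀ σ : ↥H, (σ : L ≃ₐ[ℚ] L) • b / b = y σ := by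
  set F := IntermediateField.fixedField H with hFdef
  have hF : F.fixingSubgroup = H := IntermediateField.fixingSubgroup_fixedField H
  let e := IntermediateField.fixingSubgroupEquiv F
  let φ : Gal(L/F) → ↥H := fun g => ⟨(e.symm g).1, hF ▸ (e.symm g).2⟩
  have hφmul : ∀ g h : Gal(L/F), φ (g * h) = φ g * φ h := by
    intro g h
    apply Subtype.ext
    simp only [φ, map_mul]
    rfl
  have hφsmul : ∀ (g : Gal(L/F)) (u : Lˣ), ((φ g : ↥H) : L ≃ₐ[ℚ] L) • u = g • u := by
    intro g u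
    apply Units.ext
    rfl
  let f : Gal(L/F) → Lˣ := fun g => y (φ g)
  have hf : groupCohomology.IsMulCocycle₁ f := by
    intro g h
    change y (φ (g * h)) = g • y (φ h) * y (φ g)
    rw [hφmul, hy, hφsmul]
  obtain ⟨b, hb⟩ := groupCohomology.isMulCoboundary₁_of_isMulCocycle₁_of_aut_to_units f hf
  refine ⟨b, fun σ => ?_⟩
  have hσ : (σ : L ≃ₐ[ℚ] L) ∈ F.fixingSubgroup := by rw [hF]; exact σ.2
  have h1 : φ (e ⟨σ, hσ⟩) = σ := by
    apply Subtype.ext
    simp only [φ, MulEquiv.symm_apply_apply]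
  have h2 := hb (e ⟨σ, hσ⟩)
  change _ = y (φ _) at h2
  rw [h1] at h2
  rw [← h2, ← hφsmul, h1]

variable {S L}

/-- Every `H`-invariant class in `C_S(L)` has an `H`-invariant representative in `J_S(L)`. -/
theorem id_exists_invariant_rep (hS : S.Nonempty) (H : Subgroup (L ≃ₐ[ℚ] L)) (c : id_C S L)
    (hc : ∀ σ ∈ H, σ • c = c) : ∃ z : id_J S L, id_toC S L z = c ∧ ∀ σ ∈ H, σ • z = z := by
  obtain ⟨z, rfl⟩ := id_toC_surjective S L c
  have h1 : ∀ σ : ↥H, ∃ y : Lˣ, id_diag S L y = (σ : L ≃ₐ[ℚ] L) • z / z := by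
    intro σ
    rw [← id_toC_eq_one_iff, map_div, ← id_smul_toC, hc σ.1 σ.2, div_self']
  choose y hy using h1
  have hcoc : ∀ σ τ : ↥H, y (σ * τ) = (σ : L ≃ₐ[ℚ] L) • y τ * y σ := by
    intro σ τ
    apply id_diag_injective S L hS
    rw [hy, map_mul, ← id_smul_diag, hy, hy, smul_div', Subgroup.coe_mul, mul_smul]
    rw [div_mul_div_cancel]
  obtain ⟨b, hb⟩ := id_hilbert90 L H y hcoc
  refine ⟨z / id_diag S L b, ?_, ?_⟩
  · rw [map_div, div_eq_self, id_toC_eq_one_iff]
    exact ⟨b, rfl⟩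
  · intro σ hσ
    have h2 := hy ⟨σ, hσ⟩
    rw [← hb ⟨σ, hσ⟩, map_div, ← id_smul_diag] at h2
    change σ • id_diag S L b / id_diag S L b = σ • z / z at h2
    rw [smul_div']
    rw [div_eq_div_iff_mul_eq_mul] at h2 ⊢
    exact h2.symm.trans (mul_comm _ _)

end H90

variable (S : Finset Nat.Primes) (K L : Type u) [Field K] [NumberField K] [Field L] [NumberField L]
  [Algebra K L]

/-- `H` is a group of automorphisms of `L` fixing `K`, with fixed field exactly `K`
(so `L/K` is Galois with group `H`). -/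
structure id_IsGal (H : Subgroup (L ≃ₐ[ℚ] L)) : Prop where
  fixes : ∀ σ ∈ H, ∀ x : K, σ (algebraMap K L x) = algebraMap K L x
  fixed : ∀ y : L, (∀ σ ∈ H, σ y = y) → ∃ x : K, algebraMap K L x = y

variable {K L} {H : Subgroup (L ≃ₐ[ℚ] L)}

theorem id_IsGal.compat (hH : id_IsGal K L H) {σ : L ≃ₐ[ℚ] L} (hσ : σ ∈ H) :
    id_Compat K L 1 σ := fun x => hH.fixes σ hσ x

/-- Descent for the tensor part. -/
theorem id_IsGal.Amap_range (hH : id_IsGal K L H) (q : Nat.Primes) (z : id_A L q)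
    (hz : ∀ σ ∈ H, σ • z = z) : ∃ z₀ : id_A K q, id_Amap K L q z₀ = z :=
  ga_exists_of_fixed_rel ℚ_[(q : ℕ)] (id_iota K L) (H : Set (L ≃ₐ[ℚ] L))
    (fun y hy => hH.fixed y hy) z hz

theorem id_IsGal.AmapU_range (hH : id_IsGal K L H) (q : Nat.Primes) (u : (id_A L q)ˣ)
    (hu : ∀ σ ∈ H, σ • u = u) : ∃ u₀ : (id_A K q)ˣ, id_AmapU K L q u₀ = u := by
  obtain ⟨a, ha⟩ := hH.Amap_range q (u : id_A L q) (fun σ hσ => by
    rw [← ga_coe_smul_units, hu σ hσ])
  obtain ⟨b, hb⟩ := hH.Amap_range q ((u⁻¹ : (id_A L q)ˣ) : id_A L q) (fun σ hσ => by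
    rw [← ga_coe_smul_units, smul_inv', hu σ hσ])
  have h1 : a * b = 1 := by
    apply id_Amap_injective K L q
    rw [map_mul, ha, hb, map_one, Units.mul_inv]
  have h2 : b * a = 1 := by rw [mul_comm, h1]
  refine ⟨⟨a, b, h1, h2⟩, ?_⟩
  apply Units.ext
  exact ha

theorem id_IsGal.unitsMap_range (hH : id_IsGal K L H) (y : Lˣ) (hy : ∀ σ ∈ H, σ • y = y) :
    ∃ x : Kˣ, id_unitsMap K L x = y := by
  obtain ⟨x, hx⟩ := hH.fixed (y : L) (fun σ hσ => by
    have := congrArg (fun u : Lˣ => (u : L)) (hy σ hσ)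
    exact this)
  have hx0 : x ≠ 0 := by
    rintro rfl
    rw [map_zero] at hx
    exact y.ne_zero hx.symm
  refine ⟨Units.mk0 x hx0, ?_⟩
  apply Units.ext
  exact hx

theorem id_IsGal.smulCommClass (hH : id_IsGal K L H) : SMulCommClass ↥H (𝓞 K) (𝓞 L) := by
  refine ⟨fun σ a b => ?_⟩
  rw [Algebra.smul_def, Algebra.smul_def, smul_mul']
  congr 1
  apply NumberField.RingOfIntegers.ext
  exact hH.fixes σ.1 σ.2 (a : K)

theorem id_IsGal.isInvariant (hH : id_IsGal K L H) : Algebra.IsInvariant (𝓞 K) (𝓞 L) ↥H := by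
  refine ⟨fun b hb => ?_⟩
  obtain ⟨x, hx⟩ := hH.fixed (b : L) (fun σ hσ => by
    have := congrArg (fun c : 𝓞 L => (c : L)) (hb ⟨σ, hσ⟩)
    exact this)
  have hint : IsIntegral ℤ x := by
    have h1 : IsIntegral ℤ (algebraMap K L x) := by
      rw [hx]
      exact b.isIntegral_coe
    exact (isIntegral_algebraMap_iff (algebraMap K L).injective).1 h1
  refine ⟨⟨x, hint⟩, ?_⟩
  apply NumberField.RingOfIntegers.ext
  exact hx

/-- `H` is transitive on the primes of `L` above a prime of `K`. -/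
theorem id_IsGal.exists_smul_eq (hH : id_IsGal K L H) (w w' : HeightOneSpectrum (𝓞 L))
    (h : id_under K L w = id_under K L w') : ∃ σ ∈ H, σ • w = w' := by
  have := hH.smulCommClass
  have := hH.isInvariant
  have h1 : Ideal.under (𝓞 K) w.asIdeal = Ideal.under (𝓞 K) w'.asIdeal :=
    congrArg HeightOneSpectrum.asIdeal h
  obtain ⟨g, hg⟩ := Algebra.IsInvariant.exists_smul_of_under_eq (𝓞 K) (𝓞 L) ↥H
    w.asIdeal w'.asIdeal h1
  refine ⟨g.1, g.2, ?_⟩
  apply HeightOneSpectrum.ext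
  rw [id_smul_asIdeal, hg]
  rfl

theorem id_IsGal.exists_smul_eqP (hH : id_IsGal K L H) (w w' : id_P S L)
    (h : id_underP S K L w = id_underP S K L w') : ∃ σ ∈ H, σ • w = w' := by
  obtain ⟨σ, hσ, h1⟩ := hH.exists_smul_eq w.1 w'.1 (congrArg Subtype.val h)
  exact ⟨σ, hσ, Subtype.ext h1⟩

/-- Descent for ideals prime to `S`, when `L/K` is unramified outside `S`. -/
theorem id_IsGal.Imap_range (hH : id_IsGal K L H) (hunr : ∀ w : id_P S L, id_e K L w.1 = 1)
    (D : id_I S L) (hD : ∀ σ ∈ H, σ • D = D) : ∃ D₀ : id_I S K, id_Imap S K L D₀ = D := by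
  classical
  choose s hs using id_underP_surjective S K L
  have hconst : ∀ w w' : id_P S L, id_underP S K L w = id_underP S K L w' →
      D.toAdd w = D.toAdd w' := by
    intro w w' h
    obtain ⟨σ, hσ, rfl⟩ := hH.exists_smul_eqP S w w' h
    have h1 := congrArg (fun E : id_I S L => E.toAdd (σ • w)) (hD σ hσ)
    simp only [id_I_smul_def, toAdd_ofAdd, id_IAct_apply, inv_smul_smul] at h1
    exact h1
  let D₀ : id_P S K →₀ ℤ := Finsupp.ofSupportFinite (fun v => D.toAdd (s v)) (by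
    apply (D.toAdd.support.finite_toSet.image (id_underP S K L)).subset
    intro v hv
    simp only [Function.mem_support, ne_eq] at hv
    exact ⟨s v, Finsupp.mem_support_iff.2 hv, hs v⟩)
  refine ⟨Multiplicative.ofAdd D₀, ?_⟩
  apply Multiplicative.toAdd.injective
  ext w
  rw [id_Imap_apply, hunr w, Nat.cast_one, one_mul]
  change D.toAdd (s (id_underP S K L w)) = D.toAdd w
  exact hconst _ _ (hs _)


/-- Descent for ideles, when `L/K` is unramified outside `S`. -/
theorem id_IsGal.Jmap_range (hH : id_IsGal K L H) (hunr : ∀ w : id_P S L, id_e K L w.1 = 1)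
    (z : id_J S L) (hz : ∀ σ ∈ H, σ • z = z) : ∃ z₀ : id_J S K, id_Jmap S K L z₀ = z := by
  have h1 : ∀ q : ↥S, ∃ u₀ : (id_A K q.1)ˣ, id_AmapU K L q.1 u₀ = z.1 q := by
    intro q
    apply hH.AmapU_range q.1
    intro σ hσ
    have := congrArg (fun y : id_J S L => y.1 q) (hz σ hσ)
    exact this
  choose u hu using h1
  obtain ⟨D₀, hD₀⟩ := hH.Imap_range S hunr z.2 (fun σ hσ => congrArg Prod.snd (hz σ hσ))
  refine ⟨(u, D₀), ?_⟩
  apply Prod.ext
  · funext q
    exact hu q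
  · exact hD₀

/-- `C_S(K) → C_S(L)` is injective. -/
theorem id_IsGal.Cmap_injective (hH : id_IsGal K L H) (hS : S.Nonempty) :
    Function.Injective (id_Cmap S K L) := by
  rw [injective_iff_map_eq_one]
  intro c hc
  obtain ⟨z, rfl⟩ := id_toC_surjective S K c
  rw [id_Cmap_toC, id_toC_eq_one_iff] at hc
  obtain ⟨y, hy⟩ := hc
  have hyfix : ∀ σ ∈ H, σ • y = y := by
    intro σ hσ
    apply id_diag_injective S L hS
    rw [← id_smul_diag, hy, ← id_Jmap_smul S K L (hH.compat hσ), one_smul]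
  obtain ⟨x, rfl⟩ := hH.unitsMap_range y hyfix
  rw [← id_Jmap_diag] at hy
  rw [id_toC_eq_one_iff]
  exact ⟨x, id_Jmap_injective S K L hy⟩

/-- The image of `C_S(K) → C_S(L)` is the group of `H`-invariants. -/
theorem id_IsGal.Cmap_range (hH : id_IsGal K L H) (hS : S.Nonempty)
    (hunr : ∀ w : id_P S L, id_e K L w.1 = 1) (c : id_C S L) (hc : ∀ σ ∈ H, σ • c = c) :
    ∃ c₀ : id_C S K, id_Cmap S K L c₀ = c := by
  obtain ⟨z, rfl, hz⟩ := id_exists_invariant_rep hS H c hc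
  obtain ⟨z₀, rfl⟩ := hH.Jmap_range S hunr z hz
  exact ⟨id_toC S K z₀, rfl⟩

theorem id_IsGal.Cmap_smul (hH : id_IsGal K L H) {σ : L ≃ₐ[ℚ] L} (hσ : σ ∈ H) (c : id_C S K) :
    σ • id_Cmap S K L c = id_Cmap S K L c := by
  rw [← id_Cmap_smul S K L (hH.compat hσ), one_smul]

end Fermat.Agent.S55
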