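import Mathlib

/-!
# S55 / block [G0]: Galois action on the finite primes of a number field, orders, divisors

For a number field `K` (any `Type*`, with its canonical `ℚ`-algebra structure) the finite group
`K ≃ₐ[ℚ] K` acts on `HeightOneSpectrum (𝓞 K)` (`id_primesAction`), the adic valuations are
equivariant (`id_valuation_smul`), and for a finite set `S` of rational primes we define

* `id_P S K`: the primes of `K` not above `S` (a `K ≃ₐ[ℚ] K`-set),
* `id_I S K := Multiplicative (id_P S K →₀ ℤ)`: the group of fractional ideals prime to `S`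
  (a permutation module), with `MulDistribMulAction (K ≃ₐ[ℚ] K)`,
* `id_ordZ K v : Kˣ → ℤ`, the normalised order at `v`,
* `id_div S K : Kˣ →* id_I S K`, the prime-to-`S` divisor map, equivariant (`id_smul_div`).
-/

set_option autoImplicit false

open scoped NumberField nonZeroDivisors Pointwise
open IsDedekindDomain

noncomputable section

namespace Fermat.Agent.S55

variable (S : Finset Nat.Primes) (K : Type*) [Field K] [NumberField K]
theorem id_smul_ne_bot (σ : K ≃ₐ[ℚ] K) {A : Ideal (𝓞 K)} (hA : A ≠ ⊥) : σ • A ≠ ⊥ := by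
  intro h
  apply hA
  have := congrArg (fun B => σ⁻¹ • B) h
  simp only [inv_smul_smul] at this
  rw [this, ← Ideal.zero_eq_bot, smul_zero]

/-- `K ≃ₐ[ℚ] K` acts on the finite primes of `K`. -/
instance id_primesAction : MulAction (K ≃ₐ[ℚ] K) (HeightOneSpectrum (𝓞 K)) where
  smul σ v := ⟨σ • v.asIdeal, Ideal.IsPrime.smul σ, id_smul_ne_bot K σ v.ne_bot⟩
  one_smul v := by
    ext1
    exact one_smul _ v.asIdeal
  mul_smul σ τ v := by
    ext1
    exact mul_smul σ τ v.asIdeal

@[simp]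
theorem id_smul_asIdeal (σ : K ≃ₐ[ℚ] K) (v : HeightOneSpectrum (𝓞 K)) :
    (σ • v).asIdeal = σ • v.asIdeal := rfl

/-- `v` does not lie above any prime of `S`. -/
def id_PrimeToS (v : HeightOneSpectrum (𝓞 K)) : Prop := ∀ q ∈ S, ((q : ℕ) : 𝓞 K) ∉ v.asIdeal

theorem id_primeToS_smul (σ : K ≃ₐ[ℚ] K) {v : HeightOneSpectrum (𝓞 K)} (hv : id_PrimeToS S K v) :
    id_PrimeToS S K (σ • v) := by
  intro q hq hmem
  apply hv q hq
  rw [id_smul_asIdeal, Ideal.mem_pointwise_smul_iff_inv_smul_mem] at hmem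
  have h : σ⁻¹ • (((q : ℕ) : 𝓞 K)) = (((q : ℕ) : 𝓞 K)) :=
    map_natCast (MulSemiringAction.toRingHom (K ≃ₐ[ℚ] K) (𝓞 K) σ⁻¹) q
  rwa [h] at hmem

/-- The finite primes of `K` not above `S`. -/
def id_P : Type _ := {v : HeightOneSpectrum (𝓞 K) // id_PrimeToS S K v}

instance id_PAction : MulAction (K ≃ₐ[ℚ] K) (id_P S K) where
  smul σ v := ⟨σ • v.1, id_primeToS_smul S K σ v.2⟩
  one_smul v := Subtype.ext (one_smul _ v.1)
  mul_smul σ τ v := Subtype.ext (mul_smul σ τ v.1)

@[simp]
theorem id_P_smul_val (σ : K ≃ₐ[ℚ] K) (v : id_P S K) : (σ • v).1 = σ • v.1 := rfl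

/-- The group of fractional ideals of `K` prime to `S`, written multiplicatively: the free abelian
group on the primes not above `S`. -/
abbrev id_I : Type _ := Multiplicative (id_P S K →₀ ℤ)

/-- The Galois action on divisors: `(σ • D)(v) = D(σ⁻¹ • v)`. -/
def id_IAct (σ : K ≃ₐ[ℚ] K) : (id_P S K →₀ ℤ) ≃+ (id_P S K →₀ ℤ) :=
  Finsupp.domCongr (MulAction.toPerm σ)

theorem id_IAct_apply (σ : K ≃ₐ[ℚ] K) (D : id_P S K →₀ ℤ) (v : id_P S K) :
    id_IAct S K σ D v = D (σ⁻¹ • v) := rfl

theorem id_IAct_single (σ : K ≃ₐ[ℚ] K) (v : id_P S K) (n : ℤ) :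
    id_IAct S K σ (Finsupp.single v n) = Finsupp.single (σ • v) n := by
  simp [id_IAct, Finsupp.domCongr_apply]

instance id_IAction : MulDistribMulAction (K ≃ₐ[ℚ] K) (id_I S K) where
  smul σ D := Multiplicative.ofAdd (id_IAct S K σ D.toAdd)
  one_smul D := by
    apply Multiplicative.toAdd.injective
    ext v
    change D.toAdd ((1 : K ≃ₐ[ℚ] K)⁻¹ • v) = D.toAdd v
    rw [inv_one, one_smul]
  mul_smul σ τ D := by
    apply Multiplicative.toAdd.injective
    ext v
    change D.toAdd ((σ * τ)⁻¹ • v) = D.toAdd (τ⁻¹ • σ⁻¹ • v)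
    rw [mul_inv_rev, mul_smul]
  smul_mul σ D E := by
    apply Multiplicative.toAdd.injective
    exact map_add (id_IAct S K σ) D.toAdd E.toAdd
  smul_one σ := by
    apply Multiplicative.toAdd.injective
    exact map_zero (id_IAct S K σ)

theorem id_I_smul_def (σ : K ≃ₐ[ℚ] K) (D : id_I S K) :
    σ • D = Multiplicative.ofAdd (id_IAct S K σ D.toAdd) := rfl


/-! ### Orders and the divisor map -/

theorem id_intValuation_smul (σ : K ≃ₐ[ℚ] K) (v : HeightOneSpectrum (𝓞 K)) (r : 𝓞 K) :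
    (σ • v).intValuation (σ • r) = v.intValuation r := by
  have key : ∀ n : ℕ, (σ • v).intValuation (σ • r) ≤ WithZero.exp (-(n : ℤ)) ↔
      v.intValuation r ≤ WithZero.exp (-(n : ℤ)) := by
    intro n
    rw [HeightOneSpectrum.intValuation_le_pow_iff_mem, HeightOneSpectrum.intValuation_le_pow_iff_mem,
      id_smul_asIdeal, ← smul_pow', Ideal.smul_mem_pointwise_smul_iff]
  by_cases hr : r = 0
  · simp [hr]
  · have hr' : σ • r ≠ 0 := by
      intro h
      apply hr
      have := congrArg (fun y => σ⁻¹ • y) h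
      simpa using this
    rw [HeightOneSpectrum.intValuation_if_neg _ hr, HeightOneSpectrum.intValuation_if_neg _ hr'] at key ⊢
    simp only [WithZero.exp_le_exp, neg_le_neg_iff, Int.ofNat_le] at key
    rw [WithZero.exp_inj, neg_inj, Int.natCast_inj]
    apply le_antisymm
    · exact (key _).1 le_rfl
    · exact (key _).2 le_rfl

/-- Galois equivariance of the adic valuations. -/
theorem id_valuation_smul (σ : K ≃ₐ[ℚ] K) (v : HeightOneSpectrum (𝓞 K)) (x : K) :
    (σ • v).valuation K (σ x) = v.valuation K x := by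
  obtain ⟨a, b, hb, rfl⟩ := IsFractionRing.div_surjective (A := 𝓞 K) x
  have h1 : σ (algebraMap (𝓞 K) K a) = algebraMap (𝓞 K) K (σ • a) := rfl
  have h2 : σ (algebraMap (𝓞 K) K b) = algebraMap (𝓞 K) K (σ • b) := rfl
  rw [map_div₀, map_div₀, map_div₀, h1, h2, HeightOneSpectrum.valuation_of_algebraMap,
    HeightOneSpectrum.valuation_of_algebraMap, HeightOneSpectrum.valuation_of_algebraMap,
    HeightOneSpectrum.valuation_of_algebraMap, id_intValuation_smul, id_intValuation_smul]

/-- The normalised order `ord_v : Kˣ → ℤ` (`ord_v π = 1` for a uniformiser). -/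
def id_ordZ (v : HeightOneSpectrum (𝓞 K)) (x : Kˣ) : ℤ := -WithZero.log (v.valuation K (x : K))

theorem id_valuation_ne_zero (v : HeightOneSpectrum (𝓞 K)) (x : Kˣ) : v.valuation K (x : K) ≠ 0 :=
  (Valuation.ne_zero_iff _).2 x.ne_zero

theorem id_ordZ_mul (v : HeightOneSpectrum (𝓞 K)) (x y : Kˣ) :
    id_ordZ K v (x * y) = id_ordZ K v x + id_ordZ K v y := by
  rw [id_ordZ, id_ordZ, id_ordZ, Units.val_mul, map_mul,
    WithZero.log_mul (id_valuation_ne_zero K v x) (id_valuation_ne_zero K v y)]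
  ring

theorem id_ordZ_one (v : HeightOneSpectrum (𝓞 K)) : id_ordZ K v 1 = 0 := by
  simp [id_ordZ]

theorem id_valuation_eq_exp (v : HeightOneSpectrum (𝓞 K)) (x : Kˣ) :
    v.valuation K (x : K) = WithZero.exp (-id_ordZ K v x) := by
  rw [id_ordZ, neg_neg, WithZero.exp_log (id_valuation_ne_zero K v x)]

theorem id_ordZ_eq_zero_iff (v : HeightOneSpectrum (𝓞 K)) (x : Kˣ) :
    id_ordZ K v x = 0 ↔ v.valuation K (x : K) = 1 := by
  rw [id_valuation_eq_exp, WithZero.exp_eq_one, neg_eq_zero]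

theorem id_ordZ_smul (σ : K ≃ₐ[ℚ] K) (v : HeightOneSpectrum (𝓞 K)) (x : Kˣ) :
    id_ordZ K (σ • v) (σ • x) = id_ordZ K v x := by
  rw [id_ordZ, id_ordZ]
  congr 2
  exact id_valuation_smul K σ v (x : K)

theorem id_finite_ordZ_ne_zero (x : Kˣ) :
    {v : HeightOneSpectrum (𝓞 K) | id_ordZ K v x ≠ 0}.Finite := by
  have h1 := HeightOneSpectrum.Support.finite (𝓞 K) (x : K)
  have h2 := HeightOneSpectrum.Support.finite (𝓞 K) ((x⁻¹ : Kˣ) : K)
  apply (h1.union h2).subset
  intro v hv
  simp only [Set.mem_ofPred_eq, ne_eq, id_ordZ_eq_zero_iff] at hv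
  simp only [HeightOneSpectrum.Support, Set.mem_union, Set.mem_ofPred_eq]
  rcases lt_or_gt_of_ne hv with h | h
  · right
    rw [Units.val_inv_eq_inv_val, map_inv₀]
    exact (one_lt_inv₀ (zero_lt_iff.2 (id_valuation_ne_zero K v x))).2 h
  · left; exact h

/-- The prime-to-`S` part of the divisor of `x ∈ Kˣ`, as a finitely supported function. -/
def id_divFun (x : Kˣ) : id_P S K →₀ ℤ :=
  Finsupp.ofSupportFinite (fun v => id_ordZ K v.1 x) (by
    have h := id_finite_ordZ_ne_zero K x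
    apply Set.Finite.of_injOn (f := fun v : id_P S K => v.1) (t := {v | id_ordZ K v x ≠ 0}) _ _ h
    · intro v hv
      exact hv
    · intro v _ w _ hvw
      exact Subtype.ext hvw)

@[simp]
theorem id_divFun_apply (x : Kˣ) (v : id_P S K) : id_divFun S K x v = id_ordZ K v.1 x := rfl

/-- The prime-to-`S` divisor map `Kˣ →* I^S(K)`. -/
def id_div : Kˣ →* id_I S K where
  toFun x := Multiplicative.ofAdd (id_divFun S K x)
  map_one' := by
    apply Multiplicative.toAdd.injective
    ext v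
    exact id_ordZ_one K v.1
  map_mul' x y := by
    apply Multiplicative.toAdd.injective
    ext v
    exact id_ordZ_mul K v.1 x y

theorem id_div_apply (x : Kˣ) (v : id_P S K) : (id_div S K x).toAdd v = id_ordZ K v.1 x := rfl

theorem id_smul_div (σ : K ≃ₐ[ℚ] K) (x : Kˣ) : σ • id_div S K x = id_div S K (σ • x) := by
  apply Multiplicative.toAdd.injective
  ext v
  change id_ordZ K (σ⁻¹ • v).1 x = id_ordZ K v.1 (σ • x)
  rw [← id_ordZ_smul K σ (σ⁻¹ • v).1 x, id_P_smul_val, smul_inv_smul]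

end Fermat.Agent.S55
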