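import Fermat.Agent.S55.Idele.LevUnram

/-!
# S55, block G5 (G-abs): field levels `ia_Lev T` (prefix `ia_`)

The argument for (G-abs) works in the idele-class tower of an enlarged set `T ⊇ S` over fields
which are unramified outside `T` but do **not** contain the `q`-th roots of unity for `q ∈ T ∖ S`;
such fields are not `du_Lev T` (whose members contain `ℚ(μ_q)`, `q ∈ T`).  `ia_Lev T` is the plain
notion: a finite Galois extension of `ℚ` inside `ℚ̄`, unramified outside `T`.  This file copies the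
API of `du_Lev` (`Dual/Seam.lean`, `Dual/Levels.lean`) and of `Idele/LevelTransition.lean` to
`ia_Lev`, and relates the two (`ia_ofLev`).
-/

set_option autoImplicit false
set_option linter.style.haveILetI false
set_option linter.unusedSectionVars false

open scoped TensorProduct NumberField nonZeroDivisors Pointwise
open IsDedekindDomain

noncomputable section

namespace Fermat.Agent.S55

local notation "Qbar" => AlgebraicClosure ℚ
local notation "GQ" => (AlgebraicClosure ℚ ≃ₐ[ℚ] AlgebraicClosure ℚ)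

/-- A field level: a finite Galois extension of `ℚ` inside `ℚ̄`, unramified outside `T`. -/
structure ia_Lev (T : Finset Nat.Primes) where
  L : IntermediateField ℚ Qbar
  unr : L.IsUnramifiedOutside T
  nor : Normal ℚ L

namespace ia_Lev

variable {T : Finset Nat.Primes}

instance : LE (ia_Lev T) := ⟨fun a b => a.L ≤ b.L⟩

lemma le_def {a b : ia_Lev T} : a ≤ b ↔ a.L ≤ b.L := Iff.rfl

instance : Preorder (ia_Lev T) where
  le_refl a := le_refl a.L
  le_trans _ _ _ h h' := le_trans (α := IntermediateField ℚ Qbar) h h'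

instance (a : ia_Lev T) : Normal ℚ a.L := a.nor

instance (a : ia_Lev T) : FiniteDimensional ℚ a.L := a.unr.1

instance (a : ia_Lev T) : NumberField a.L := ⟨⟩

/-- The Galois group of the level. -/
abbrev Γ (a : ia_Lev T) : Type := a.L ≃ₐ[ℚ] a.L

noncomputable instance (a : ia_Lev T) : Fintype a.Γ := Fintype.ofFinite _

/-- The projection `GQ → Γ_L`. -/
noncomputable def q (a : ia_Lev T) : GQ →* a.Γ := AlgEquiv.restrictNormalHom a.L

/-- The image in `Γ_L` of `Gal(ℚ̄/K)`, i.e. `Gal(L/K)` for a smaller level `K`. -/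
noncomputable def rel (a K : ia_Lev T) : Subgroup a.Γ := K.L.fixingSubgroup.map a.q

theorem q_surjective (a : ia_Lev T) : Function.Surjective a.q :=
  tl_restrictNormalHom_surjective a.L

theorem ker_q (a : ia_Lev T) : a.q.ker = a.L.fixingSubgroup :=
  tl_ker_restrictNormalHom a.L

theorem q_eq_one_iff (a : ia_Lev T) (σ : GQ) : a.q σ = 1 ↔ σ ∈ a.L.fixingSubgroup := by
  rw [← ker_q, MonoidHom.mem_ker]

theorem ker_q_le {a b : ia_Lev T} (h : a ≤ b) : b.q.ker ≤ a.q.ker := by
  rw [ker_q, ker_q]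
  exact IntermediateField.fixingSubgroup_antitone h

theorem q_coe (a : ia_Lev T) (σ : GQ) (x : a.L) : ((a.q σ x : a.L) : Qbar) = σ (x : Qbar) :=
  AlgEquiv.restrictNormal_commutes σ a.L x

/-- The restriction `Γ_{L'} → Γ_L` for `L ≤ L'`. -/
noncomputable def res {a b : ia_Lev T} (h : a ≤ b) : b.Γ →* a.Γ :=
  (QuotientGroup.lift b.q.ker a.q (ker_q_le h)).comp
    (QuotientGroup.quotientKerEquivOfSurjective b.q b.q_surjective).symm.toMonoidHom

@[simp] theorem res_q {a b : ia_Lev T} (h : a ≤ b) (σ : GQ) : res h (b.q σ) = a.q σ := by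
  have h1 : (QuotientGroup.quotientKerEquivOfSurjective b.q b.q_surjective).symm (b.q σ) =
      (QuotientGroup.mk σ : GQ ⧸ b.q.ker) := by
    rw [MulEquiv.symm_apply_eq]
    rfl
  show QuotientGroup.lift b.q.ker a.q (ker_q_le h)
    ((QuotientGroup.quotientKerEquivOfSurjective b.q b.q_surjective).symm (b.q σ)) = a.q σ
  rw [h1]
  rfl

theorem res_surjective {a b : ia_Lev T} (h : a ≤ b) : Function.Surjective (res h) := by
  intro g
  obtain ⟨σ, rfl⟩ := a.q_surjective g
  exact ⟨b.q σ, res_q h σ⟩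

theorem ker_res {a b : ia_Lev T} (h : a ≤ b) : (res h).ker = b.rel a := by
  ext g
  obtain ⟨σ, rfl⟩ := b.q_surjective g
  rw [MonoidHom.mem_ker, res_q, q_eq_one_iff]
  constructor
  · intro hσ
    exact ⟨σ, hσ, rfl⟩
  · rintro ⟨τ, hτ, hτσ⟩
    have : τ⁻¹ * σ ∈ b.L.fixingSubgroup := by
      rw [← ker_q, MonoidHom.mem_ker, map_mul, map_inv, hτσ, inv_mul_cancel]
    have h2 : τ⁻¹ * σ ∈ a.L.fixingSubgroup := IntermediateField.fixingSubgroup_antitone h this
    have : σ = τ * (τ⁻¹ * σ) := by group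
    rw [this]
    exact mul_mem hτ h2

instance rel_normal (b a : ia_Lev T) : (b.rel a).Normal := by
  unfold rel
  have : a.L.fixingSubgroup.Normal := tl_normal_fixingSubgroup a.L
  exact Subgroup.Normal.map this b.q b.q_surjective

/-- The restriction of an element, pointwise. -/
theorem res_coe {a b : ia_Lev T} (h : a ≤ b) (g : b.Γ) (x : a.L) :
    ((res h g x : a.L) : Qbar) = ((g (IntermediateField.inclusion h x) : b.L) : Qbar) := by
  obtain ⟨σ, rfl⟩ := b.q_surjective g
  rw [res_q, q_coe, q_coe]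
  rfl

theorem mem_rel_iff {a b : ia_Lev T} (h : a ≤ b) (g : b.Γ) :
    g ∈ b.rel a ↔ ∀ x : a.L, g (IntermediateField.inclusion h x) = IntermediateField.inclusion h x := by
  rw [← ker_res h, MonoidHom.mem_ker]
  constructor
  · intro hg x
    apply Subtype.ext
    rw [← res_coe h g x, hg]
    rfl
  · intro hg
    ext x
    rw [res_coe h g x, hg]
    rfl

theorem rel_anti {K a b : ia_Lev T} (h : K ≤ a) : b.rel a ≤ b.rel K :=
  Subgroup.map_mono (IntermediateField.fixingSubgroup_antitone h)

/-- `Gal(L'/K)` maps onto `Gal(L/K)`. -/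
theorem map_res_rel {K a b : ia_Lev T} (h : a ≤ b) : (b.rel K).map (res h) = a.rel K := by
  ext g
  constructor
  · rintro ⟨_, ⟨σ, hσ, rfl⟩, rfl⟩
    exact ⟨σ, hσ, (res_q h σ).symm⟩
  · rintro ⟨σ, hσ, rfl⟩
    exact ⟨b.q σ, ⟨σ, hσ, rfl⟩, res_q h σ⟩

theorem res_mem_rel {K a b : ia_Lev T} (h : a ≤ b) {g : b.Γ} (hg : g ∈ b.rel K) :
    res h g ∈ a.rel K := by
  rw [← map_res_rel h]
  exact Subgroup.mem_map_of_mem _ hg

end ia_Lev

/-- An `S`-level of block [D] as a field level for any `T ⊇ S`. -/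
@[reducible] def ia_ofLev {S T : Finset Nat.Primes} (hST : S ⊆ T) (a : du_Lev S) : ia_Lev T :=
  ⟨a.L, a.unr.mono hST, a.nor⟩

section ofLev

variable {S T : Finset Nat.Primes} (hST : S ⊆ T)

@[simp] theorem ia_ofLev_L (a : du_Lev S) : (ia_ofLev hST a).L = a.L := rfl

theorem ia_ofLev_q (a : du_Lev S) : (ia_ofLev hST a).q = a.q := rfl

theorem ia_ofLev_rel (a K : du_Lev S) : (ia_ofLev hST a).rel (ia_ofLev hST K) = a.rel K := rfl

theorem ia_ofLev_le {a b : du_Lev S} (h : a ≤ b) : ia_ofLev hST a ≤ ia_ofLev hST b := h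

end ofLev

/-- Enlarging `T`. -/
def ia_Lev.mono {T T' : Finset Nat.Primes} (hTT' : T ⊆ T') (a : ia_Lev T) : ia_Lev T' :=
  ⟨a.L, a.unr.mono hTT', a.nor⟩

variable {T : Finset Nat.Primes}

/-! ### The algebra structures between levels -/

/-- The inclusion of levels as an algebra structure (same expression as `id_levAlgebra`). -/
@[reducible] def ia_algebra {a b : ia_Lev T} (h : a ≤ b) : Algebra a.L b.L :=
  (IntermediateField.inclusion h).toRingHom.toAlgebra

theorem ia_algebra_map {a b : ia_Lev T} (h : a ≤ b) (x : a.L) :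
    letI := ia_algebra h
    algebraMap a.L b.L x = IntermediateField.inclusion h x := rfl

theorem ia_isScalarTower {a b c : ia_Lev T} (h : a ≤ b) (h' : b ≤ c) :
    letI := ia_algebra h
    letI := ia_algebra h'
    letI := ia_algebra (le_trans (α := IntermediateField ℚ Qbar) h h')
    IsScalarTower a.L b.L c.L := by
  letI := ia_algebra h
  letI := ia_algebra h'
  letI := ia_algebra (le_trans (α := IntermediateField ℚ Qbar) h h')
  exact IsScalarTower.of_algebraMap_eq (fun x => rfl)

theorem ia_compat {a b : ia_Lev T} (h : a ≤ b) (σ : GQ) :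
    letI := ia_algebra h
    id_Compat a.L b.L (a.q σ) (b.q σ) := by
  letI := ia_algebra h
  intro x
  apply Subtype.ext
  rw [ia_Lev.q_coe]
  change σ ((x : a.L) : Qbar) = ((a.q σ x : a.L) : Qbar)
  rw [ia_Lev.q_coe]

/-- Compatibility with the restriction map. -/
theorem ia_compat_res {a b : ia_Lev T} (h : a ≤ b) (g : b.Γ) :
    letI := ia_algebra h
    id_Compat a.L b.L (ia_Lev.res h g) g := by
  obtain ⟨σ, rfl⟩ := b.q_surjective g
  rw [ia_Lev.res_q]
  exact ia_compat h σ

theorem ia_isGal {a b : ia_Lev T} (h : a ≤ b) :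
    letI := ia_algebra h
    id_IsGal a.L b.L (b.rel a) := by
  letI := ia_algebra h
  haveI := id_qbarIsGalois
  constructor
  · rintro _ ⟨τ, hτ, rfl⟩ x
    apply Subtype.ext
    rw [ia_Lev.q_coe]
    exact hτ ⟨(x : Qbar), x.2⟩
  · intro y hy
    have h1 : (y : Qbar) ∈ IntermediateField.fixedField a.L.fixingSubgroup := by
      rw [IntermediateField.mem_fixedField_iff]
      intro τ hτ
      have h2 := hy (b.q τ) ⟨τ, hτ, rfl⟩
      have h3 := congrArg (fun z : b.L => (z : Qbar)) h2
      simp only [ia_Lev.q_coe] at h3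
      exact h3
    rw [InfiniteGalois.fixedField_fixingSubgroup] at h1
    exact ⟨⟨(y : Qbar), h1⟩, Subtype.ext rfl⟩

/-- Field levels are unramified over each other outside `T` (ideal-theoretic form). -/
theorem ia_unram {a b : ia_Lev T} (h : a ≤ b) :
    letI := ia_algebra h
    ∀ w : id_P T b.L, id_e a.L b.L w.1 = 1 := by
  letI := ia_algebra h
  intro w
  obtain ⟨ℓ, hℓ, hmem⟩ := pl_exists_prime_mem b.L w.1
  exact iu_e_eq_one a.L b.L w.1 ℓ (iu_valuation_prime T b.L b.unr w.1 w.2 ℓ hℓ hmem)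

end Fermat.Agent.S55
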