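import Mathlib

/-!
# S55 / block [G0]: the semilocal "Galois algebra" `F ⊗[k] L`

For fields `k ⊆ L` and a field `F ⊇ k`, the group `L ≃ₐ[k] L` acts on the `F`-algebra `F ⊗[k] L`
through the right factor (`ga_act`, instance `ga_mulSemiringAction`), commuting with the
`F`-structure.  Galois descent: if `L/k` is finite Galois, the invariants are `F`
(`ga_exists_of_fixed`).

This is used with `k = ℚ`, `L` a number field and `F = ℚ_[q]`: `ℚ_[q] ⊗[ℚ] L` is the product of
the completions of `L` at the primes above `q`, with its Galois action.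
-/

set_option autoImplicit false

open scoped TensorProduct

namespace Fermat.Agent.S55

section GaloisAlgebra

variable {k : Type*} {L : Type*} (F : Type*) [Field k] [Field L] [Field F] [Algebra k L]
  [Algebra k F]

/-- The action of an automorphism of `L/k` on the algebra `F ⊗[k] L` (through the right
factor), as an `F`-algebra automorphism. -/
noncomputable def ga_act (σ : L ≃ₐ[k] L) : (F ⊗[k] L) ≃ₐ[F] (F ⊗[k] L) :=
  Algebra.TensorProduct.congr AlgEquiv.refl σ

@[simp]
theorem ga_act_tmul (σ : L ≃ₐ[k] L) (a : F) (x : L) : ga_act F σ (a ⊗ₜ[k] x) = a ⊗ₜ[k] σ x := by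
  simp [ga_act]

theorem ga_act_one : ga_act F (1 : L ≃ₐ[k] L) = AlgEquiv.refl := by
  apply AlgEquiv.ext
  intro z
  induction z using TensorProduct.induction_on with
  | zero => simp
  | tmul a x => simp
  | add a b ha hb => simp [ha, hb]

theorem ga_act_mul (σ τ : L ≃ₐ[k] L) : ga_act F (σ * τ) = (ga_act F τ).trans (ga_act F σ) := by
  apply AlgEquiv.ext
  intro z
  induction z using TensorProduct.induction_on with
  | zero => simp
  | tmul a x => simp
  | add a b ha hb => simp [ha, hb]

/-- `L ≃ₐ[k] L` acts on `F ⊗[k] L` by ring automorphisms. -/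
noncomputable instance ga_mulSemiringAction : MulSemiringAction (L ≃ₐ[k] L) (F ⊗[k] L) where
  smul σ z := ga_act F σ z
  one_smul z := by change ga_act F 1 z = z; rw [ga_act_one]; rfl
  mul_smul σ τ z := by change ga_act F (σ * τ) z = _; rw [ga_act_mul]; rfl
  smul_zero σ := map_zero (ga_act F σ)
  smul_add σ := map_add (ga_act F σ)
  smul_one σ := map_one (ga_act F σ)
  smul_mul σ := map_mul (ga_act F σ)

theorem ga_smul_def (σ : L ≃ₐ[k] L) (z : F ⊗[k] L) : σ • z = ga_act F σ z := rfl

@[simp]
theorem ga_smul_tmul (σ : L ≃ₐ[k] L) (a : F) (x : L) : σ • (a ⊗ₜ[k] x) = a ⊗ₜ[k] σ x :=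
  ga_act_tmul F σ a x

instance ga_smulCommClass : SMulCommClass (L ≃ₐ[k] L) F (F ⊗[k] L) where
  smul_comm σ a z := by
    rw [ga_smul_def, ga_smul_def, map_smul]

/-- The induced action on the unit group. -/
noncomputable instance ga_unitsAction : MulDistribMulAction (L ≃ₐ[k] L) (F ⊗[k] L)ˣ :=
  Units.mulDistribMulActionRight

@[simp]
theorem ga_coe_smul_units (σ : L ≃ₐ[k] L) (u : (F ⊗[k] L)ˣ) :
    ((σ • u : (F ⊗[k] L)ˣ) : F ⊗[k] L) = σ • (u : F ⊗[k] L) := rfl

theorem ga_smul_algebraMap (σ : L ≃ₐ[k] L) (a : F) :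
    σ • (algebraMap F (F ⊗[k] L) a) = algebraMap F (F ⊗[k] L) a := by
  rw [ga_smul_def, AlgEquiv.commutes]

theorem ga_smul_includeRight (σ : L ≃ₐ[k] L) (x : L) :
    σ • (Algebra.TensorProduct.includeRight (R := k) (A := F) (B := L) x) =
      Algebra.TensorProduct.includeRight (R := k) (A := F) (B := L) (σ x) := by
  simp [Algebra.TensorProduct.includeRight_apply]

open Classical in
theorem ga_coord_act (σ : L ≃ₐ[k] L) (z : F ⊗[k] L) (i : Module.Basis.ofVectorSpaceIndex k F) :
    TensorProduct.equivFinsuppOfBasisLeft (Module.Basis.ofVectorSpace k F) (ga_act F σ z) i =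
      σ (TensorProduct.equivFinsuppOfBasisLeft (Module.Basis.ofVectorSpace k F) z i) := by
  induction z using TensorProduct.induction_on with
  | zero => simp
  | tmul a x =>
    rw [ga_act_tmul]
    simp [TensorProduct.equivFinsuppOfBasisLeft_apply_tmul]
  | add a b ha hb => simp [ha, hb]

open Classical in
/-- Galois descent: the invariants of `F ⊗[k] L` under `Gal(L/k)` are `F`. -/
theorem ga_exists_of_fixed [FiniteDimensional k L] [IsGalois k L] (z : F ⊗[k] L)
    (hz : ∀ σ : L ≃ₐ[k] L, ga_act F σ z = z) : ∃ a : F, algebraMap F (F ⊗[k] L) a = z := by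
  set b := Module.Basis.ofVectorSpace k F with hb
  set e := TensorProduct.equivFinsuppOfBasisLeft (N := L) b with he
  have hc : ∀ i, ∃ c : k, algebraMap k L c = e z i := by
    intro i
    have h1 : ∀ σ : L ≃ₐ[k] L, σ (e z i) = e z i := by
      intro σ
      rw [he, hb, ← ga_coord_act, hz σ]
    have h2 := (IsGalois.mem_bot_iff_fixed (F := k) (E := L) (e z i)).2 h1
    rw [IntermediateField.mem_bot] at h2
    obtain ⟨c, hc⟩ := h2
    exact ⟨c, hc⟩
  choose c hc using hc
  refine ⟨∑ i ∈ (e z).support, c i • b i, ?_⟩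
  apply e.injective
  rw [map_sum]
  ext j
  simp only [Algebra.TensorProduct.algebraMap_apply, Algebra.algebraMap_self, RingHom.id_apply]
  rw [map_sum]
  simp only [he, TensorProduct.equivFinsuppOfBasisLeft_apply_tmul]
  have h3 : ∀ x, Finsupp.mapRange (fun y : k => y • (1 : L)) (by simp) (b.repr (c x • b x)) =
      Finsupp.single x (e z x) := by
    intro x
    rw [map_smul, Module.Basis.repr_self, Finsupp.smul_single, smul_eq_mul, mul_one,
      Finsupp.mapRange_single, ← Algebra.algebraMap_eq_smul_one, hc]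
  simp only [h3]
  rw [← he, Finsupp.finsetSum_apply]
  simp only [Finsupp.single_apply]
  rw [Finset.sum_ite_eq']
  split_ifs with h
  · rfl
  · rw [Finsupp.notMem_support_iff] at h
    exact h.symm

/-- Galois descent, in terms of the action. -/
theorem ga_exists_of_smul_eq [FiniteDimensional k L] [IsGalois k L] (z : F ⊗[k] L)
    (hz : ∀ σ : L ≃ₐ[k] L, σ • z = z) : ∃ a : F, algebraMap F (F ⊗[k] L) a = z :=
  ga_exists_of_fixed F z hz

end GaloisAlgebra

end Fermat.Agent.S55
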