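import Mathlib
import Fermat.Agent.S55.Idele.GaloisAlgebra
import Fermat.Agent.S55.Idele.Primes

/-!
# S55 / block [G0]: `S`-ideles and the `S`-idele class group as Galois modules (DEFINITIONS)

`K` is a number field (any `Type u` with `[Field K] [NumberField K]`; e.g. an intermediate field
of `AlgebraicClosure ℚ / ℚ`, or a fixed field), `S : Finset Nat.Primes`, and `Γ := K ≃ₐ[ℚ] K`
(a finite group; `= Gal(K/ℚ)` when `K/ℚ` is normal).  All objects are multiplicative commutative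
groups with a `MulDistribMulAction Γ`, and come with `Rep ℤ Γ` wrappers
(`Rep.ofMulDistribMulAction`, carrier `Additive _`).

* `id_A K q := ℚ_[q] ⊗[ℚ] K` (`= ∏_{v ∣ q} K_v`), `Γ` acting through the right factor.
* `id_JS S K := ∀ q : S, (id_A K q)ˣ` (`= ∏_{v ∣ S} K_vˣ`).
* `id_I S K` (file `Primes`): fractional ideals prime to `S` (`= ⨁_{v ∤ S} ℤ`).
* `id_J S K := id_JS S K × id_I S K` (`= J_K / ∏_{v ∤ S} U_v`, the `S`-ideles modulo units
  outside `S`; NO archimedean components: they are cohomologically invisible on `p`-parts for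
  totally complex `K` and odd `p`).
* `id_diag S K : Kˣ →* id_J S K` (injective as soon as `S ≠ ∅`), `id_princ S K` its range.
* `id_C S K := id_J S K ⧸ id_princ S K` (`= C_K / ∏_{v ∤ S} U_v =: C_S(K)`).
* `id_jq S K q : (id_A K q)ˣ →* id_C S K` for `q : S`;  `id_jS S K : id_JS S K →* id_C S K`;
  `id_CSo S K` its range (`C_S°`, of finite index, cokernel `Cl_S(K)`); `id_ES S K` the `S`-units
  (`= ker (id_div S K)`).
* `Rep` wrappers `id_ARep K q`, `id_JSRep S K`, `id_IRep S K`, `id_JRep S K`, `id_CRep S K`,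
  `id_KRep K` and the morphisms `id_diagRep`, `id_toCRep`, `id_jqRep`.
-/

set_option autoImplicit false

open scoped TensorProduct NumberField nonZeroDivisors Pointwise
open IsDedekindDomain CategoryTheory

noncomputable section

namespace Fermat.Agent.S55

universe u v

/-- Rational primes as elements of `Nat.Primes` give `Fact`s (needed for `ℚ_[q]`). -/
instance id_factPrime (q : Nat.Primes) : Fact (q : ℕ).Prime := ⟨q.2⟩

/-! ### Generic: action on a quotient by a stable subgroup, `Rep` morphisms -/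

section generic

variable {G : Type v} [Group G] {M M' : Type u} [CommGroup M] [CommGroup M']
  [MulDistribMulAction G M] [MulDistribMulAction G M'] {N : Subgroup M}

/-- The endomorphism of `M ⧸ N` induced by `g`, for a `G`-stable subgroup `N`. -/
def id_quotSmul (hN : ∀ (g : G) (x : M), x ∈ N → g • x ∈ N) (g : G) : M ⧸ N →* M ⧸ N :=
  QuotientGroup.map N N (MulDistribMulAction.toMonoidHom M g) (fun x hx => hN g x hx)

theorem id_quotSmul_mk (hN : ∀ (g : G) (x : M), x ∈ N → g • x ∈ N) (g : G) (x : M) :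
    id_quotSmul hN g (x : M ⧸ N) = ((g • x : M) : M ⧸ N) := rfl

/-- The induced action on the quotient by a stable subgroup (turned into instances for the
concrete quotients below). -/
@[reducible] def id_quotAction (hN : ∀ (g : G) (x : M), x ∈ N → g • x ∈ N) :
    MulDistribMulAction G (M ⧸ N) where
  smul g := id_quotSmul hN g
  one_smul x := by
    induction x using QuotientGroup.induction_on with
    | H x =>
      change id_quotSmul hN 1 (x : M ⧸ N) = _
      rw [id_quotSmul_mk, one_smul]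
  mul_smul g h x := by
    induction x using QuotientGroup.induction_on with
    | H x =>
      change id_quotSmul hN (g * h) (x : M ⧸ N) = id_quotSmul hN g (id_quotSmul hN h (x : M ⧸ N))
      rw [id_quotSmul_mk, id_quotSmul_mk, id_quotSmul_mk, mul_smul]
  smul_mul g x y := map_mul (id_quotSmul hN g) x y
  smul_one g := map_one (id_quotSmul hN g)

/-- An equivariant homomorphism of multiplicative `G`-modules as a morphism of `Rep ℤ G`. -/
def id_repHom (f : M →* M') (hf : ∀ (g : G) (x : M), f (g • x) = g • f x) :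
    Rep.ofMulDistribMulAction G M ⟶ Rep.ofMulDistribMulAction G M' :=
  Rep.ofHom (LinearMap.intertwiningMap_of_isIntertwiningMap
    (ρ := Representation.ofMulDistribMulAction G M) (σ := Representation.ofMulDistribMulAction G M')
    (f := (MonoidHom.toAdditive f).toIntLinearMap) (fun g x => by
      change Additive.ofMul (f (g • x.toMul)) = Additive.ofMul (g • f x.toMul)
      rw [hf]))

theorem id_repHom_apply (f : M →* M') (hf : ∀ (g : G) (x : M), f (g • x) = g • f x) (x : M) :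
    (id_repHom f hf).hom (Additive.ofMul x) = Additive.ofMul (f x) := rfl

end generic

variable (S : Finset Nat.Primes) (K : Type u) [Field K] [NumberField K]

/-! ### The semilocal algebras `ℚ_[q] ⊗[ℚ] K` -/

/-- The semilocal `ℚ_[q]`-algebra `ℚ_[q] ⊗[ℚ] K = ∏_{v ∣ q} K_v`, with `K ≃ₐ[ℚ] K` acting through
the right factor (instance `ga_mulSemiringAction`; on units `ga_unitsAction`). -/
abbrev id_A (q : Nat.Primes) : Type u := ℚ_[(q : ℕ)] ⊗[ℚ] K

/-- The diagonal embedding `K →ₐ[ℚ] ℚ_[q] ⊗[ℚ] K`. -/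
def id_incl (q : Nat.Primes) : K →ₐ[ℚ] id_A K q := Algebra.TensorProduct.includeRight

theorem id_incl_apply (q : Nat.Primes) (x : K) : id_incl K q x = 1 ⊗ₜ[ℚ] x := rfl

theorem id_incl_injective (q : Nat.Primes) : Function.Injective (id_incl K q) :=
  (id_incl K q).toRingHom.injective

theorem id_smul_incl (q : Nat.Primes) (σ : K ≃ₐ[ℚ] K) (x : K) :
    σ • id_incl K q x = id_incl K q (σ x) := by
  rw [id_incl_apply, id_incl_apply, ga_smul_tmul]

/-- The diagonal embedding on units. -/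
def id_inclU (q : Nat.Primes) : Kˣ →* (id_A K q)ˣ := Units.map (id_incl K q).toMonoidHom

@[simp]
theorem id_inclU_coe (q : Nat.Primes) (x : Kˣ) :
    ((id_inclU K q x : (id_A K q)ˣ) : id_A K q) = id_incl K q (x : K) := rfl

theorem id_smul_inclU (q : Nat.Primes) (σ : K ≃ₐ[ℚ] K) (x : Kˣ) :
    σ • id_inclU K q x = id_inclU K q (σ • x) := by
  apply Units.ext
  rw [ga_coe_smul_units, id_inclU_coe, id_inclU_coe, id_smul_incl]
  rfl

theorem id_inclU_injective (q : Nat.Primes) : Function.Injective (id_inclU K q) := by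
  intro x y h
  apply Units.ext
  apply id_incl_injective K q
  have := congrArg (fun u : (id_A K q)ˣ => (u : id_A K q)) h
  simpa using this

/-! ### `S`-ideles and the `S`-idele class group -/

/-- The `S`-adic part of the `S`-ideles: `∏_{q ∈ S} (ℚ_[q] ⊗[ℚ] K)ˣ = ∏_{v ∣ S} K_vˣ`. -/
abbrev id_JS : Type u := ∀ q : S, (id_A K q.1)ˣ

/-- The group of `S`-ideles modulo units outside `S`:
`J_S(K) = ∏_{v ∣ S} K_vˣ × I^S(K)` (`= J_K / ∏_{v ∤ S} U_v`). -/
abbrev id_J : Type u := id_JS S K × id_I S K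

/-- The diagonal embedding `Kˣ →* ∏_{q ∈ S} (ℚ_[q] ⊗ K)ˣ`. -/
def id_diagS : Kˣ →* id_JS S K := MonoidHom.pi fun q : S => id_inclU K q.1

@[simp]
theorem id_diagS_apply (x : Kˣ) (q : S) : id_diagS S K x q = id_inclU K q.1 x := rfl

/-- The diagonal embedding `Kˣ →* J_S(K)`: `x ↦ ((x ⊗ 1)_q, prime-to-S part of (x))`. -/
def id_diag : Kˣ →* id_J S K := (id_diagS S K).prod (id_div S K)

@[simp]
theorem id_diag_fst (x : Kˣ) : (id_diag S K x).1 = id_diagS S K x := rfl

@[simp]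
theorem id_diag_snd (x : Kˣ) : (id_diag S K x).2 = id_div S K x := rfl

theorem id_smul_diag (σ : K ≃ₐ[ℚ] K) (x : Kˣ) : σ • id_diag S K x = id_diag S K (σ • x) := by
  apply Prod.ext
  · funext q
    exact id_smul_inclU K q.1 σ x
  · exact id_smul_div S K σ x

theorem id_diag_injective (hS : S.Nonempty) : Function.Injective (id_diag S K) := by
  obtain ⟨q, hq⟩ := hS
  intro x y h
  apply id_inclU_injective K q
  have h1 := congrArg (fun z : id_J S K => z.1 ⟨q, hq⟩) h
  simpa using h1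

/-- The principal `S`-ideles. -/
def id_princ : Subgroup (id_J S K) := (id_diag S K).range

theorem id_princ_stable (σ : K ≃ₐ[ℚ] K) (z : id_J S K) (hz : z ∈ id_princ S K) :
    σ • z ∈ id_princ S K := by
  obtain ⟨x, rfl⟩ := hz
  exact ⟨σ • x, (id_smul_diag S K σ x).symm⟩

/-- The `S`-idele class group `C_S(K) = J_S(K) / Kˣ` (`= C_K / ∏_{v ∤ S} U_v`). -/
abbrev id_C : Type u := id_J S K ⧸ id_princ S K

instance id_CAction : MulDistribMulAction (K ≃ₐ[ℚ] K) (id_C S K) :=
  id_quotAction (id_princ_stable S K)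

/-- The projection `J_S(K) →* C_S(K)`. -/
def id_toC : id_J S K →* id_C S K := QuotientGroup.mk' (id_princ S K)

theorem id_toC_surjective : Function.Surjective (id_toC S K) := QuotientGroup.mk'_surjective _

theorem id_smul_toC (σ : K ≃ₐ[ℚ] K) (z : id_J S K) : σ • id_toC S K z = id_toC S K (σ • z) := rfl

theorem id_toC_eq_one_iff (z : id_J S K) : id_toC S K z = 1 ↔ ∃ x : Kˣ, id_diag S K x = z := by
  rw [id_toC, QuotientGroup.mk'_apply, QuotientGroup.eq_one_iff]
  rfl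

theorem id_toC_diag (x : Kˣ) : id_toC S K (id_diag S K x) = 1 :=
  (id_toC_eq_one_iff S K _).2 ⟨x, rfl⟩

/-- The `S`-adic ideles inside `J_S(K)`. -/
def id_inS : id_JS S K →* id_J S K := MonoidHom.inl _ _

/-- The ideals prime to `S` inside `J_S(K)`. -/
def id_inI : id_I S K →* id_J S K := MonoidHom.inr _ _

theorem id_smul_inS (σ : K ≃ₐ[ℚ] K) (a : id_JS S K) : σ • id_inS S K a = id_inS S K (σ • a) := by
  apply Prod.ext
  · rfl
  · exact smul_one σ

theorem id_smul_inI (σ : K ≃ₐ[ℚ] K) (D : id_I S K) : σ • id_inI S K D = id_inI S K (σ • D) := by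
  apply Prod.ext
  · exact smul_one σ
  · rfl

open Classical in
/-- The component at `q ∈ S` inside `∏_{q ∈ S}`. -/
def id_inq (q : S) : (id_A K q.1)ˣ →* id_JS S K := MonoidHom.mulSingle (fun q : S => (id_A K q.1)ˣ) q

open Classical in
theorem id_smul_inq (q : S) (σ : K ≃ₐ[ℚ] K) (a : (id_A K q.1)ˣ) :
    σ • id_inq S K q a = id_inq S K q (σ • a) := by
  funext r
  by_cases h : r = q
  · subst h
    simp [id_inq]
  · simp [id_inq, Pi.mulSingle_eq_of_ne h]

/-- `j_S : ∏_{v ∣ S} K_vˣ →* C_S(K)`. -/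
def id_jS : id_JS S K →* id_C S K := (id_toC S K).comp (id_inS S K)

/-- `j_q : (ℚ_[q] ⊗ K)ˣ →* C_S(K)` for `q ∈ S`. -/
def id_jq (q : S) : (id_A K q.1)ˣ →* id_C S K := (id_jS S K).comp (id_inq S K q)

theorem id_smul_jS (σ : K ≃ₐ[ℚ] K) (a : id_JS S K) : σ • id_jS S K a = id_jS S K (σ • a) := by
  change σ • id_toC S K (id_inS S K a) = id_toC S K (id_inS S K (σ • a))
  rw [id_smul_toC, id_smul_inS]

theorem id_smul_jq (q : S) (σ : K ≃ₐ[ℚ] K) (a : (id_A K q.1)ˣ) :
    σ • id_jq S K q a = id_jq S K q (σ • a) := by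
  change σ • id_jS S K (id_inq S K q a) = id_jS S K (id_inq S K q (σ • a))
  rw [id_smul_jS, id_smul_inq]

/-- `C_S°(K)`: the image of the `S`-adic ideles in `C_S(K)`; `C_S(K) / C_S°(K) = Cl_S(K)`. -/
def id_CSo : Subgroup (id_C S K) := (id_jS S K).range

/-- The `S`-units of `K`: elements whose divisor is supported on `S`
(`= ker (Kˣ → ∏_{v ∣ S} K_vˣ → C_S(K))`). -/
def id_ES : Subgroup Kˣ := (id_div S K).ker

theorem id_mem_ES_iff (x : Kˣ) :
    x ∈ id_ES S K ↔ ∀ v : HeightOneSpectrum (𝓞 K), id_PrimeToS S K v → v.valuation K (x : K) = 1 := by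
  rw [id_ES, MonoidHom.mem_ker]
  constructor
  · intro h v hv
    rw [← id_ordZ_eq_zero_iff]
    have h1 : (id_div S K x).toAdd ⟨v, hv⟩ = (1 : id_I S K).toAdd ⟨v, hv⟩ := by rw [h]
    exact h1
  · intro h
    apply Multiplicative.toAdd.injective
    ext v
    have h1 : id_ordZ K v.1 x = 0 := (id_ordZ_eq_zero_iff K v.1 x).2 (h v.1 v.2)
    exact h1

/-- The `S`-ideal class group `Cl_S(K) = I^S(K) / (principal divisors)`. -/
abbrev id_ClS : Type u := id_I S K ⧸ (id_div S K).range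

/-! ### `Rep ℤ (K ≃ₐ[ℚ] K)` wrappers -/

/-- `Kˣ` as a `Rep` (`= Rep.ofAlgebraAutOnUnits ℚ K`). -/
abbrev id_KRep : Rep.{u} ℤ (K ≃ₐ[ℚ] K) := Rep.ofAlgebraAutOnUnits ℚ K

/-- `(ℚ_[q] ⊗ K)ˣ` as a `Rep`. -/
abbrev id_ARep (q : Nat.Primes) : Rep.{u} ℤ (K ≃ₐ[ℚ] K) :=
  Rep.ofMulDistribMulAction (K ≃ₐ[ℚ] K) (id_A K q)ˣ

/-- `∏_{q ∈ S} (ℚ_[q] ⊗ K)ˣ` as a `Rep`. -/
abbrev id_JSRep : Rep.{u} ℤ (K ≃ₐ[ℚ] K) := Rep.ofMulDistribMulAction (K ≃ₐ[ℚ] K) (id_JS S K)

/-- The ideals prime to `S` as a `Rep`. -/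
abbrev id_IRep : Rep.{u} ℤ (K ≃ₐ[ℚ] K) := Rep.ofMulDistribMulAction (K ≃ₐ[ℚ] K) (id_I S K)

/-- `J_S(K)` as a `Rep`. -/
abbrev id_JRep : Rep.{u} ℤ (K ≃ₐ[ℚ] K) := Rep.ofMulDistribMulAction (K ≃ₐ[ℚ] K) (id_J S K)

/-- `C_S(K)` as a `Rep`. -/
abbrev id_CRep : Rep.{u} ℤ (K ≃ₐ[ℚ] K) := Rep.ofMulDistribMulAction (K ≃ₐ[ℚ] K) (id_C S K)

/-- `Kˣ ⟶ J_S(K)`. -/
def id_diagRep : id_KRep K ⟶ id_JRep S K :=
  id_repHom (id_diag S K) (fun σ x => (id_smul_diag S K σ x).symm)

/-- `J_S(K) ⟶ C_S(K)`. -/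
def id_toCRep : id_JRep S K ⟶ id_CRep S K := id_repHom (id_toC S K) (fun _ _ => rfl)

/-- `∏_{q ∈ S} (ℚ_[q] ⊗ K)ˣ ⟶ C_S(K)`. -/
def id_jSRep : id_JSRep S K ⟶ id_CRep S K :=
  id_repHom (id_jS S K) (fun σ a => (id_smul_jS S K σ a).symm)

/-- `j_q : (ℚ_[q] ⊗ K)ˣ ⟶ C_S(K)` for `q ∈ S`. -/
def id_jqRep (q : S) : id_ARep K q.1 ⟶ id_CRep S K :=
  id_repHom (id_jq S K q) (fun σ a => (id_smul_jq S K q σ a).symm)

end Fermat.Agent.S55
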