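import Mathlib
import Fermat.Agent.S55.Idele.Defs
import Fermat.Agent.S55.SecondIneq.PthPower
import Fermat.Agent.S55.SecondIneq.WeakApprox

/-!
# S55 / block [G0]: the integral structure of the semilocal algebras `ℚ_[q] ⊗[ℚ] K`

For a number field `K` and a rational prime `q` the order
`id_O K q ⊆ id_A K q = ℚ_[q] ⊗[ℚ] K` is the `ℤ_[q]`-subalgebra generated by `1 ⊗ 𝓞 K`
(`= ℤ_[q] ⊗[ℤ] 𝓞 K = ∏_{v ∣ q} 𝓞_v`).  In coordinates with respect to the basis `1 ⊗ b i`
(`b` the integral basis of `K`) it consists of the elements with coordinates in `ℤ_[q]`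
(`io_mem_iff`).  It is a finite free `ℤ_[q]`-module, hence `q`-adically complete.

* `id_O K q`, `id_Olvl K q k = q ^ k • id_O K q`, `id_U K q k = 1 + q ^ k • id_O K q` (units).
* `io_exists_pow_mul_mem`: `id_A K q = id_O K q [1/q]`.
* `io_complete`, `io_separated`: `q`-adic completeness in sequence form.
* `io_U_le_pow_of_ne`, `io_U_le_pow_self`: principal units are `p`-th powers.
* `io_weakApprox`, `io_weakApprox_units`: weak approximation in the tensor model.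

Owner: helper28.  Prefix `io_` (main objects `id_O`, `id_Olvl`, `id_U`).
-/

set_option autoImplicit false

open scoped TensorProduct NumberField

noncomputable section

namespace Fermat.Agent.S55

universe u

/-! ### Lattices spanned by a basis over `ℚ_[p]` -/

section lattice

variable {p : ℕ} [Fact p.Prime] {ι : Type*} [Fintype ι] {M : Type*} [AddCommGroup M]
  [Module ℚ_[p] M] [Module ℤ_[p] M] [IsScalarTower ℤ_[p] ℚ_[p] M]

theorem io_padicInt_smul (c : ℤ_[p]) (a : M) : c • a = (c : ℚ_[p]) • a :=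
  (algebraMap_smul ℚ_[p] c a).symm

/-- The `ℤ_[p]`-span of a `ℚ_[p]`-basis consists of the vectors with integral coordinates. -/
theorem io_mem_span_iff (B : Module.Basis ι ℚ_[p] M) (a : M) :
    a ∈ Submodule.span ℤ_[p] (Set.range B) ↔ ∀ i, ‖B.repr a i‖ ≤ 1 := by
  classical
  constructor
  · intro ha
    induction ha using Submodule.span_induction with
    | mem x hx =>
      obtain ⟨j, rfl⟩ := hx
      intro i
      rw [Module.Basis.repr_self, Finsupp.single_apply]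
      split_ifs <;> simp
    | zero => intro i; simp
    | add x y _ _ hx hy =>
      intro i
      rw [map_add, Finsupp.add_apply]
      exact (Padic.nonarchimedean _ _).trans (max_le (hx i) (hy i))
    | smul c x _ hx =>
      intro i
      rw [io_padicInt_smul, map_smul, Finsupp.smul_apply, smul_eq_mul, norm_mul]
      exact mul_le_one₀ (PadicInt.norm_le_one c) (norm_nonneg _) (hx i)
  · intro h
    let c : ι → ℤ_[p] := fun i => ⟨B.repr a i, h i⟩
    have : a = ∑ i, c i • B i := by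
      conv_lhs => rw [← B.sum_repr a]
      refine Finset.sum_congr rfl fun i _ => ?_
      rw [io_padicInt_smul]
    rw [this]
    exact Submodule.sum_mem _ fun i _ =>
      Submodule.smul_mem _ _ (Submodule.subset_span ⟨i, rfl⟩)

end lattice

variable (K : Type u) [Field K] [NumberField K] (q : Nat.Primes)

/-! ### The basis `1 ⊗ b i` and the order `id_O` -/

/-- The `ℚ_[q]`-basis `1 ⊗ b i` of `ℚ_[q] ⊗[ℚ] K`, `b` the integral basis of `K`. -/
def io_basis : Module.Basis (Module.Free.ChooseBasisIndex ℤ (𝓞 K)) ℚ_[(q : ℕ)] (id_A K q) :=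
  Algebra.TensorProduct.basis ℚ_[(q : ℕ)] (NumberField.integralBasis K)

theorem io_basis_apply (i : Module.Free.ChooseBasisIndex ℤ (𝓞 K)) :
    io_basis K q i = id_incl K q ((NumberField.RingOfIntegers.basis K i : 𝓞 K) : K) := by
  rw [io_basis, Algebra.TensorProduct.basis_apply, NumberField.integralBasis_apply, id_incl_apply]

/-- Coordinates of `c ⊗ x`, `x ∈ 𝓞 K`. -/
theorem io_repr_tmul (c : ℚ_[(q : ℕ)]) (x : 𝓞 K) (i : Module.Free.ChooseBasisIndex ℤ (𝓞 K)) :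
    (io_basis K q).repr (c ⊗ₜ[ℚ] (x : K)) i
      = c * (((NumberField.RingOfIntegers.basis K).repr x i : ℤ) : ℚ_[(q : ℕ)]) := by
  rw [io_basis, Algebra.TensorProduct.basis_repr_tmul, Finsupp.smul_apply, Finsupp.mapRange_apply,
    NumberField.integralBasis_repr_apply, smul_eq_mul]
  simp

/-- The order `ℤ_[q] ⊗ 𝓞 K` of `ℚ_[q] ⊗[ℚ] K`: the `ℤ_[q]`-subalgebra generated by `1 ⊗ 𝓞 K`. -/
def id_O : Subalgebra ℤ_[(q : ℕ)] (id_A K q) :=
  Algebra.adjoin ℤ_[(q : ℕ)] (Set.range fun x : 𝓞 K => id_incl K q (x : K))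

theorem io_incl_mem (x : 𝓞 K) : id_incl K q (x : K) ∈ id_O K q :=
  Algebra.subset_adjoin ⟨x, rfl⟩

theorem io_algebraMap_padicInt (c : ℤ_[(q : ℕ)]) :
    algebraMap ℤ_[(q : ℕ)] (id_A K q) c = (c : ℚ_[(q : ℕ)]) ⊗ₜ[ℚ] (1 : K) := by
  rw [Algebra.TensorProduct.algebraMap_apply]
  rfl

theorem io_padicInt_mem (c : ℤ_[(q : ℕ)]) : (c : ℚ_[(q : ℕ)]) ⊗ₜ[ℚ] (1 : K) ∈ id_O K q := by
  rw [← io_algebraMap_padicInt]
  exact (id_O K q).algebraMap_mem c

/-- `id_O` is the `ℤ_[q]`-span of the basis `1 ⊗ b i`. -/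
theorem io_toSubmodule :
    Subalgebra.toSubmodule (id_O K q) = Submodule.span ℤ_[(q : ℕ)] (Set.range (io_basis K q)) := by
  classical
  rw [id_O, Algebra.adjoin_eq_span]
  have hcl : (Submonoid.closure (Set.range fun x : 𝓞 K => id_incl K q (x : K)) : Set (id_A K q))
      = Set.range fun x : 𝓞 K => id_incl K q (x : K) := by
    have : (Set.range fun x : 𝓞 K => id_incl K q (x : K))
        = ((MonoidHom.mrange (((id_incl K q : K →+* id_A K q).comp
            (algebraMap (𝓞 K) K) : 𝓞 K →+* id_A K q) : 𝓞 K →* id_A K q) :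
              Submonoid (id_A K q)) : Set (id_A K q)) := by
      ext a
      simp
    rw [this, Submonoid.closure_eq]
  rw [hcl]
  apply le_antisymm
  · rw [Submodule.span_le]
    rintro _ ⟨x, rfl⟩
    rw [SetLike.mem_coe, io_mem_span_iff]
    intro i
    beta_reduce
    rw [id_incl_apply, io_repr_tmul, one_mul]
    exact Padic.norm_int_le_one _
  · apply Submodule.span_mono
    rintro _ ⟨i, rfl⟩
    exact ⟨NumberField.RingOfIntegers.basis K i, (io_basis_apply K q i).symm⟩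

/-- **Coordinates**: `a ∈ id_O K q` iff all coordinates of `a` in the basis `1 ⊗ b i` are
`q`-adic integers. -/
theorem io_mem_iff (a : id_A K q) :
    a ∈ id_O K q ↔ ∀ i, ‖(io_basis K q).repr a i‖ ≤ 1 := by
  rw [← Subalgebra.mem_toSubmodule, io_toSubmodule, io_mem_span_iff]

theorem io_one_mem : (1 : id_A K q) ∈ id_O K q := (id_O K q).one_mem

/-- Coordinates of `1 ⊗ z`, `z ∈ K`. -/
theorem io_repr_incl (z : K) (i : Module.Free.ChooseBasisIndex ℤ (𝓞 K)) :
    (io_basis K q).repr (id_incl K q z) i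
      = (((NumberField.integralBasis K).repr z i : ℚ) : ℚ_[(q : ℕ)]) := by
  rw [id_incl_apply, io_basis, Algebra.TensorProduct.basis_repr_tmul, Finsupp.smul_apply,
    Finsupp.mapRange_apply, smul_eq_mul, one_mul]
  rfl

/-- The order is stable under the Galois action. -/
theorem io_smul_mem (σ : K ≃ₐ[ℚ] K) {a : id_A K q} (ha : a ∈ id_O K q) : σ • a ∈ id_O K q := by
  induction ha using Algebra.adjoin_induction with
  | mem x hx =>
    obtain ⟨y, rfl⟩ := hx
    beta_reduce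
    rw [id_smul_incl]
    exact io_incl_mem K q (σ • y)
  | algebraMap c =>
    rw [io_algebraMap_padicInt, ga_smul_tmul, map_one]
    exact io_padicInt_mem K q c
  | add x y _ _ hx hy => rw [smul_add]; exact (id_O K q).add_mem hx hy
  | mul x y _ _ hx hy => rw [smul_mul']; exact (id_O K q).mul_mem hx hy

/-! ### The levels `q ^ k • id_O` -/

theorem io_natCast_eq (n : ℕ) : ((n : ℕ) : id_A K q) = algebraMap ℚ_[(q : ℕ)] (id_A K q) (n : ℚ_[(q : ℕ)]) :=
  (map_natCast _ n).symm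

theorem io_repr_pow_mul (k : ℕ) (a : id_A K q) (i : Module.Free.ChooseBasisIndex ℤ (𝓞 K)) :
    (io_basis K q).repr (((q : ℕ) : id_A K q) ^ k * a) i
      = ((q : ℕ) : ℚ_[(q : ℕ)]) ^ k * (io_basis K q).repr a i := by
  rw [io_natCast_eq, ← map_pow, ← Algebra.smul_def, map_smul, Finsupp.smul_apply, smul_eq_mul]

/-- `q ^ k • id_O K q`, as a `ℤ_[q]`-submodule of `ℚ_[q] ⊗[ℚ] K`. -/
def id_Olvl (k : ℕ) : Submodule ℤ_[(q : ℕ)] (id_A K q) :=
  (Subalgebra.toSubmodule (id_O K q)).map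
    (LinearMap.mulLeft ℤ_[(q : ℕ)] (((q : ℕ) : id_A K q) ^ k))

theorem io_mem_lvl {k : ℕ} {a : id_A K q} :
    a ∈ id_Olvl K q k ↔ ∃ c ∈ id_O K q, ((q : ℕ) : id_A K q) ^ k * c = a := by
  rw [id_Olvl, Submodule.mem_map]
  rfl

theorem io_qpos : (0 : ℝ) < ((q : ℕ) : ℝ) := by exact_mod_cast q.2.pos

/-- **Coordinates**: `a ∈ q ^ k • id_O` iff all coordinates have norm `≤ q ^ (-k)`. -/
theorem io_mem_lvl_iff {k : ℕ} {a : id_A K q} :
    a ∈ id_Olvl K q k ↔ ∀ i, ‖(io_basis K q).repr a i‖ ≤ ((q : ℕ) : ℝ) ^ (-(k : ℤ)) := by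
  have hq0 : (((q : ℕ) : ℚ_[(q : ℕ)]) ^ k) ≠ 0 := pow_ne_zero _ (by exact_mod_cast q.2.ne_zero)
  have hnorm : ‖((q : ℕ) : ℚ_[(q : ℕ)]) ^ k‖ = ((q : ℕ) : ℝ) ^ (-(k : ℤ)) := Padic.norm_p_pow k
  have hpos : (0 : ℝ) < ((q : ℕ) : ℝ) ^ (-(k : ℤ)) := zpow_pos (io_qpos q) _
  rw [io_mem_lvl]
  constructor
  · rintro ⟨c, hc, rfl⟩ i
    rw [io_repr_pow_mul, norm_mul, hnorm]
    exact mul_le_of_le_one_right hpos.le ((io_mem_iff K q c).1 hc i)
  · intro h
    -- divide by `q ^ k`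
    refine ⟨algebraMap ℚ_[(q : ℕ)] (id_A K q) ((((q : ℕ) : ℚ_[(q : ℕ)]) ^ k)⁻¹) * a, ?_, ?_⟩
    · rw [io_mem_iff]
      intro i
      rw [← Algebra.smul_def, map_smul, Finsupp.smul_apply, smul_eq_mul, norm_mul, norm_inv, hnorm,
        inv_mul_le_iff₀ hpos, mul_one]
      exact h i
    · rw [io_natCast_eq, ← map_pow, ← mul_assoc, ← map_mul, mul_inv_cancel₀ hq0, map_one, one_mul]

theorem io_lvl_zero : id_Olvl K q 0 = Subalgebra.toSubmodule (id_O K q) := by
  ext a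
  rw [io_mem_lvl_iff, Subalgebra.mem_toSubmodule, io_mem_iff]
  simp

theorem io_lvl_antitone {k l : ℕ} (h : k ≤ l) : id_Olvl K q l ≤ id_Olvl K q k := by
  intro a ha
  rw [io_mem_lvl_iff] at ha ⊢
  intro i
  refine (ha i).trans ?_
  have h1 : (1 : ℝ) ≤ ((q : ℕ) : ℝ) := by exact_mod_cast q.2.one_lt.le
  exact zpow_le_zpow_right₀ h1 (by omega)

theorem io_lvl_le (k : ℕ) {a : id_A K q} (ha : a ∈ id_Olvl K q k) : a ∈ id_O K q := by
  have := io_lvl_antitone K q (Nat.zero_le k) ha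
  rwa [io_lvl_zero] at this

/-- The levels are ideals of the order. -/
theorem io_mul_mem_lvl {k : ℕ} {c a : id_A K q} (hc : c ∈ id_O K q) (ha : a ∈ id_Olvl K q k) :
    c * a ∈ id_Olvl K q k := by
  rw [io_mem_lvl] at ha ⊢
  obtain ⟨d, hd, rfl⟩ := ha
  exact ⟨c * d, (id_O K q).mul_mem hc hd, by ring⟩

theorem io_lvl_mul_lvl {k l : ℕ} {a b : id_A K q} (ha : a ∈ id_Olvl K q k)
    (hb : b ∈ id_Olvl K q l) : a * b ∈ id_Olvl K q (k + l) := by
  rw [io_mem_lvl] at ha hb ⊢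
  obtain ⟨c, hc, rfl⟩ := ha
  obtain ⟨d, hd, rfl⟩ := hb
  exact ⟨c * d, (id_O K q).mul_mem hc hd, by ring⟩

theorem io_smul_mem_lvl (σ : K ≃ₐ[ℚ] K) {k : ℕ} {a : id_A K q} (ha : a ∈ id_Olvl K q k) :
    σ • a ∈ id_Olvl K q k := by
  rw [io_mem_lvl] at ha ⊢
  obtain ⟨c, hc, rfl⟩ := ha
  refine ⟨σ • c, io_smul_mem K q σ hc, ?_⟩
  have h : σ • ((q : ℕ) : id_A K q) = ((q : ℕ) : id_A K q) :=
    map_natCast (MulSemiringAction.toRingHom (K ≃ₐ[ℚ] K) (id_A K q) σ) q
  rw [smul_mul', smul_pow', h]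

/-- `ℚ_[q] ⊗[ℚ] K = id_O [1/q]`. -/
theorem io_exists_pow_mul_mem (a : id_A K q) :
    ∃ n : ℕ, ((q : ℕ) : id_A K q) ^ n * a ∈ id_O K q := by
  classical
  have h1 : (1 : ℝ) < ((q : ℕ) : ℝ) := by exact_mod_cast q.2.one_lt
  have hex : ∀ i, ∃ n : ℕ, ‖(io_basis K q).repr a i‖ ≤ ((q : ℕ) : ℝ) ^ n := fun i =>
    (pow_unbounded_of_one_lt _ h1).imp fun n hn => hn.le
  choose n hn using hex
  refine ⟨∑ i, n i, ?_⟩
  rw [io_mem_iff]
  intro i
  rw [io_repr_pow_mul, norm_mul, Padic.norm_p_pow, zpow_neg, zpow_natCast,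
    inv_mul_le_iff₀ (pow_pos (io_qpos q) _), mul_one]
  exact (hn i).trans (pow_le_pow_right₀ h1.le
    (Finset.single_le_sum (fun _ _ => Nat.zero_le _) (Finset.mem_univ i)))

/-! ### Completeness -/

instance io_moduleFinite : Module.Finite ℤ_[(q : ℕ)] ↥(id_O K q) := by
  have h : (Subalgebra.toSubmodule (id_O K q)).FG := by
    rw [io_toSubmodule]
    exact Submodule.fg_span (Set.finite_range _)
  have := Module.Finite.of_fg h
  exact Module.Finite.equiv (Subalgebra.toSubmoduleEquiv (id_O K q))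

/-- The order `id_O K q` is `q`-adically complete. -/
instance io_isAdicComplete :
    IsAdicComplete (Ideal.span {(((q : ℕ) : ℕ) : ↥(id_O K q))}) ↥(id_O K q) :=
  si_pp_isAdicComplete (q : ℕ) ↥(id_O K q)

/-- Dictionary between the ideals `(q) ^ k` of the ring `id_O K q` and the levels. -/
theorem io_mem_span_pow_iff (k : ℕ) (r : ↥(id_O K q)) :
    r ∈ Ideal.span {(((q : ℕ) : ℕ) : ↥(id_O K q))} ^ k ↔ (r : id_A K q) ∈ id_Olvl K q k := by
  rw [Ideal.span_singleton_pow, Ideal.mem_span_singleton, io_mem_lvl]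
  constructor
  · rintro ⟨c, rfl⟩
    exact ⟨c, c.2, by push_cast; rfl⟩
  · rintro ⟨c, hc, h⟩
    refine ⟨⟨c, hc⟩, Subtype.ext ?_⟩
    rw [← h]
    push_cast
    rfl

theorem io_mem_span_iff' (r : ↥(id_O K q)) :
    r ∈ Ideal.span {(((q : ℕ) : ℕ) : ↥(id_O K q))} ↔ (r : id_A K q) ∈ id_Olvl K q 1 := by
  rw [← io_mem_span_pow_iff, pow_one]

/-- Separatedness: `⋂ q ^ k • id_O = 0`. -/
theorem io_separated {a : id_A K q} (h : ∀ k, a ∈ id_Olvl K q k) : a = 0 := by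
  have ha : a ∈ id_O K q := io_lvl_le K q 0 (h 0)
  have h0 : (⟨a, ha⟩ : ↥(id_O K q)) = 0 := by
    apply IsHausdorff.haus (I := Ideal.span {(((q : ℕ) : ℕ) : ↥(id_O K q))})
      (M := ↥(id_O K q)) inferInstance
    intro n
    rw [SModEq.sub_mem, smul_eq_mul, Ideal.mul_top, sub_zero, io_mem_span_pow_iff]
    exact h n
  exact congrArg Subtype.val h0

/-- Completeness in sequence form: a sequence of `ℚ_[q] ⊗[ℚ] K` with
`a (n + 1) - a n ∈ q ^ n • id_O` converges `q`-adically. -/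
theorem io_complete (a : ℕ → id_A K q) (ha : ∀ n, a (n + 1) - a n ∈ id_Olvl K q n) :
    ∃ l : id_A K q, ∀ n, l - a n ∈ id_Olvl K q n := by
  -- differences `a n - a m`, `m ≤ n`
  have hC : ∀ m n, m ≤ n → a n - a m ∈ id_Olvl K q m := by
    intro m n hmn
    induction n, hmn using Nat.le_induction with
    | base => simp
    | succ n hmn ih =>
      have : a (n + 1) - a m = (a (n + 1) - a n) + (a n - a m) := by ring
      rw [this]
      exact (id_Olvl K q m).add_mem (io_lvl_antitone K q hmn (ha n)) ih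
  have hO : ∀ n, a n - a 0 ∈ id_O K q := fun n => io_lvl_le K q 0 (hC 0 n (Nat.zero_le n))
  let f : ℕ → ↥(id_O K q) := fun n => ⟨a n - a 0, hO n⟩
  obtain ⟨L, hL⟩ := IsPrecomplete.prec (I := Ideal.span {(((q : ℕ) : ℕ) : ↥(id_O K q))})
    (M := ↥(id_O K q)) inferInstance (f := f) (by
      intro m n hmn
      rw [SModEq.sub_mem, smul_eq_mul, Ideal.mul_top, io_mem_span_pow_iff]
      have : ((f m - f n : ↥(id_O K q)) : id_A K q) = -(a n - a m) := by
        simp only [f, Subalgebra.coe_sub]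
        ring
      rw [this]
      exact (id_Olvl K q m).neg_mem (hC m n hmn))
  refine ⟨(L : id_A K q) + a 0, fun n => ?_⟩
  have h1 := hL n
  rw [SModEq.sub_mem, smul_eq_mul, Ideal.mul_top, io_mem_span_pow_iff] at h1
  have : (L : id_A K q) + a 0 - a n = -((f n - L : ↥(id_O K q)) : id_A K q) := by
    simp only [f, Subalgebra.coe_sub]
    ring
  rw [this]
  exact (id_Olvl K q n).neg_mem h1

/-! ### Principal units -/

/-- `1 + q ^ k • id_O` consists of units of the order (`k ≥ 1`). -/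
theorem io_isUnit_of_sub_one_mem {k : ℕ} (hk : 1 ≤ k) (r : ↥(id_O K q))
    (h : (r : id_A K q) - 1 ∈ id_Olvl K q k) : IsUnit r := by
  have h1 : r - 1 ∈ Ideal.span {(((q : ℕ) : ℕ) : ↥(id_O K q))} := by
    rw [io_mem_span_iff']
    exact io_lvl_antitone K q hk h
  have h2 := IsAdicComplete.le_jacobson_bot _ h1
  rw [Ideal.mem_jacobson_bot] at h2
  simpa using h2 1

/-- The principal units of level `k`: units `u` of `ℚ_[q] ⊗[ℚ] K` with
`u, u⁻¹ ∈ 1 + q ^ k • id_O` (for `k = 0`: the units of the order). -/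
def id_U (k : ℕ) : Subgroup (id_A K q)ˣ where
  carrier := {u | ((u : (id_A K q)ˣ) : id_A K q) - 1 ∈ id_Olvl K q k ∧
    ((u⁻¹ : (id_A K q)ˣ) : id_A K q) - 1 ∈ id_Olvl K q k}
  one_mem' := by simp
  mul_mem' := by
    rintro u w ⟨hu, hu'⟩ ⟨hw, hw'⟩
    have key : ∀ x y : id_A K q, x - 1 ∈ id_Olvl K q k → y - 1 ∈ id_Olvl K q k →
        x * y - 1 ∈ id_Olvl K q k := by
      intro x y hx hy
      have : x * y - 1 = (x - 1) * (y - 1) + (x - 1) + (y - 1) := by ring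
      rw [this]
      exact (id_Olvl K q k).add_mem ((id_Olvl K q k).add_mem
        (io_mul_mem_lvl K q (io_lvl_le K q k hx) hy) hx) hy
    refine ⟨?_, ?_⟩
    · rw [Units.val_mul]; exact key _ _ hu hw
    · rw [mul_inv_rev, Units.val_mul]; exact key _ _ hw' hu'
  inv_mem' := by
    rintro u ⟨hu, hu'⟩
    exact ⟨hu', by rwa [inv_inv]⟩

theorem io_mem_U {k : ℕ} {u : (id_A K q)ˣ} :
    u ∈ id_U K q k ↔ (u : id_A K q) - 1 ∈ id_Olvl K q k ∧
      ((u⁻¹ : (id_A K q)ˣ) : id_A K q) - 1 ∈ id_Olvl K q k := Iff.rfl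

theorem io_U_antitone {k l : ℕ} (h : k ≤ l) : id_U K q l ≤ id_U K q k := fun _ hu =>
  ⟨io_lvl_antitone K q h hu.1, io_lvl_antitone K q h hu.2⟩

theorem io_coe_mem_of_mem_U {k : ℕ} {u : (id_A K q)ˣ} (hu : u ∈ id_U K q k) :
    (u : id_A K q) ∈ id_O K q := by
  have := (id_O K q).add_mem (io_lvl_le K q k hu.1) (io_one_mem K q)
  simpa using this

/-- Every element of `1 + q ^ k • id_O` (`k ≥ 1`) is a unit, with inverse in `1 + q ^ k • id_O`. -/
theorem io_exists_unit_of_sub_one_mem {k : ℕ} (hk : 1 ≤ k) (a : id_A K q)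
    (h : a - 1 ∈ id_Olvl K q k) : ∃ u ∈ id_U K q k, ((u : (id_A K q)ˣ) : id_A K q) = a := by
  have ha : a ∈ id_O K q := by
    have := (id_O K q).add_mem (io_lvl_le K q k h) (io_one_mem K q)
    simpa using this
  obtain ⟨r, hr⟩ := io_isUnit_of_sub_one_mem K q hk ⟨a, ha⟩ h
  have h1 : a * ((r⁻¹ : (↥(id_O K q))ˣ) : ↥(id_O K q)) = 1 := by
    have := congrArg Subtype.val (r.mul_inv)
    rw [hr] at this
    exact this
  have h2 : (((r⁻¹ : (↥(id_O K q))ˣ) : ↥(id_O K q)) : id_A K q) * a = 1 := by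
    rw [mul_comm]; exact h1
  refine ⟨⟨a, _, h1, h2⟩, ⟨h, ?_⟩, rfl⟩
  change (((r⁻¹ : (↥(id_O K q))ˣ) : ↥(id_O K q)) : id_A K q) - 1 ∈ id_Olvl K q k
  have : (((r⁻¹ : (↥(id_O K q))ˣ) : ↥(id_O K q)) : id_A K q) - 1
      = -((((r⁻¹ : (↥(id_O K q))ˣ) : ↥(id_O K q)) : id_A K q) * (a - 1)) := by
    rw [mul_sub, h2]; ring
  rw [this]
  exact (id_Olvl K q k).neg_mem (io_mul_mem_lvl K q (Subtype.mem _) h)

/-- Membership in `id_U K q k` only needs to be checked on `u` itself when `k ≥ 1`. -/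
theorem io_mem_U_of_sub_one_mem {k : ℕ} (hk : 1 ≤ k) {u : (id_A K q)ˣ}
    (h : (u : id_A K q) - 1 ∈ id_Olvl K q k) : u ∈ id_U K q k := by
  obtain ⟨w, hw, hwu⟩ := io_exists_unit_of_sub_one_mem K q hk _ h
  rwa [Units.ext hwu] at hw

/-- The principal units are stable under the Galois action. -/
theorem io_smul_mem_U (σ : K ≃ₐ[ℚ] K) {k : ℕ} {u : (id_A K q)ˣ} (hu : u ∈ id_U K q k) :
    σ • u ∈ id_U K q k := by
  have key : ∀ x : id_A K q, x - 1 ∈ id_Olvl K q k → σ • x - 1 ∈ id_Olvl K q k := by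
    intro x hx
    have := io_smul_mem_lvl K q σ hx
    rwa [smul_sub, smul_one] at this
  refine ⟨key _ hu.1, ?_⟩
  rw [← smul_inv']
  exact key _ hu.2

/-! ### Principal units are `p`-th powers -/

/-- A unit of `ℚ_[q] ⊗[ℚ] K` from a `p`-th root inside the order. -/
theorem io_exists_unit_pow {k l : ℕ} (hl : 1 ≤ l) (p : ℕ) {u : (id_A K q)ˣ}
    (w : ↥(id_O K q)) (hw : (w : id_A K q) ^ p = (u : id_A K q))
    (hw1 : (w : id_A K q) - 1 ∈ id_Olvl K q l) (_hu : u ∈ id_U K q k) :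
    ∃ v ∈ id_U K q l, v ^ p = u := by
  obtain ⟨v, hv, hvw⟩ := io_exists_unit_of_sub_one_mem K q hl _ hw1
  refine ⟨v, hv, Units.ext ?_⟩
  rw [Units.val_pow_eq_pow_val, hvw, hw]

/-- For primes `p ≠ q`, the principal units `1 + q ^ k • id_O` (`k ≥ 1`) are `p`-th powers
of principal units. -/
theorem io_U_le_pow_of_ne {p : ℕ} (hp : p.Prime) (hpq : p ≠ (q : ℕ)) {k : ℕ} (hk : 1 ≤ k) :
    id_U K q k ≤ (id_U K q 1).map (powMonoidHom p : (id_A K q)ˣ →* (id_A K q)ˣ) := by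
  intro u hu
  have huO := io_coe_mem_of_mem_U K q hu
  have h1 : (⟨(u : id_A K q), huO⟩ : ↥(id_O K q)) - 1
      ∈ Ideal.span {(((q : ℕ) : ℕ) : ↥(id_O K q))} := by
    rw [io_mem_span_iff']
    exact io_lvl_antitone K q hk hu.1
  obtain ⟨w, hw, hw1⟩ := si_pp_exists_pth_root_of_ne (q : ℕ) p hp hpq ↥(id_O K q) _ h1
  rw [io_mem_span_iff'] at hw1
  obtain ⟨v, hv, hvu⟩ := io_exists_unit_pow K q le_rfl p w
    (by have := congrArg Subtype.val hw; simpa using this) hw1 hu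
  exact ⟨v, hv, hvu⟩

/-- For `p = q` odd, the principal units `1 + p ^ k • id_O` (`k ≥ 2`) are `p`-th powers of
principal units of level `k - 1`. -/
theorem io_U_le_pow_self (hq2 : (q : ℕ) ≠ 2) {k : ℕ} (hk : 2 ≤ k) :
    id_U K q k ≤ (id_U K q (k - 1)).map (powMonoidHom (q : ℕ) : (id_A K q)ˣ →* (id_A K q)ˣ) := by
  intro u hu
  have huO := io_coe_mem_of_mem_U K q hu
  have h1 : (⟨(u : id_A K q), huO⟩ : ↥(id_O K q)) - 1
      ∈ Ideal.span {(((q : ℕ) : ℕ) : ↥(id_O K q))} ^ k := by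
    rw [io_mem_span_pow_iff]
    exact hu.1
  obtain ⟨w, hw, hw1⟩ :=
    si_pp_exists_pth_root_padic (q : ℕ) hq2 ↥(id_O K q) k hk _ h1
  rw [io_mem_span_pow_iff] at hw1
  obtain ⟨v, hv, hvu⟩ := io_exists_unit_pow K q (by omega : 1 ≤ k - 1) (q : ℕ) w
    (by have := congrArg Subtype.val hw; simpa using this) hw1 hu
  exact ⟨v, hv, hvu⟩

/-- Uniform version: for an odd prime `p` and every prime `q`, principal units of level `≥ 2` are
`p`-th powers in `(ℚ_[q] ⊗[ℚ] K)ˣ`. -/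
theorem io_U_le_range_pow {p : ℕ} (hp : p.Prime) (hp2 : p ≠ 2) {k : ℕ} (hk : 2 ≤ k) :
    id_U K q k ≤ (powMonoidHom p : (id_A K q)ˣ →* (id_A K q)ˣ).range := by
  intro u hu
  by_cases hpq : p = (q : ℕ)
  · subst hpq
    obtain ⟨v, -, hv⟩ := io_U_le_pow_self K q hp2 hk hu
    exact ⟨v, hv⟩
  · obtain ⟨v, -, hv⟩ := io_U_le_pow_of_ne K q hp hpq (by omega : 1 ≤ k) hu
    exact ⟨v, hv⟩

/-! ### The ray: elements of `𝓞 K` congruent to `1` modulo `q ^ k` -/

theorem io_incl_sub_one_mem_lvl (k : ℕ) (γ : 𝓞 K)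
    (hγ : γ - 1 ∈ Ideal.span {(((q : ℕ) : ℕ) : 𝓞 K) ^ k}) :
    id_incl K q (γ : K) - 1 ∈ id_Olvl K q k := by
  obtain ⟨c, hc⟩ := Ideal.mem_span_singleton.1 hγ
  rw [io_mem_lvl]
  refine ⟨id_incl K q (c : K), io_incl_mem K q c, ?_⟩
  have h1 : (γ : K) - 1 = ((q : ℕ) : K) ^ k * (c : K) := by
    have := congrArg (fun x : 𝓞 K => (x : K)) hc
    simpa using this
  rw [← map_one (id_incl K q), ← map_sub, h1, map_mul, map_pow, map_natCast]

/-- An element of `Kˣ` lying in `𝓞 K` and congruent to `1` modulo `q ^ k` (`k ≥ 1`) is a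
principal unit of level `k` at `q`. -/
theorem io_inclU_mem_U {k : ℕ} (hk : 1 ≤ k) (γ : 𝓞 K) (z : Kˣ) (hz : (z : K) = (γ : K))
    (hγ : γ - 1 ∈ Ideal.span {(((q : ℕ) : ℕ) : 𝓞 K) ^ k}) : id_inclU K q z ∈ id_U K q k := by
  apply io_mem_U_of_sub_one_mem K q hk
  rw [id_inclU_coe, hz]
  exact io_incl_sub_one_mem_lvl K q k γ hγ

/-! ### Weak approximation -/

/-- **Weak approximation** in the tensor model: finitely many elements `a q ∈ ℚ_[q] ⊗[ℚ] K`
(`q ∈ S`) are simultaneously approximated by one `z ∈ K`, modulo `q ^ k • id_O`. -/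
theorem io_weakApprox (S : Finset Nat.Primes) (k : ℕ) (a : ∀ q : S, id_A K q.1) :
    ∃ z : K, ∀ q : S, a q - id_incl K q.1 z ∈ id_Olvl K q.1 k := by
  classical
  have hinj : Function.Injective (fun j : S => ((j.1 : Nat.Primes) : ℕ)) :=
    Nat.Primes.coe_nat_injective.comp Subtype.val_injective
  have hr : ∀ i, ∃ r : ℚ, ∀ j : S,
      ‖(r : ℚ_[((j.1 : Nat.Primes) : ℕ)]) - (io_basis K j.1).repr (a j) i‖
        ≤ (((j.1 : Nat.Primes) : ℕ) : ℝ) ^ (-(k : ℤ)) := fun i =>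
    @si_wa_exists_rat S _ (fun j : S => ((j.1 : Nat.Primes) : ℕ)) (fun j => id_factPrime j.1)
      hinj k (fun j => (io_basis K j.1).repr (a j) i)
  choose r hr using hr
  refine ⟨∑ i, r i • NumberField.integralBasis K i, fun j => ?_⟩
  rw [io_mem_lvl_iff]
  intro i
  rw [map_sub, Finsupp.sub_apply, io_repr_incl, (NumberField.integralBasis K).repr_sum_self r,
    norm_sub_rev]
  exact hr i j

/-- **Weak approximation for units**: every element of `∏_{q ∈ S} (ℚ_[q] ⊗[ℚ] K)ˣ` is the product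
of a principal element `z ∈ Kˣ` and a family of principal units of level `k`. -/
theorem io_weakApprox_units (S : Finset Nat.Primes) {k : ℕ} (hk : 1 ≤ k) (x : id_JS S K) :
    ∃ z : Kˣ, ∀ q : S, x q / id_inclU K q.1 z ∈ id_U K q.1 k := by
  classical
  have hn : ∀ q : S, ∃ n : ℕ, (((q.1 : Nat.Primes) : ℕ) : id_A K q.1) ^ n *
      (((x q)⁻¹ : (id_A K q.1)ˣ) : id_A K q.1) ∈ id_O K q.1 := fun q =>
    io_exists_pow_mul_mem K q.1 _
  choose n hn using hn
  obtain ⟨z, hz⟩ := io_weakApprox K S (k + ∑ q, n q) (fun q => ((x q : (id_A K q.1)ˣ) : id_A K q.1))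
  have key : ∀ q : S, id_incl K q.1 z * (((x q)⁻¹ : (id_A K q.1)ˣ) : id_A K q.1) - 1
      ∈ id_Olvl K q.1 k := by
    intro q
    have h1 : id_incl K q.1 z * (((x q)⁻¹ : (id_A K q.1)ˣ) : id_A K q.1) - 1
        = -((((x q : (id_A K q.1)ˣ) : id_A K q.1) - id_incl K q.1 z)
            * (((x q)⁻¹ : (id_A K q.1)ˣ) : id_A K q.1)) := by
      rw [sub_mul, Units.mul_inv]; ring
    rw [h1]
    apply (id_Olvl K q.1 k).neg_mem
    obtain ⟨c, hc, hcz⟩ := (io_mem_lvl K q.1).1 (hz q)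
    rw [← hcz, io_mem_lvl]
    obtain ⟨m, hm⟩ : ∃ m, ∑ q, n q = m + n q :=
      ⟨∑ q, n q - n q, by
        have := Finset.single_le_sum (f := n) (fun _ _ => Nat.zero_le _) (Finset.mem_univ q)
        omega⟩
    refine ⟨c * ((((q.1 : Nat.Primes) : ℕ) : id_A K q.1) ^ m *
      ((((q.1 : Nat.Primes) : ℕ) : id_A K q.1) ^ n q *
        (((x q)⁻¹ : (id_A K q.1)ˣ) : id_A K q.1))), ?_, ?_⟩
    · exact (id_O K q.1).mul_mem hc ((id_O K q.1).mul_mem
        ((id_O K q.1).pow_mem (natCast_mem _ _) _) (hn q))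
    · rw [hm]; ring
  have hu : ∀ q : S, ∃ u ∈ id_U K q.1 k, ((u : (id_A K q.1)ˣ) : id_A K q.1)
      = id_incl K q.1 z * (((x q)⁻¹ : (id_A K q.1)ˣ) : id_A K q.1) := fun q =>
    io_exists_unit_of_sub_one_mem K q.1 hk _ (key q)
  choose u hu huz using hu
  by_cases hz0 : z = 0
  · -- then `S` is empty
    have hempty : ∀ q : S, False := by
      intro q
      have := huz q
      rw [hz0, map_zero, zero_mul] at this
      exact (u q).ne_zero this
    exact ⟨1, fun q => (hempty q).elim⟩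
  · refine ⟨Units.mk0 z hz0, fun q => ?_⟩
    have h2 : x q / id_inclU K q.1 (Units.mk0 z hz0) = (u q)⁻¹ := by
      rw [div_eq_iff_eq_mul, eq_comm, inv_mul_eq_iff_eq_mul]
      apply Units.ext
      rw [Units.val_mul, huz q, id_inclU_coe, Units.val_mk0, mul_assoc, Units.inv_mul, mul_one]
    rw [h2]
    exact (id_U K q.1 k).inv_mem (hu q)

/-! ### Consequences for the `S`-adic ideles `id_JS S K` -/

/-- A family of principal units of level `≥ 2` is a `p`-th power in `id_JS S K` (`p` odd). -/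
theorem io_exists_JS_pow {p : ℕ} (hp : p.Prime) (hp2 : p ≠ 2) (S : Finset Nat.Primes)
    (u : id_JS S K) (hu : ∀ q : S, u q ∈ id_U K q.1 2) : ∃ w : id_JS S K, w ^ p = u := by
  have h : ∀ q : S, ∃ w : (id_A K q.1)ˣ, w ^ p = u q := fun q => by
    obtain ⟨w, hw⟩ := io_U_le_range_pow K q.1 hp hp2 le_rfl (hu q)
    exact ⟨w, hw⟩
  choose w hw using h
  exact ⟨w, funext hw⟩

/-- `id_JS S K = Kˣ · (id_JS S K) ^ p` for odd `p`: every `S`-adic idele is the product of a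
principal one and a `p`-th power. -/
theorem io_JS_eq_diag_mul_pow {p : ℕ} (hp : p.Prime) (hp2 : p ≠ 2) (S : Finset Nat.Primes)
    (x : id_JS S K) : ∃ (z : Kˣ) (w : id_JS S K), x = id_diagS S K z * w ^ p := by
  obtain ⟨z, hz⟩ := io_weakApprox_units K S (k := 2) (by norm_num) x
  obtain ⟨w, hw⟩ := io_exists_JS_pow K hp hp2 S (fun q => x q / id_inclU K q.1 z) hz
  refine ⟨z, w, funext fun q => ?_⟩
  rw [Pi.mul_apply, hw, id_diagS_apply, mul_div_cancel]

end Fermat.Agent.S55
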