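import Fermat.Agent.S55.Idele.Defs

/-!
# S55 / block [G0]: transition maps of the idele model along an extension of number fields

For number fields `K ⊆ L` (`[Algebra K L]`) and a finite set `S` of rational primes:

* `id_Amap K L q : ℚ_[q] ⊗ K → ℚ_[q] ⊗ L` (injective, equivariant), `id_AmapU` on units;
* `id_under K L w`: the prime of `K` below the prime `w` of `L`; `id_e K L w`: the ramification
  index; `id_ordZ_map`: `ord_w (x) = e(w) * ord_v (x)` for `x : Kˣ`;
* `id_Imap S K L : I^S(K) →* I^S(L)`, extension of ideals prime to `S`;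
* `id_Jmap S K L : J_S(K) →* J_S(L)` and `id_Cmap S K L : C_S(K) →* C_S(L)`;
* equivariance for compatible pairs of automorphisms and functoriality in towers.
-/

set_option autoImplicit false
set_option linter.unusedSectionVars false

open scoped TensorProduct NumberField nonZeroDivisors Pointwise
open IsDedekindDomain

noncomputable section

namespace Fermat.Agent.S55

universe u

variable (S : Finset Nat.Primes) (K L : Type u) [Field K] [NumberField K] [Field L] [NumberField L]
  [Algebra K L]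

/-! ### The tensor part -/

/-- The inclusion `K → L` as a `ℚ`-algebra homomorphism. -/
def id_iota : K →ₐ[ℚ] L := (algebraMap K L).toRatAlgHom

@[simp] theorem id_iota_apply (x : K) : id_iota K L x = algebraMap K L x := rfl

/-- The transition map `ℚ_[q] ⊗ K → ℚ_[q] ⊗ L`. -/
def id_Amap (q : Nat.Primes) : id_A K q →ₐ[ℚ_[(q : ℕ)]] id_A L q :=
  Algebra.TensorProduct.map (AlgHom.id ℚ_[(q : ℕ)] ℚ_[(q : ℕ)]) (id_iota K L)

@[simp] theorem id_Amap_tmul (q : Nat.Primes) (a : ℚ_[(q : ℕ)]) (x : K) :
    id_Amap K L q (a ⊗ₜ[ℚ] x) = a ⊗ₜ[ℚ] algebraMap K L x := by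
  simp [id_Amap]

theorem id_Amap_injective (q : Nat.Primes) : Function.Injective (id_Amap K L q) := by
  have h : Function.Injective (LinearMap.lTensor ℚ_[(q : ℕ)] (id_iota K L).toLinearMap) :=
    Module.Flat.lTensor_preserves_injective_linearMap _ (algebraMap K L).injective
  intro x y hxy
  apply h
  have h1 : ∀ z, LinearMap.lTensor ℚ_[(q : ℕ)] (id_iota K L).toLinearMap z = id_Amap K L q z := by
    intro z
    induction z using TensorProduct.induction_on with
    | zero => simp
    | tmul a x => simp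
    | add a b ha hb => simp [ha, hb]
  rw [h1, h1, hxy]

theorem id_Amap_incl (q : Nat.Primes) (x : K) :
    id_Amap K L q (id_incl K q x) = id_incl L q (algebraMap K L x) := by
  rw [id_incl_apply, id_incl_apply, id_Amap_tmul]

/-- Equivariance of the transition map for compatible automorphisms. -/
theorem id_Amap_smul (q : Nat.Primes) (σK : K ≃ₐ[ℚ] K) (σL : L ≃ₐ[ℚ] L)
    (h : ∀ x : K, σL (algebraMap K L x) = algebraMap K L (σK x)) (z : id_A K q) :
    id_Amap K L q (σK • z) = σL • id_Amap K L q z := by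
  induction z using TensorProduct.induction_on with
  | zero => simp
  | tmul a x => simp [h]
  | add a b ha hb => simp [ha, hb]

/-- The transition map on units. -/
def id_AmapU (q : Nat.Primes) : (id_A K q)ˣ →* (id_A L q)ˣ :=
  Units.map (id_Amap K L q).toMonoidHom

@[simp] theorem id_AmapU_coe (q : Nat.Primes) (u : (id_A K q)ˣ) :
    ((id_AmapU K L q u : (id_A L q)ˣ) : id_A L q) = id_Amap K L q (u : id_A K q) := rfl

theorem id_AmapU_injective (q : Nat.Primes) : Function.Injective (id_AmapU K L q) := by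
  intro u v h
  apply Units.ext
  apply id_Amap_injective K L q
  have := congrArg (fun w : (id_A L q)ˣ => (w : id_A L q)) h
  simpa using this

theorem id_AmapU_smul (q : Nat.Primes) (σK : K ≃ₐ[ℚ] K) (σL : L ≃ₐ[ℚ] L)
    (h : ∀ x : K, σL (algebraMap K L x) = algebraMap K L (σK x)) (u : (id_A K q)ˣ) :
    id_AmapU K L q (σK • u) = σL • id_AmapU K L q u := by
  apply Units.ext
  simp only [id_AmapU_coe, ga_coe_smul_units]
  exact id_Amap_smul K L q σK σL h _

theorem id_AmapU_inclU (q : Nat.Primes) (x : Kˣ) :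
    id_AmapU K L q (id_inclU K q x) = id_inclU L q (Units.map (algebraMap K L).toMonoidHom x) := by
  apply Units.ext
  simp only [id_AmapU_coe, id_inclU_coe]
  exact id_Amap_incl K L q x


/-! ### The ideal part -/

/-- The prime of `K` below a prime of `L`. -/
def id_under (w : HeightOneSpectrum (𝓞 L)) : HeightOneSpectrum (𝓞 K) where
  asIdeal := w.asIdeal.under (𝓞 K)
  isPrime := inferInstance
  ne_bot := Ideal.IsIntegral.comap_ne_bot (𝓞 K) w.ne_bot

instance id_liesOver (w : HeightOneSpectrum (𝓞 L)) :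
    w.asIdeal.LiesOver (id_under K L w).asIdeal := ⟨rfl⟩

theorem id_under_asIdeal (w : HeightOneSpectrum (𝓞 L)) :
    (id_under K L w).asIdeal = w.asIdeal.under (𝓞 K) := rfl

/-- The ramification index of `w` over `K`. -/
def id_e (w : HeightOneSpectrum (𝓞 L)) : ℕ :=
  (id_under K L w).asIdeal.ramificationIdx' w.asIdeal

theorem id_e_ne_zero (w : HeightOneSpectrum (𝓞 L)) : id_e K L w ≠ 0 :=
  Ideal.IsDedekindDomain.ramificationIdx'_ne_zero_of_liesOver w.asIdeal (id_under K L w).ne_bot

theorem id_valuation_map (w : HeightOneSpectrum (𝓞 L)) (x : K) :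
    w.valuation L (algebraMap K L x) = (id_under K L w).valuation K x ^ id_e K L w :=
  (HeightOneSpectrum.valuation_liesOver L (id_under K L w) w x).symm

/-- The unit of `L` attached to a unit of `K`. -/
def id_unitsMap : Kˣ →* Lˣ := Units.map (algebraMap K L).toMonoidHom

@[simp] theorem id_unitsMap_coe (x : Kˣ) : ((id_unitsMap K L x : Lˣ) : L) = algebraMap K L x := rfl

theorem id_ordZ_map (w : HeightOneSpectrum (𝓞 L)) (x : Kˣ) :
    id_ordZ L w (id_unitsMap K L x) = (id_e K L w : ℤ) * id_ordZ K (id_under K L w) x := by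
  have h1 := id_valuation_map K L w (x : K)
  rw [← id_unitsMap_coe, id_valuation_eq_exp, id_valuation_eq_exp, ← WithZero.exp_nsmul,
    WithZero.exp_inj] at h1
  rw [nsmul_eq_mul] at h1
  linarith


theorem id_natCast_mem_under_iff (w : HeightOneSpectrum (𝓞 L)) (n : ℕ) :
    ((n : 𝓞 K)) ∈ (id_under K L w).asIdeal ↔ ((n : 𝓞 L)) ∈ w.asIdeal := by
  rw [id_under_asIdeal, Ideal.under_def, Ideal.mem_comap, map_natCast]

theorem id_primeToS_under_iff (w : HeightOneSpectrum (𝓞 L)) :
    id_PrimeToS S K (id_under K L w) ↔ id_PrimeToS S L w := by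
  constructor
  · intro h q hq hmem
    exact h q hq ((id_natCast_mem_under_iff K L w q).2 hmem)
  · intro h q hq hmem
    exact h q hq ((id_natCast_mem_under_iff K L w q).1 hmem)

/-- The prime of `K` below a prime of `L` not above `S`. -/
def id_underP (w : id_P S L) : id_P S K := ⟨id_under K L w.1, (id_primeToS_under_iff S K L w.1).2 w.2⟩

@[simp] theorem id_underP_val (w : id_P S L) : (id_underP S K L w).1 = id_under K L w.1 := rfl

/-- There are finitely many primes of `L` over a prime of `K`. -/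
theorem id_finite_fiber (v : HeightOneSpectrum (𝓞 K)) :
    {w : HeightOneSpectrum (𝓞 L) | id_under K L w = v}.Finite := by
  have hfin : (↑(IsDedekindDomain.primesOverFinset v.asIdeal (𝓞 L)) : Set (Ideal (𝓞 L))).Finite :=
    Finset.finite_toSet _
  apply Set.Finite.of_injOn (f := fun w : HeightOneSpectrum (𝓞 L) => w.asIdeal) _ _ hfin
  · intro w hw
    simp only [Set.mem_ofPred_eq] at hw
    rw [Finset.mem_coe, IsDedekindDomain.mem_primesOverFinset_iff v.ne_bot]
    refine ⟨w.isPrime, ⟨?_⟩⟩
    rw [← hw]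
    rfl
  · intro w _ w' _ h
    exact HeightOneSpectrum.ext h

theorem id_finite_fiberP (v : id_P S K) : {w : id_P S L | id_underP S K L w = v}.Finite := by
  have h := id_finite_fiber K L v.1
  apply Set.Finite.of_injOn (f := fun w : id_P S L => w.1) _ _ h
  · intro w hw
    simp only [Set.mem_ofPred_eq] at hw ⊢
    rw [← hw]
    rfl
  · intro w _ w' _ h
    exact Subtype.ext h

/-- Extension of divisors: `D ↦ (w ↦ e(w) * D(w ∩ K))`. -/
def id_ImapFun (D : id_P S K →₀ ℤ) : id_P S L →₀ ℤ :=
  Finsupp.ofSupportFinite (fun w => (id_e K L w.1 : ℤ) * D (id_underP S K L w)) (by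
    have hfin : (⋃ v ∈ D.support, {w : id_P S L | id_underP S K L w = v}).Finite :=
      Set.Finite.biUnion D.support.finite_toSet (fun v _ => id_finite_fiberP S K L v)
    apply hfin.subset
    intro w hw
    simp only [Function.mem_support, ne_eq, mul_eq_zero, not_or] at hw
    simp only [Set.mem_iUnion, Set.mem_ofPred_eq, exists_prop]
    exact ⟨id_underP S K L w, Finsupp.mem_support_iff.2 hw.2, rfl⟩)

@[simp] theorem id_ImapFun_apply (D : id_P S K →₀ ℤ) (w : id_P S L) :
    id_ImapFun S K L D w = (id_e K L w.1 : ℤ) * D (id_underP S K L w) := rfl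

/-- The extension map `I^S(K) →* I^S(L)`. -/
def id_Imap : id_I S K →* id_I S L where
  toFun D := Multiplicative.ofAdd (id_ImapFun S K L D.toAdd)
  map_one' := by
    apply Multiplicative.toAdd.injective
    ext w
    simp
  map_mul' D E := by
    apply Multiplicative.toAdd.injective
    ext w
    simp [mul_add]

theorem id_Imap_apply (D : id_I S K) (w : id_P S L) :
    (id_Imap S K L D).toAdd w = (id_e K L w.1 : ℤ) * D.toAdd (id_underP S K L w) := rfl

theorem id_Imap_div (x : Kˣ) : id_Imap S K L (id_div S K x) = id_div S L (id_unitsMap K L x) := by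
  apply Multiplicative.toAdd.injective
  ext w
  rw [id_Imap_apply, id_div_apply, id_div_apply, id_ordZ_map]
  rfl

/-! ### Uniformizers -/

theorem id_exists_ordZ_eq_one (v : HeightOneSpectrum (𝓞 K)) : ∃ x : Kˣ, id_ordZ K v x = 1 := by
  obtain ⟨π, hπ⟩ := v.valuation_exists_uniformizer K
  have hπ0 : π ≠ 0 := by
    rintro rfl
    rw [map_zero] at hπ
    exact WithZero.exp_ne_zero hπ.symm
  refine ⟨Units.mk0 π hπ0, ?_⟩
  rw [id_ordZ, Units.val_mk0, hπ]
  simp

/-! ### Compatible pairs of automorphisms -/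

/-- `σL` extends `σK`. -/
def id_Compat (σK : K ≃ₐ[ℚ] K) (σL : L ≃ₐ[ℚ] L) : Prop :=
  ∀ x : K, σL (algebraMap K L x) = algebraMap K L (σK x)

variable {K L}

theorem id_Compat.inv {σK : K ≃ₐ[ℚ] K} {σL : L ≃ₐ[ℚ] L} (h : id_Compat K L σK σL) :
    id_Compat K L σK⁻¹ σL⁻¹ := by
  intro x
  have h1 := h (σK⁻¹ x)
  have h2 : σK (σK⁻¹ x) = x := by
    change (σK * σK⁻¹) x = x
    rw [mul_inv_cancel]; rfl
  rw [h2] at h1
  rw [← h1]
  change (σL⁻¹ * σL) _ = _
  rw [inv_mul_cancel]; rfl

theorem id_Compat.int {σK : K ≃ₐ[ℚ] K} {σL : L ≃ₐ[ℚ] L} (h : id_Compat K L σK σL) (x : 𝓞 K) :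
    σL • algebraMap (𝓞 K) (𝓞 L) x = algebraMap (𝓞 K) (𝓞 L) (σK • x) := by
  apply NumberField.RingOfIntegers.ext
  exact h (x : K)

variable (K L)

theorem id_under_smul {σK : K ≃ₐ[ℚ] K} {σL : L ≃ₐ[ℚ] L} (h : id_Compat K L σK σL)
    (w : HeightOneSpectrum (𝓞 L)) : id_under K L (σL • w) = σK • id_under K L w := by
  apply HeightOneSpectrum.ext
  ext x
  rw [id_under_asIdeal, id_smul_asIdeal, id_smul_asIdeal, id_under_asIdeal, Ideal.under_def,
    Ideal.mem_comap, Ideal.mem_pointwise_smul_iff_inv_smul_mem,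
    Ideal.mem_pointwise_smul_iff_inv_smul_mem, Ideal.mem_comap, h.inv.int]

theorem id_unitsMap_smul {σK : K ≃ₐ[ℚ] K} {σL : L ≃ₐ[ℚ] L} (h : id_Compat K L σK σL) (x : Kˣ) :
    id_unitsMap K L (σK • x) = σL • id_unitsMap K L x := by
  apply Units.ext
  exact (h (x : K)).symm

theorem id_e_smul {σK : K ≃ₐ[ℚ] K} {σL : L ≃ₐ[ℚ] L} (h : id_Compat K L σK σL)
    (w : HeightOneSpectrum (𝓞 L)) : id_e K L (σL • w) = id_e K L w := by
  obtain ⟨x, hx⟩ := id_exists_ordZ_eq_one K (id_under K L w)
  have h1 := id_ordZ_map K L (σL • w) (σK • x)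
  rw [id_under_smul K L h, id_ordZ_smul, hx, mul_one, id_unitsMap_smul K L h, id_ordZ_smul,
    id_ordZ_map, hx, mul_one] at h1
  exact_mod_cast h1.symm

theorem id_underP_smul {σK : K ≃ₐ[ℚ] K} {σL : L ≃ₐ[ℚ] L} (h : id_Compat K L σK σL)
    (w : id_P S L) : id_underP S K L (σL • w) = σK • id_underP S K L w :=
  Subtype.ext (id_under_smul K L h w.1)

theorem id_Imap_smul {σK : K ≃ₐ[ℚ] K} {σL : L ≃ₐ[ℚ] L} (h : id_Compat K L σK σL)
    (D : id_I S K) : id_Imap S K L (σK • D) = σL • id_Imap S K L D := by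
  apply Multiplicative.toAdd.injective
  ext w
  rw [id_Imap_apply]
  change _ = (id_Imap S K L D).toAdd (σL⁻¹ • w)
  rw [id_Imap_apply, id_underP_smul S K L h.inv, id_P_smul_val, id_e_smul K L h.inv]
  rfl

/-- Every prime of `K` lies below a prime of `L`. -/
theorem id_under_surjective : Function.Surjective (id_under K L) := by
  intro v
  obtain ⟨Q, hQ⟩ := (inferInstance : Nonempty (Ideal.primesOver v.asIdeal (𝓞 L)))
  have := hQ.1
  have := hQ.2
  have hne : Q ≠ ⊥ := Ideal.ne_bot_of_liesOver_of_ne_bot v.ne_bot Q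
  refine ⟨⟨Q, hQ.1, hne⟩, ?_⟩
  apply HeightOneSpectrum.ext
  exact (hQ.2.over).symm

theorem id_underP_surjective : Function.Surjective (id_underP S K L) := by
  intro v
  obtain ⟨w, hw⟩ := id_under_surjective K L v.1
  refine ⟨⟨w, (id_primeToS_under_iff S K L w).1 (hw ▸ v.2)⟩, ?_⟩
  exact Subtype.ext hw

theorem id_Imap_injective : Function.Injective (id_Imap S K L) := by
  rw [injective_iff_map_eq_one]
  intro D hD
  apply Multiplicative.toAdd.injective
  ext v
  obtain ⟨w, rfl⟩ := id_underP_surjective S K L v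
  have h := congrArg (fun E : id_I S L => E.toAdd w) hD
  simp only [id_Imap_apply] at h
  have h0 : ((id_e K L w.1 : ℕ) : ℤ) ≠ 0 := by exact_mod_cast id_e_ne_zero K L w.1
  rcases mul_eq_zero.1 h with h1 | h1
  · exact absurd h1 h0
  · exact h1

/-! ### The idele part -/

/-- The transition map on `S`-components. -/
def id_JSmap : id_JS S K →* id_JS S L :=
  MonoidHom.pi fun q => (id_AmapU K L q.1).comp (Pi.evalMonoidHom _ q)

@[simp] theorem id_JSmap_apply (x : id_JS S K) (q : ↥S) :
    id_JSmap S K L x q = id_AmapU K L q.1 (x q) := rfl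

/-- The transition map `J_S(K) →* J_S(L)`. -/
def id_Jmap : id_J S K →* id_J S L := MonoidHom.prodMap (id_JSmap S K L) (id_Imap S K L)

@[simp] theorem id_Jmap_fst (z : id_J S K) : (id_Jmap S K L z).1 = id_JSmap S K L z.1 := rfl

@[simp] theorem id_Jmap_snd (z : id_J S K) : (id_Jmap S K L z).2 = id_Imap S K L z.2 := rfl

theorem id_Jmap_injective : Function.Injective (id_Jmap S K L) := by
  intro z z' h
  apply Prod.ext
  · funext q
    apply id_AmapU_injective K L q.1
    have := congrArg (fun y : id_J S L => y.1 q) h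
    exact this
  · apply id_Imap_injective S K L
    exact congrArg Prod.snd h

theorem id_Jmap_diag (x : Kˣ) :
    id_Jmap S K L (id_diag S K x) = id_diag S L (id_unitsMap K L x) := by
  apply Prod.ext
  · funext q
    exact id_AmapU_inclU K L q.1 x
  · exact id_Imap_div S K L x

theorem id_Jmap_smul {σK : K ≃ₐ[ℚ] K} {σL : L ≃ₐ[ℚ] L} (h : id_Compat K L σK σL)
    (z : id_J S K) : id_Jmap S K L (σK • z) = σL • id_Jmap S K L z := by
  apply Prod.ext
  · funext q
    exact id_AmapU_smul K L q.1 σK σL h (z.1 q)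
  · exact id_Imap_smul S K L h z.2

theorem id_Jmap_inS (x : id_JS S K) : id_Jmap S K L (id_inS S K x) = id_inS S L (id_JSmap S K L x) := by
  apply Prod.ext
  · rfl
  · exact map_one (id_Imap S K L)

theorem id_princ_le_comap : id_princ S K ≤ (id_princ S L).comap (id_Jmap S K L) := by
  rintro _ ⟨x, rfl⟩
  rw [Subgroup.mem_comap, id_Jmap_diag]
  exact ⟨_, rfl⟩

/-- The transition map `C_S(K) →* C_S(L)`. -/
def id_Cmap : id_C S K →* id_C S L :=
  QuotientGroup.map _ _ (id_Jmap S K L) (id_princ_le_comap S K L)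

@[simp] theorem id_Cmap_toC (z : id_J S K) :
    id_Cmap S K L (id_toC S K z) = id_toC S L (id_Jmap S K L z) := rfl

theorem id_Cmap_smul {σK : K ≃ₐ[ℚ] K} {σL : L ≃ₐ[ℚ] L} (h : id_Compat K L σK σL)
    (c : id_C S K) : id_Cmap S K L (σK • c) = σL • id_Cmap S K L c := by
  obtain ⟨z, rfl⟩ := id_toC_surjective S K c
  rw [id_smul_toC, id_Cmap_toC, id_Cmap_toC, id_smul_toC, id_Jmap_smul S K L h]

open Classical in
theorem id_JSmap_inq (q : ↥S) (a : (id_A K q.1)ˣ) :
    id_JSmap S K L (id_inq S K q a) = id_inq S L q (id_AmapU K L q.1 a) := by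
  funext r
  by_cases h : r = q
  · subst h
    simp [id_inq]
  · simp [id_inq, Pi.mulSingle_eq_of_ne h]

theorem id_Cmap_jS (x : id_JS S K) :
    id_Cmap S K L (id_jS S K x) = id_jS S L (id_JSmap S K L x) := by
  change id_Cmap S K L (id_toC S K (id_inS S K x)) = id_toC S L (id_inS S L (id_JSmap S K L x))
  rw [id_Cmap_toC, id_Jmap_inS]

theorem id_Cmap_jq (q : ↥S) (a : (id_A K q.1)ˣ) :
    id_Cmap S K L (id_jq S K q a) = id_jq S L q (id_AmapU K L q.1 a) := by
  change id_Cmap S K L (id_jS S K (id_inq S K q a)) = id_jS S L (id_inq S L q (id_AmapU K L q.1 a))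
  rw [id_Cmap_jS, id_JSmap_inq]

/-! ### Towers -/

section Tower

variable (M : Type u) [Field M] [NumberField M] [Algebra L M] [Algebra K M] [IsScalarTower K L M]

theorem id_Amap_trans (q : Nat.Primes) (z : id_A K q) :
    id_Amap L M q (id_Amap K L q z) = id_Amap K M q z := by
  induction z using TensorProduct.induction_on with
  | zero => simp
  | tmul a x => simp [← IsScalarTower.algebraMap_apply]
  | add a b ha hb => simp [ha, hb]

theorem id_AmapU_trans (q : Nat.Primes) (u : (id_A K q)ˣ) :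
    id_AmapU L M q (id_AmapU K L q u) = id_AmapU K M q u := by
  apply Units.ext
  simp only [id_AmapU_coe]
  exact id_Amap_trans K L M q _

theorem id_unitsMap_trans (x : Kˣ) :
    id_unitsMap L M (id_unitsMap K L x) = id_unitsMap K M x := by
  apply Units.ext
  simp only [id_unitsMap_coe]
  exact (IsScalarTower.algebraMap_apply K L M _).symm

theorem id_under_trans (w : HeightOneSpectrum (𝓞 M)) :
    id_under K L (id_under L M w) = id_under K M w := by
  apply HeightOneSpectrum.ext
  rw [id_under_asIdeal, id_under_asIdeal, id_under_asIdeal]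
  exact Ideal.under_under _

theorem id_e_trans (w : HeightOneSpectrum (𝓞 M)) :
    id_e K M w = id_e L M w * id_e K L (id_under L M w) := by
  obtain ⟨x, hx⟩ := id_exists_ordZ_eq_one K (id_under K M w)
  have h1 := id_ordZ_map K M w x
  rw [hx, mul_one, ← id_unitsMap_trans K L M, id_ordZ_map L M, id_ordZ_map K L, id_under_trans, hx,
    mul_one] at h1
  exact_mod_cast h1.symm

theorem id_underP_trans (w : id_P S M) :
    id_underP S K L (id_underP S L M w) = id_underP S K M w :=
  Subtype.ext (id_under_trans K L M w.1)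

theorem id_Imap_trans (D : id_I S K) :
    id_Imap S L M (id_Imap S K L D) = id_Imap S K M D := by
  apply Multiplicative.toAdd.injective
  ext w
  rw [id_Imap_apply, id_Imap_apply, id_Imap_apply, id_underP_trans, id_e_trans K L M]
  push_cast
  rw [id_underP_val, mul_assoc]

theorem id_Jmap_trans (z : id_J S K) :
    id_Jmap S L M (id_Jmap S K L z) = id_Jmap S K M z := by
  apply Prod.ext
  · funext q
    exact id_AmapU_trans K L M q.1 (z.1 q)
  · exact id_Imap_trans S K L M z.2

theorem id_Cmap_trans (c : id_C S K) :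
    id_Cmap S L M (id_Cmap S K L c) = id_Cmap S K M c := by
  obtain ⟨z, rfl⟩ := id_toC_surjective S K c
  rw [id_Cmap_toC, id_Cmap_toC, id_Cmap_toC, id_Jmap_trans]

end Tower

end Fermat.Agent.S55
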