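import Mathlib
import Fermat.Agent.S55.Idele.GaloisAlgebra

/-!
# S55 / block [G0]: structure of the semilocal Galois algebra `F ⊗[k] L`

`L/k` finite Galois with group `Γ = L ≃ₐ[k] L`, `F/k` any field extension, `R := F ⊗[k] L`.

* instances: `R` is formally unramified over `F`, reduced, artinian (only `L/k` finite separable),
  `Algebra.IsInvariant F R Γ` (Galois descent);
* `ga_exists_smul_eq`: `Γ` is transitive on the prime (= maximal) ideals of `R`;
* `ga_eq_zero_of_forall_smul_mem`, `ga_isUnit_iff`, `ga_exists_of_equivariant` (equivariant CRT):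
  `R` is "coinduced" from the stabiliser `D` of a maximal ideal `m`;
* `ga_units_ext`, `ga_units_exists`: the unit group `Rˣ` is the coinduced module of `(R/m)ˣ`;
* `ga_mkHom`: morphisms of `Rep ℤ G` from equivariant additive maps (no `Module ℤ` diamond);
* `ga_frob`: Frobenius reciprocity in the exact shape of the field `frob` of helper6's `ld_Data`.
-/

set_option autoImplicit false

open scoped TensorProduct Pointwise

namespace Fermat.Agent.S55

section Separable

variable {k : Type*} {L : Type*} (F : Type*) [Field k] [Field L] [Field F] [Algebra k L]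
  [Algebra k F] [FiniteDimensional k L] [Algebra.IsSeparable k L]

instance ga_formallyUnramified : Algebra.FormallyUnramified F (F ⊗[k] L) :=
  haveI : Algebra.FormallyUnramified k L := Algebra.FormallyUnramified.of_isSeparable k L
  Algebra.FormallyUnramified.base_change _

instance ga_isReduced : IsReduced (F ⊗[k] L) :=
  Algebra.FormallyUnramified.isReduced_of_field F (F ⊗[k] L)

instance ga_isArtinianRing : IsArtinianRing (F ⊗[k] L) :=
  IsArtinianRing.of_finite F (F ⊗[k] L)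

end Separable

section GaloisAlgebra

variable {k : Type*} {L : Type*} (F : Type*) [Field k] [Field L] [Field F] [Algebra k L]
  [Algebra k F] [FiniteDimensional k L] [IsGalois k L]

instance ga_isInvariant : Algebra.IsInvariant F (F ⊗[k] L) (L ≃ₐ[k] L) :=
  ⟨fun z hz => ga_exists_of_smul_eq F z hz⟩

omit [FiniteDimensional k L] [IsGalois k L] in
theorem ga_under_eq_bot (P : Ideal (F ⊗[k] L)) [hP : P.IsPrime] : P.under F = ⊥ := by
  rcases Ideal.eq_bot_or_top (P.under F) with h | h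
  · exact h
  · exfalso
    have : (1 : F) ∈ P.under F := by rw [h]; trivial
    rw [Ideal.under_def, Ideal.mem_comap, map_one] at this
    exact hP.ne_top ((Ideal.eq_top_iff_one _).2 this)

/-- `Gal(L/k)` acts transitively on the prime (= maximal) ideals of `F ⊗[k] L`. -/
theorem ga_exists_smul_eq (P Q : Ideal (F ⊗[k] L)) [P.IsPrime] [Q.IsPrime] :
    ∃ g : L ≃ₐ[k] L, Q = g • P := by
  apply Algebra.IsInvariant.exists_smul_of_under_eq F (F ⊗[k] L) (L ≃ₐ[k] L) P Q
  rw [ga_under_eq_bot, ga_under_eq_bot]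

/-- An element all of whose conjugates lie in one maximal ideal is zero. -/
theorem ga_eq_zero_of_forall_smul_mem (m : Ideal (F ⊗[k] L)) [hm : m.IsMaximal] (r : F ⊗[k] L)
    (h : ∀ g : L ≃ₐ[k] L, g • r ∈ m) : r = 0 := by
  have hnil : r ∈ nilradical (F ⊗[k] L) := by
    rw [IsArtinianRing.nilradical_eq_iInf, Ideal.mem_iInf]
    intro I
    have := I.isMaximal.isPrime
    have : m.IsPrime := hm.isPrime
    obtain ⟨g, hg⟩ := ga_exists_smul_eq F I.asIdeal m
    have h1 := h g
    rw [hg] at h1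
    exact (Ideal.smul_mem_pointwise_smul_iff).1 h1
  rw [nilradical_eq_zero, Ideal.zero_eq_bot, Ideal.mem_bot] at hnil
  exact hnil

/-- **CRT for the Galois algebra, equivariant form.** Every family `f : Gal(L/k) → F ⊗[k] L`
which is equivariant modulo `m` under the stabiliser of the maximal ideal `m` is of the form
`g ↦ g • r` modulo `m`. -/
theorem ga_exists_of_equivariant (m : Ideal (F ⊗[k] L)) [hm : m.IsMaximal]
    (f : (L ≃ₐ[k] L) → F ⊗[k] L)
    (hf : ∀ d g : L ≃ₐ[k] L, d • m = m → f (d * g) - d • f g ∈ m) :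
    ∃ r : F ⊗[k] L, ∀ g : L ≃ₐ[k] L, g • r - f g ∈ m := by
  classical
  have hmp : m.IsPrime := hm.isPrime
  have hex : ∀ I : MaximalSpectrum (F ⊗[k] L), ∃ g : L ≃ₐ[k] L, m = g • I.asIdeal := by
    intro I
    have := I.isMaximal.isPrime
    exact ga_exists_smul_eq F I.asIdeal m
  choose γ hγ using hex
  let x : ∀ I : MaximalSpectrum (F ⊗[k] L), (F ⊗[k] L) ⧸ I.asIdeal :=
    fun I => Ideal.Quotient.mk I.asIdeal ((γ I)⁻¹ • f (γ I))
  let r := (IsArtinianRing.equivPi (F ⊗[k] L)).symm x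
  have hr : ∀ I : MaximalSpectrum (F ⊗[k] L), r - (γ I)⁻¹ • f (γ I) ∈ I.asIdeal := by
    intro I
    have h0 : IsArtinianRing.equivPi (F ⊗[k] L) r = x :=
      (IsArtinianRing.equivPi (F ⊗[k] L)).apply_symm_apply x
    have h1 : IsArtinianRing.equivPi (F ⊗[k] L) r I = x I := by rw [h0]
    rw [IsArtinianRing.equivPi_apply] at h1
    exact (Ideal.Quotient.mk_eq_mk_iff_sub_mem _ _).1 h1
  have hr' : ∀ I : MaximalSpectrum (F ⊗[k] L), γ I • r - f (γ I) ∈ m := by
    intro I
    have h1 := hr I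
    rw [← Ideal.smul_mem_pointwise_smul_iff (a := γ I), ← hγ I, smul_sub, smul_inv_smul] at h1
    exact h1
  refine ⟨r, fun g => ?_⟩
  -- the maximal ideal `g⁻¹ • m`
  have hmax : (g⁻¹ • m).IsMaximal := by
    have := Ideal.IsPrime.smul (I := m) g⁻¹
    exact IsArtinianRing.isMaximal_of_isPrime _
  let I : MaximalSpectrum (F ⊗[k] L) := ⟨g⁻¹ • m, hmax⟩
  have hI : m = γ I • (g⁻¹ • m) := hγ I
  set d := g * (γ I)⁻¹ with hd
  have hdm : d • m = m := by
    rw [hd, mul_smul]
    nth_rewrite 1 [hI]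
    rw [inv_smul_smul, smul_inv_smul]
  have hg : g = d * γ I := by rw [hd, inv_mul_cancel_right]
  have h2 : d • (γ I • r - f (γ I)) ∈ m := by
    rw [← hdm]
    exact Ideal.smul_mem_pointwise_smul_iff.2 (hr' I)
  have h3 := hf d (γ I) hdm
  have h4 : g • r - f g = d • (γ I • r - f (γ I)) - (f (d * γ I) - d • f (γ I)) := by
    rw [hg, smul_sub, mul_smul]
    ring
  rw [h4]
  exact m.sub_mem h2 h3

/-- An element of the Galois algebra is a unit iff none of its conjugates lies in `m`. -/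
theorem ga_isUnit_iff (m : Ideal (F ⊗[k] L)) [hm : m.IsMaximal] (r : F ⊗[k] L) :
    IsUnit r ↔ ∀ g : L ≃ₐ[k] L, g • r ∉ m := by
  have hmp : m.IsPrime := hm.isPrime
  constructor
  · intro hr g hmem
    have : IsUnit (g • r) := by
      rw [ga_smul_def]
      exact hr.map (ga_act F g)
    exact hm.ne_top (Ideal.eq_top_of_isUnit_mem _ hmem this)
  · intro h
    by_contra hr
    obtain ⟨M, hM, hrM⟩ := exists_max_ideal_of_mem_nonunits hr
    have := hM.isPrime
    obtain ⟨g, hg⟩ := ga_exists_smul_eq F M m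
    apply h g
    rw [hg]
    exact Ideal.smul_mem_pointwise_smul_iff.2 hrM

end GaloisAlgebra

section Coinduced

variable {k L F : Type*} [Field k] [Field L] [Field F] [Algebra k L]
  [Algebra k F] [FiniteDimensional k L] [IsGalois k L]
  (m : Ideal (F ⊗[k] L)) [hm : m.IsMaximal] (D : Subgroup (L ≃ₐ[k] L))
  (hD : ∀ g : L ≃ₐ[k] L, g ∈ D ↔ g • m = m)
  {A : Type*} [AddCommGroup A] (ρ : D → A →+ A) (π : Additive (F ⊗[k] L)ˣ →+ A)
  (hπρ : ∀ (d : D) (u : (F ⊗[k] L)ˣ),
    π (Additive.ofMul ((d : L ≃ₐ[k] L) • u)) = ρ d (π (Additive.ofMul u)))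
  (hker : ∀ u : (F ⊗[k] L)ˣ, π (Additive.ofMul u) = 0 ↔ (u : F ⊗[k] L) - 1 ∈ m)
  (hsurj : Function.Surjective π)

include hker in
omit [FiniteDimensional k L] [IsGalois k L] hm in
theorem ga_pr_eq_iff (u v : (F ⊗[k] L)ˣ) :
    π (Additive.ofMul u) = π (Additive.ofMul v) ↔ (u : F ⊗[k] L) - v ∈ m := by
  have h1 : π (Additive.ofMul u) = π (Additive.ofMul v) ↔
      π (Additive.ofMul (u / v)) = 0 := by
    rw [ofMul_div, map_sub, sub_eq_zero]
  rw [h1, hker]
  have h2 : ((u / v : (F ⊗[k] L)ˣ) : F ⊗[k] L) - 1 =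
      ((u : F ⊗[k] L) - v) * ((v⁻¹ : (F ⊗[k] L)ˣ) : F ⊗[k] L) := by
    rw [sub_mul, Units.mul_inv, div_eq_mul_inv, Units.val_mul]
  rw [h2]
  constructor
  · intro h
    have := m.mul_mem_right (v : F ⊗[k] L) h
    rwa [mul_assoc, Units.inv_mul, mul_one] at this
  · intro h
    exact m.mul_mem_right _ h

include hker in
/-- Uniqueness: a unit is determined by the images of its conjugates. -/
theorem ga_units_ext (u v : (F ⊗[k] L)ˣ)
    (h : ∀ g : L ≃ₐ[k] L, π (Additive.ofMul (g • u)) = π (Additive.ofMul (g • v))) :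
    u = v := by
  apply Units.ext
  rw [← sub_eq_zero]
  apply ga_eq_zero_of_forall_smul_mem F m
  intro g
  have := (ga_pr_eq_iff m π hker (g • u) (g • v)).1 (h g)
  rw [smul_sub]
  exact this

include hD hπρ hker hsurj in
/-- Existence: the units of the Galois algebra are coinduced from the stabiliser of `m`. -/
theorem ga_units_exists (φ : (L ≃ₐ[k] L) → A)
    (hφ : ∀ (d : D) (g : L ≃ₐ[k] L), φ ((d : L ≃ₐ[k] L) * g) = ρ d (φ g)) :
    ∃ u : (F ⊗[k] L)ˣ, ∀ g : L ≃ₐ[k] L, π (Additive.ofMul (g • u)) = φ g := by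
  have hlift : ∀ g : L ≃ₐ[k] L, ∃ v : (F ⊗[k] L)ˣ, π (Additive.ofMul v) = φ g := by
    intro g
    obtain ⟨a, ha⟩ := hsurj (φ g)
    exact ⟨Additive.toMul a, ha⟩
  choose v hv using hlift
  have hf : ∀ d g : L ≃ₐ[k] L, d • m = m →
      ((v (d * g) : (F ⊗[k] L)ˣ) : F ⊗[k] L) - d • ((v g : (F ⊗[k] L)ˣ) : F ⊗[k] L) ∈ m := by
    intro d g hd
    have hdD : d ∈ D := (hD d).2 hd
    have h1 : π (Additive.ofMul (v (d * g))) = π (Additive.ofMul (d • v g)) := by
      rw [hv, hφ ⟨d, hdD⟩ g, ← hv g]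
      exact (hπρ ⟨d, hdD⟩ (v g)).symm
    exact (ga_pr_eq_iff m π hker _ _).1 h1
  obtain ⟨r, hr⟩ := ga_exists_of_equivariant F m (fun g => ((v g : (F ⊗[k] L)ˣ) : F ⊗[k] L)) hf
  have hunit : IsUnit r := by
    rw [ga_isUnit_iff F m]
    intro g hmem
    have h1 : ((v g : (F ⊗[k] L)ˣ) : F ⊗[k] L) ∈ m := by
      have := m.sub_mem hmem (hr g)
      simpa using this
    exact hm.ne_top (Ideal.eq_top_of_isUnit_mem _ h1 (v g).isUnit)
  refine ⟨hunit.unit, fun g => ?_⟩
  rw [← hv g]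
  apply (ga_pr_eq_iff m π hker _ _).2
  exact hr g

end Coinduced

section MkHom

open CategoryTheory

universe u v w

/-- An equivariant additive map which is `k`-linear, as a morphism of `Rep k G`. -/
noncomputable def ga_mkHomGen {k : Type w} [CommRing k] {G : Type v} [Monoid G]
    (Y Z : Rep.{u} k G) (f : Y.V →+ Z.V) (hlin : ∀ (c : k) (y : Y.V), f (c • y) = c • f y)
    (hf : ∀ (g : G) (y : Y.V), f (Y.ρ g y) = Z.ρ g (f y)) : Y ⟶ Z :=
  Rep.ofHom (LinearMap.intertwiningMap_of_isIntertwiningMap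
    (ρ := Y.ρ) (σ := Z.ρ)
    (f := { toFun := f
            map_add' := f.map_add
            map_smul' := fun c y => hlin c y })
    hf)

/-- A `G`-equivariant additive map between the underlying groups of two `ℤ`-linear
representations, as a morphism of `Rep ℤ G` (avoids the `Module ℤ` instance diamond). -/
noncomputable def ga_mkHom {G : Type v} [Monoid G] (Y Z : Rep.{u} ℤ G) (f : Y.V →+ Z.V)
    (hf : ∀ (g : G) (y : Y.V), f (Y.ρ g y) = Z.ρ g (f y)) : Y ⟶ Z :=
  ga_mkHomGen Y Z f (fun n y => by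
    have h := @map_intCast_smul Y.V Z.V _ _ _ _ _ f ℤ ℤ _ _ Y.hV2 Z.hV2 n y
    simpa only [Int.cast_id] using h) hf

theorem ga_mkHom_apply {G : Type v} [Monoid G] (Y Z : Rep.{u} ℤ G) (f : Y.V →+ Z.V)
    (hf : ∀ (g : G) (y : Y.V), f (Y.ρ g y) = Z.ρ g (f y)) (y : Y.V) :
    (ga_mkHom Y Z f hf).hom y = f y := rfl

end MkHom

section Frob

open CategoryTheory

variable {k L F : Type} [Field k] [Field L] [Field F] [Algebra k L]
  [Algebra k F] [FiniteDimensional k L] [IsGalois k L]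

/-- **Frobenius reciprocity for the units of a Galois algebra** (the field `frob` of `ld_Data`):
a `D`-equivariant map `Y → X` into the "local" module `X` (a quotient of the units of
`F ⊗[k] L` with kernel `1 + m`, `D` the stabiliser of the maximal ideal `m`) lifts to a
`Gal(L/k)`-equivariant map `Y → (F ⊗[k] L)ˣ`. -/
theorem ga_frob (m : Ideal (F ⊗[k] L)) [hm : m.IsMaximal] (D : Subgroup (L ≃ₐ[k] L))
    (hD : ∀ g : L ≃ₐ[k] L, g ∈ D ↔ g • m = m) (X : Rep.{0} ℤ D)
    (pr : Rep.res D.subtype (Rep.ofMulDistribMulAction (L ≃ₐ[k] L) (F ⊗[k] L)ˣ) ⟶ X)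
    (hker : ∀ u : (F ⊗[k] L)ˣ,
      pr.hom (Additive.ofMul u : Additive (F ⊗[k] L)ˣ) = 0 ↔ (u : F ⊗[k] L) - 1 ∈ m)
    (hsurj : Function.Surjective pr.hom)
    (Y : Rep.{0} ℤ (L ≃ₐ[k] L)) (ψ' : Rep.res D.subtype Y ⟶ X) :
    ∃ ψ : Y ⟶ Rep.ofMulDistribMulAction (L ≃ₐ[k] L) (F ⊗[k] L)ˣ,
      (Rep.resFunctor D.subtype).map ψ ≫ pr = ψ' := by
  -- plain data
  let π : Additive (F ⊗[k] L)ˣ →+ X.V :=
    { toFun := fun a => pr.hom a
      map_zero' := map_zero pr.hom
      map_add' := fun a b => map_add pr.hom a b }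
  let ρ : D → X.V →+ X.V := fun d => (X.ρ d).toAddMonoidHom
  have hπρ : ∀ (d : D) (u : (F ⊗[k] L)ˣ),
      π (Additive.ofMul ((d : L ≃ₐ[k] L) • u)) = ρ d (π (Additive.ofMul u)) := by
    intro d u
    exact Rep.hom_comm_apply pr d (Additive.ofMul u : Additive (F ⊗[k] L)ˣ)
  have hker' : ∀ u : (F ⊗[k] L)ˣ, π (Additive.ofMul u) = 0 ↔ (u : F ⊗[k] L) - 1 ∈ m := hker
  have hsurj' : Function.Surjective π := hsurj
  -- the family attached to `y`
  have hex : ∀ y : Y.V, ∃ u : (F ⊗[k] L)ˣ, ∀ g : L ≃ₐ[k] L,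
      π (Additive.ofMul (g • u)) = ψ'.hom (Y.ρ g y) := by
    intro y
    apply ga_units_exists m D hD ρ π hπρ hker' hsurj' (fun g => ψ'.hom (Y.ρ g y))
    intro d g
    rw [map_mul]
    exact Rep.hom_comm_apply ψ' d (Y.ρ g y)
  choose w hw using hex
  have hadd : ∀ y y' : Y.V, w (y + y') = w y * w y' := by
    intro y y'
    apply ga_units_ext m π hker'
    intro g
    have h1 : π (Additive.ofMul (g • (w y * w y'))) =
        π (Additive.ofMul (g • w y)) + π (Additive.ofMul (g • w y')) := by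
      rw [smul_mul', ofMul_mul, map_add]
    rw [hw, h1, hw, hw, map_add, map_add]
  have hsmul : ∀ (γ : L ≃ₐ[k] L) (y : Y.V), w (Y.ρ γ y) = γ • w y := by
    intro γ y
    apply ga_units_ext m π hker'
    intro g
    rw [hw, ← mul_smul, hw, map_mul]
    rfl
  have hzero : w 0 = 1 := by
    have h := hadd 0 0
    rw [add_zero] at h
    have := congrArg (fun z => z * (w 0)⁻¹) h
    simpa using this.symm
  let ψ₀ : Y.V →+ Additive (F ⊗[k] L)ˣ :=
    { toFun := fun y => Additive.ofMul (w y)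
      map_zero' := by rw [hzero]; rfl
      map_add' := fun y y' => by rw [hadd]; rfl }
  refine ⟨ga_mkHom Y (Rep.ofMulDistribMulAction (L ≃ₐ[k] L) (F ⊗[k] L)ˣ) ψ₀ (fun γ y => by
      change Additive.ofMul (w (Y.ρ γ y)) = Additive.ofMul (γ • w y)
      rw [hsmul]), ?_⟩
  apply Rep.hom_ext
  refine DFunLike.ext _ _ (fun y => ?_)
  have h1 := hw y 1
  rw [one_smul, map_one] at h1
  exact h1

end Frob

end Fermat.Agent.S55
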