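import Fermat.Agent.S55.Idele.LocalField
import Fermat.Agent.S55.LevelFields

/-!
# S55, block G5: local and global inertia (prefix `il_`)

`L ⊆ ℚ̄` finite Galois over `ℚ`, `q` a prime.

* `il_exists_approx`: `L` is dense in `L·ℚ_q`;
* `il_inertia_eq_map`: the inertia group of the prime of `𝓞 L` below `padicPlace q` is the image
  under `θ = il_theta q L` of the inertia group of the local field `L·ℚ_q`
  (the converse of `il_theta_mem_inertia`);
* `il_inertia_smul`: the inertia group at `σ • A` is the conjugate by the restriction of `σ`.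
-/

set_option autoImplicit false
set_option linter.unusedSectionVars false

open scoped Pointwise
open NumberField

namespace Fermat.Agent.S55

open Fermat.Agent.S54 Fermat.Agent.S14.Reduction

attribute [local instance] Fermat.Agent.S54.galAction

local notation "GQ" => (AlgebraicClosure ℚ ≃ₐ[ℚ] AlgebraicClosure ℚ)
local notation "Qbar" => AlgebraicClosure ℚ

noncomputable section

/-- The ultrametric inequality for a difference. -/
theorem il_norm_sub_le_max {E : Type*} [SeminormedAddCommGroup E] [IsUltrametricDist E] (a b : E) :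
    ‖a - b‖ ≤ max ‖a‖ ‖b‖ := by
  rw [sub_eq_add_neg, ← norm_neg b]
  exact IsUltrametricDist.norm_add_le_max _ _

variable (q : ℕ) [Fact q.Prime] (L : IntermediateField ℚ Qbar)

/-- `L` is dense in `L·ℚ_q`. -/
theorem il_exists_approx (z : il_T ℚ_[q] L) {ε : ℝ} (hε : 0 < ε) :
    ∃ x : L, ‖il_ev q L z - il_emb q L x‖ < ε := by
  induction z using TensorProduct.induction_on generalizing ε with
  | zero => exact ⟨0, by rw [map_zero, map_zero, sub_zero, norm_zero]; exact hε⟩
  | tmul a x₀ =>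
    have hpos : 0 < ‖il_emb q L x₀‖ + 1 := by positivity
    obtain ⟨r, hr⟩ := Padic.rat_dense q a (div_pos hε hpos)
    refine ⟨(r : ↥L) * x₀, ?_⟩
    have h1 : il_ev q L (il_tm a x₀) - il_emb q L ((r : ↥L) * x₀) =
        algebraMap ℚ_[q] (PadicAlgCl q) (a - r) * il_emb q L x₀ := by
      rw [il_ev_tmul, map_mul, map_ratCast, ← il_emb_apply, map_sub, sub_mul, map_ratCast]
    have h2 : ‖algebraMap ℚ_[q] (PadicAlgCl q) (a - r)‖ = ‖a - r‖ := PadicAlgCl.norm_extends q _
    change ‖il_ev q L (il_tm a x₀) - il_emb q L ((r : ↥L) * x₀)‖ < ε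
    rw [h1, norm_mul, h2]
    calc ‖a - (r : ℚ_[q])‖ * ‖il_emb q L x₀‖ ≤ ‖a - (r : ℚ_[q])‖ * (‖il_emb q L x₀‖ + 1) := by
          apply mul_le_mul_of_nonneg_left _ (norm_nonneg _)
          linarith
      _ < ε / (‖il_emb q L x₀‖ + 1) * (‖il_emb q L x₀‖ + 1) :=
          mul_lt_mul_of_pos_right hr hpos
      _ = ε := div_mul_cancel₀ _ hpos.ne'
  | add z w hz hw =>
    obtain ⟨x, hx⟩ := hz hε
    obtain ⟨y, hy⟩ := hw hε
    refine ⟨x + y, ?_⟩
    have h1 : il_ev q L (z + w) - il_emb q L (x + y) =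
        (il_ev q L z - il_emb q L x) + (il_ev q L w - il_emb q L y) := by
      rw [map_add, map_add]; ring
    rw [h1]
    exact (IsUltrametricDist.norm_add_le_max _ _).trans_lt (max_lt hx hy)

section inertia

variable [FiniteDimensional ℚ L] [IsGalois ℚ L] [NumberField L]

/-- An element of the inertia group of the prime of `𝓞 L` below `padicPlace q` moves every
`q`-integral element of `L` by something of norm `< 1`. -/
theorem il_norm_sub_lt_one_of_inertia {σ : L ≃ₐ[ℚ] L}
    (hσ : σ ∈ (pl_ideal L (padicPlace q)).toAddSubgroup.inertia (L ≃ₐ[ℚ] L)) (x : L)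
    (hx : ‖il_emb q L x‖ ≤ 1) : ‖il_emb q L (σ x) - il_emb q L x‖ < 1 := by
  rw [← pl_map_inertia L (padicPlace q) Fact.out (pl_padicPlace_liesOver q)] at hσ
  obtain ⟨σ', hσ', rfl⟩ := hσ
  obtain ⟨-, h2⟩ := (tl_mem_inertiaSubgroupIn_iff (padicPlace q) σ').1 hσ'
  have h3 := h2 (x : Qbar) ((mem_padicPlace_iff q).2 hx)
  rw [ValuationSubring.mem_nonunits_iff, il_valuation_lt_one_iff, map_sub] at h3
  rw [il_emb_apply, il_emb_apply]
  have h4 : (((AlgEquiv.restrictNormalHom L σ') x : L) : Qbar) = σ' (x : Qbar) :=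
    AlgEquiv.restrictNormal_commutes σ' L x
  rw [h4]
  exact h3

/-- Every element of the inertia group of the prime of `𝓞 L` below `padicPlace q` is the image
under `θ` of an element of the inertia group of `L·ℚ_q/ℚ_q`. -/
theorem il_inertia_le_map_theta {σ : L ≃ₐ[ℚ] L}
    (hσ : σ ∈ (pl_ideal L (padicPlace q)).toAddSubgroup.inertia (L ≃ₐ[ℚ] L)) :
    ∃ τ ∈ lq_inertia (il_Lq q L), il_theta q L τ = σ := by
  have h1 : σ ∈ il_D q L := by
    rw [il_D_eq_stabilizer]
    exact Ideal.inertia_le_stabilizer (M := L ≃ₐ[ℚ] L) (pl_ideal L (padicPlace q)) hσ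
  rw [← il_range_theta] at h1
  obtain ⟨τ, rfl⟩ := h1
  refine ⟨τ, ?_, rfl⟩
  rw [lq_mem_inertia_iff]
  intro y hy
  obtain ⟨z, hz⟩ := il_exists_ev_eq q L y.2
  obtain ⟨x, hx⟩ := il_exists_approx q L z one_pos
  rw [hz] at hx
  -- `‖y - emb x‖ < 1`, hence `‖emb x‖ ≤ 1`
  have hx1 : ‖il_emb q L x‖ ≤ 1 := by
    have h2 : il_emb q L x = (y : PadicAlgCl q) - ((y : PadicAlgCl q) - il_emb q L x) := by ring
    rw [h2]
    refine (il_norm_sub_le_max _ _).trans (max_le ?_ hx.le)
    exact hy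
  have h3 := il_norm_sub_lt_one_of_inertia q L hσ x hx1
  set w : il_Lq q L := y - il_embLq q L x with hw
  have hwn : ‖w‖ < 1 := hx
  have h4 : τ y - y = (τ w - w) + (il_embLq q L (il_theta q L τ x) - il_embLq q L x) := by
    rw [il_embLq_theta, hw, map_sub]; ring
  rw [h4]
  refine (IsUltrametricDist.norm_add_le_max _ _).trans_lt (max_lt ?_ ?_)
  · refine (il_norm_sub_le_max _ _).trans_lt (max_lt ?_ hwn)
    rw [lq_norm_algEquiv]; exact hwn
  · exact h3

/-- **Local-global inertia.**  The inertia group of the prime of `𝓞 L` below `padicPlace q` is the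
image under `θ` of the inertia group of the local extension `L·ℚ_q/ℚ_q`. -/
theorem il_inertia_eq_map :
    (pl_ideal L (padicPlace q)).toAddSubgroup.inertia (L ≃ₐ[ℚ] L) =
      (lq_inertia (il_Lq q L)).map (il_theta q L) := by
  apply le_antisymm
  · intro σ hσ
    obtain ⟨τ, hτ, rfl⟩ := il_inertia_le_map_theta q L hσ
    exact Subgroup.mem_map_of_mem _ hτ
  · rintro _ ⟨τ, hτ, rfl⟩
    exact il_theta_mem_inertia q L hτ

/-- The same, inside the decomposition group `il_D q L`, through `il_galEquiv`. -/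
theorem il_inertia_subgroupOf_eq_map :
    ((pl_ideal L (padicPlace q)).toAddSubgroup.inertia (L ≃ₐ[ℚ] L)).subgroupOf (il_D q L) =
      (lq_inertia (il_Lq q L)).map (il_galEquiv q L).toMonoidHom := by
  ext ⟨σ, hσD⟩
  rw [Subgroup.mem_subgroupOf, il_inertia_eq_map, Subgroup.mem_map, Subgroup.mem_map]
  constructor
  · rintro ⟨τ, hτ, h⟩
    refine ⟨τ, hτ, Subtype.ext ?_⟩
    rw [MulEquiv.coe_toMonoidHom, il_galEquiv_coe]
    exact h
  · rintro ⟨τ, hτ, h⟩
    refine ⟨τ, hτ, ?_⟩
    rw [← il_galEquiv_coe]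
    exact congrArg Subtype.val h

end inertia

/-! ### Conjugation -/

/-- Inertia groups of conjugate ideals are conjugate. -/
theorem il_mem_inertia_smul_iff {G R : Type*} [Group G] [Ring R] [MulSemiringAction G R]
    (P : Ideal R) (g h : G) :
    h ∈ (g • P).toAddSubgroup.inertia G ↔ g⁻¹ * h * g ∈ P.toAddSubgroup.inertia G := by
  rw [AddSubgroup.mem_inertia, AddSubgroup.mem_inertia]
  constructor
  · intro H x
    have h1 := H (g • x)
    rw [Submodule.mem_toAddSubgroup, Ideal.mem_pointwise_smul_iff_inv_smul_mem, smul_sub,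
      inv_smul_smul, ← mul_smul, ← mul_smul] at h1
    exact h1
  · intro H x
    have h1 := H (g⁻¹ • x)
    rw [Submodule.mem_toAddSubgroup, Ideal.mem_pointwise_smul_iff_inv_smul_mem, smul_sub]
    rw [mul_smul, mul_smul, smul_inv_smul] at h1
    exact h1

theorem il_inertia_smul_eq_map {G R : Type*} [Group G] [Ring R] [MulSemiringAction G R]
    (P : Ideal R) (g : G) :
    (g • P).toAddSubgroup.inertia G =
      (P.toAddSubgroup.inertia G).map (MulAut.conj g).toMonoidHom := by
  ext h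
  rw [il_mem_inertia_smul_iff, Subgroup.mem_map]
  constructor
  · intro H
    refine ⟨_, H, ?_⟩
    rw [MulEquiv.coe_toMonoidHom, MulAut.conj_apply]
    group
  · rintro ⟨k, hk, rfl⟩
    rw [MulEquiv.coe_toMonoidHom, MulAut.conj_apply]
    have : g⁻¹ * (g * k * g⁻¹) * g = k := by group
    rw [this]; exact hk

section conj

variable [FiniteDimensional ℚ L] [IsGalois ℚ L] [NumberField L]

/-- The inertia group at `σ • A` is the conjugate by the restriction of `σ`. -/
theorem il_inertia_smul (A : ValuationSubring Qbar) (σ : GQ) :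
    (pl_ideal L (σ • A)).toAddSubgroup.inertia (L ≃ₐ[ℚ] L) =
      ((pl_ideal L A).toAddSubgroup.inertia (L ≃ₐ[ℚ] L)).map
        (MulAut.conj (AlgEquiv.restrictNormalHom L σ)).toMonoidHom := by
  rw [pl_ideal_smul, il_inertia_smul_eq_map]

/-- The inertia group of `Gal(L/ℚ)` at any place `A` of `ℚ̄` over `q` is a conjugate of
`θ (lq_inertia (L·ℚ_q))`. -/
theorem il_inertia_eq_conj (A : ValuationSubring Qbar) (hA : A.LiesOverPrime q) :
    ∃ g : L ≃ₐ[ℚ] L, (pl_ideal L A).toAddSubgroup.inertia (L ≃ₐ[ℚ] L) =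
      ((lq_inertia (il_Lq q L)).map (il_theta q L)).map (MulAut.conj g).toMonoidHom := by
  obtain ⟨σ, rfl⟩ := pl_exists_smul_padicPlace q A hA
  exact ⟨AlgEquiv.restrictNormalHom L σ, by rw [il_inertia_smul, il_inertia_eq_map]⟩

/-- Membership form: `σ` lies in some inertia group over `q` iff a conjugate of `σ` lies in
`θ (lq_inertia (L·ℚ_q))`. -/
theorem il_mem_inertia_iff_conj (σ : L ≃ₐ[ℚ] L) :
    (∃ A : ValuationSubring Qbar, A.LiesOverPrime q ∧
        σ ∈ (pl_ideal L A).toAddSubgroup.inertia (L ≃ₐ[ℚ] L)) ↔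
      ∃ g : L ≃ₐ[ℚ] L, g⁻¹ * σ * g ∈ (lq_inertia (il_Lq q L)).map (il_theta q L) := by
  constructor
  · rintro ⟨A, hA, hσ⟩
    obtain ⟨τ, rfl⟩ := pl_exists_smul_padicPlace q A hA
    rw [pl_ideal_smul, il_mem_inertia_smul_iff, il_inertia_eq_map] at hσ
    exact ⟨_, hσ⟩
  · rintro ⟨g, hg⟩
    have : Algebra.IsAlgebraic ℚ Qbar := AlgebraicClosure.isAlgebraic ℚ
    have : IsAlgClosure ℚ Qbar := ⟨inferInstance, inferInstance⟩
    have hnQ : Normal ℚ Qbar := IsAlgClosure.normal ℚ Qbar
    obtain ⟨τ, hτ⟩ := AlgEquiv.restrictNormalHom_surjective (F := ℚ) (K₁ := ↥L) Qbar g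
    refine ⟨τ • padicPlace q, ?_, ?_⟩
    · exact tl_liesOverPrime_smul τ (padicPlace q) q (pl_padicPlace_liesOver q)
    · rw [pl_ideal_smul, il_mem_inertia_smul_iff, il_inertia_eq_map, hτ]
      exact hg

end conj

end

end Fermat.Agent.S55
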