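import Fermat.Agent.S55.Idele.LocalSeam
import Fermat.Agent.S55.LocalCF.LqUnr
import Fermat.Agent.S55.LocalCF.UnrTransport

/-!
# S55 / glue [L] → [G]: the unramified formula for the local class modules of the seam

`ils_unr p q L : lcu_Unr (ils_Pq p q L)`: the unramified formula `lq_unrData` of `lq_pclass`
(`LocalCF/LqUnr`) transported along `il_galEquiv` (`LocalCF/UnrTransport`) to the decomposition
group `il_D q L`.
-/

set_option autoImplicit false
set_option linter.unusedSectionVars false

open scoped TensorProduct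
open ExtCitation NumberField groupCohomology CategoryTheory

namespace Fermat.Agent.S55

local notation "Qbar" => AlgebraicClosure ℚ

noncomputable section

variable (p : ℕ) [Fact p.Prime] (q : Nat.Primes) (L : IntermediateField ℚ Qbar)
  [FiniteDimensional ℚ L] [Normal ℚ L]

/-- **The unramified formula for the local class module of the seam.** -/
def ils_unr : lcu_Unr (ils_Pq p q L) :=
  (lq_unrData p (il_Lq (q : ℕ) L)).transportGroup (ils_e q L)

@[simp] theorem ils_unr_I :
    (ils_unr p q L).I = (lq_inertia (il_Lq (q : ℕ) L)).comap (ils_e q L : _ →* _) := rfl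

@[simp] theorem ils_unr_frob :
    (ils_unr p q L).frob = (ils_e q L).symm (lq_formation (il_Lq (q : ℕ) L)).frob := rfl

theorem ils_unr_frob' :
    (ils_unr p q L).frob = il_galEquiv (q : ℕ) L (lq_formation (il_Lq (q : ℕ) L)).frob := rfl

@[simp] theorem ils_unr_v (x : (il_Xq q L).V) :
    (ils_unr p q L).v x = lq_ordZ (il_Lq (q : ℕ) L)
      ((il_Xq.val q L x : (↥(il_Lq (q : ℕ) L))ˣ) : ↥(il_Lq (q : ℕ) L)) := rfl

theorem ils_mem_unr_I (d : ↥(il_D (q : ℕ) L)) :
    d ∈ (ils_unr p q L).I ↔ ils_e q L d ∈ lq_inertia (il_Lq (q : ℕ) L) := Iff.rfl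

/-- If `L·ℚ_q/ℚ_q` is unramified then the inertia subgroup of `ils_unr` is trivial. -/
theorem ils_unr_I_eq_bot (h : lq_inertia (il_Lq (q : ℕ) L) = ⊥) : (ils_unr p q L).I = ⊥ := by
  rw [ils_unr_I, h, eq_bot_iff]
  intro d hd
  rw [Subgroup.mem_comap, Subgroup.mem_bot] at hd
  rw [Subgroup.mem_bot]
  exact (ils_e q L).injective (hd.trans (map_one _).symm)

end

end Fermat.Agent.S55
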