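import Fermat.Agent.S55.Idele.LevelTransition
import Fermat.Agent.S55.LocalCF.InfPi

/-!
# S55 / block [G]: the transition maps as inflation data

For number fields `K ⊆ L` and a homomorphism `π : (L ≃ₐ[ℚ] L) →* (K ≃ₐ[ℚ] K)` compatible with the
inclusion (`id_Compat K L (π σ) σ`, e.g. restriction of automorphisms when `K/ℚ` is normal), the
transition maps are morphisms of `Rep ℤ (L ≃ₐ[ℚ] L)`

* `id_KmapRep : Res(π) Kˣ ⟶ Lˣ`, `id_AmapRep q : Res(π) (ℚ_q ⊗ K)ˣ ⟶ (ℚ_q ⊗ L)ˣ`,
  `id_JmapRep : Res(π) J_S(K) ⟶ J_S(L)`, `id_CmapRep : Res(π) C_S(K) ⟶ C_S(L)`,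

and inflation data in the sense of `lc_IsInfl` when `π` is onto with kernel `H`, `id_IsGal K L H`
(and `L/K` unramified outside `S` for `J` and `C`).  `id_lev_*`: the case of levels `a ≤ b`
with `π = du_Lev.res h`.
-/

set_option autoImplicit false
set_option linter.style.haveILetI false
set_option linter.unusedSectionVars false

open scoped TensorProduct NumberField nonZeroDivisors Pointwise
open IsDedekindDomain CategoryTheory

noncomputable section

namespace Fermat.Agent.S55

section generic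

variable (S : Finset Nat.Primes) (K L : Type) [Field K] [NumberField K] [Field L] [NumberField L]
  [Algebra K L] (π : (L ≃ₐ[ℚ] L) →* (K ≃ₐ[ℚ] K)) (hπ : ∀ σ, id_Compat K L (π σ) σ)

/-- An equivariant homomorphism `M → M'` along `π` as a morphism `Res(π) M ⟶ M'`. -/
def id_repHomAlong {G Q : Type} [Group G] [Group Q] (π : G →* Q) {M M' : Type} [CommGroup M]
    [CommGroup M'] [MulDistribMulAction Q M] [MulDistribMulAction G M'] (f : M →* M')
    (hf : ∀ (g : G) (x : M), f (π g • x) = g • f x) :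
    Rep.res π (Rep.ofMulDistribMulAction Q M) ⟶ Rep.ofMulDistribMulAction G M' :=
  Rep.ofHom ⟨(MonoidHom.toAdditive f).toIntLinearMap, fun g => by
    ext x
    exact congrArg Additive.ofMul (hf g (Additive.toMul x))⟩

theorem id_repHomAlong_apply {G Q : Type} [Group G] [Group Q] (π : G →* Q) {M M' : Type}
    [CommGroup M] [CommGroup M'] [MulDistribMulAction Q M] [MulDistribMulAction G M'] (f : M →* M')
    (hf : ∀ (g : G) (x : M), f (π g • x) = g • f x) (x : M) :
    (id_repHomAlong π f hf).hom (Additive.ofMul x) = Additive.ofMul (f x) := rfl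

/-- `C_S(K) → C_S(L)` as a morphism of `Rep`. -/
def id_CmapRep : Rep.res π (id_CRep S K) ⟶ id_CRep S L :=
  id_repHomAlong π (id_Cmap S K L) (fun σ c => id_Cmap_smul S K L (hπ σ) c)

/-- `J_S(K) → J_S(L)` as a morphism of `Rep`. -/
def id_JmapRep : Rep.res π (id_JRep S K) ⟶ id_JRep S L :=
  id_repHomAlong π (id_Jmap S K L) (fun σ z => id_Jmap_smul S K L (hπ σ) z)

/-- `(ℚ_q ⊗ K)ˣ → (ℚ_q ⊗ L)ˣ` as a morphism of `Rep`. -/
def id_AmapRep (q : Nat.Primes) : Rep.res π (id_ARep K q) ⟶ id_ARep L q :=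
  id_repHomAlong π (id_AmapU K L q) (fun σ u => id_AmapU_smul K L q (π σ) σ (hπ σ) u)

/-- `Kˣ → Lˣ` as a morphism of `Rep`. -/
def id_KmapRep : Rep.res π (id_KRep K) ⟶ id_KRep L :=
  id_repHomAlong π (id_unitsMap K L) (fun σ x => id_unitsMap_smul K L (hπ σ) x)

theorem id_CmapRep_apply (c : id_C S K) :
    (id_CmapRep S K L π hπ).hom (Additive.ofMul c) = Additive.ofMul (id_Cmap S K L c) := rfl

theorem id_JmapRep_apply (z : id_J S K) :
    (id_JmapRep S K L π hπ).hom (Additive.ofMul z) = Additive.ofMul (id_Jmap S K L z) := rfl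

theorem id_AmapRep_apply (q : Nat.Primes) (u : (id_A K q)ˣ) :
    (id_AmapRep K L π hπ q).hom (Additive.ofMul u) = Additive.ofMul (id_AmapU K L q u) := rfl

theorem id_KmapRep_apply (x : Kˣ) :
    (id_KmapRep K L π hπ).hom (Additive.ofMul x) = Additive.ofMul (id_unitsMap K L x) := rfl

/-- Compatibility with `J → C`. -/
theorem id_CmapRep_toC (z : (id_JRep S K).V) :
    (id_CmapRep S K L π hπ).hom ((id_toCRep S K).hom z) =
      (id_toCRep S L).hom ((id_JmapRep S K L π hπ).hom z) := rfl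

/-- Compatibility with the diagonal `Kˣ → J`. -/
theorem id_JmapRep_diag (x : (id_KRep K).V) :
    (id_JmapRep S K L π hπ).hom ((id_diagRep S K).hom x) =
      (id_diagRep S L).hom ((id_KmapRep K L π hπ).hom x) :=
  congrArg Additive.ofMul (id_Jmap_diag S K L (Additive.toMul x))

/-- Compatibility with `j_q`. -/
theorem id_CmapRep_jq (q : ↥S) (u : (id_ARep K q.1).V) :
    (id_CmapRep S K L π hπ).hom ((id_jqRep S K q).hom u) =
      (id_jqRep S L q).hom ((id_AmapRep K L π hπ q.1).hom u) :=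
  congrArg Additive.ofMul (id_Cmap_jq S K L q (Additive.toMul u))

variable {K L π}

/-- `Kˣ = (Lˣ)^H`. -/
theorem id_isInfl_K (hsurj : Function.Surjective π) (hgal : id_IsGal K L π.ker) :
    lc_IsInfl π (id_KmapRep K L π hπ) where
  surj := hsurj
  inj := fun x y hxy => by
    have h1 : id_unitsMap K L (Additive.toMul x) = id_unitsMap K L (Additive.toMul y) :=
      congrArg Additive.toMul hxy
    apply Additive.toMul.injective
    apply Units.ext
    apply (algebraMap K L).injective
    exact congrArg (fun u : Lˣ => (u : L)) h1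
  range := fun a ha => by
    obtain ⟨x, hx⟩ := hgal.unitsMap_range (Additive.toMul a)
      (fun σ hσ => congrArg Additive.toMul (ha σ hσ))
    exact ⟨Additive.ofMul x, congrArg Additive.ofMul hx⟩

/-- `(ℚ_q ⊗ K)ˣ = ((ℚ_q ⊗ L)ˣ)^H`. -/
theorem id_isInfl_A (hsurj : Function.Surjective π) (hgal : id_IsGal K L π.ker) (q : Nat.Primes) :
    lc_IsInfl π (id_AmapRep K L π hπ q) where
  surj := hsurj
  inj := fun x y hxy => by
    have h1 : id_AmapU K L q (Additive.toMul x) = id_AmapU K L q (Additive.toMul y) :=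
      congrArg Additive.toMul hxy
    exact congrArg Additive.ofMul (id_AmapU_injective K L q h1)
  range := fun a ha => by
    obtain ⟨u, hu⟩ := hgal.AmapU_range q (Additive.toMul a)
      (fun σ hσ => congrArg Additive.toMul (ha σ hσ))
    exact ⟨Additive.ofMul u, congrArg Additive.ofMul hu⟩

/-- `J_S(K) = J_S(L)^H` for `L/K` unramified outside `S`. -/
theorem id_isInfl_J (hsurj : Function.Surjective π) (hgal : id_IsGal K L π.ker)
    (hunr : ∀ w : id_P S L, id_e K L w.1 = 1) : lc_IsInfl π (id_JmapRep S K L π hπ) where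
  surj := hsurj
  inj := fun x y hxy => by
    have h1 : id_Jmap S K L (Additive.toMul x) = id_Jmap S K L (Additive.toMul y) :=
      congrArg Additive.toMul hxy
    exact congrArg Additive.ofMul (id_Jmap_injective S K L h1)
  range := fun a ha => by
    obtain ⟨z, hz⟩ := hgal.Jmap_range S hunr (Additive.toMul a)
      (fun σ hσ => congrArg Additive.toMul (ha σ hσ))
    exact ⟨Additive.ofMul z, congrArg Additive.ofMul hz⟩

/-- `C_S(K) = C_S(L)^H` for `L/K` unramified outside `S`, `S ≠ ∅`. -/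
theorem id_isInfl_C (hS : S.Nonempty) (hsurj : Function.Surjective π)
    (hgal : id_IsGal K L π.ker) (hunr : ∀ w : id_P S L, id_e K L w.1 = 1) :
    lc_IsInfl π (id_CmapRep S K L π hπ) where
  surj := hsurj
  inj := fun x y hxy => by
    have h1 : id_Cmap S K L (Additive.toMul x) = id_Cmap S K L (Additive.toMul y) :=
      congrArg Additive.toMul hxy
    exact congrArg Additive.ofMul (hgal.Cmap_injective S hS h1)
  range := fun a ha => by
    obtain ⟨c, hc⟩ := hgal.Cmap_range S hS hunr (Additive.toMul a)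
      (fun σ hσ => congrArg Additive.toMul (ha σ hσ))
    exact ⟨Additive.ofMul c, congrArg Additive.ofMul hc⟩

end generic

/-! ### Levels -/

section levels

local notation "Qbar" => AlgebraicClosure ℚ
local notation "GQ" => (AlgebraicClosure ℚ ≃ₐ[ℚ] AlgebraicClosure ℚ)

variable {S : Finset Nat.Primes}

theorem id_lev_compat_res {a b : du_Lev S} (h : a ≤ b) (σ : b.Γ) :
    letI := id_levAlgebra h
    id_Compat a.L b.L (du_Lev.res h σ) σ := by
  letI := id_levAlgebra h
  obtain ⟨τ, rfl⟩ := b.q_surjective σ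
  rw [du_Lev.res_q]
  exact id_lev_compat h τ

theorem id_lev_isGal_ker {a b : du_Lev S} (h : a ≤ b) :
    letI := id_levAlgebra h
    id_IsGal a.L b.L (du_Lev.res h).ker := by
  rw [du_Lev.ker_res]
  exact id_lev_isGal h

variable (S) in
/-- `C_S(a) → C_S(b)` as a morphism of `Rep ℤ Γ_b`. -/
def id_levCmapRep {a b : du_Lev S} (h : a ≤ b) :
    Rep.res (du_Lev.res h) (id_CRep S a.L) ⟶ id_CRep S b.L :=
  letI := id_levAlgebra h
  id_CmapRep S a.L b.L (du_Lev.res h) (id_lev_compat_res h)

variable (S) in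
/-- `J_S(a) → J_S(b)` as a morphism of `Rep ℤ Γ_b`. -/
def id_levJmapRep {a b : du_Lev S} (h : a ≤ b) :
    Rep.res (du_Lev.res h) (id_JRep S a.L) ⟶ id_JRep S b.L :=
  letI := id_levAlgebra h
  id_JmapRep S a.L b.L (du_Lev.res h) (id_lev_compat_res h)

/-- `(ℚ_q ⊗ a)ˣ → (ℚ_q ⊗ b)ˣ` as a morphism of `Rep ℤ Γ_b`. -/
def id_levAmapRep {a b : du_Lev S} (h : a ≤ b) (q : Nat.Primes) :
    Rep.res (du_Lev.res h) (id_ARep a.L q) ⟶ id_ARep b.L q :=
  letI := id_levAlgebra h
  id_AmapRep a.L b.L (du_Lev.res h) (id_lev_compat_res h) q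

/-- `aˣ → bˣ` as a morphism of `Rep ℤ Γ_b`. -/
def id_levKmapRep {a b : du_Lev S} (h : a ≤ b) :
    Rep.res (du_Lev.res h) (id_KRep a.L) ⟶ id_KRep b.L :=
  letI := id_levAlgebra h
  id_KmapRep a.L b.L (du_Lev.res h) (id_lev_compat_res h)

theorem id_levCmapRep_hom {a b : du_Lev S} (h : a ≤ b) (c : (id_CRep S a.L).V) :
    (id_levCmapRep S h).hom c = id_tC h c := rfl

theorem id_levAmapRep_hom {a b : du_Lev S} (h : a ≤ b) (q : ↥S) (x : (id_ARep a.L q.1).V) :
    (id_levAmapRep h q.1).hom x = id_tJ h q x := rfl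

theorem id_lev_isInfl_C (hS : S.Nonempty) (hunr : id_LevUnram S) {a b : du_Lev S} (h : a ≤ b) :
    lc_IsInfl (du_Lev.res h) (id_levCmapRep S h) := by
  letI := id_levAlgebra h
  exact id_isInfl_C S (id_lev_compat_res h) hS (du_Lev.res_surjective h) (id_lev_isGal_ker h)
    (hunr h)

theorem id_lev_isInfl_J (hunr : id_LevUnram S) {a b : du_Lev S} (h : a ≤ b) :
    lc_IsInfl (du_Lev.res h) (id_levJmapRep S h) := by
  letI := id_levAlgebra h
  exact id_isInfl_J S (id_lev_compat_res h) (du_Lev.res_surjective h) (id_lev_isGal_ker h)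
    (hunr h)

theorem id_lev_isInfl_A {a b : du_Lev S} (h : a ≤ b) (q : Nat.Primes) :
    lc_IsInfl (du_Lev.res h) (id_levAmapRep h q) := by
  letI := id_levAlgebra h
  exact id_isInfl_A (id_lev_compat_res h) (du_Lev.res_surjective h) (id_lev_isGal_ker h) q

theorem id_lev_isInfl_K {a b : du_Lev S} (h : a ≤ b) :
    lc_IsInfl (du_Lev.res h) (id_levKmapRep h) := by
  letI := id_levAlgebra h
  exact id_isInfl_K (id_lev_compat_res h) (du_Lev.res_surjective h) (id_lev_isGal_ker h)

end levels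

end Fermat.Agent.S55
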