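import Fermat.Agent.S55.Idele.AbsLevels
import Fermat.Agent.S55.Idele.LevelInfl

/-!
# S55 / block [G]: the transition maps as inflation data for field levels `ia_Lev T`

The `ia_Lev T` versions (plain finite Galois fields unramified outside `T`, no roots of unity
required) of the level part of `Idele/LevelInfl.lean`: for field levels `a ≤ b` with
`π = ia_Lev.res h : Γ_b →* Γ_a`:

* `id_iaKmapRep`, `id_iaAmapRep`, `id_iaJmapRep`, `id_iaCmapRep` : the transition maps as morphisms
  `Res(π) M_a ⟶ M_b`;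
* `id_ia_isInfl_K/A/J/C` : they are inflation data (`lc_IsInfl`);
* the squares with `J → C`, the diagonal and `j_q`.
-/

set_option autoImplicit false
set_option linter.style.haveILetI false
set_option linter.unusedSectionVars false

open scoped TensorProduct NumberField nonZeroDivisors Pointwise
open IsDedekindDomain CategoryTheory

noncomputable section

namespace Fermat.Agent.S55

local notation "Qbar" => AlgebraicClosure ℚ
local notation "GQ" => (AlgebraicClosure ℚ ≃ₐ[ℚ] AlgebraicClosure ℚ)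

variable {T : Finset Nat.Primes}

theorem id_ia_isGal_ker {a b : ia_Lev T} (h : a ≤ b) :
    letI := ia_algebra h
    id_IsGal a.L b.L (ia_Lev.res h).ker := by
  rw [ia_Lev.ker_res]
  exact ia_isGal h

variable (T) in
/-- `C_T(a) → C_T(b)` as a morphism of `Rep ℤ Γ_b`. -/
def id_iaCmapRep {a b : ia_Lev T} (h : a ≤ b) :
    Rep.res (ia_Lev.res h) (id_CRep T a.L) ⟶ id_CRep T b.L :=
  letI := ia_algebra h
  id_CmapRep T a.L b.L (ia_Lev.res h) (ia_compat_res h)

variable (T) in
/-- `J_T(a) → J_T(b)` as a morphism of `Rep ℤ Γ_b`. -/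
def id_iaJmapRep {a b : ia_Lev T} (h : a ≤ b) :
    Rep.res (ia_Lev.res h) (id_JRep T a.L) ⟶ id_JRep T b.L :=
  letI := ia_algebra h
  id_JmapRep T a.L b.L (ia_Lev.res h) (ia_compat_res h)

/-- `(ℚ_q ⊗ a)ˣ → (ℚ_q ⊗ b)ˣ` as a morphism of `Rep ℤ Γ_b`. -/
def id_iaAmapRep {a b : ia_Lev T} (h : a ≤ b) (q : Nat.Primes) :
    Rep.res (ia_Lev.res h) (id_ARep a.L q) ⟶ id_ARep b.L q :=
  letI := ia_algebra h
  id_AmapRep a.L b.L (ia_Lev.res h) (ia_compat_res h) q

/-- `aˣ → bˣ` as a morphism of `Rep ℤ Γ_b`. -/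
def id_iaKmapRep {a b : ia_Lev T} (h : a ≤ b) :
    Rep.res (ia_Lev.res h) (id_KRep a.L) ⟶ id_KRep b.L :=
  letI := ia_algebra h
  id_KmapRep a.L b.L (ia_Lev.res h) (ia_compat_res h)

theorem id_iaCmapRep_apply {a b : ia_Lev T} (h : a ≤ b) (c : id_C T a.L) :
    letI := ia_algebra h
    (id_iaCmapRep T h).hom (Additive.ofMul c) = Additive.ofMul (id_Cmap T a.L b.L c) := rfl

theorem id_iaJmapRep_apply {a b : ia_Lev T} (h : a ≤ b) (z : id_J T a.L) :
    letI := ia_algebra h
    (id_iaJmapRep T h).hom (Additive.ofMul z) = Additive.ofMul (id_Jmap T a.L b.L z) := rfl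

theorem id_iaAmapRep_apply {a b : ia_Lev T} (h : a ≤ b) (q : Nat.Primes) (u : (id_A a.L q)ˣ) :
    letI := ia_algebra h
    (id_iaAmapRep h q).hom (Additive.ofMul u) = Additive.ofMul (id_AmapU a.L b.L q u) := rfl

theorem id_iaKmapRep_apply {a b : ia_Lev T} (h : a ≤ b) (x : (a.L)ˣ) :
    letI := ia_algebra h
    (id_iaKmapRep h).hom (Additive.ofMul x) = Additive.ofMul (id_unitsMap a.L b.L x) := rfl

/-- Compatibility with `J → C`. -/
theorem id_iaCmapRep_toC {a b : ia_Lev T} (h : a ≤ b) (z : (id_JRep T a.L).V) :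
    (id_iaCmapRep T h).hom ((id_toCRep T a.L).hom z) =
      (id_toCRep T b.L).hom ((id_iaJmapRep T h).hom z) := rfl

/-- Compatibility with the diagonal. -/
theorem id_iaJmapRep_diag {a b : ia_Lev T} (h : a ≤ b) (x : (id_KRep a.L).V) :
    (id_iaJmapRep T h).hom ((id_diagRep T a.L).hom x) =
      (id_diagRep T b.L).hom ((id_iaKmapRep h).hom x) := by
  letI := ia_algebra h
  exact id_JmapRep_diag T a.L b.L (ia_Lev.res h) (ia_compat_res h) x

/-- Compatibility with `j_q`. -/
theorem id_iaCmapRep_jq {a b : ia_Lev T} (h : a ≤ b) (q : ↥T) (u : (id_ARep a.L q.1).V) :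
    (id_iaCmapRep T h).hom ((id_jqRep T a.L q).hom u) =
      (id_jqRep T b.L q).hom ((id_iaAmapRep h q.1).hom u) := by
  letI := ia_algebra h
  exact id_CmapRep_jq T a.L b.L (ia_Lev.res h) (ia_compat_res h) q u

theorem id_ia_isInfl_C (hT : T.Nonempty) {a b : ia_Lev T} (h : a ≤ b) :
    lc_IsInfl (ia_Lev.res h) (id_iaCmapRep T h) := by
  letI := ia_algebra h
  exact id_isInfl_C T (ia_compat_res h) hT (ia_Lev.res_surjective h) (id_ia_isGal_ker h)
    (ia_unram h)

theorem id_ia_isInfl_J {a b : ia_Lev T} (h : a ≤ b) :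
    lc_IsInfl (ia_Lev.res h) (id_iaJmapRep T h) := by
  letI := ia_algebra h
  exact id_isInfl_J T (ia_compat_res h) (ia_Lev.res_surjective h) (id_ia_isGal_ker h)
    (ia_unram h)

theorem id_ia_isInfl_A {a b : ia_Lev T} (h : a ≤ b) (q : Nat.Primes) :
    lc_IsInfl (ia_Lev.res h) (id_iaAmapRep h q) := by
  letI := ia_algebra h
  exact id_isInfl_A (ia_compat_res h) (ia_Lev.res_surjective h) (id_ia_isGal_ker h) q

theorem id_ia_isInfl_K {a b : ia_Lev T} (h : a ≤ b) :
    lc_IsInfl (ia_Lev.res h) (id_iaKmapRep h) := by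
  letI := ia_algebra h
  exact id_isInfl_K (ia_compat_res h) (ia_Lev.res_surjective h) (id_ia_isGal_ker h)

/-- For `S`-levels seen as field levels the maps are the level maps. -/
theorem id_iaCmapRep_ofLev {S : Finset Nat.Primes} {a b : du_Lev S} (h : a ≤ b) :
    id_iaCmapRep S (a := ia_ofLev (Finset.Subset.refl S) a) (b := ia_ofLev (Finset.Subset.refl S) b)
      h = id_levCmapRep S h := rfl

theorem id_iaJmapRep_ofLev {S : Finset Nat.Primes} {a b : du_Lev S} (h : a ≤ b) :
    id_iaJmapRep S (a := ia_ofLev (Finset.Subset.refl S) a) (b := ia_ofLev (Finset.Subset.refl S) b)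
      h = id_levJmapRep S h := rfl

end Fermat.Agent.S55
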