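/-
S55 / block [G3] glue (helper23): the cyclic layers of the `S`-idele class group.
For a number field `L0` (a `Type`) Galois over `ℚ`, `Γ = Gal(L0/ℚ)`, `H ≤ Γ`, `N ⊴ H`, put
`E' = L0^H`, `F' = L0^N` (number fields as types, from the field dictionary `fdi_layer*`).  Then
`(Gal(F'/E') acting on C_S(F'))` with `C_S(F') → C_S(L0)` is an inflation datum for the layer
(Galois descent for idele classes, `Idele/Descent.lean`), so the cyclic-layer hypothesis of the
devissage for `C_S(L0)` follows from the two inequalities for the cyclic extensions `F'/E'`.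
Prefix `idl_`.
-/
import Mathlib
import Fermat.Agent.S55.Idele.Descent
import Fermat.Agent.S55.LocalCF.FieldDictC
import Fermat.Agent.S55.FinGrp.LayerInfl

set_option autoImplicit false
set_option linter.unusedSectionVars false

noncomputable section

namespace Fermat.Agent.S55

open CategoryTheory groupCohomology IsDedekindDomain

/-! ### Relative automorphisms as `ℚ`-automorphisms -/

section toRat

variable {E F : Type} [Field E] [Field F] [CharZero F] [Algebra E F]

/-- An `E`-automorphism of a field `F` of characteristic zero, as a `ℚ`-automorphism. -/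
def idl_toRat : (F ≃ₐ[E] F) →* (F ≃ₐ[ℚ] F) where
  toFun σ := AlgEquiv.ofRingEquiv (f := σ.toRingEquiv) (fun q => by
    show σ (algebraMap ℚ F q) = algebraMap ℚ F q
    rw [eq_ratCast, map_ratCast])
  map_one' := by ext x; rfl
  map_mul' σ τ := by ext x; rfl

@[simp] theorem idl_toRat_apply (σ : F ≃ₐ[E] F) (x : F) : idl_toRat σ x = σ x := rfl

theorem idl_toRat_injective : Function.Injective (idl_toRat (E := E) (F := F)) := by
  intro σ τ h
  ext x
  exact congrArg (fun f : F ≃ₐ[ℚ] F => f x) h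

end toRat

/-! ### The layer -/

variable (S : Finset Nat.Primes) {L0 : Type} [Field L0] [NumberField L0] [IsGalois ℚ L0]

variable (H : Subgroup (L0 ≃ₐ[ℚ] L0)) (N : Subgroup ↥H)

/-- `L0 / F'` is Galois with group (the image of) `N`. -/
theorem idl_isGal : id_IsGal (fdi_layerTop H N) L0 (N.map H.subtype) where
  fixes := by
    rintro σ ⟨n, hn, rfl⟩ x
    exact (fdi_mem_layerTop_iff H N (x : L0)).1 x.2 n hn
  fixed := fun y hy =>
    ⟨⟨y, (fdi_mem_layerTop_iff H N y).2 (fun n hn => hy _ ⟨n, hn, rfl⟩)⟩, rfl⟩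

variable [N.Normal]

/-- The projection `H → Gal(F'/E')`. -/
def idl_pi : ↥H →* (fdi_layerTop H N ≃ₐ[fdi_layerBase H] fdi_layerTop H N) :=
  (fdi_layerEquiv H N : ↥H ⧸ N →* _).comp (QuotientGroup.mk' N)

theorem idl_pi_apply (h : ↥H) (x : fdi_layerTop H N) :
    ((idl_pi H N h x : fdi_layerTop H N) : L0) = (h : L0 ≃ₐ[ℚ] L0) (x : L0) :=
  fdi_layerEquiv_mk H N h x

theorem idl_pi_surjective : Function.Surjective (idl_pi H N) :=
  (fdi_layerEquiv H N).surjective.comp (QuotientGroup.mk'_surjective N)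

theorem idl_pi_ker : (idl_pi H N).ker = N := by
  ext h
  rw [MonoidHom.mem_ker, idl_pi, MonoidHom.comp_apply]
  rw [MonoidHom.coe_coe, map_eq_one_iff _ (fdi_layerEquiv H N).injective,
    QuotientGroup.mk'_apply, QuotientGroup.eq_one_iff]

/-- Compatibility of `h ∈ H` with its image in `Gal(F'/E')`. -/
theorem idl_compat (h : ↥H) :
    id_Compat (fdi_layerTop H N) L0 (idl_toRat (idl_pi H N h)) (h : L0 ≃ₐ[ℚ] L0) := fun x =>
  (idl_pi_apply H N h x).symm

/-- The `Gal(F'/E')`-module `C_S(F')`. -/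
abbrev idl_B : Rep.{0} ℤ (fdi_layerTop H N ≃ₐ[fdi_layerBase H] fdi_layerTop H N) :=
  Rep.res (idl_toRat (E := fdi_layerBase H) (F := fdi_layerTop H N))
    (id_CRep S (fdi_layerTop H N))

/-- `C_S(F') → C_S(L0)` as a morphism of `H`-modules. -/
def idl_phi : Rep.res (idl_pi H N) (idl_B S H N) ⟶ Rep.res H.subtype (id_CRep S L0) :=
  Rep.ofHom ⟨(MonoidHom.toAdditive (id_Cmap S (fdi_layerTop H N) L0)).toIntLinearMap, fun h => by
    ext c
    exact congrArg Additive.ofMul
      (id_Cmap_smul S (fdi_layerTop H N) L0 (idl_compat H N h) (Additive.toMul c))⟩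

theorem idl_phi_apply (c : id_C S (fdi_layerTop H N)) :
    (idl_phi S H N).hom (Additive.ofMul c) =
      Additive.ofMul (id_Cmap S (fdi_layerTop H N) L0 c) := rfl

/-- **Galois descent for the layer**: `(π, C_S(F') → C_S(L0))` is an inflation datum. -/
theorem idl_isInfl (hS : S.Nonempty)
    (hunr : ∀ w : id_P S L0, id_e (fdi_layerTop H N) L0 w.1 = 1) :
    lc_IsInfl (idl_pi H N) (idl_phi S H N) where
  surj := idl_pi_surjective H N
  inj := fun x y hxy => by
    have h1 : id_Cmap S (fdi_layerTop H N) L0 (Additive.toMul x) =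
        id_Cmap S (fdi_layerTop H N) L0 (Additive.toMul y) := congrArg Additive.toMul hxy
    exact congrArg Additive.ofMul ((idl_isGal H N).Cmap_injective S hS h1)
  range := fun a ha => by
    obtain ⟨c₀, hc₀⟩ := (idl_isGal H N).Cmap_range S hS hunr
      (Additive.toMul (show Additive (id_C S L0) from a)) (by
        rintro σ ⟨n, hn, rfl⟩
        have hn' : n ∈ (idl_pi H N).ker := by rw [idl_pi_ker]; exact hn
        exact congrArg Additive.toMul (ha n hn'))
    exact ⟨Additive.ofMul c₀, congrArg Additive.ofMul hc₀⟩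

/-- **G3 glue, inflation form.** The cyclic-layer hypothesis for `C_S(L0)` from the cyclic
layers `F'/E'` of degree `p`. -/
theorem idl_cyclicLayers_of_layers (p : ℕ) (hS : S.Nonempty)
    (hunr : ∀ (H : Subgroup (L0 ≃ₐ[ℚ] L0)) (N : Subgroup ↥H) [N.Normal], N.index = p →
      ∀ w : id_P S L0, id_e (fdi_layerTop H N) L0 w.1 = 1)
    (hcyc : ∀ (H : Subgroup (L0 ≃ₐ[ℚ] L0)) (N : Subgroup ↥H) [N.Normal], N.index = p →
      Subsingleton (H1 (idl_B S H N)) ∧ Finite (H2 (idl_B S H N)) ∧
        Nat.card (H2 (idl_B S H N)) ∣ p) :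
    dv_CyclicLayers p (id_CRep S L0) :=
  li_cyclicLayers p (id_CRep S L0) (fun H N _ hN =>
    ⟨_, inferInstance, idl_B S H N, idl_pi H N, idl_phi S H N,
      idl_isInfl S H N hS (hunr H N hN), idl_pi_ker H N, hcyc H N hN⟩)

/-! ### Unramifiedness of the layers -/

omit [IsGalois ℚ L0] [N.Normal] in
/-- If `L0/ℚ` is unramified outside `S` then so is `L0/F'`. -/
theorem idl_e_top_eq_one (h0 : ∀ w : id_P S L0, id_e ℚ L0 w.1 = 1) (w : id_P S L0) :
    id_e (fdi_layerTop H N) L0 w.1 = 1 := by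
  have h := id_e_trans ℚ (fdi_layerTop H N) L0 w.1
  rw [h0 w] at h
  exact Nat.eq_one_of_mul_eq_one_right h.symm

omit [N.Normal] in
/-- If `L0/ℚ` is unramified outside `S` then so is `F'/E'`. -/
theorem idl_e_layer_eq_one (h0 : ∀ w : id_P S L0, id_e ℚ L0 w.1 = 1)
    (v : id_P S (fdi_layerTop H N)) : id_e (fdi_layerBase H) (fdi_layerTop H N) v.1 = 1 := by
  obtain ⟨w, hw⟩ := id_underP_surjective S (fdi_layerTop H N) L0 v
  have hv : id_under (fdi_layerTop H N) L0 w.1 = v.1 := congrArg Subtype.val hw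
  -- `e(w|ℚ) = e(w|F') e(v|ℚ)` and `e(v|ℚ) = e(v|E') e(·|ℚ)`
  have h1 := id_e_trans ℚ (fdi_layerTop H N) L0 w.1
  rw [h0 w, hv] at h1
  have h2 : id_e ℚ (fdi_layerTop H N) v.1 = 1 := Nat.eq_one_of_mul_eq_one_left h1.symm
  have h3 := id_e_trans ℚ (fdi_layerBase H) (fdi_layerTop H N) v.1
  rw [h2] at h3
  exact Nat.eq_one_of_mul_eq_one_right h3.symm

/-! ### The layer group as a subgroup of `Aut(F'/ℚ)` -/

/-- `Gal(F'/E')` as a subgroup of `F' ≃ₐ[ℚ] F'`. -/
def idl_layerGal : Subgroup (fdi_layerTop H N ≃ₐ[ℚ] fdi_layerTop H N) :=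
  (idl_toRat (E := fdi_layerBase H) (F := fdi_layerTop H N)).range

/-- `Gal(F'/E') ≃* idl_layerGal`. -/
def idl_galEquiv :
    (fdi_layerTop H N ≃ₐ[fdi_layerBase H] fdi_layerTop H N) ≃* ↥(idl_layerGal H N) :=
  MonoidHom.ofInjective idl_toRat_injective

theorem idl_galEquiv_coe (σ : fdi_layerTop H N ≃ₐ[fdi_layerBase H] fdi_layerTop H N) :
    ((idl_galEquiv H N σ : idl_layerGal H N) : fdi_layerTop H N ≃ₐ[ℚ] fdi_layerTop H N) =
      idl_toRat σ := rfl

theorem idl_card_layerGal : Nat.card ↥(idl_layerGal H N) = N.index := by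
  rw [← Nat.card_congr (idl_galEquiv H N).toEquiv, fdi_card_layerGal]

/-- `F'/E'` is Galois with group `idl_layerGal`. -/
theorem idl_layer_isGal :
    id_IsGal (fdi_layerBase H) (fdi_layerTop H N) (idl_layerGal H N) where
  fixes := by
    rintro σ ⟨τ, rfl⟩ x
    exact τ.commutes x
  fixed := fun y hy => by
    have h := (IsGalois.mem_range_algebraMap_iff_fixed (F := fdi_layerBase H)
      (E := fdi_layerTop H N) y).2 (fun τ => hy _ ⟨τ, rfl⟩)
    exact h

theorem idl_subtype_comp_galEquiv :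
    (idl_layerGal H N).subtype.comp (idl_galEquiv H N : _ →* ↥(idl_layerGal H N)) =
      idl_toRat (E := fdi_layerBase H) (F := fdi_layerTop H N) := by
  ext σ x
  rfl

/-- `Hⁿ(Gal(F'/E'), C_S(F')) ≅ Hⁿ(idl_layerGal, C_S(F'))`. -/
def idl_layerIso (n : ℕ) :
    groupCohomology (idl_B S H N) n ≅
      groupCohomology (Rep.res (idl_layerGal H N).subtype (id_CRep S (fdi_layerTop H N))) n :=
  groupCohomology.mapIso
    (A := Rep.res (idl_layerGal H N).subtype (id_CRep S (fdi_layerTop H N)))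
    (B := idl_B S H N) (idl_galEquiv H N)
    (LinearEquiv.refl ℤ (id_CRep S (fdi_layerTop H N)).V) (fun _ => rfl) n

/-- Transport of the cyclic-layer conditions from the subgroup `idl_layerGal ≤ Aut(F'/ℚ)` (the
form in which the two inequalities are proved) to the `Gal(F'/E')`-module `idl_B`. -/
theorem idl_B_of_layerGal (n : ℕ) :
    (Subsingleton (groupCohomology
        (Rep.res (idl_layerGal H N).subtype (id_CRep S (fdi_layerTop H N))) n) →
      Subsingleton (groupCohomology (idl_B S H N) n)) ∧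
    (Finite (groupCohomology
        (Rep.res (idl_layerGal H N).subtype (id_CRep S (fdi_layerTop H N))) n) →
      Finite (groupCohomology (idl_B S H N) n)) ∧
    Nat.card (groupCohomology (idl_B S H N) n) =
      Nat.card (groupCohomology
        (Rep.res (idl_layerGal H N).subtype (id_CRep S (fdi_layerTop H N))) n) := by
  have e := (idl_layerIso S H N n).toLinearEquiv.toEquiv
  exact ⟨fun h => e.subsingleton_congr.mpr h, fun h => (Equiv.finite_iff e).mpr h,
    Nat.card_congr e⟩

/-- **G3 glue.**  Let `L0/ℚ` be a finite Galois extension of number fields unramified outside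
`S ≠ ∅`.  If for every layer `N ⊴ H ≤ Gal(L0/ℚ)` of index `p` the cyclic group
`Gal(F'/E') ≤ Aut(F'/ℚ)` of order `p` has trivial `H¹` and `H²` of order dividing `p` on `C_S(F')`
(the first and second inequalities for `F'/E'`), then `C_S(L0)` satisfies the cyclic-layer
hypothesis of the devissage. -/
theorem idl_cyclicLayers (p : ℕ) (hS : S.Nonempty)
    (h0 : ∀ w : id_P S L0, id_e ℚ L0 w.1 = 1)
    (hFS : ∀ (H : Subgroup (L0 ≃ₐ[ℚ] L0)) (N : Subgroup ↥H) [N.Normal], N.index = p →
      Subsingleton (H1 (Rep.res (idl_layerGal H N).subtype (id_CRep S (fdi_layerTop H N)))) ∧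
      Finite (H2 (Rep.res (idl_layerGal H N).subtype (id_CRep S (fdi_layerTop H N)))) ∧
      Nat.card (H2 (Rep.res (idl_layerGal H N).subtype (id_CRep S (fdi_layerTop H N)))) ∣ p) :
    dv_CyclicLayers p (id_CRep S L0) :=
  idl_cyclicLayers_of_layers S p hS (fun H N _ _ w => idl_e_top_eq_one S H N h0 w)
    (fun H N _ hN => by
      obtain ⟨h1, h2, h3⟩ := hFS H N hN
      refine ⟨(idl_B_of_layerGal S H N 1).1 h1, (idl_B_of_layerGal S H N 2).2.1 h2, ?_⟩
      rw [(idl_B_of_layerGal S H N 2).2.2]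
      exact h3)

/-- **G3 bound.** Under the hypotheses of `idl_cyclicLayers`, every `p`-subgroup `P` of
`Gal(L0/ℚ)` has `H¹(P, C_S(L0)) = 0` and `|H²(P, C_S(L0))|` dividing `|P|`. -/
theorem idl_pgroup_bound (p : ℕ) [Fact p.Prime] (hS : S.Nonempty)
    (h0 : ∀ w : id_P S L0, id_e ℚ L0 w.1 = 1)
    (hFS : ∀ (H : Subgroup (L0 ≃ₐ[ℚ] L0)) (N : Subgroup ↥H) [N.Normal], N.index = p →
      Subsingleton (H1 (Rep.res (idl_layerGal H N).subtype (id_CRep S (fdi_layerTop H N)))) ∧
      Finite (H2 (Rep.res (idl_layerGal H N).subtype (id_CRep S (fdi_layerTop H N)))) ∧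
      Nat.card (H2 (Rep.res (idl_layerGal H N).subtype (id_CRep S (fdi_layerTop H N)))) ∣ p)
    (P : Subgroup (L0 ≃ₐ[ℚ] L0)) (hP : IsPGroup p P) :
    Subsingleton (H1 (Rep.res P.subtype (id_CRep S L0))) ∧
      Finite (H2 (Rep.res P.subtype (id_CRep S L0))) ∧
      Nat.card (H2 (Rep.res P.subtype (id_CRep S L0))) ∣ Nat.card P := by
  have hcyc := idl_cyclicLayers S p hS h0 hFS
  exact ⟨dv_pgroup_H1 p (id_CRep S L0) hcyc P hP,
    dv_pgroup_H2' p (id_CRep S L0) hcyc P hP⟩

end Fermat.Agent.S55
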