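/-
S55 / block [G3] glue, part 2 (helper23): from the two inequalities for the cyclic layers `F'/E'`
to the hypothesis `hcyc` of `idl_cyclicLayers_of_layers`.
* generic: a cyclic group `G = ⟨σ⟩` of order `p` acting on `U` with `h⁰ = p·h¹`, `h¹ ≠ 0`,
  `h⁰ ≤ p` has `H¹(G, U) = 0`, `|H²(G, U)| = p`  (`idl_cyclic_of_inequalities`);
* generic: `∏_{τ ∈ G} τ • x = ∏_{k < n} σ^k • x`  (`idl_prod_eq_prod_range`);
* the layer `F'/E'` is unramified outside `S` in helper10's sense `si_Unram`
  (`idl_si_unram`);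
* the `Gal(F'/E')`-module `C_S(F')` in the two presentations (`idl_B` versus the action through
  `si_res`).
Prefix `idl_`.
-/
import Mathlib
import Fermat.Agent.S55.Idele.Layers
import Fermat.Agent.S55.SecondIneq.LayerIdeals
import Fermat.Agent.S55.Tate.HerbrandBridge
import Fermat.Agent.S55.G1.Defs

set_option autoImplicit false
set_option linter.unusedSectionVars false

noncomputable section

namespace Fermat.Agent.S55

open CategoryTheory groupCohomology IsDedekindDomain

/-! ### Generic: cyclic groups of prime order -/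

section generic

variable {G U : Type} [Group G] [Fintype G] [CommGroup U] [MulDistribMulAction G U]

/-- In a finite group generated by `σ`, a product over the group is a product over the powers
of `σ`. -/
theorem idl_prod_eq_prod_range (σ : G) (hσ : ∀ g, g ∈ Subgroup.zpowers σ) (f : G → U) :
    ∏ τ : G, f τ = ∏ k ∈ Finset.range (Fintype.card G), f (σ ^ k) := by
  classical
  have hcard : orderOf σ = Fintype.card G := by
    rw [← Nat.card_eq_fintype_card, ← Nat.card_zpowers]
    have : Subgroup.zpowers σ = ⊤ := (Subgroup.eq_top_iff' _).2 hσ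
    rw [this, Subgroup.card_top]
  rw [← hcard]
  symm
  apply Finset.prod_bij (fun k _ => σ ^ k)
  · intro k _; exact Finset.mem_univ _
  · intro a ha b hb hab
    rw [Finset.mem_range] at ha hb
    exact pow_injOn_Iio_orderOf ha hb hab
  · intro τ _
    obtain ⟨k, hk⟩ := (Subgroup.mem_zpowers_iff).1 (hσ τ)
    have hfin : IsOfFinOrder σ := isOfFinOrder_of_finite σ
    refine ⟨(k % (orderOf σ : ℤ)).toNat, ?_, ?_⟩
    · rw [Finset.mem_range]
      have h1 : (k % (orderOf σ : ℤ)) < orderOf σ :=
        Int.emod_lt_of_pos _ (by exact_mod_cast hfin.orderOf_pos)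
      have h2 : 0 ≤ k % (orderOf σ : ℤ) :=
        Int.emod_nonneg _ (by exact_mod_cast hfin.orderOf_pos.ne')
      omega
    · rw [← zpow_natCast, Int.toNat_of_nonneg
        (Int.emod_nonneg _ (by exact_mod_cast (hfin.orderOf_pos).ne')), zpow_mod_orderOf, hk]
  · intro k _; rfl

/-- The norm of `G = ⟨σ⟩` in terms of the powers of `σ`. -/
theorem idl_mulN_eq_nu (σ : G) (hσ : ∀ g, g ∈ Subgroup.zpowers σ) :
    hb_mulN G (U := U) = fq_nu σ (Fintype.card G) := by
  ext x
  exact idl_prod_eq_prod_range σ hσ (fun τ => τ • x)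

theorem idl_mulD_eq_theta (σ : G) : hb_mulD σ (U := U) = fq_theta σ := rfl

/-- **Cyclic layers of prime degree, multiplicative form.**  If `h⁰ = p · h¹`, `h¹ ≠ 0`
(first inequality) and `h⁰ ≤ p` (second inequality) then `H¹ = 0` and `|H²| = p`. -/
theorem idl_cyclic_of_inequalities (σ : G) (hσ : ∀ g, g ∈ Subgroup.zpowers σ) {p : ℕ}
    (hp : 0 < p)
    (h1ne : (hb_mulD σ (U := U)).range.relIndex (hb_mulN G).ker ≠ 0)
    (hfirst : (hb_mulN G (U := U)).range.relIndex (hb_mulD σ).ker =
      p * (hb_mulD σ (U := U)).range.relIndex (hb_mulN G).ker)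
    (hsecond : (hb_mulN G (U := U)).range.relIndex (hb_mulD σ).ker ≤ p) :
    Subsingleton (H1 (Rep.ofMulDistribMulAction G U)) ∧
      Finite (H2 (Rep.ofMulDistribMulAction G U)) ∧
      Nat.card (H2 (Rep.ofMulDistribMulAction G U)) = p := by
  have hc1 := hb_mul_card_odd (U := U) σ hσ 1 (by decide)
  have hc2 := hb_mul_card_even (U := U) σ hσ 2 (by decide)
  set h1 := (hb_mulD σ (U := U)).range.relIndex (hb_mulN G).ker
  set h0 := (hb_mulN G (U := U)).range.relIndex (hb_mulD σ).ker
  have h1pos : 0 < h1 := Nat.pos_of_ne_zero h1ne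
  have h1one : h1 = 1 := by
    by_contra hne
    have : 2 ≤ h1 := by omega
    have : p * 2 ≤ p * h1 := Nat.mul_le_mul_left p this
    omega
  have h0p : h0 = p := by rw [hfirst, h1one, mul_one]
  refine ⟨?_, ?_, by rw [hc2, h0p]⟩
  · rw [h1one] at hc1
    exact (Nat.card_eq_one_iff_unique.mp hc1).1
  · apply Nat.finite_of_card_ne_zero
    rw [hc2, h0p]
    exact hp.ne'

end generic

/-! ### Trivial inertia from ramification index one -/

section unram

open scoped NumberField

variable (S : Finset Nat.Primes) (E L : Type) [Field E] [NumberField E] [Field L]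
  [NumberField L] [Algebra E L] [IsGalois E L]

/-- The inertia group of a prime of `L` in `Gal(L/E)` has order the ramification index. -/
theorem idl_card_inertia (w : HeightOneSpectrum (𝓞 L)) :
    Nat.card (w.asIdeal.inertia (L ≃ₐ[E] L)) = id_e E L w := by
  have : w.asIdeal.LiesOver (id_under E L w).asIdeal := ⟨rfl⟩
  rw [id_e, Ideal.ramificationIdx'_eq_ramificationIdx _ _ (id_under E L w).ne_bot,
    ← Ideal.ramificationIdxIn_eq_ramificationIdx (id_under E L w).asIdeal w.asIdeal
      (L ≃ₐ[E] L),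
    ← Ideal.card_inertia_eq_ramificationIdxIn (G := L ≃ₐ[E] L) (id_under E L w).asIdeal
      w.asIdeal]

/-- Ramification index one outside `S` gives trivial inertia outside `S`. -/
theorem idl_unram_of_e (h : ∀ w : id_P S L, id_e E L w.1 = 1) : si_Unram S E L := by
  intro w g hg
  have hcard := idl_card_inertia E L w.1
  rw [h w] at hcard
  have hbot : w.1.asIdeal.inertia (L ≃ₐ[E] L) = ⊥ := Subgroup.card_eq_one.mp hcard
  have hmem : g ∈ w.1.asIdeal.inertia (L ≃ₐ[E] L) := AddSubgroup.mem_inertia.mpr hg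
  rw [hbot] at hmem
  exact Subgroup.mem_bot.mp hmem

end unram

/-! ### The relative form: `Gal(L/E)` acting on `C_S(L)` -/

section relative

open scoped NumberField

variable (S : Finset Nat.Primes) (E L : Type) [Field E] [NumberField E] [Field L]
  [NumberField L] [Algebra E L] [IsGalois E L]

/-- The action of `Gal(L/E)` on `C_S(L)` through restriction of scalars to `ℚ`. -/
@[reducible] def idl_layerAction : MulDistribMulAction (L ≃ₐ[E] L) (id_C S L) :=
  MulDistribMulAction.compHom (id_C S L) (si_res E L)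

theorem idl_layerAction_smul (g : L ≃ₐ[E] L) (c : id_C S L) :
    letI := idl_layerAction S E L
    g • c = si_res E L g • c := rfl

/-- `h⁰` of the layer: `[C_S(L)^G : N_G C_S(L)]`. -/
def idl_h0 (σ : L ≃ₐ[E] L) : ℕ :=
  letI := idl_layerAction S E L
  (hb_mulN (L ≃ₐ[E] L) (U := id_C S L)).range.relIndex (hb_mulD σ).ker

/-- `h¹` of the layer: `[ker N_G : (σ - 1) C_S(L)]`. -/
def idl_h1 (σ : L ≃ₐ[E] L) : ℕ :=
  letI := idl_layerAction S E L
  (hb_mulD σ (U := id_C S L)).range.relIndex (hb_mulN (L ≃ₐ[E] L)).ker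

theorem idl_mulD_eq (σ : L ≃ₐ[E] L) :
    letI := idl_layerAction S E L
    hb_mulD σ (U := id_C S L) = fq_theta (si_res E L σ) := rfl

theorem idl_mulN_eq (σ : L ≃ₐ[E] L) (hσ : ∀ g, g ∈ Subgroup.zpowers σ) :
    letI := idl_layerAction S E L
    hb_mulN (L ≃ₐ[E] L) (U := id_C S L) = fq_nu (si_res E L σ) (Module.finrank E L) := by
  letI := idl_layerAction S E L
  rw [idl_mulN_eq_nu σ hσ, ← Nat.card_eq_fintype_card, IsGalois.card_aut_eq_finrank]
  refine MonoidHom.ext fun c => ?_
  show ∏ k ∈ Finset.range (Module.finrank E L), σ ^ k • c =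
    ∏ k ∈ Finset.range (Module.finrank E L), (si_res E L σ) ^ k • c
  apply Finset.prod_congr rfl
  intro k _
  show si_res E L (σ ^ k) • c = _
  rw [map_pow]

/-- `h⁰` in the absolute form (`σ` as an automorphism of `L/ℚ`). -/
theorem idl_h0_eq (σ : L ≃ₐ[E] L) (hσ : ∀ g, g ∈ Subgroup.zpowers σ) :
    idl_h0 S E L σ =
      (fq_nu (si_res E L σ) (Module.finrank E L) (M := id_C S L)).range.relIndex
        (fq_theta (si_res E L σ)).ker := by
  unfold idl_h0
  rw [idl_mulN_eq S E L σ hσ, idl_mulD_eq]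

theorem idl_h1_eq (σ : L ≃ₐ[E] L) (hσ : ∀ g, g ∈ Subgroup.zpowers σ) :
    idl_h1 S E L σ =
      (fq_theta (si_res E L σ) (M := id_C S L)).range.relIndex
        (fq_nu (si_res E L σ) (Module.finrank E L)).ker := by
  unfold idl_h1
  rw [idl_mulN_eq S E L σ hσ, idl_mulD_eq]

theorem idl_si_res_injective : Function.Injective (si_res E L) := by
  intro g g' h
  ext x
  exact congrArg (fun f : L ≃ₐ[ℚ] L => f x) h

theorem idl_orderOf_si_res (σ : L ≃ₐ[E] L) (hσ : ∀ g, g ∈ Subgroup.zpowers σ) :
    orderOf (si_res E L σ) = Module.finrank E L := by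
  rw [orderOf_injective (si_res E L) (idl_si_res_injective E L) σ,
    ← IsGalois.card_aut_eq_finrank E L, ← Nat.card_zpowers]
  have : Subgroup.zpowers σ = ⊤ := (Subgroup.eq_top_iff' _).2 hσ
  rw [this, Subgroup.card_top]

/-- The `Gal(L/E)`-module `C_S(L)` (action through `si_res`). -/
abbrev idl_relRep : Rep.{0} ℤ (L ≃ₐ[E] L) :=
  letI := idl_layerAction S E L
  Rep.ofMulDistribMulAction (L ≃ₐ[E] L) (id_C S L)

/-- **The two inequalities give the cyclic-layer conditions**, relative form. -/
theorem idl_relRep_of_inequalities {p : ℕ} (hp : 0 < p) (σ : L ≃ₐ[E] L)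
    (hσ : ∀ g, g ∈ Subgroup.zpowers σ) (h1ne : idl_h1 S E L σ ≠ 0)
    (hfirst : idl_h0 S E L σ = p * idl_h1 S E L σ) (hsecond : idl_h0 S E L σ ≤ p) :
    Subsingleton (H1 (idl_relRep S E L)) ∧ Finite (H2 (idl_relRep S E L)) ∧
      Nat.card (H2 (idl_relRep S E L)) = p := by
  letI := idl_layerAction S E L
  exact idl_cyclic_of_inequalities (U := id_C S L) σ hσ hp h1ne hfirst hsecond

end relative

/-! ### The layers -/

section layers

variable (S : Finset Nat.Primes) {L0 : Type} [Field L0] [NumberField L0] [IsGalois ℚ L0]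

variable (H : Subgroup (L0 ≃ₐ[ℚ] L0)) (N : Subgroup ↥H) [N.Normal]

/-- The layers of a level unramified outside `S` are unramified outside `S`. -/
theorem idl_si_unram (h0 : ∀ w : id_P S L0, id_e ℚ L0 w.1 = 1) :
    si_Unram S (fdi_layerBase H) (fdi_layerTop H N) :=
  idl_unram_of_e S (fdi_layerBase H) (fdi_layerTop H N) (idl_e_layer_eq_one S H N h0)

theorem idl_toRat_eq_si_res
    (g : fdi_layerTop H N ≃ₐ[fdi_layerBase H] fdi_layerTop H N) :
    idl_toRat g = si_res (fdi_layerBase H) (fdi_layerTop H N) g :=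
  AlgEquiv.ext fun _ => rfl

/-- The two presentations of the `Gal(F'/E')`-module `C_S(F')` have the same cohomology. -/
def idl_B_relIso (n : ℕ) :
    groupCohomology (idl_B S H N) n ≅
      groupCohomology (idl_relRep S (fdi_layerBase H) (fdi_layerTop H N)) n :=
  groupCohomology.mapIso
    (A := idl_relRep S (fdi_layerBase H) (fdi_layerTop H N)) (B := idl_B S H N)
    (MulEquiv.refl _) (LinearEquiv.refl ℤ (id_CRep S (fdi_layerTop H N)).V)
    (fun g => LinearMap.ext fun x => by
      have h := idl_toRat_eq_si_res H N g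
      show (id_CRep S (fdi_layerTop H N)).ρ (idl_toRat g) x =
        (id_CRep S (fdi_layerTop H N)).ρ (si_res (fdi_layerBase H) (fdi_layerTop H N) g) x
      rw [h]) n

/-- **From the two inequalities to the cyclic-layer conditions for one layer.**
`hFI` is the first inequality in helper4's absolute form, `hSI` the second inequality in
helper10's relative form. -/
theorem idl_hcyc_of_inequalities (p : ℕ) [hp : Fact p.Prime]
    (h0 : ∀ w : id_P S L0, id_e ℚ L0 w.1 = 1)
    (hFI : ∀ (K : Type) [Field K] [NumberField K] (σ : K ≃ₐ[ℚ] K), orderOf σ = p →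
      (fq_theta σ (M := id_C S K)).range.relIndex (fq_nu σ p).ker ≠ 0 ∧
      (fq_nu σ p (M := id_C S K)).range.relIndex (fq_theta σ).ker =
        p * (fq_theta σ (M := id_C S K)).range.relIndex (fq_nu σ p).ker)
    (hSI : ∀ (E L : Type) [Field E] [NumberField E] [Field L] [NumberField L] [Algebra E L]
      [IsGalois E L], Module.finrank E L = p → ∀ σ : L ≃ₐ[E] L,
      (∀ g, g ∈ Subgroup.zpowers σ) → si_Unram S E L → idl_h0 S E L σ ≤ p)
    (hN : N.index = p) :
    Subsingleton (H1 (idl_B S H N)) ∧ Finite (H2 (idl_B S H N)) ∧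
      Nat.card (H2 (idl_B S H N)) ∣ p := by
  have hdeg : Module.finrank (fdi_layerBase H) (fdi_layerTop H N) = p := by
    rw [fdi_finrank_layer, hN]
  have hcard : Nat.card (fdi_layerTop H N ≃ₐ[fdi_layerBase H] fdi_layerTop H N) = p := by
    rw [fdi_card_layerGal, hN]
  have hcyc : IsCyclic (fdi_layerTop H N ≃ₐ[fdi_layerBase H] fdi_layerTop H N) :=
    isCyclic_of_prime_card hcard
  obtain ⟨σ, hσ⟩ := hcyc.exists_generator
  have hord := idl_orderOf_si_res (fdi_layerBase H) (fdi_layerTop H N) σ hσ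
  rw [hdeg] at hord
  obtain ⟨hne, hfirst⟩ := hFI (fdi_layerTop H N)
    (si_res (fdi_layerBase H) (fdi_layerTop H N) σ) hord
  have e0 := idl_h0_eq S (fdi_layerBase H) (fdi_layerTop H N) σ hσ
  have e1 := idl_h1_eq S (fdi_layerBase H) (fdi_layerTop H N) σ hσ
  rw [hdeg] at e0 e1
  have hsecond := hSI (fdi_layerBase H) (fdi_layerTop H N) hdeg σ hσ (idl_si_unram S H N h0)
  obtain ⟨r1, r2, r3⟩ := idl_relRep_of_inequalities S (fdi_layerBase H) (fdi_layerTop H N)
    hp.out.pos σ hσ (by rw [e1]; exact hne) (by rw [e0, e1]; exact hfirst) hsecond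
  have i1 := (idl_B_relIso S H N 1).toLinearEquiv.toEquiv
  have i2 := (idl_B_relIso S H N 2).toLinearEquiv.toEquiv
  refine ⟨i1.subsingleton_congr.mpr r1, (Equiv.finite_iff i2).mpr r2, ?_⟩
  rw [Nat.card_congr i2, r3]

end layers

/-- **G3, assembled.**  For a finite Galois extension `L0/ℚ` of number fields unramified outside
`S ≠ ∅` (`h0`), the first and the second inequality (for all cyclic extensions of number fields of
degree `p`, unramified outside `S`) imply the cyclic-layer hypothesis for `C_S(L0)`. -/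
theorem idl_cyclicLayers_of_inequalities (S : Finset Nat.Primes) {L0 : Type} [Field L0]
    [NumberField L0] [IsGalois ℚ L0] (p : ℕ) [Fact p.Prime] (hS : S.Nonempty)
    (h0 : ∀ w : id_P S L0, id_e ℚ L0 w.1 = 1)
    (hFI : ∀ (K : Type) [Field K] [NumberField K] (σ : K ≃ₐ[ℚ] K), orderOf σ = p →
      (fq_theta σ (M := id_C S K)).range.relIndex (fq_nu σ p).ker ≠ 0 ∧
      (fq_nu σ p (M := id_C S K)).range.relIndex (fq_theta σ).ker =
        p * (fq_theta σ (M := id_C S K)).range.relIndex (fq_nu σ p).ker)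
    (hSI : ∀ (E L : Type) [Field E] [NumberField E] [Field L] [NumberField L] [Algebra E L]
      [IsGalois E L], Module.finrank E L = p → ∀ σ : L ≃ₐ[E] L,
      (∀ g, g ∈ Subgroup.zpowers σ) → si_Unram S E L → idl_h0 S E L σ ≤ p) :
    dv_CyclicLayers p (id_CRep S L0) :=
  idl_cyclicLayers_of_layers S p hS (fun H N _ _ w => idl_e_top_eq_one S H N h0 w)
    (fun H N _ hN => idl_hcyc_of_inequalities S H N p h0 hFI hSI hN)

end Fermat.Agent.S55
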