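import Fermat.Agent.S55.Idele.Defs
import Fermat.Agent.S55.G1.ClassFinite

/-!
# S55 / block [G0]/[G5]: enlarging `S` kills the `S`-class group (prefix `ie_`)

For `S ⊆ S'` finite sets of rational primes and a number field `K`:

* `ie_inclP`, `ie_resI S S' K h : id_I S K →* id_I S' K`: forget the primes above `S' ∖ S`;
  surjective (`ie_resI_surjective`), equivariant (`ie_resI_smul`), compatible with the divisor maps
  (`ie_resI_div`).
* `ie_range_div_eq_top_mono`: if every divisor prime to `S'` is principal, the same holds for every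
  `S'' ⊇ S'`.
* `ie_exists_ClS_trivial`: there is `S' ⊇ S` such that every divisor prime to `S'` is principal
  (`Cl_{S'}(K) = 1`), hence `id_CSo S' K = ⊤` (`ie_CSo_eq_top`).
-/

set_option autoImplicit false
set_option linter.style.haveILetI false
set_option linter.unusedSectionVars false

open scoped NumberField nonZeroDivisors Pointwise
open IsDedekindDomain

noncomputable section

namespace Fermat.Agent.S55

universe u

variable (S S' : Finset Nat.Primes) (K : Type u) [Field K] [NumberField K]

variable {S S'} in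
theorem ie_primeToS_of_subset (h : S ⊆ S') {v : HeightOneSpectrum (𝓞 K)}
    (hv : id_PrimeToS S' K v) : id_PrimeToS S K v := fun q hq => hv q (h hq)

/-- A prime not above `S'` is not above `S ⊆ S'`. -/
def ie_inclP (h : S ⊆ S') (v : id_P S' K) : id_P S K := ⟨v.1, ie_primeToS_of_subset K h v.2⟩

@[simp]
theorem ie_inclP_val (h : S ⊆ S') (v : id_P S' K) : (ie_inclP S S' K h v).1 = v.1 := rfl

theorem ie_inclP_injective (h : S ⊆ S') : Function.Injective (ie_inclP S S' K h) := by
  intro v w hvw
  apply Subtype.ext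
  exact congrArg (fun z : id_P S K => z.1) hvw

theorem ie_inclP_smul (h : S ⊆ S') (σ : K ≃ₐ[ℚ] K) (v : id_P S' K) :
    ie_inclP S S' K h (σ • v) = σ • ie_inclP S S' K h v := rfl

/-- Restriction of divisors prime to `S` to divisors prime to `S' ⊇ S` (forget the primes above
`S' ∖ S`). -/
def ie_resI (h : S ⊆ S') : id_I S K →* id_I S' K :=
  AddMonoidHom.toMultiplicative
    (Finsupp.comapDomain.addMonoidHom (M := ℤ) (ie_inclP_injective S S' K h))

theorem ie_resI_apply (h : S ⊆ S') (D : id_I S K) (v : id_P S' K) :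
    (ie_resI S S' K h D).toAdd v = D.toAdd (ie_inclP S S' K h v) := rfl

theorem ie_resI_div (h : S ⊆ S') (x : Kˣ) : ie_resI S S' K h (id_div S K x) = id_div S' K x := by
  apply Multiplicative.toAdd.injective
  ext v
  rfl

theorem ie_resI_smul (h : S ⊆ S') (σ : K ≃ₐ[ℚ] K) (D : id_I S K) :
    ie_resI S S' K h (σ • D) = σ • ie_resI S S' K h D := by
  apply Multiplicative.toAdd.injective
  ext v
  rfl

theorem ie_resI_surjective (h : S ⊆ S') : Function.Surjective (ie_resI S S' K h) := by
  intro D'
  refine ⟨Multiplicative.ofAdd (Finsupp.mapDomain (ie_inclP S S' K h) D'.toAdd), ?_⟩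
  apply Multiplicative.toAdd.injective
  exact Finsupp.comapDomain_mapDomain _ (ie_inclP_injective S S' K h) D'.toAdd

variable {S S'} in
/-- If every divisor prime to `S` is principal, so is every divisor prime to `S' ⊇ S`. -/
theorem ie_range_div_eq_top_mono (h : S ⊆ S') (hS : (id_div S K).range = ⊤) :
    (id_div S' K).range = ⊤ := by
  rw [eq_top_iff]
  intro D' _
  obtain ⟨D, rfl⟩ := ie_resI_surjective S S' K h D'
  have hD : D ∈ (id_div S K).range := by rw [hS]; trivial
  obtain ⟨x, rfl⟩ := hD
  exact ⟨x, (ie_resI_div S S' K h x).symm⟩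

/-- Every finite prime of a number field lies above a rational prime. -/
theorem ie_exists_prime_mem (P : HeightOneSpectrum (𝓞 K)) :
    ∃ q : Nat.Primes, ((q : ℕ) : 𝓞 K) ∈ P.asIdeal := by
  haveI hPmax : P.asIdeal.IsMaximal := P.isMaximal
  haveI : Finite (𝓞 K ⧸ P.asIdeal) := Ideal.finiteQuotientOfFreeOfNeBot P.asIdeal P.ne_bot
  letI : Field (𝓞 K ⧸ P.asIdeal) := Ideal.Quotient.field P.asIdeal
  obtain ⟨ℓ, hchar⟩ := CharP.exists (𝓞 K ⧸ P.asIdeal)
  have hℓ : ℓ.Prime := by
    rcases CharP.char_is_prime_or_zero (𝓞 K ⧸ P.asIdeal) ℓ with h | h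
    · exact h
    · exfalso
      subst h
      haveI := CharP.charP_to_charZero (𝓞 K ⧸ P.asIdeal)
      exact not_finite (𝓞 K ⧸ P.asIdeal)
  refine ⟨⟨ℓ, hℓ⟩, ?_⟩
  rw [← Ideal.Quotient.eq_zero_iff_mem, map_natCast]
  exact CharP.cast_eq_zero _ ℓ

/-- **Enlarging `S` kills the class group**: there is a finite `S' ⊇ S` such that every divisor of
`K` prime to `S'` is principal. -/
theorem ie_exists_ClS_trivial : ∃ S' : Finset Nat.Primes, S ⊆ S' ∧ (id_div S' K).range = ⊤ := by
  classical
  haveI := fq_finite_ClS S K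
  letI := Fintype.ofFinite (id_ClS S K)
  have hsurj : Function.Surjective (QuotientGroup.mk' (id_div S K).range) :=
    QuotientGroup.mk'_surjective _
  set s : id_ClS S K → id_I S K := Function.surjInv hsurj with hs
  have hs' : ∀ c, QuotientGroup.mk' (id_div S K).range (s c) = c := Function.surjInv_eq hsurj
  set T : Finset (id_P S K) := Finset.univ.biUnion (fun c => (s c).toAdd.support) with hT
  choose qf hqf using ie_exists_prime_mem K
  set S' : Finset Nat.Primes := S ∪ T.image (fun v => qf v.1) with hS'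
  have hSS' : S ⊆ S' := Finset.subset_union_left
  refine ⟨S', hSS', ?_⟩
  rw [eq_top_iff]
  intro D' _
  obtain ⟨D, rfl⟩ := ie_resI_surjective S S' K hSS' D'
  set c := QuotientGroup.mk' (id_div S K).range D with hc
  have h1 : D / s c ∈ (id_div S K).range := by
    rw [← QuotientGroup.eq_one_iff, QuotientGroup.mk_div]
    change QuotientGroup.mk' (id_div S K).range D / QuotientGroup.mk' (id_div S K).range (s c) = 1
    rw [hs' c, div_self']
  obtain ⟨x, hx⟩ := h1
  have h2 : ie_resI S S' K hSS' (s c) = 1 := by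
    apply Multiplicative.toAdd.injective
    ext v
    change (s c).toAdd (ie_inclP S S' K hSS' v) = 0
    by_contra hne
    have hmem : ie_inclP S S' K hSS' v ∈ T := by
      rw [hT, Finset.mem_biUnion]
      exact ⟨c, Finset.mem_univ _, Finsupp.mem_support_iff.2 hne⟩
    have hq : qf (ie_inclP S S' K hSS' v).1 ∈ S' :=
      Finset.mem_union_right _ (Finset.mem_image_of_mem (fun v : id_P S K => qf v.1) hmem)
    exact v.2 _ hq (hqf v.1)
  have h3 : D = s c * id_div S K x := by rw [hx, mul_div_cancel]
  refine ⟨x, ?_⟩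
  rw [h3, map_mul, h2, one_mul, ie_resI_div]

variable {S} in
/-- If every divisor prime to `S` is principal then `C_S°(K) = C_S(K)`. -/
theorem ie_CSo_eq_top (hS : (id_div S K).range = ⊤) : id_CSo S K = ⊤ := by
  rw [← fq_ker_CToClS, eq_top_iff]
  intro c _
  rw [MonoidHom.mem_ker]
  obtain ⟨z, rfl⟩ := id_toC_surjective S K c
  rw [fq_CToClS_toC, fq_toClS_apply, QuotientGroup.mk'_apply, QuotientGroup.eq_one_iff, hS]
  trivial

/-- There is `S' ⊇ S` with `C_{S'}°(K) = C_{S'}(K)`. -/
theorem ie_exists_CSo_eq_top : ∃ S' : Finset Nat.Primes, S ⊆ S' ∧ id_CSo S' K = ⊤ := by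
  obtain ⟨S', h, hS'⟩ := ie_exists_ClS_trivial S K
  exact ⟨S', h, ie_CSo_eq_top K hS'⟩

end Fermat.Agent.S55
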