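import Fermat.Agent.S55.Idele.Descent
import Fermat.Agent.S55.Dual.Levels

/-!
# S55 / block [G0]: the transition maps of the seam `du_Seam` between Galois levels

For levels `a ≤ b` (`du_Lev S`), `b.L` is an `a.L`-algebra through the inclusion
(`id_levAlgebra`), and the transition maps of `Idele/Transition.lean` give the fields
`tC`, `tJ` of `du_Seam` together with their properties (`id_tC_*`, `id_tJ_*`), in the exact
shapes of `Dual/Seam.lean` for `dat a := ⟨C := id_CRep S a.L, Jq q := id_ARep a.L q.1,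
j q := id_jqRep S a.L q, ...⟩`.
-/

set_option autoImplicit false
set_option linter.style.haveILetI false
set_option linter.unusedSectionVars false

open scoped TensorProduct NumberField nonZeroDivisors Pointwise
open IsDedekindDomain

noncomputable section

namespace Fermat.Agent.S55

local notation "Qbar" => AlgebraicClosure ℚ
local notation "GQ" => (AlgebraicClosure ℚ ≃ₐ[ℚ] AlgebraicClosure ℚ)

variable {S : Finset Nat.Primes}

instance id_levNumberField (a : du_Lev S) : NumberField a.L := ⟨⟩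

theorem id_qbarIsGalois : IsGalois ℚ Qbar := by
  haveI : Algebra.IsAlgebraic ℚ Qbar := AlgebraicClosure.isAlgebraic ℚ
  haveI : IsAlgClosure ℚ Qbar := ⟨inferInstance, inferInstance⟩
  infer_instance

/-- The inclusion of levels as an algebra structure. -/
@[reducible] def id_levAlgebra {a b : du_Lev S} (h : a ≤ b) : Algebra a.L b.L :=
  (IntermediateField.inclusion h).toRingHom.toAlgebra

theorem id_levAlgebra_map {a b : du_Lev S} (h : a ≤ b) (x : a.L) :
    letI := id_levAlgebra h
    algebraMap a.L b.L x = IntermediateField.inclusion h x := rfl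

theorem id_lev_isScalarTower {a b c : du_Lev S} (h : a ≤ b) (h' : b ≤ c) :
    letI := id_levAlgebra h
    letI := id_levAlgebra h'
    letI := id_levAlgebra (le_trans (α := IntermediateField ℚ Qbar) h h')
    IsScalarTower a.L b.L c.L := by
  letI := id_levAlgebra h
  letI := id_levAlgebra h'
  letI := id_levAlgebra (le_trans (α := IntermediateField ℚ Qbar) h h')
  exact IsScalarTower.of_algebraMap_eq (fun x => rfl)

theorem id_lev_q_coe (a : du_Lev S) (σ : GQ) (x : a.L) : ((a.q σ x : a.L) : Qbar) = σ (x : Qbar) :=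
  AlgEquiv.restrictNormal_commutes σ a.L x

theorem id_lev_compat {a b : du_Lev S} (h : a ≤ b) (σ : GQ) :
    letI := id_levAlgebra h
    id_Compat a.L b.L (a.q σ) (b.q σ) := by
  letI := id_levAlgebra h
  intro x
  apply Subtype.ext
  rw [id_lev_q_coe]
  change σ ((x : a.L) : Qbar) = ((a.q σ x : a.L) : Qbar)
  rw [id_lev_q_coe]

theorem id_lev_isGal {a b : du_Lev S} (h : a ≤ b) :
    letI := id_levAlgebra h
    id_IsGal a.L b.L (b.rel a) := by
  letI := id_levAlgebra h
  haveI := id_qbarIsGalois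
  constructor
  · rintro _ ⟨τ, hτ, rfl⟩ x
    apply Subtype.ext
    rw [id_lev_q_coe]
    exact hτ ⟨(x : Qbar), x.2⟩
  · intro y hy
    have h1 : (y : Qbar) ∈ IntermediateField.fixedField a.L.fixingSubgroup := by
      rw [IntermediateField.mem_fixedField_iff]
      intro τ hτ
      have h2 := hy (b.q τ) ⟨τ, hτ, rfl⟩
      have h3 := congrArg (fun z : b.L => (z : Qbar)) h2
      simp only [id_lev_q_coe] at h3
      exact h3
    rw [InfiniteGalois.fixedField_fixingSubgroup] at h1
    exact ⟨⟨(y : Qbar), h1⟩, Subtype.ext rfl⟩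

/-- Levels are unramified over each other outside `S` (ideal-theoretic form). -/
def id_LevUnram (S : Finset Nat.Primes) : Prop :=
  ∀ {a b : du_Lev S} (h : a ≤ b),
    letI := id_levAlgebra h
    ∀ w : id_P S b.L, id_e a.L b.L w.1 = 1

/-! ### The transition maps -/

/-- The field `tC` of the seam. -/
def id_tC {a b : du_Lev S} (h : a ≤ b) : (id_CRep S a.L).V →+ (id_CRep S b.L).V :=
  letI := id_levAlgebra h
  (MonoidHom.toAdditive (id_Cmap S a.L b.L) : Additive (id_C S a.L) →+ Additive (id_C S b.L))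

/-- The field `tJ` of the seam. -/
def id_tJ {a b : du_Lev S} (h : a ≤ b) (q : ↥S) : (id_ARep a.L q.1).V →+ (id_ARep b.L q.1).V :=
  letI := id_levAlgebra h
  (MonoidHom.toAdditive (id_AmapU a.L b.L q.1) :
    Additive (id_A a.L q.1)ˣ →+ Additive (id_A b.L q.1)ˣ)

theorem id_tC_apply {a b : du_Lev S} (h : a ≤ b) (c : id_C S a.L) :
    letI := id_levAlgebra h
    id_tC h (Additive.ofMul c) = Additive.ofMul (id_Cmap S a.L b.L c) := rfl

theorem id_tJ_apply {a b : du_Lev S} (h : a ≤ b) (q : ↥S) (u : (id_A a.L q.1)ˣ) :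
    letI := id_levAlgebra h
    id_tJ h q (Additive.ofMul u) = Additive.ofMul (id_AmapU a.L b.L q.1 u) := rfl

theorem id_tJ_inj {a b : du_Lev S} (h : a ≤ b) (q : ↥S) : Function.Injective (id_tJ h q) := by
  letI := id_levAlgebra h
  intro x y hxy
  exact id_AmapU_injective a.L b.L q.1 hxy

theorem id_tC_inj (hS : S.Nonempty) {a b : du_Lev S} (h : a ≤ b) :
    Function.Injective (id_tC h) := by
  letI := id_levAlgebra h
  intro x y hxy
  exact (id_lev_isGal h).Cmap_injective S hS hxy

theorem id_tC_equiv {a b : du_Lev S} (h : a ≤ b) (σ : GQ) (c : (id_CRep S a.L).V) :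
    id_tC h ((id_CRep S a.L).ρ (a.q σ) c) = (id_CRep S b.L).ρ (b.q σ) (id_tC h c) := by
  letI := id_levAlgebra h
  exact congrArg Additive.ofMul (id_Cmap_smul S a.L b.L (id_lev_compat h σ) c.toMul)

theorem id_tJ_equiv {a b : du_Lev S} (h : a ≤ b) (q : ↥S) (σ : GQ) (x : (id_ARep a.L q.1).V) :
    id_tJ h q ((id_ARep a.L q.1).ρ (a.q σ) x) = (id_ARep b.L q.1).ρ (b.q σ) (id_tJ h q x) := by
  letI := id_levAlgebra h
  exact congrArg Additive.ofMul
    (id_AmapU_smul a.L b.L q.1 (a.q σ) (b.q σ) (id_lev_compat h σ) x.toMul)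

theorem id_tC_range (hS : S.Nonempty) (hunr : id_LevUnram S) {a b : du_Lev S} (h : a ≤ b)
    (c : (id_CRep S b.L).V)
    (hc : ∀ σ ∈ a.L.fixingSubgroup, (id_CRep S b.L).ρ (b.q σ) c = c) : ∃ c₀, id_tC h c₀ = c := by
  letI := id_levAlgebra h
  obtain ⟨c₀, hc₀⟩ := (id_lev_isGal h).Cmap_range S hS (hunr h) c.toMul (by
    rintro _ ⟨τ, hτ, rfl⟩
    exact congrArg Additive.toMul (hc τ hτ))
  exact ⟨Additive.ofMul c₀, congrArg Additive.ofMul hc₀⟩

theorem id_tJ_range {a b : du_Lev S} (h : a ≤ b) (q : ↥S) (x : (id_ARep b.L q.1).V)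
    (hx : ∀ σ ∈ a.L.fixingSubgroup, (id_ARep b.L q.1).ρ (b.q σ) x = x) :
    ∃ x₀, id_tJ h q x₀ = x := by
  letI := id_levAlgebra h
  obtain ⟨u₀, hu₀⟩ := (id_lev_isGal h).AmapU_range q.1 x.toMul (by
    rintro _ ⟨τ, hτ, rfl⟩
    exact congrArg Additive.toMul (hx τ hτ))
  exact ⟨Additive.ofMul u₀, congrArg Additive.ofMul hu₀⟩

theorem id_tC_j {a b : du_Lev S} (h : a ≤ b) (q : ↥S) (x : (id_ARep a.L q.1).V) :
    id_tC h ((id_jqRep S a.L q).hom x) = (id_jqRep S b.L q).hom (id_tJ h q x) := by
  letI := id_levAlgebra h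
  exact congrArg Additive.ofMul (id_Cmap_jq S a.L b.L q x.toMul)

theorem id_tC_trans {a b c : du_Lev S} (h : a ≤ b) (h' : b ≤ c) (x : (id_CRep S a.L).V) :
    id_tC h' (id_tC h x) = id_tC (le_trans (α := IntermediateField ℚ Qbar) h h') x := by
  letI := id_levAlgebra h
  letI := id_levAlgebra h'
  letI := id_levAlgebra (le_trans (α := IntermediateField ℚ Qbar) h h')
  haveI := id_lev_isScalarTower h h'
  exact congrArg Additive.ofMul (id_Cmap_trans S a.L b.L c.L x.toMul)

theorem id_tJ_trans {a b c : du_Lev S} (h : a ≤ b) (h' : b ≤ c) (q : ↥S)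
    (x : (id_ARep a.L q.1).V) :
    id_tJ h' q (id_tJ h q x) = id_tJ (le_trans (α := IntermediateField ℚ Qbar) h h') q x := by
  letI := id_levAlgebra h
  letI := id_levAlgebra h'
  letI := id_levAlgebra (le_trans (α := IntermediateField ℚ Qbar) h h')
  haveI := id_lev_isScalarTower h h'
  exact congrArg Additive.ofMul (id_AmapU_trans a.L b.L c.L q.1 x.toMul)

end Fermat.Agent.S55
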