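import Fermat.Agent.S55.Idele.LocalUnits
import Fermat.Agent.S55.LocalCF.Seam
import Fermat.Agent.S55.Tate.ClassModuleTransport
import Fermat.Agent.S55.Dual.Seam
import Fermat.Agent.S55.Idele.LevelTransition

/-!
# S55 / glue [L] → [G]: the local `p`-class modules of the seam (prefix `ils_`)

For `q : Nat.Primes` and a finite normal `L ⊆ ℚ̄`: `ils_Pq p q L : PClassModule p (il_Xq q L)`, the
local class module `lq_pclass p (il_Lq q L)` transported along `il_galEquiv q L` to the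
decomposition group `il_D q L ≤ Gal(L/ℚ)`; its invariants in terms of `lq_pclass`; and the level
wrappers in the field shapes of `du_Seam` / `ld_Data` (`Xq`, `Pq`, `pr`, `lam`, `lam_inj`,
`lam_equiv`, `lam_range`).
-/

set_option autoImplicit false
set_option linter.unusedSectionVars false

open scoped TensorProduct Pointwise
open ExtCitation NumberField groupCohomology CategoryTheory

namespace Fermat.Agent.S55

local notation "Qbar" => AlgebraicClosure ℚ
local notation "GQ" => (AlgebraicClosure ℚ ≃ₐ[ℚ] AlgebraicClosure ℚ)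

noncomputable section

variable (p : ℕ) [Fact p.Prime] (q : Nat.Primes) (L : IntermediateField ℚ Qbar)
  [FiniteDimensional ℚ L] [Normal ℚ L]

/-- `L·ℚ_q` is Galois over `ℚ_q`. -/
instance ils_isGalois : IsGalois ℚ_[(q : ℕ)] ↥(il_Lq (q : ℕ) L) := ⟨⟩

/-- The group isomorphism `D_q(L) ≃* Gal(L·ℚ_q/ℚ_q)`. -/
abbrev ils_e : ↥(il_D (q : ℕ) L) ≃* (↥(il_Lq (q : ℕ) L) ≃ₐ[ℚ_[(q : ℕ)]] ↥(il_Lq (q : ℕ) L)) :=
  (il_galEquiv (q : ℕ) L).symm

/-- **The local `p`-class module of the seam**: `lq_pclass` of `L·ℚ_q`, transported to the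
decomposition group `D_q(L)`. -/
def ils_Pq : PClassModule p (il_Xq q L) :=
  (lq_pclass p (il_Lq (q : ℕ) L)).transportGroup (ils_e q L)

/-- The comparison isomorphism `Hⁿ(Gal(L·ℚ_q/ℚ_q), (L·ℚ_q)ˣ) ≅ Hⁿ(D_q(L), X_q)`. -/
def ils_trIso (n : ℕ) :
    groupCohomology (Rep.ofAlgebraAutOnUnits ℚ_[(q : ℕ)] ↥(il_Lq (q : ℕ) L)) n ≅
      groupCohomology (il_Xq q L) n :=
  tt_trIso (ils_e q L) (Iso.refl _) n

/-- The top invariant of `ils_Pq` on a transported class is the invariant of `lq_pclass`. -/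
theorem ils_Pq_invTop_map
    (z : groupCohomology (Rep.ofAlgebraAutOnUnits ℚ_[(q : ℕ)] ↥(il_Lq (q : ℕ) L)) 2) :
    (ils_Pq p q L).invTop ((ils_trIso q L 2).hom.hom z) =
      (lq_pclass p (il_Lq (q : ℕ) L)).invTop z :=
  PClassModule.transport_invTop (lq_pclass p (il_Lq (q : ℕ) L)) (ils_e q L) (Iso.refl _) z

/-- The top invariant of `ils_Pq` in terms of `lq_pclass`. -/
theorem ils_Pq_invTop (z' : groupCohomology (il_Xq q L) 2) :
    (ils_Pq p q L).invTop z' =
      (lq_pclass p (il_Lq (q : ℕ) L)).invTop ((ils_trIso q L 2).inv.hom z') :=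
  PClassModule.transport_invTop' (lq_pclass p (il_Lq (q : ℕ) L)) (ils_e q L) (Iso.refl _) z'

/-- The layer invariants of `ils_Pq` in terms of `lq_pclass`. -/
theorem ils_Pq_inv (H' : Subgroup ↥(il_D (q : ℕ) L))
    (z' : groupCohomology (tt_res H' (il_Xq q L)) 2) :
    (ils_Pq p q L).inv H' z' =
      (lq_pclass p (il_Lq (q : ℕ) L)).inv (H'.map (ils_e q L : _ →* _))
        ((tt_trSub (ils_e q L) (Iso.refl _) H' 2).inv.hom z') := rfl

end

/-! ### Level wrappers: the fields `Xq`, `Pq`, `pr`, `lam`, … of `du_Seam` -/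

noncomputable section

variable {S : Finset Nat.Primes} (p : ℕ) [Fact p.Prime] (a : du_Lev S) (q : ↥S)

instance ils_levNumberField : NumberField a.L := ⟨⟩

/-- The decomposition group of the seam is `il_D`. -/
theorem ils_D_eq : a.D q.1 = il_D ((q.1 : Nat.Primes) : ℕ) a.L := rfl

/-- The field `Xq` of `ld_Data` at the level `a`. -/
abbrev ils_Xq : Rep.{0} ℤ ↥(a.D q.1) := il_Xq q.1 a.L

/-- The field `Pq` of `ld_Data` at the level `a`. -/
abbrev ils_PqLev : PClassModule p (ils_Xq a q) := ils_Pq p q.1 a.L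

/-- The field `pr` of `ld_Data` at the level `a`. -/
abbrev ils_pr : tt_res (a.D q.1) (id_ARep ↥a.L q.1) ⟶ ils_Xq a q := il_pr q.1 a.L

/-- The field `lam` of `du_Seam` at the level `a`. -/
abbrev ils_lam : (ils_Xq a q).V →+ tl_locUnits q.1 := il_lam q.1 a.L

theorem ils_lam_inj : Function.Injective (ils_lam a q) := il_lam_injective q.1 a.L

theorem ils_pr_surjective : Function.Surjective (ils_pr a q).hom := il_pr_surjective q.1 a.L

/-- The field `lam_equiv` of `du_Seam` at the level `a`. -/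
theorem ils_lam_equiv (τ : primeLocalGaloisGroup q.1) (d : ↥(a.D q.1))
    (h : (d : a.Γ) = a.q (primeLocalToGlobal q.1 τ)) (x : (ils_Xq a q).V) :
    ils_lam a q ((ils_Xq a q).ρ d x) = τ • ils_lam a q x :=
  il_lam_equiv q.1 a.L τ d h x

/-- The field `lam_range` of `du_Seam` at the level `a`. -/
theorem ils_lam_range (u : tl_locUnits q.1)
    (h : ∀ τ : primeLocalGaloisGroup q.1, a.q (primeLocalToGlobal q.1 τ) = 1 → τ • u = u) :
    ∃ x, ils_lam a q x = u :=
  il_lam_range q.1 a.L u h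

/-- The field `frob` of `ld_Data` at the level `a` (Frobenius reciprocity: `J_q` is coinduced
from `X_q`). -/
theorem ils_frob (Y : Rep.{0} ℤ a.Γ) (ψ' : tt_res (a.D q.1) Y ⟶ ils_Xq a q) :
    ∃ ψ : Y ⟶ id_ARep ↥a.L q.1, (Rep.resFunctor (a.D q.1).subtype).map ψ ≫ ils_pr a q = ψ' := by
  haveI : IsGalois ℚ ↥a.L := ⟨⟩
  haveI : (RingHom.ker (il_ev ((q.1 : Nat.Primes) : ℕ) a.L)).IsMaximal := by
    have h : RingHom.ker (il_ev ((q.1 : Nat.Primes) : ℕ) a.L) =
        RingHom.ker (il_evLq ((q.1 : Nat.Primes) : ℕ) a.L) := by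
      ext z
      rw [il_mem_ker_evLq_iff, RingHom.mem_ker]
    rw [h]
    infer_instance
  refine ga_frob (RingHom.ker (il_ev ((q.1 : Nat.Primes) : ℕ) a.L)) (a.D q.1) ?_ (ils_Xq a q)
    (ils_pr a q) (il_pr_eq_zero_iff q.1 a.L) (ils_pr_surjective a q) Y ψ'
  intro g
  have hD : g ∈ a.D q.1 ↔ g ∈ il_D ((q.1 : Nat.Primes) : ℕ) a.L := Iff.rfl
  rw [hD, il_mem_D_iff_ker]
  constructor
  · intro h
    have hle : g • RingHom.ker (il_ev ((q.1 : Nat.Primes) : ℕ) a.L) ≤
        RingHom.ker (il_ev ((q.1 : Nat.Primes) : ℕ) a.L) := by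
      intro y hy
      rw [Ideal.mem_pointwise_smul_iff_inv_smul_mem] at hy
      have h1 := h (g⁻¹ • y) ((RingHom.mem_ker).1 hy)
      rw [← ga_smul_def, smul_inv_smul] at h1
      exact (RingHom.mem_ker).2 h1
    haveI : (g • RingHom.ker (il_ev ((q.1 : Nat.Primes) : ℕ) a.L)).IsMaximal := by
      have h1 : g • RingHom.ker (il_ev ((q.1 : Nat.Primes) : ℕ) a.L) =
          (RingHom.ker (il_ev ((q.1 : Nat.Primes) : ℕ) a.L)).comap
            (MulSemiringAction.toRingEquiv (↥a.L ≃ₐ[ℚ] ↥a.L) _ g⁻¹) := by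
        ext z
        rw [Ideal.mem_pointwise_smul_iff_inv_smul_mem]
        rfl
      rw [h1]
      exact Ideal.comap_isMaximal_of_equiv _
    exact Ideal.IsMaximal.eq_of_le inferInstance (Ideal.IsMaximal.ne_top inferInstance) hle
  · intro h z hz
    have h1 : g • z ∈ g • RingHom.ker (il_ev ((q.1 : Nat.Primes) : ℕ) a.L) :=
      Ideal.smul_mem_pointwise_smul g z _ ((RingHom.mem_ker).2 hz)
    rw [h] at h1
    exact (RingHom.mem_ker).1 h1

/-- The field `tJ_lam` of `du_Seam` for the transition maps `id_tJ`. -/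
theorem ils_tJ_lam {a b : du_Lev S} (h : a ≤ b) (q : ↥S) (x : (id_ARep ↥a.L q.1).V) :
    ils_lam b q ((ils_pr b q).hom (id_tJ h q x)) = ils_lam a q ((ils_pr a q).hom x) := by
  letI := id_levAlgebra h
  exact il_lam_pr_Tmap q.1 a.L b.L (id_iota ↥a.L ↥b.L) (fun _ => rfl) (Additive.toMul x)

end

end Fermat.Agent.S55
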