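import Fermat.Agent.S55.Places.Local
import Fermat.Agent.S55.LocalQ.Defs
import Fermat.Agent.S55.Idele.GaloisAlgebra

/-!
# S55, block G0: the local field `L·ℚ_q` and the semilocal algebra `ℚ_[q] ⊗[ℚ] L`

`L ⊆ ℚ̄` a number field, normal over `ℚ`, `Γ_L = L ≃ₐ[ℚ] L`, `q` a prime.

* `il_emb q L : L →ₐ[ℚ] PadicAlgCl q`, `il_ev q L : ℚ_[q] ⊗[ℚ] L →ₐ[ℚ_[q]] PadicAlgCl q`
  (`a ⊗ x ↦ a * padicEmbedding q x`); `ℚ_[q] ⊗[ℚ] L` is `id_A L q` of `Idele/Defs.lean`.
* `il_Lq q L : LqField q`, the local field `L·ℚ_q = ℚ_q(padicEmbedding '' L)`; it is the range of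
  `il_ev`, finite and normal over `ℚ_q`.
* the action is `ga_act ℚ_[q] σ = id ⊗ σ` (`Idele/GaloisAlgebra.lean`), and `il_D q L ≤ Γ_L` is the
  image of the local Galois group.
* `il_theta : Gal(L·ℚ_q/ℚ_q) →* Γ_L`, injective with range `il_D q L`, characterised by
  `padicEmbedding (θ τ x) = τ (padicEmbedding x)`.
* `il_mem_D_iff_ker`: `σ ∈ il_D q L` iff `id ⊗ σ` stabilises the maximal ideal `ker (il_ev)`.
-/

set_option autoImplicit false
set_option linter.unusedSectionVars false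

open scoped TensorProduct Pointwise

namespace Fermat.Agent.S55

local notation "GQ" => (AlgebraicClosure ℚ ≃ₐ[ℚ] AlgebraicClosure ℚ)
local notation "Qbar" => AlgebraicClosure ℚ

noncomputable section

/-- The tensor product `F ⊗[ℚ] K` with the `ℚ`-module structures coming from the `ℚ`-algebra
structures.  (For `K = ↥L`, `L : IntermediateField ℚ Qbar`, the plain notation `F ⊗[ℚ] ↥L` picks
up `IntermediateField.module'`, which agrees with `Algebra.toModule` only after unfolding; this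
abbreviation produces exactly the carrier `id_A ↥L q` of `Idele/Defs.lean`.) -/
abbrev il_T (F K : Type*) [Field F] [Field K] [Algebra ℚ F] [Algebra ℚ K] : Type _ := F ⊗[ℚ] K

/-- Pure tensors in `il_T F K`. -/
abbrev il_tm {F K : Type*} [Field F] [Field K] [Algebra ℚ F] [Algebra ℚ K] (a : F) (x : K) :
    il_T F K := a ⊗ₜ[ℚ] x

variable (q : ℕ) [Fact q.Prime] (L : IntermediateField ℚ Qbar)

/-- The embedding of `L` into `PadicAlgCl q`. -/
def il_emb : L →ₐ[ℚ] PadicAlgCl q := (padicEmbedding q).comp L.val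

@[simp] theorem il_emb_apply (x : L) : il_emb q L x = padicEmbedding q (x : Qbar) := rfl

theorem il_emb_injective : Function.Injective (il_emb q L) := (il_emb q L).toRingHom.injective

/-- The evaluation map `ℚ_[q] ⊗[ℚ] L → PadicAlgCl q`, `a ⊗ x ↦ a * x`. -/
def il_ev : il_T ℚ_[q] L →ₐ[ℚ_[q]] PadicAlgCl q :=
  Algebra.TensorProduct.productLeftAlgHom (Algebra.ofId ℚ_[q] (PadicAlgCl q)) (il_emb q L)

@[simp] theorem il_ev_tmul (a : ℚ_[q]) (x : L) :
    il_ev q L (il_tm a x) = algebraMap ℚ_[q] (PadicAlgCl q) a * padicEmbedding q (x : Qbar) := rfl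

/-- The local field `L·ℚ_q ⊆ PadicAlgCl q`. -/
def il_Lq : LqField q := IntermediateField.adjoin ℚ_[q] (Set.range (il_emb q L))

theorem il_emb_mem (x : L) : il_emb q L x ∈ il_Lq q L :=
  IntermediateField.subset_adjoin _ _ ⟨x, rfl⟩

theorem il_ev_mem (z : il_T ℚ_[q] L) : il_ev q L z ∈ il_Lq q L := by
  induction z using TensorProduct.induction_on with
  | zero => rw [map_zero]; exact zero_mem _
  | tmul a x =>
    rw [il_ev_tmul]
    exact mul_mem ((il_Lq q L).algebraMap_mem a) (il_emb_mem q L x)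
  | add z w hz hw => rw [map_add]; exact add_mem hz hw

/-- The range of `il_ev`, as a `ℚ_[q]`-subalgebra. -/
def il_rangeSubalgebra : Subalgebra ℚ_[q] (PadicAlgCl q) := (il_ev q L).range

theorem il_mem_rangeSubalgebra {y : PadicAlgCl q} :
    y ∈ il_rangeSubalgebra q L ↔ ∃ z, il_ev q L z = y := Iff.rfl

/-- Every element of `L·ℚ_q` is in the range of `il_ev`. -/
theorem il_exists_ev_eq {y : PadicAlgCl q} (hy : y ∈ il_Lq q L) : ∃ z, il_ev q L z = y := by
  have h1 : (il_Lq q L).toSubalgebra = Algebra.adjoin ℚ_[q] (Set.range (il_emb q L)) :=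
    IntermediateField.adjoin_toSubalgebra _
  have h2 : Algebra.adjoin ℚ_[q] (Set.range (il_emb q L)) ≤ il_rangeSubalgebra q L := by
    apply Algebra.adjoin_le
    rintro _ ⟨x, rfl⟩
    exact ⟨il_tm (1 : ℚ_[q]) x, by simp⟩
  have h3 : y ∈ (il_Lq q L).toSubalgebra := hy
  rw [h1] at h3
  exact h2 h3

theorem il_range_ev : Set.range (il_ev q L) = (il_Lq q L : Set (PadicAlgCl q)) := by
  ext y
  constructor
  · rintro ⟨z, rfl⟩; exact il_ev_mem q L z
  · intro hy; exact il_exists_ev_eq q L hy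

/-! ### Finiteness and normality of `L·ℚ_q` -/

section finite

variable [FiniteDimensional ℚ L]

instance il_finiteDimensional : FiniteDimensional ℚ_[q] (il_Lq q L) := by
  classical
  obtain ⟨s, hs⟩ := (Module.Finite.fg_top : (⊤ : Submodule ℚ L).FG)
  set Lq' : LqField q := IntermediateField.adjoin ℚ_[q] ((il_emb q L) '' (s : Set L)) with hLq'
  have hfin : FiniteDimensional ℚ_[q] Lq' := by
    have : Finite ((il_emb q L) '' (s : Set L)) := (s.finite_toSet.image _).to_subtype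
    exact IntermediateField.finiteDimensional_adjoin fun y _ =>
      (Algebra.IsAlgebraic.isAlgebraic (R := ℚ_[q]) y).isIntegral
  have hle : il_Lq q L ≤ Lq' := by
    rw [il_Lq, IntermediateField.adjoin_le_iff]
    rintro _ ⟨x, rfl⟩
    have hx : x ∈ Submodule.span ℚ (s : Set L) := by rw [hs]; trivial
    induction hx using Submodule.span_induction with
    | mem y hy => exact IntermediateField.subset_adjoin _ _ ⟨y, hy, rfl⟩
    | zero => rw [map_zero]; exact zero_mem _
    | add y z _ _ hy hz => rw [map_add]; exact add_mem hy hz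
    | smul c y _ hy =>
      rw [Algebra.smul_def, map_mul, AlgHom.commutes,
        IsScalarTower.algebraMap_apply ℚ ℚ_[q] (PadicAlgCl q)]
      exact mul_mem (Lq'.algebraMap_mem _) hy
  exact FiniteDimensional.of_injective (IntermediateField.inclusion hle).toLinearMap
    (IntermediateField.inclusion_injective hle)

end finite

section normal

variable [Normal ℚ L]

/-- The map from the local Galois group to `Γ_L = Gal(L/ℚ)`. -/
def il_res : (PadicAlgCl q ≃ₐ[ℚ_[q]] PadicAlgCl q) →* (L ≃ₐ[ℚ] L) :=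
  (AlgEquiv.restrictNormalHom (F := ℚ) (K₁ := Qbar) L).comp (localGaloisToGlobal q)

/-- The decomposition group `D_q(L) ≤ Γ_L`: the image of the local Galois group. -/
def il_D : Subgroup (L ≃ₐ[ℚ] L) := (il_res q L).range

theorem il_emb_res (τ : PadicAlgCl q ≃ₐ[ℚ_[q]] PadicAlgCl q) (x : L) :
    il_emb q L (il_res q L τ x) = τ (il_emb q L x) := by
  rw [il_emb_apply, il_emb_apply, ← padicEmbedding_localGaloisToGlobal]
  congr 1
  exact AlgEquiv.restrictNormal_commutes (localGaloisToGlobal q τ) L x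

instance il_normal : Normal ℚ_[q] (il_Lq q L) := by
  rw [IntermediateField.normal_iff_forall_map_le]
  intro σ
  rw [il_Lq, IntermediateField.adjoin_map, IntermediateField.adjoin_le_iff]
  rintro _ ⟨_, ⟨x, rfl⟩, rfl⟩
  let σ' : PadicAlgCl q ≃ₐ[ℚ_[q]] PadicAlgCl q :=
    AlgEquiv.ofBijective σ (Algebra.IsAlgebraic.algHom_bijective σ)
  have h : σ (il_emb q L x) = σ' (il_emb q L x) := rfl
  rw [h, ← il_emb_res]
  exact il_emb_mem q L _

/-- Restriction from the local Galois group to `Gal(L·ℚ_q/ℚ_q)`. -/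
def il_resLq : (PadicAlgCl q ≃ₐ[ℚ_[q]] PadicAlgCl q) →* (il_Lq q L ≃ₐ[ℚ_[q]] il_Lq q L) :=
  AlgEquiv.restrictNormalHom (F := ℚ_[q]) (K₁ := PadicAlgCl q) (il_Lq q L)

theorem il_resLq_surjective : Function.Surjective (il_resLq q L) :=
  AlgEquiv.restrictNormalHom_surjective (PadicAlgCl q)

theorem il_resLq_coe (τ : PadicAlgCl q ≃ₐ[ℚ_[q]] PadicAlgCl q) (y : il_Lq q L) :
    ((il_resLq q L τ y : il_Lq q L) : PadicAlgCl q) = τ (y : PadicAlgCl q) :=
  AlgEquiv.restrictNormal_commutes τ (il_Lq q L) y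

/-- `il_emb` with values in `L·ℚ_q`. -/
def il_embLq : L →ₐ[ℚ] il_Lq q L :=
  (il_emb q L).codRestrict ((il_Lq q L).toSubalgebra.restrictScalars ℚ) (il_emb_mem q L)

@[simp] theorem il_embLq_coe (x : L) : ((il_embLq q L x : il_Lq q L) : PadicAlgCl q) =
    padicEmbedding q (x : Qbar) := rfl

theorem il_embLq_injective : Function.Injective (il_embLq q L) := (il_embLq q L).toRingHom.injective

/-- An automorphism of `L·ℚ_q` over `ℚ_q` is determined by its values on the image of `L`. -/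
theorem il_aut_ext {τ τ' : il_Lq q L ≃ₐ[ℚ_[q]] il_Lq q L}
    (h : ∀ x : L, τ (il_embLq q L x) = τ' (il_embLq q L x)) : τ = τ' := by
  have h1 : ((il_Lq q L).val.comp (τ : il_Lq q L →ₐ[ℚ_[q]] il_Lq q L)) =
      ((il_Lq q L).val.comp (τ' : il_Lq q L →ₐ[ℚ_[q]] il_Lq q L)) := by
    apply IntermediateField.adjoin_algHom_ext
    rintro _ ⟨x, rfl⟩
    have := congrArg (fun y : il_Lq q L => (y : PadicAlgCl q)) (h x)
    exact this
  ext y
  have := DFunLike.congr_fun h1 y
  exact this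

/-- The map `θ : Gal(L·ℚ_q/ℚ_q) → Γ_L`. -/
def il_thetaFun (τ : il_Lq q L ≃ₐ[ℚ_[q]] il_Lq q L) : L ≃ₐ[ℚ] L :=
  il_res q L (τ.liftNormal (PadicAlgCl q))

theorem il_embLq_thetaFun (τ : il_Lq q L ≃ₐ[ℚ_[q]] il_Lq q L) (x : L) :
    il_embLq q L (il_thetaFun q L τ x) = τ (il_embLq q L x) := by
  apply Subtype.ext
  rw [il_embLq_coe, ← il_emb_apply, il_thetaFun, il_emb_res]
  exact τ.liftNormal_commutes (PadicAlgCl q) (il_embLq q L x)

/-- `θ τ` is characterised by `emb (θ τ x) = τ (emb x)`. -/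
theorem il_eq_thetaFun {τ : il_Lq q L ≃ₐ[ℚ_[q]] il_Lq q L} {σ : L ≃ₐ[ℚ] L}
    (h : ∀ x : L, il_embLq q L (σ x) = τ (il_embLq q L x)) : σ = il_thetaFun q L τ := by
  refine AlgEquiv.ext fun x => ?_
  apply il_embLq_injective q L
  rw [h, il_embLq_thetaFun]

/-- The homomorphism `θ : Gal(L·ℚ_q/ℚ_q) →* Γ_L`. -/
def il_theta : (il_Lq q L ≃ₐ[ℚ_[q]] il_Lq q L) →* (L ≃ₐ[ℚ] L) :=
  MonoidHom.mk' (il_thetaFun q L) (by
    intro τ τ'
    symm
    apply il_eq_thetaFun
    intro x
    show il_embLq q L (il_thetaFun q L τ (il_thetaFun q L τ' x)) = τ (τ' (il_embLq q L x))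
    rw [il_embLq_thetaFun, il_embLq_thetaFun])

theorem il_embLq_theta (τ : il_Lq q L ≃ₐ[ℚ_[q]] il_Lq q L) (x : L) :
    il_embLq q L (il_theta q L τ x) = τ (il_embLq q L x) := il_embLq_thetaFun q L τ x

theorem il_eq_theta {τ : il_Lq q L ≃ₐ[ℚ_[q]] il_Lq q L} {σ : L ≃ₐ[ℚ] L}
    (h : ∀ x : L, il_embLq q L (σ x) = τ (il_embLq q L x)) : σ = il_theta q L τ :=
  il_eq_thetaFun q L h

theorem il_theta_injective : Function.Injective (il_theta q L) := by
  intro τ τ' h
  apply il_aut_ext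
  intro x
  rw [← il_embLq_theta, ← il_embLq_theta, h]

/-- `θ ∘ (restriction to L·ℚ_q) = (restriction to L) ∘ localGaloisToGlobal`. -/
theorem il_theta_resLq (τ : PadicAlgCl q ≃ₐ[ℚ_[q]] PadicAlgCl q) :
    il_theta q L (il_resLq q L τ) = il_res q L τ := by
  symm
  apply il_eq_theta
  intro x
  apply Subtype.ext
  rw [il_resLq_coe, il_embLq_coe, il_embLq_coe, ← il_emb_apply, il_emb_res]
  rfl

theorem il_range_theta : (il_theta q L).range = il_D q L := by
  apply le_antisymm
  · rintro _ ⟨τ, rfl⟩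
    obtain ⟨τ', rfl⟩ := il_resLq_surjective q L τ
    rw [il_theta_resLq]
    exact ⟨τ', rfl⟩
  · rintro _ ⟨τ, rfl⟩
    exact ⟨il_resLq q L τ, il_theta_resLq q L τ⟩

/-- `Gal(L·ℚ_q/ℚ_q) ≃* D_q(L)`. -/
def il_galEquiv : (il_Lq q L ≃ₐ[ℚ_[q]] il_Lq q L) ≃* il_D q L :=
  (MonoidHom.ofInjective (il_theta_injective q L)).trans
    (MulEquiv.subgroupCongr (il_range_theta q L))

theorem il_galEquiv_coe (τ : il_Lq q L ≃ₐ[ℚ_[q]] il_Lq q L) :
    ((il_galEquiv q L τ : il_D q L) : L ≃ₐ[ℚ] L) = il_theta q L τ := rfl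

end normal

/-! ### The Galois action on `ℚ_[q] ⊗[ℚ] L` and the stabiliser of `ker (il_ev)` -/

section action

variable [FiniteDimensional ℚ L] [Normal ℚ L]

/-- Equivariance of the evaluation map for elements of the decomposition group. -/
theorem il_ev_act_res (τ : PadicAlgCl q ≃ₐ[ℚ_[q]] PadicAlgCl q) (z : il_T ℚ_[q] L) :
    il_ev q L (ga_act ℚ_[q] (il_res q L τ) z) = τ (il_ev q L z) := by
  induction z using TensorProduct.induction_on with
  | zero => simp
  | tmul a x =>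
    rw [ga_act_tmul, il_ev_tmul, il_ev_tmul, map_mul, AlgEquiv.commutes, ← il_emb_apply,
      il_emb_res, il_emb_apply]
  | add z w hz hw => rw [map_add, map_add, map_add, hz, hw, map_add]

/-- Equivariance in terms of `θ`. -/
theorem il_ev_act_theta (τ : il_Lq q L ≃ₐ[ℚ_[q]] il_Lq q L) (z : il_T ℚ_[q] L) :
    il_ev q L (ga_act ℚ_[q] (il_theta q L τ) z) =
      ((τ ⟨il_ev q L z, il_ev_mem q L z⟩ : il_Lq q L) : PadicAlgCl q) := by
  obtain ⟨τ', rfl⟩ := il_resLq_surjective q L τ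
  rw [il_theta_resLq, il_ev_act_res, il_resLq_coe]

/-- The evaluation map with values in `L·ℚ_q`. -/
def il_evLq : il_T ℚ_[q] L →ₐ[ℚ_[q]] il_Lq q L :=
  (il_ev q L).codRestrict (il_Lq q L).toSubalgebra (il_ev_mem q L)

@[simp] theorem il_evLq_coe (z : il_T ℚ_[q] L) :
    ((il_evLq q L z : il_Lq q L) : PadicAlgCl q) = il_ev q L z := rfl

theorem il_evLq_surjective : Function.Surjective (il_evLq q L) := by
  intro y
  obtain ⟨z, hz⟩ := il_exists_ev_eq q L y.2
  exact ⟨z, Subtype.ext hz⟩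

theorem il_evLq_one_tmul (x : L) : il_evLq q L (il_tm (1 : ℚ_[q]) x) = il_embLq q L x := by
  apply Subtype.ext
  simp

theorem il_ev_one_tmul (x : L) :
    il_ev q L (il_tm (1 : ℚ_[q]) x) = padicEmbedding q (x : Qbar) := by
  rw [il_ev_tmul, map_one, one_mul]

/-- The kernel of `G_q → Γ_L` is the fixing subgroup of `L·ℚ_q`. -/
theorem il_ker_res : (il_res q L).ker = (il_Lq q L).fixingSubgroup := by
  ext τ
  rw [MonoidHom.mem_ker, IntermediateField.mem_fixingSubgroup_iff]
  constructor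
  · intro h y hy
    obtain ⟨z, rfl⟩ := il_exists_ev_eq q L hy
    have := il_ev_act_res q L τ z
    rw [h, ga_act_one] at this
    rw [← this]
    rfl
  · intro h
    refine AlgEquiv.ext fun x => ?_
    apply il_emb_injective q L
    rw [il_emb_res]
    exact h _ (il_emb_mem q L x)

/-- `L·ℚ_q` is the fixed field of the kernel of `G_q → Γ_L`. -/
theorem il_Lq_eq_fixedField :
    il_Lq q L = IntermediateField.fixedField (il_res q L).ker := by
  rw [il_ker_res, InfiniteGalois.fixedField_fixingSubgroup]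

theorem il_mem_Lq_iff (y : PadicAlgCl q) :
    y ∈ il_Lq q L ↔ ∀ τ : PadicAlgCl q ≃ₐ[ℚ_[q]] PadicAlgCl q, il_res q L τ = 1 → τ y = y := by
  conv_lhs => rw [il_Lq_eq_fixedField]
  rw [IntermediateField.mem_fixedField_iff]
  constructor
  · intro h τ hτ; exact h τ hτ
  · intro h τ hτ; exact h τ hτ

omit q L in
/-- Generic descent of an automorphism along a surjection onto an algebraic field extension. -/
theorem il_exists_algEquiv_aux {R A B : Type*} [Field R] [CommRing A] [Field B] [Algebra R A]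
    [Algebra R B] [Algebra.IsAlgebraic R B] (f : A →ₐ[R] B) (hf : Function.Surjective f)
    (e : A ≃ₐ[R] A) (h : ∀ z, f z = 0 → f (e z) = 0) :
    ∃ τ : B ≃ₐ[R] B, ∀ z, τ (f z) = f (e z) := by
  let g : A →ₐ[R] B := f.comp e.toAlgHom
  have hker : RingHom.ker f.toRingHom ≤ RingHom.ker g.toRingHom := by
    intro z hz
    rw [RingHom.mem_ker] at hz ⊢
    exact h z hz
  let τ₁ : B →ₐ[R] B := AlgHom.liftOfSurjective f hf g hker
  refine ⟨AlgEquiv.ofBijective τ₁ (Algebra.IsAlgebraic.algHom_bijective τ₁), fun z => ?_⟩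
  exact AlgHom.liftOfSurjective_apply f hf g hker z

/-- **Stabiliser of the distinguished maximal ideal.** `σ ∈ Γ_L` lies in the decomposition group
`D_q(L)` (the image of the local Galois group) iff `σ ⊗ id` maps `ker (il_ev)` into itself. -/
theorem il_mem_D_iff_ker (σ : L ≃ₐ[ℚ] L) :
    σ ∈ il_D q L ↔ ∀ z : il_T ℚ_[q] L, il_ev q L z = 0 → il_ev q L (ga_act ℚ_[q] σ z) = 0 := by
  constructor
  · rintro ⟨τ, rfl⟩ z hz
    rw [il_ev_act_res, hz, map_zero]
  · intro h
    -- the induced automorphism of `L·ℚ_q`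
    obtain ⟨τ, hτ₀⟩ := il_exists_algEquiv_aux (il_evLq q L) (il_evLq_surjective q L)
      (ga_act ℚ_[q] σ) (fun z hz => by
        apply Subtype.ext
        have hz' : il_ev q L z = 0 := congrArg (fun y : il_Lq q L => (y : PadicAlgCl q)) hz
        exact h z hz')
    have hτ : σ = il_theta q L τ := by
      apply il_eq_theta
      intro x
      rw [← il_evLq_one_tmul, ← il_evLq_one_tmul, hτ₀, ga_act_tmul]
    rw [hτ, ← il_range_theta]
    exact ⟨τ, rfl⟩

/-- With the Places dictionary: `D_q(L)` is the stabiliser of the prime of `𝓞 L` below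
`padicPlace q`. -/
theorem il_D_eq_stabilizer [NumberField L] [IsGalois ℚ L] :
    il_D q L = MulAction.stabilizer (L ≃ₐ[ℚ] L) (pl_ideal L (padicPlace q)) :=
  pl_range_local q L

end action

/-! ### Inertia -/

section inertia

open NumberField

omit L in
theorem il_valuation_lt_one_iff (y : Qbar) :
    (padicPlace q).valuation y < 1 ↔ ‖padicEmbedding q y‖ < 1 := by
  rw [← ValuationSubring.mem_nonunits_iff, ValuationSubring.mem_nonunits_iff_or]
  rcases eq_or_ne y 0 with rfl | hy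
  · simp
  · rw [← li_abv_lt_one_iff q hy, li_abv_apply]
    simp [hy]

omit L in
theorem il_valuation_le_one_iff (y : Qbar) :
    (padicPlace q).valuation y ≤ 1 ↔ ‖padicEmbedding q y‖ ≤ 1 := by
  rw [ValuationSubring.valuation_le_one_iff, mem_padicPlace_iff]
  exact Iff.rfl

variable [FiniteDimensional ℚ L] [IsGalois ℚ L] [NumberField L]

theorem il_norm_emb_le_one (x : 𝓞 L) : ‖il_emb q L (x : L)‖ ≤ 1 := by
  rw [il_emb_apply, ← il_valuation_le_one_iff, ValuationSubring.valuation_le_one_iff]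
  exact pl_intQbar_le (padicPlace q) (Fermat.Agent.S14.Reduction.toIntQbar L x)

/-- `θ` maps the inertia group of the local field `L·ℚ_q` into the inertia group of the prime of
`𝓞 L` below `padicPlace q`. -/
theorem il_theta_mem_inertia {τ : il_Lq q L ≃ₐ[ℚ_[q]] il_Lq q L}
    (hτ : τ ∈ lq_inertia (il_Lq q L)) :
    il_theta q L τ ∈ (pl_ideal L (padicPlace q)).toAddSubgroup.inertia (L ≃ₐ[ℚ] L) := by
  rw [AddSubgroup.mem_inertia]
  intro x
  show il_theta q L τ • x - x ∈ pl_ideal L (padicPlace q)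
  rw [pl_mem_ideal, il_valuation_lt_one_iff]
  have h1 := hτ (il_embLq q L (x : L)) (il_norm_emb_le_one q L x)
  rw [← il_embLq_theta] at h1
  have h2 : ((((il_theta q L τ • x - x : 𝓞 L) : 𝓞 L) : L) : Qbar) =
      ((il_theta q L τ (x : L) : L) : Qbar) - ((x : L) : Qbar) := rfl
  rw [h2, map_sub]
  exact h1

/-- If `L` is a level field (unramified outside `S` in the prelude's sense) and `q ∉ S`, then the
local extension `L·ℚ_q/ℚ_q` has trivial inertia group. -/
theorem il_inertia_eq_bot {S : Finset Nat.Primes} (hL : L.IsUnramifiedOutside S)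
    (hq : (⟨q, Fact.out⟩ : Nat.Primes) ∉ S) : lq_inertia (il_Lq q L) = ⊥ := by
  rw [eq_bot_iff]
  intro τ hτ
  have h1 := il_theta_mem_inertia q L hτ
  rw [pl_inertia_eq_bot L (padicPlace q) hL ⟨q, Fact.out⟩ hq (pl_padicPlace_liesOver q),
    Subgroup.mem_bot] at h1
  rw [Subgroup.mem_bot]
  apply il_theta_injective q L
  rw [h1, map_one]

end inertia

end

end Fermat.Agent.S55
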