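import Fermat.Agent.S55.Idele.LocalSeam
import Fermat.Agent.S55.LocalCF.SeamInfl

/-!
# S55 / glue [L] → [G]: inflation compatibility of the transported local class modules

For `q : Nat.Primes` and finite normal `L ≤ L' ⊆ ℚ̄`: `L·ℚ_q ≤ L'·ℚ_q` (`ils_Lq_mono`), the
isomorphisms `il_galEquiv` are compatible with restriction (`ils_e_res`), and the local class
modules `ils_Pq` (`lq_pclass` transported to the decomposition groups) are compatible with
inflation (`ils_Pq_invTop_infl`): this is the field `inv` of `rc_InvMor` at the primes of `T`.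
-/

set_option autoImplicit false
set_option linter.unusedSectionVars false

open scoped TensorProduct
open ExtCitation NumberField groupCohomology CategoryTheory

namespace Fermat.Agent.S55

local notation "Qbar" => AlgebraicClosure ℚ

noncomputable section

section abstractInfl

variable {p : ℕ} {G₀ G₁ D₀ D₁ : Type} [Group G₀] [Group G₁] [Group D₀] [Group D₁]
  {A : Rep.{0} ℤ G₀} {A' : Rep.{0} ℤ G₁}

/-- Inflation compatibility is preserved by transport along group isomorphisms. -/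
theorem ils_transportGroup_invTop_infl (P₀ : PClassModule p A) (P₁ : PClassModule p A')
    (π : G₁ →* G₀) (φ : Rep.res π A ⟶ A')
    (hinf : ∀ z : groupCohomology A 2, tt_IsPPrimary p z →
      P₁.invTop ((map π φ 2).hom z) = P₀.invTop z)
    (e₀ : D₀ ≃* G₀) (e₁ : D₁ ≃* G₁) (ρ : D₁ →* D₀) (hsq : ∀ d, e₀ (ρ d) = π (e₁ d))
    (ψ : Rep.res ρ (Rep.res (e₀ : D₀ →* G₀) A) ⟶ Rep.res (e₁ : D₁ →* G₁) A')
    (hψ : ∀ x : A.V, ψ.hom x = φ.hom x)
    (w : groupCohomology (Rep.res (e₀ : D₀ →* G₀) A) 2) (hw : tt_IsPPrimary p w) :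
    (P₁.transportGroup e₁).invTop ((map ρ ψ 2).hom w) = (P₀.transportGroup e₀).invTop w := by
  set z := (tt_trIso e₀ (Iso.refl (Rep.res (e₀ : D₀ →* G₀) A)) 2).inv.hom w with hz
  have hwz : (tt_trIso e₀ (Iso.refl (Rep.res (e₀ : D₀ →* G₀) A)) 2).hom.hom z = w :=
    congrArg (fun f => f.hom w) (tt_trIso e₀ (Iso.refl (Rep.res (e₀ : D₀ →* G₀) A)) 2).inv_hom_id
  have hzp : tt_IsPPrimary p z := tt_isPPrimary_hom _ hw
  have hsq' : (tt_trIso e₀ (Iso.refl (Rep.res (e₀ : D₀ →* G₀) A)) 2).hom ≫ map ρ ψ 2 =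
      map π φ 2 ≫ (tt_trIso e₁ (Iso.refl (Rep.res (e₁ : D₁ →* G₁) A')) 2).hom := by
    rw [tt_trIso_hom, tt_trIso_hom]
    show map _ _ 2 ≫ map _ _ 2 = map _ _ 2 ≫ map _ _ 2
    rw [← map_comp, ← map_comp]
    refine map_congr ?_ ?_ 2
    · ext d : 1
      exact hsq d
    · exact DFunLike.ext _ _ fun x => hψ x
  have h1 : (map ρ ψ 2).hom w =
      (tt_trIso e₁ (Iso.refl (Rep.res (e₁ : D₁ →* G₁) A')) 2).hom.hom ((map π φ 2).hom z) := by
    rw [← hwz]
    exact congrArg (fun f => f.hom z) hsq'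
  rw [h1, tt_trIso_hom, ← hwz, tt_trIso_hom]
  rw [PClassModule.transport_invTop, PClassModule.transport_invTop]
  exact hinf z hzp

end abstractInfl

variable (p : ℕ) [Fact p.Prime] (q : Nat.Primes) {L L' : IntermediateField ℚ Qbar}
  [FiniteDimensional ℚ L] [Normal ℚ L] [FiniteDimensional ℚ L'] [Normal ℚ L']

/-- `L·ℚ_q` is monotone in `L`. -/
theorem ils_Lq_mono (h : L ≤ L') : il_Lq (q : ℕ) L ≤ il_Lq (q : ℕ) L' := by
  unfold il_Lq
  apply IntermediateField.adjoin.mono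
  rintro _ ⟨x, rfl⟩
  exact ⟨IntermediateField.inclusion h x, rfl⟩

theorem ils_inclusion_embLq (h : L ≤ L') (x : L) :
    IntermediateField.inclusion (ils_Lq_mono q h) (il_embLq (q : ℕ) L x) =
      il_embLq (q : ℕ) L' (IntermediateField.inclusion h x) := Subtype.ext rfl

/-- **The isomorphisms `D_q(L) ≃* Gal(L·ℚ_q/ℚ_q)` are compatible with restriction.** -/
theorem ils_e_res (h : L ≤ L') (ρ : ↥(il_D (q : ℕ) L') →* ↥(il_D (q : ℕ) L))
    (hρ : ∀ (d : ↥(il_D (q : ℕ) L')) (x : L), (((ρ d : L ≃ₐ[ℚ] L) x : L) : Qbar) =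
      (((d : L' ≃ₐ[ℚ] L') (IntermediateField.inclusion h x) : L') : Qbar))
    (d : ↥(il_D (q : ℕ) L')) :
    ils_e q L (ρ d) = lq_res (ils_Lq_mono q h) (ils_e q L' d) := by
  apply il_theta_injective (q : ℕ) L
  rw [il_theta_galEquiv_symm]
  apply il_eq_theta
  intro x
  apply Subtype.ext
  rw [lq_res_apply, ils_inclusion_embLq, ← il_embLq_theta, il_theta_galEquiv_symm, il_embLq_coe,
    il_embLq_coe, hρ]

variable {q}

/-- Elements of `X_q` are determined by their image in `PadicAlgCl q`. -/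
theorem ils_Xq_ext {y y' : (il_Xq q L).V}
    (h : (((il_Xq.val q L y : (↥(il_Lq (q : ℕ) L))ˣ) : ↥(il_Lq (q : ℕ) L)) : PadicAlgCl (q : ℕ)) =
      (((il_Xq.val q L y' : (↥(il_Lq (q : ℕ) L))ˣ) : ↥(il_Lq (q : ℕ) L)) : PadicAlgCl (q : ℕ))) :
    y = y' := by
  have h1 : il_Xq.val q L y = il_Xq.val q L y' := Units.ext (Subtype.ext h)
  exact h1

/-- The inclusion of units `(L·ℚ_q)ˣ → (L'·ℚ_q)ˣ` does not change the image in `PadicAlgCl q`. -/
theorem ils_unitsIncl_coe (h : L ≤ L') (x : (il_Xq q L).V) :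
    (((il_Xq.val q L' ((lq_unitsIncl (ils_Lq_mono q h)).hom x) : (↥(il_Lq (q : ℕ) L'))ˣ) :
      ↥(il_Lq (q : ℕ) L')) : PadicAlgCl (q : ℕ)) =
    (((il_Xq.val q L x : (↥(il_Lq (q : ℕ) L))ˣ) : ↥(il_Lq (q : ℕ) L)) : PadicAlgCl (q : ℕ)) :=
  lq_unitsIncl_coe (ils_Lq_mono q h) x

/-- **Inflation compatibility of the transported local class modules (top layer).** `ρ` is any
restriction homomorphism between the decomposition groups and `ψ` any morphism which is the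
inclusion of units pointwise. -/
theorem ils_Pq_invTop_infl (h : L ≤ L') (ρ : ↥(il_D (q : ℕ) L') →* ↥(il_D (q : ℕ) L))
    (hρ : ∀ (d : ↥(il_D (q : ℕ) L')) (x : L), (((ρ d : L ≃ₐ[ℚ] L) x : L) : Qbar) =
      (((d : L' ≃ₐ[ℚ] L') (IntermediateField.inclusion h x) : L') : Qbar))
    (ψ : Rep.res ρ (il_Xq q L) ⟶ il_Xq q L')
    (hψ : ∀ x : (il_Xq q L).V,
      (((il_Xq.val q L' (ψ.hom x) : (↥(il_Lq (q : ℕ) L'))ˣ) : ↥(il_Lq (q : ℕ) L')) :
        PadicAlgCl (q : ℕ)) =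
      (((il_Xq.val q L x : (↥(il_Lq (q : ℕ) L))ˣ) : ↥(il_Lq (q : ℕ) L)) : PadicAlgCl (q : ℕ)))
    (w : groupCohomology (il_Xq q L) 2) (hw : tt_IsPPrimary p w) :
    (ils_Pq p q L').invTop ((map ρ ψ 2).hom w) = (ils_Pq p q L).invTop w :=
  ils_transportGroup_invTop_infl (lq_pclass p (il_Lq (q : ℕ) L)) (lq_pclass p (il_Lq (q : ℕ) L'))
    (lq_res (ils_Lq_mono q h)) (lq_unitsIncl (ils_Lq_mono q h))
    (fun z hz => lq_pclass_invTop_infl p (ils_Lq_mono q h) z hz)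
    (ils_e q L) (ils_e q L') ρ (ils_e_res q h ρ hρ) ψ
    (fun x => ils_Xq_ext ((hψ x).trans (ils_unitsIncl_coe h x).symm)) w hw

/-- The inclusion of units `(L·ℚ_q)ˣ → (L'·ℚ_q)ˣ` as a morphism of `D_q(L')`-modules, for any
restriction homomorphism `ρ` between the decomposition groups. -/
def ils_unitsInclD (h : L ≤ L') (ρ : ↥(il_D (q : ℕ) L') →* ↥(il_D (q : ℕ) L))
    (hρ : ∀ (d : ↥(il_D (q : ℕ) L')) (x : L), (((ρ d : L ≃ₐ[ℚ] L) x : L) : Qbar) =
      (((d : L' ≃ₐ[ℚ] L') (IntermediateField.inclusion h x) : L') : Qbar)) :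
    Rep.res ρ (il_Xq q L) ⟶ il_Xq q L' :=
  tt_homOfAdd (A := Rep.res ρ (il_Xq q L)) (B := il_Xq q L')
    { toFun := fun x => (lq_unitsIncl (ils_Lq_mono q h)).hom x
      map_zero' := map_zero (lq_unitsIncl (ils_Lq_mono q h)).hom
      map_add' := fun x y => map_add (lq_unitsIncl (ils_Lq_mono q h)).hom x y }
    (fun d x => by
      have h1 := Rep.hom_comm_apply (lq_unitsIncl (ils_Lq_mono q h)) (ils_e q L' d) x
      have h2 : (Rep.res ρ (il_Xq q L)).ρ d x =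
          (Rep.res (lq_res (ils_Lq_mono q h))
            (Rep.ofAlgebraAutOnUnits ℚ_[(q : ℕ)] ↥(il_Lq (q : ℕ) L))).ρ (ils_e q L' d) x := by
        show (Rep.ofAlgebraAutOnUnits ℚ_[(q : ℕ)] ↥(il_Lq (q : ℕ) L)).ρ (ils_e q L (ρ d)) x =
          (Rep.ofAlgebraAutOnUnits ℚ_[(q : ℕ)] ↥(il_Lq (q : ℕ) L)).ρ
            (lq_res (ils_Lq_mono q h) (ils_e q L' d)) x
        rw [ils_e_res q h ρ hρ d]
      show (lq_unitsIncl (ils_Lq_mono q h)).hom ((Rep.res ρ (il_Xq q L)).ρ d x) = _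
      rw [h2]
      exact h1)

theorem ils_unitsInclD_apply (h : L ≤ L') (ρ : ↥(il_D (q : ℕ) L') →* ↥(il_D (q : ℕ) L))
    (hρ : ∀ (d : ↥(il_D (q : ℕ) L')) (x : L), (((ρ d : L ≃ₐ[ℚ] L) x : L) : Qbar) =
      (((d : L' ≃ₐ[ℚ] L') (IntermediateField.inclusion h x) : L') : Qbar))
    (x : (il_Xq q L).V) :
    (ils_unitsInclD h ρ hρ).hom x = (lq_unitsIncl (ils_Lq_mono q h)).hom x := rfl

theorem ils_unitsInclD_coe (h : L ≤ L') (ρ : ↥(il_D (q : ℕ) L') →* ↥(il_D (q : ℕ) L))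
    (hρ : ∀ (d : ↥(il_D (q : ℕ) L')) (x : L), (((ρ d : L ≃ₐ[ℚ] L) x : L) : Qbar) =
      (((d : L' ≃ₐ[ℚ] L') (IntermediateField.inclusion h x) : L') : Qbar))
    (x : (il_Xq q L).V) :
    (((il_Xq.val q L' ((ils_unitsInclD h ρ hρ).hom x) : (↥(il_Lq (q : ℕ) L'))ˣ) :
      ↥(il_Lq (q : ℕ) L')) : PadicAlgCl (q : ℕ)) =
    (((il_Xq.val q L x : (↥(il_Lq (q : ℕ) L))ˣ) : ↥(il_Lq (q : ℕ) L)) : PadicAlgCl (q : ℕ)) :=
  ils_unitsIncl_coe h x

end

/-! ### Levels -/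

noncomputable section

variable {S : Finset Nat.Primes} (p : ℕ) [Fact p.Prime] {a b : du_Lev S}

/-- The restriction `D_q(b) → D_q(a)` between the decomposition groups of two levels. -/
def ils_resD (h : a ≤ b) (q : Nat.Primes) :
    ↥(il_D (q : ℕ) b.L) →* ↥(il_D (q : ℕ) a.L) :=
  ((du_Lev.res h).comp (il_D (q : ℕ) b.L).subtype).codRestrict (il_D (q : ℕ) a.L) (fun d => by
    obtain ⟨τ, hτ⟩ := d.2
    refine ⟨τ, ?_⟩
    show il_res (q : ℕ) a.L τ = du_Lev.res h (d : b.Γ)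
    rw [← hτ]
    exact (du_Lev.res_q h (localGaloisToGlobal (q : ℕ) τ)).symm)

theorem ils_resD_coe (h : a ≤ b) (q : Nat.Primes) (d : ↥(il_D (q : ℕ) b.L)) :
    ((ils_resD h q d : ↥(il_D (q : ℕ) a.L)) : a.Γ) = du_Lev.res h (d : b.Γ) := rfl

theorem ils_resD_spec (h : a ≤ b) (q : Nat.Primes) (d : ↥(il_D (q : ℕ) b.L)) (x : a.L) :
    ((((ils_resD h q d : ↥(il_D (q : ℕ) a.L)) : a.L ≃ₐ[ℚ] a.L) x : a.L) : Qbar) =
      ((((d : ↥(il_D (q : ℕ) b.L)) : b.L ≃ₐ[ℚ] b.L) (IntermediateField.inclusion h x) : b.L) :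
        Qbar) := by
  obtain ⟨τ, hτ⟩ := d.2
  rw [ils_resD_coe, ← hτ]
  have h1 : il_res (q : ℕ) b.L τ = b.q (localGaloisToGlobal (q : ℕ) τ) := rfl
  rw [h1, du_Lev.res_q, id_lev_q_coe, id_lev_q_coe]
  rfl

/-- The inclusion of local units between two levels. -/
def ils_unitsInclLev (h : a ≤ b) (q : Nat.Primes) :
    Rep.res (ils_resD h q) (il_Xq q a.L) ⟶ il_Xq q b.L :=
  ils_unitsInclD h (ils_resD h q) (ils_resD_spec h q)

/-- The local embedding is compatible with the inclusion of local units. -/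
theorem ils_lam_unitsInclLev (h : a ≤ b) (q : Nat.Primes) (x : (il_Xq q a.L).V) :
    il_lam q b.L ((ils_unitsInclLev h q).hom x) = il_lam q a.L x := by
  apply il_locUnits_ext
  rw [il_lam_coe, il_lam_coe]
  exact ils_unitsInclD_coe h (ils_resD h q) (ils_resD_spec h q) x

/-- The square `pr_b ∘ tJ = unitsIncl ∘ pr_a` (the field `sq` of `rc_InvMor` at the primes of
`S`). -/
theorem ils_pr_tJ (h : a ≤ b) (q : ↥S) (x : (id_ARep ↥a.L q.1).V) :
    (il_pr q.1 b.L).hom (id_tJ h q x) = (ils_unitsInclLev h q.1).hom ((il_pr q.1 a.L).hom x) := by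
  apply il_lam_injective q.1 b.L
  rw [ils_lam_unitsInclLev]
  exact ils_tJ_lam h q x

/-- **Inflation compatibility of the local class modules of the seam between two levels.** -/
theorem ils_PqLev_invTop_infl (h : a ≤ b) (q : Nat.Primes)
    (w : groupCohomology (il_Xq q a.L) 2) (hw : tt_IsPPrimary p w) :
    (ils_Pq p q b.L).invTop ((map (ils_resD h q) (ils_unitsInclLev h q) 2).hom w) =
      (ils_Pq p q a.L).invTop w :=
  ils_Pq_invTop_infl p h (ils_resD h q) (ils_resD_spec h q) (ils_unitsInclLev h q)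
    (ils_unitsInclD_coe h (ils_resD h q) (ils_resD_spec h q)) w hw

end

end Fermat.Agent.S55
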