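import Mathlib
import Fermat.Agent.S55.Idele.Defs

/-!
# S55 / block [G0], Dictionary part 1: the norms attached to the maximal ideals of `ℚ_[q] ⊗[ℚ] K`

For a maximal ideal `𝔪` of `id_A K q = ℚ_[q] ⊗[ℚ] K`, the quotient `dc_F K q 𝔪` is a finite field
extension of `ℚ_[q]`; `dc_norm K q 𝔪 a` is the spectral norm (the unique extension of the
`q`-adic norm) of the class of `a`.  It is multiplicative, nonarchimedean, extends the `q`-adic
norm and is `≤ 1` on the image of `𝓞 K`.  `dc_ideal K q 𝔪 = {x : 𝓞 K | dc_norm 𝔪 (1 ⊗ x) < 1}`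
is a prime of `𝓞 K` above `q` (`dc_prime`).
-/

set_option autoImplicit false

open scoped TensorProduct NumberField Pointwise
open IsDedekindDomain

noncomputable section

namespace Fermat.Agent.S55

universe u

variable (K : Type u) [Field K] [NumberField K] (q : Nat.Primes)

/-- The residue field of `ℚ_[q] ⊗[ℚ] K` at a maximal ideal. -/
def dc_F (𝔪 : MaximalSpectrum (id_A K q)) : Type u := id_A K q ⧸ 𝔪.asIdeal

instance dc_F_field (𝔪 : MaximalSpectrum (id_A K q)) : Field (dc_F K q 𝔪) :=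
  haveI := 𝔪.isMaximal
  Ideal.Quotient.field 𝔪.asIdeal

instance dc_F_algebra (𝔪 : MaximalSpectrum (id_A K q)) : Algebra ℚ_[(q : ℕ)] (dc_F K q 𝔪) :=
  inferInstanceAs (Algebra ℚ_[(q : ℕ)] (id_A K q ⧸ 𝔪.asIdeal))

instance dc_F_finite (𝔪 : MaximalSpectrum (id_A K q)) : Module.Finite ℚ_[(q : ℕ)] (dc_F K q 𝔪) :=
  inferInstanceAs (Module.Finite ℚ_[(q : ℕ)] (id_A K q ⧸ 𝔪.asIdeal))

instance dc_F_isAlgebraic (𝔪 : MaximalSpectrum (id_A K q)) :
    Algebra.IsAlgebraic ℚ_[(q : ℕ)] (dc_F K q 𝔪) :=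
  Algebra.IsAlgebraic.of_finite _ _

/-- The quotient map `ℚ_[q] ⊗[ℚ] K → dc_F K q 𝔪` as a `ℚ_[q]`-algebra homomorphism. -/
def dc_mk (𝔪 : MaximalSpectrum (id_A K q)) : id_A K q →ₐ[ℚ_[(q : ℕ)]] dc_F K q 𝔪 :=
  Ideal.Quotient.mkₐ ℚ_[(q : ℕ)] 𝔪.asIdeal

theorem dc_mk_surjective (𝔪 : MaximalSpectrum (id_A K q)) : Function.Surjective (dc_mk K q 𝔪) :=
  Ideal.Quotient.mk_surjective

theorem dc_mk_eq_zero_iff (𝔪 : MaximalSpectrum (id_A K q)) (a : id_A K q) :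
    dc_mk K q 𝔪 a = 0 ↔ a ∈ 𝔪.asIdeal :=
  Ideal.Quotient.eq_zero_iff_mem

/-- The norm on `ℚ_[q] ⊗[ℚ] K` attached to a maximal ideal. -/
def dc_norm (𝔪 : MaximalSpectrum (id_A K q)) (a : id_A K q) : ℝ :=
  spectralNorm ℚ_[(q : ℕ)] (dc_F K q 𝔪) (dc_mk K q 𝔪 a)

variable {K q}
variable (𝔪 : MaximalSpectrum (id_A K q))

theorem dc_norm_def (a : id_A K q) :
    dc_norm K q 𝔪 a = spectralMulAlgNorm ℚ_[(q : ℕ)] (dc_F K q 𝔪) (dc_mk K q 𝔪 a) := rfl

theorem dc_norm_nonneg (a : id_A K q) : 0 ≤ dc_norm K q 𝔪 a := spectralNorm_nonneg _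

@[simp] theorem dc_norm_zero : dc_norm K q 𝔪 0 = 0 := by
  rw [dc_norm, map_zero, spectralNorm_zero]

@[simp] theorem dc_norm_one : dc_norm K q 𝔪 1 = 1 := by
  rw [dc_norm, map_one, spectralNorm_one]

theorem dc_norm_mul (a b : id_A K q) :
    dc_norm K q 𝔪 (a * b) = dc_norm K q 𝔪 a * dc_norm K q 𝔪 b := by
  rw [dc_norm, map_mul]
  exact spectralAlgNorm_mul _ _

theorem dc_norm_pow (a : id_A K q) (n : ℕ) : dc_norm K q 𝔪 (a ^ n) = dc_norm K q 𝔪 a ^ n := by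
  induction n with
  | zero => simp
  | succ n ih => rw [pow_succ, dc_norm_mul, ih, pow_succ]

theorem dc_norm_add_le_max (a b : id_A K q) :
    dc_norm K q 𝔪 (a + b) ≤ max (dc_norm K q 𝔪 a) (dc_norm K q 𝔪 b) := by
  rw [dc_norm, map_add]
  exact isNonarchimedean_spectralNorm _ _

theorem dc_norm_neg (a : id_A K q) : dc_norm K q 𝔪 (-a) = dc_norm K q 𝔪 a := by
  rw [dc_norm, map_neg]
  exact spectralNorm_neg (Algebra.IsAlgebraic.isAlgebraic _)

theorem dc_norm_sub_le_max (a b : id_A K q) :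
    dc_norm K q 𝔪 (a - b) ≤ max (dc_norm K q 𝔪 a) (dc_norm K q 𝔪 b) := by
  rw [sub_eq_add_neg]
  exact (dc_norm_add_le_max 𝔪 a (-b)).trans_eq (by rw [dc_norm_neg])

theorem dc_norm_sub_comm (a b : id_A K q) : dc_norm K q 𝔪 (a - b) = dc_norm K q 𝔪 (b - a) := by
  rw [← dc_norm_neg, neg_sub]

theorem dc_norm_algebraMap (c : ℚ_[(q : ℕ)]) :
    dc_norm K q 𝔪 (algebraMap ℚ_[(q : ℕ)] (id_A K q) c) = ‖c‖ := by
  rw [dc_norm, AlgHom.commutes]
  exact spectralNorm_extends c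

theorem dc_norm_smul (c : ℚ_[(q : ℕ)]) (a : id_A K q) :
    dc_norm K q 𝔪 (c • a) = ‖c‖ * dc_norm K q 𝔪 a := by
  rw [Algebra.smul_def, dc_norm_mul, dc_norm_algebraMap]

theorem dc_norm_tmul (c : ℚ_[(q : ℕ)]) (x : K) :
    dc_norm K q 𝔪 (c ⊗ₜ[ℚ] x) = ‖c‖ * dc_norm K q 𝔪 (id_incl K q x) := by
  have : c ⊗ₜ[ℚ] x = c • id_incl K q x := by
    rw [id_incl_apply, TensorProduct.smul_tmul', smul_eq_mul, mul_one]
  rw [this, dc_norm_smul]

theorem dc_norm_eq_zero_iff (a : id_A K q) : dc_norm K q 𝔪 a = 0 ↔ a ∈ 𝔪.asIdeal := by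
  rw [← dc_mk_eq_zero_iff]
  constructor
  · intro h
    exact eq_zero_of_map_spectralNorm_eq_zero h (Algebra.IsAlgebraic.isAlgebraic _)
  · intro h
    rw [dc_norm, h, spectralNorm_zero]

theorem dc_norm_eq_of_sub_mem {a b : id_A K q} (h : a - b ∈ 𝔪.asIdeal) :
    dc_norm K q 𝔪 a = dc_norm K q 𝔪 b := by
  have : dc_mk K q 𝔪 a = dc_mk K q 𝔪 b := by
    rw [← sub_eq_zero, ← map_sub, dc_mk_eq_zero_iff]
    exact h
  rw [dc_norm, dc_norm, this]

/-- Ultrametric: if `‖b‖ < ‖a‖` then `‖a + b‖ = ‖a‖`. -/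
theorem dc_norm_add_eq_left {a b : id_A K q} (h : dc_norm K q 𝔪 b < dc_norm K q 𝔪 a) :
    dc_norm K q 𝔪 (a + b) = dc_norm K q 𝔪 a := by
  apply le_antisymm
  · exact (dc_norm_add_le_max 𝔪 a b).trans (max_le le_rfl h.le)
  · by_contra hlt
    rw [not_le] at hlt
    have h1 : dc_norm K q 𝔪 a ≤ max (dc_norm K q 𝔪 (a + b)) (dc_norm K q 𝔪 b) := by
      have := dc_norm_sub_le_max 𝔪 (a + b) b
      rwa [add_sub_cancel_right] at this
    exact absurd h1 (not_le.2 (max_lt hlt h))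

theorem dc_norm_natCast (n : ℕ) : dc_norm K q 𝔪 (n : id_A K q) = ‖(n : ℚ_[(q : ℕ)])‖ := by
  rw [← dc_norm_algebraMap 𝔪, map_natCast]

theorem dc_norm_intCast (n : ℤ) : dc_norm K q 𝔪 (n : id_A K q) = ‖(n : ℚ_[(q : ℕ)])‖ := by
  rw [← dc_norm_algebraMap 𝔪, map_intCast]

theorem dc_norm_intCast_le_one (n : ℤ) : dc_norm K q 𝔪 (n : id_A K q) ≤ 1 := by
  rw [dc_norm_intCast]
  exact Padic.norm_int_le_one n

theorem dc_norm_q : dc_norm K q 𝔪 ((q : ℕ) : id_A K q) = ((q : ℕ) : ℝ)⁻¹ := by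
  rw [dc_norm_natCast]
  exact Padic.norm_p

theorem dc_norm_q_lt_one : dc_norm K q 𝔪 ((q : ℕ) : id_A K q) < 1 := by
  rw [dc_norm_natCast]
  exact Padic.norm_p_lt_one

/-- Ultrametric inequality for finite sums. -/
theorem dc_norm_sum_le {ι : Type*} (s : Finset ι) (f : ι → id_A K q) {B : ℝ} (hB : 0 ≤ B)
    (h : ∀ i ∈ s, dc_norm K q 𝔪 (f i) ≤ B) : dc_norm K q 𝔪 (∑ i ∈ s, f i) ≤ B := by
  classical
  induction s using Finset.induction_on with
  | empty => simpa using hB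
  | insert i s hi ih =>
    rw [Finset.sum_insert hi]
    refine (dc_norm_add_le_max 𝔪 _ _).trans (max_le (h i (Finset.mem_insert_self i s)) ?_)
    exact ih fun j hj => h j (Finset.mem_insert_of_mem hj)

/-- An element annihilated by a monic integer polynomial has norm `≤ 1`. -/
theorem dc_norm_le_one_of_monic {a : id_A K q} {P : Polynomial ℤ} (hP : P.Monic)
    (ha : Polynomial.aeval a P = 0) : dc_norm K q 𝔪 a ≤ 1 := by
  by_contra hlt
  rw [not_le] at hlt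
  set c := dc_norm K q 𝔪 a with hc
  set n := P.natDegree with hn
  have hn0 : n ≠ 0 := by
    intro h0
    have h1 : P = 1 := Polynomial.eq_one_of_monic_natDegree_zero hP h0
    rw [h1, map_one] at ha
    have := dc_norm_one 𝔪
    rw [ha, dc_norm_zero] at this
    exact zero_ne_one this
  -- `a ^ n = - ∑ i < n, P.coeff i • a ^ i`
  have hsum : a ^ n = - ∑ i ∈ Finset.range n, (P.coeff i : id_A K q) * a ^ i := by
    rw [Polynomial.aeval_eq_sum_range, Finset.sum_range_succ, ← hn, hP.coeff_natDegree,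
      one_smul] at ha
    rw [eq_neg_iff_add_eq_zero, add_comm, ← ha]
    congr 1
    refine Finset.sum_congr rfl fun i _ => ?_
    rw [zsmul_eq_mul]
  have hle : dc_norm K q 𝔪 (a ^ n) ≤ c ^ (n - 1) := by
    rw [hsum, dc_norm_neg]
    refine dc_norm_sum_le 𝔪 _ _ (by positivity) fun i hi => ?_
    rw [dc_norm_mul, dc_norm_pow]
    have h1 : dc_norm K q 𝔪 (P.coeff i : id_A K q) ≤ 1 := dc_norm_intCast_le_one 𝔪 _
    have h2 : c ^ i ≤ c ^ (n - 1) :=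
      pow_le_pow_right₀ hlt.le (by have := Finset.mem_range.1 hi; omega)
    calc dc_norm K q 𝔪 (P.coeff i : id_A K q) * c ^ i ≤ 1 * c ^ (n - 1) :=
          mul_le_mul h1 h2 (by positivity) zero_le_one
      _ = c ^ (n - 1) := one_mul _
  rw [dc_norm_pow] at hle
  have h3 : c ^ (n - 1) < c ^ n := pow_lt_pow_right₀ hlt (by omega)
  exact absurd hle (not_le.2 h3)

/-- Integral elements have norm `≤ 1`. -/
theorem dc_norm_incl_le_one (x : 𝓞 K) : dc_norm K q 𝔪 (id_incl K q (x : K)) ≤ 1 := by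
  have hx : IsIntegral ℤ (x : K) := x.2
  obtain ⟨P, hP, hPx⟩ := hx
  refine dc_norm_le_one_of_monic 𝔪 hP ?_
  have h1 : Polynomial.aeval (id_incl K q (x : K)) P =
      (id_incl K q).toRingHom (Polynomial.aeval (x : K) P) := by
    rw [Polynomial.aeval_def, Polynomial.aeval_def, Polynomial.hom_eval₂]
    congr 1
    exact (RingHom.ext_int _ _)
  rw [h1]
  have h2 : Polynomial.aeval (x : K) P = 0 := by
    rw [Polynomial.aeval_def]
    exact hPx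
  rw [h2, map_zero]

/-- The norm of an algebraic integer, via `algebraMap`. -/
theorem dc_norm_int_le_one (x : 𝓞 K) :
    dc_norm K q 𝔪 (id_incl K q (algebraMap (𝓞 K) K x)) ≤ 1 :=
  dc_norm_incl_le_one 𝔪 x

/-! ### The prime of `𝓞 K` attached to a maximal ideal -/

/-- `{x ∈ 𝓞 K | ‖1 ⊗ x‖_𝔪 < 1}`, the prime of `𝓞 K` attached to `𝔪`. -/
def dc_ideal : Ideal (𝓞 K) where
  carrier := {x | dc_norm K q 𝔪 (id_incl K q (algebraMap (𝓞 K) K x)) < 1}
  add_mem' := fun {a b} ha hb => by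
    show dc_norm K q 𝔪 (id_incl K q (algebraMap (𝓞 K) K (a + b))) < 1
    rw [map_add, map_add]
    exact (dc_norm_add_le_max 𝔪 _ _).trans_lt (max_lt ha hb)
  zero_mem' := by
    show dc_norm K q 𝔪 (id_incl K q (algebraMap (𝓞 K) K 0)) < 1
    rw [map_zero, map_zero, dc_norm_zero]
    exact zero_lt_one
  smul_mem' := fun c x hx => by
    show dc_norm K q 𝔪 (id_incl K q (algebraMap (𝓞 K) K (c • x))) < 1
    rw [smul_eq_mul, map_mul, map_mul, dc_norm_mul]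
    calc dc_norm K q 𝔪 (id_incl K q (algebraMap (𝓞 K) K c)) *
          dc_norm K q 𝔪 (id_incl K q (algebraMap (𝓞 K) K x))
        ≤ 1 * dc_norm K q 𝔪 (id_incl K q (algebraMap (𝓞 K) K x)) :=
          mul_le_mul_of_nonneg_right (dc_norm_int_le_one 𝔪 c) (dc_norm_nonneg 𝔪 _)
      _ < 1 := by rw [one_mul]; exact hx

theorem dc_mem_ideal (x : 𝓞 K) :
    x ∈ dc_ideal 𝔪 ↔ dc_norm K q 𝔪 (id_incl K q (algebraMap (𝓞 K) K x)) < 1 := Iff.rfl

theorem dc_notMem_ideal (x : 𝓞 K) :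
    x ∉ dc_ideal 𝔪 ↔ dc_norm K q 𝔪 (id_incl K q (algebraMap (𝓞 K) K x)) = 1 := by
  rw [dc_mem_ideal, not_lt]
  exact ⟨fun h => le_antisymm (dc_norm_int_le_one 𝔪 x) h, fun h => h.ge⟩

theorem dc_q_mem_ideal : ((q : ℕ) : 𝓞 K) ∈ dc_ideal 𝔪 := by
  rw [dc_mem_ideal, map_natCast, map_natCast]
  exact dc_norm_q_lt_one 𝔪

instance dc_ideal_isPrime : (dc_ideal 𝔪).IsPrime where
  ne_top' := by
    intro h
    have h1 : (1 : 𝓞 K) ∈ dc_ideal 𝔪 := by rw [h]; trivial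
    rw [dc_mem_ideal, map_one, map_one, dc_norm_one] at h1
    exact lt_irrefl _ h1
  mem_or_mem' := fun {x y} hxy => by
    by_contra hcon
    rw [not_or] at hcon
    obtain ⟨hx, hy⟩ := hcon
    rw [dc_notMem_ideal] at hx hy
    rw [dc_mem_ideal, map_mul, map_mul, dc_norm_mul, hx, hy, one_mul] at hxy
    exact lt_irrefl _ hxy

theorem dc_ideal_ne_bot : dc_ideal 𝔪 ≠ ⊥ := by
  intro h
  have h1 := dc_q_mem_ideal 𝔪
  rw [h, Ideal.mem_bot] at h1
  have h2 : ((q : ℕ) : 𝓞 K) ≠ 0 := Nat.cast_ne_zero.2 q.2.ne_zero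
  exact h2 h1

/-- The prime of `𝓞 K` above `q` attached to the maximal ideal `𝔪` of `ℚ_[q] ⊗[ℚ] K`. -/
def dc_prime : HeightOneSpectrum (𝓞 K) := ⟨dc_ideal 𝔪, dc_ideal_isPrime 𝔪, dc_ideal_ne_bot 𝔪⟩

@[simp] theorem dc_prime_asIdeal : (dc_prime 𝔪).asIdeal = dc_ideal 𝔪 := rfl

theorem dc_q_mem_prime : ((q : ℕ) : 𝓞 K) ∈ (dc_prime 𝔪).asIdeal := dc_q_mem_ideal 𝔪

end Fermat.Agent.S55
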