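import Mathlib
import Fermat.Agent.S55.Idele.DictNorm

/-!
# S55 / block [G0], Dictionary part 2: maximal ideals of `ℚ_[q] ⊗[ℚ] K` ↔ primes of `K` above `q`

* `dc_norm_lt_one_iff`, `dc_norm_le_one_iff`, `dc_norm_eq_one_iff`: the norm attached to `𝔪` and
  the adic valuation of the prime `dc_prime 𝔪` define the same valuation ring of `K`.
* `dc_exists_approx`: weak approximation in the tensor model.
* `dc_prime_injective`, `dc_prime_surjective`, `id_maxEquiv`.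
-/

set_option autoImplicit false

open scoped TensorProduct NumberField Pointwise
open IsDedekindDomain

noncomputable section

namespace Fermat.Agent.S55

universe u

variable {K : Type u} [Field K] [NumberField K] {q : Nat.Primes}
variable (𝔪 : MaximalSpectrum (id_A K q))

/-! ### Comparison with the adic valuation -/

theorem dc_norm_primeCompl (d : (dc_prime 𝔪).asIdeal.primeCompl) :
    dc_norm K q 𝔪 (id_incl K q (algebraMap (𝓞 K) K d)) = 1 :=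
  (dc_notMem_ideal 𝔪 d).1 d.2

theorem dc_valuation_primeCompl (d : (dc_prime 𝔪).asIdeal.primeCompl) :
    (dc_prime 𝔪).valuation K (algebraMap (𝓞 K) K d) = 1 :=
  (HeightOneSpectrum.valuation_eq_one_iff_notMem _).2 d.2

theorem dc_norm_lt_one_iff (x : K) :
    dc_norm K q 𝔪 (id_incl K q x) < 1 ↔ (dc_prime 𝔪).valuation K x < 1 := by
  obtain ⟨n, d, h | h⟩ := (dc_prime 𝔪).exists_primeCompl_mul_eq_or_mul_eq x
  · have h1 : dc_norm K q 𝔪 (id_incl K q x) = dc_norm K q 𝔪 (id_incl K q (algebraMap (𝓞 K) K n)) := by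
      rw [← h, map_mul, dc_norm_mul, dc_norm_primeCompl, mul_one]
    have h2 : (dc_prime 𝔪).valuation K x = (dc_prime 𝔪).valuation K (algebraMap (𝓞 K) K n) := by
      rw [← h, map_mul, dc_valuation_primeCompl, mul_one]
    rw [h1, h2, HeightOneSpectrum.valuation_lt_one_iff_mem]
    exact (dc_mem_ideal 𝔪 n).symm
  · have h1 : dc_norm K q 𝔪 (id_incl K q x) * dc_norm K q 𝔪 (id_incl K q (algebraMap (𝓞 K) K n))
        = 1 := by
      rw [← dc_norm_mul, ← map_mul, h, dc_norm_primeCompl]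
    have h2 : (dc_prime 𝔪).valuation K x * (dc_prime 𝔪).valuation K (algebraMap (𝓞 K) K n) = 1 := by
      rw [← map_mul, h, dc_valuation_primeCompl]
    constructor
    · intro hlt
      exfalso
      have h3 := dc_norm_int_le_one 𝔪 n
      have h4 := dc_norm_nonneg 𝔪 (id_incl K q x)
      have : dc_norm K q 𝔪 (id_incl K q x) *
          dc_norm K q 𝔪 (id_incl K q (algebraMap (𝓞 K) K n)) < 1 := by
        calc _ ≤ dc_norm K q 𝔪 (id_incl K q x) * 1 :=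
              mul_le_mul_of_nonneg_left h3 h4
          _ < 1 := by rw [mul_one]; exact hlt
      rw [h1] at this
      exact lt_irrefl _ this
    · intro hlt
      exfalso
      have h3 := (dc_prime 𝔪).valuation_le_one (K := K) n
      have : (dc_prime 𝔪).valuation K x * (dc_prime 𝔪).valuation K (algebraMap (𝓞 K) K n) < 1 := by
        calc _ ≤ (dc_prime 𝔪).valuation K x * 1 := mul_le_mul_right h3 _
          _ < 1 := by rw [mul_one]; exact hlt
      rw [h2] at this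
      exact lt_irrefl _ this

theorem dc_norm_incl_inv {x : K} (hx : x ≠ 0) :
    dc_norm K q 𝔪 (id_incl K q x⁻¹) = (dc_norm K q 𝔪 (id_incl K q x))⁻¹ := by
  have h : dc_norm K q 𝔪 (id_incl K q x⁻¹) * dc_norm K q 𝔪 (id_incl K q x) = 1 := by
    rw [← dc_norm_mul, ← map_mul, inv_mul_cancel₀ hx, map_one, dc_norm_one]
  exact eq_inv_of_mul_eq_one_left h

theorem dc_norm_incl_pos {x : K} (hx : x ≠ 0) : 0 < dc_norm K q 𝔪 (id_incl K q x) := by
  have h : dc_norm K q 𝔪 (id_incl K q x⁻¹) * dc_norm K q 𝔪 (id_incl K q x) = 1 := by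
    rw [← dc_norm_mul, ← map_mul, inv_mul_cancel₀ hx, map_one, dc_norm_one]
  rcases (dc_norm_nonneg 𝔪 (id_incl K q x)).lt_or_eq with h1 | h1
  · exact h1
  · rw [← h1, mul_zero] at h
    exact absurd h zero_ne_one

theorem dc_norm_le_one_iff (x : K) :
    dc_norm K q 𝔪 (id_incl K q x) ≤ 1 ↔ (dc_prime 𝔪).valuation K x ≤ 1 := by
  by_cases hx : x = 0
  · subst hx
    simp
  · have h1 := dc_norm_lt_one_iff 𝔪 x⁻¹
    rw [dc_norm_incl_inv 𝔪 hx, map_inv₀] at h1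
    have hpos := dc_norm_incl_pos 𝔪 hx
    have hv : (dc_prime 𝔪).valuation K x ≠ 0 := (Valuation.ne_zero_iff _).2 hx
    rw [← not_lt, ← not_lt, not_iff_not]
    rw [inv_lt_one₀ hpos] at h1
    rw [h1, inv_lt_one₀ (zero_lt_iff.2 hv)]

theorem dc_norm_eq_one_iff (x : K) :
    dc_norm K q 𝔪 (id_incl K q x) = 1 ↔ (dc_prime 𝔪).valuation K x = 1 := by
  constructor
  · intro h
    refine le_antisymm ((dc_norm_le_one_iff 𝔪 x).1 h.le) ?_
    by_contra hlt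
    rw [not_le] at hlt
    have := (dc_norm_lt_one_iff 𝔪 x).2 hlt
    rw [h] at this
    exact lt_irrefl _ this
  · intro h
    refine le_antisymm ((dc_norm_le_one_iff 𝔪 x).2 h.le) ?_
    by_contra hlt
    rw [not_le] at hlt
    have := (dc_norm_lt_one_iff 𝔪 x).1 hlt
    rw [h] at this
    exact lt_irrefl _ this

/-! ### Weak approximation in the tensor model -/

instance dc_isArtinianRing : IsArtinianRing (id_A K q) := IsArtinianRing.of_finite ℚ_[(q : ℕ)] _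

instance dc_finite_maxSpec : Finite (MaximalSpectrum (id_A K q)) := inferInstance

/-- A bound for the norms of `1 ⊗ x`, uniform in `𝔪`. -/
theorem dc_exists_bound (x : K) :
    ∃ B : ℝ, 0 < B ∧ ∀ 𝔪 : MaximalSpectrum (id_A K q), dc_norm K q 𝔪 (id_incl K q x) ≤ B := by
  classical
  have : Fintype (MaximalSpectrum (id_A K q)) := Fintype.ofFinite _
  refine ⟨1 + ∑ 𝔪 : MaximalSpectrum (id_A K q), dc_norm K q 𝔪 (id_incl K q x), ?_, fun 𝔪 => ?_⟩
  · have : 0 ≤ ∑ 𝔪 : MaximalSpectrum (id_A K q), dc_norm K q 𝔪 (id_incl K q x) :=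
      Finset.sum_nonneg fun 𝔪 _ => dc_norm_nonneg 𝔪 _
    linarith
  · have h1 : dc_norm K q 𝔪 (id_incl K q x) ≤
        ∑ 𝔪 : MaximalSpectrum (id_A K q), dc_norm K q 𝔪 (id_incl K q x) :=
      Finset.single_le_sum (f := fun 𝔪 => dc_norm K q 𝔪 (id_incl K q x))
        (fun 𝔪 _ => dc_norm_nonneg 𝔪 _) (Finset.mem_univ 𝔪)
    linarith

/-- **Weak approximation**: `K` is dense in `ℚ_[q] ⊗[ℚ] K` for all the norms `dc_norm 𝔪`
simultaneously. -/
theorem dc_exists_approx (a : id_A K q) {ε : ℝ} (hε : 0 < ε) :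
    ∃ z : K, ∀ 𝔪 : MaximalSpectrum (id_A K q), dc_norm K q 𝔪 (a - id_incl K q z) < ε := by
  induction a using TensorProduct.induction_on with
  | zero =>
    refine ⟨0, fun 𝔪 => ?_⟩
    rw [map_zero, sub_zero, dc_norm_zero]
    exact hε
  | tmul c x =>
    obtain ⟨B, hB, hBx⟩ := dc_exists_bound (q := q) x
    obtain ⟨r, hr⟩ := Padic.rat_dense (q : ℕ) c (div_pos hε hB)
    refine ⟨r • x, fun 𝔪 => ?_⟩
    have h1 : c ⊗ₜ[ℚ] x - id_incl K q (r • x) = (c - (r : ℚ_[(q : ℕ)])) ⊗ₜ[ℚ] x := by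
      rw [id_incl_apply, TensorProduct.sub_tmul, ← TensorProduct.smul_tmul, Algebra.smul_def,
        mul_one]
      rfl
    rw [h1, dc_norm_tmul]
    calc ‖c - (r : ℚ_[(q : ℕ)])‖ * dc_norm K q 𝔪 (id_incl K q x)
        ≤ ‖c - (r : ℚ_[(q : ℕ)])‖ * B :=
          mul_le_mul_of_nonneg_left (hBx 𝔪) (norm_nonneg _)
      _ < ε / B * B := mul_lt_mul_of_pos_right hr hB
      _ = ε := div_mul_cancel₀ ε hB.ne'
  | add a b ha hb =>
    obtain ⟨z, hz⟩ := ha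
    obtain ⟨z', hz'⟩ := hb
    refine ⟨z + z', fun 𝔪 => ?_⟩
    have h1 : a + b - id_incl K q (z + z') = (a - id_incl K q z) + (b - id_incl K q z') := by
      rw [map_add]; ring
    rw [h1]
    exact (dc_norm_add_le_max 𝔪 _ _).trans_lt (max_lt (hz 𝔪) (hz' 𝔪))

/-! ### Injectivity -/

theorem dc_prime_injective :
    Function.Injective (dc_prime : MaximalSpectrum (id_A K q) → HeightOneSpectrum (𝓞 K)) := by
  intro 𝔪 𝔪' h
  by_contra hne
  have hne' : 𝔪.asIdeal ≠ 𝔪'.asIdeal := fun h' => hne (MaximalSpectrum.ext h')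
  have hsup := Ideal.IsMaximal.coprime_of_ne 𝔪.isMaximal 𝔪'.isMaximal hne'
  have h1 : (1 : id_A K q) ∈ 𝔪.asIdeal ⊔ 𝔪'.asIdeal := by rw [hsup]; trivial
  obtain ⟨a, ha, e, he, hae⟩ := Submodule.mem_sup.1 h1
  -- `e ∈ 𝔪'`, `1 - e = a ∈ 𝔪`
  obtain ⟨z, hz⟩ := dc_exists_approx (q := q) e (ε := 1) zero_lt_one
  -- `‖z‖_𝔪' < 1`
  have h2 : dc_norm K q 𝔪' (id_incl K q z) < 1 := by
    have h3 : dc_norm K q 𝔪' (id_incl K q z) = dc_norm K q 𝔪' (id_incl K q z - e) :=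
      dc_norm_eq_of_sub_mem 𝔪' (by rw [sub_sub_cancel]; exact he)
    rw [h3, dc_norm_sub_comm]
    exact hz 𝔪'
  -- `‖z‖_𝔪 = 1`
  have h4 : dc_norm K q 𝔪 (id_incl K q z) = 1 := by
    have h5 : dc_norm K q 𝔪 (e - id_incl K q z) < dc_norm K q 𝔪 1 := by
      rw [dc_norm_one]; exact hz 𝔪
    have h6 : dc_norm K q 𝔪 (id_incl K q z) = dc_norm K q 𝔪 (1 + (id_incl K q z - e)) :=
      dc_norm_eq_of_sub_mem 𝔪 (by
        have : id_incl K q z - (1 + (id_incl K q z - e)) = -a := by rw [← hae]; ring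
        rw [this]
        exact neg_mem ha)
    rw [h6, dc_norm_add_eq_left 𝔪 (by rw [dc_norm_sub_comm]; exact h5), dc_norm_one]
  rw [dc_norm_lt_one_iff, ← h, ← dc_norm_lt_one_iff, h4] at h2
  exact lt_irrefl _ h2

/-! ### Surjectivity: the product formula for the norm -/

/-- The `ℚ_[q]`-algebra homomorphism `ℚ_[q] ⊗[ℚ] K → AlgebraicClosure ℚ_[q]` attached to an
embedding `τ` of `K`. -/
def dc_phi (τ : K →ₐ[ℚ] AlgebraicClosure ℚ_[(q : ℕ)]) :
    id_A K q →ₐ[ℚ_[(q : ℕ)]] AlgebraicClosure ℚ_[(q : ℕ)] :=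
  Algebra.TensorProduct.lift (Algebra.ofId ℚ_[(q : ℕ)] (AlgebraicClosure ℚ_[(q : ℕ)])) τ
    (fun _ _ => Commute.all _ _)

theorem dc_phi_incl (τ : K →ₐ[ℚ] AlgebraicClosure ℚ_[(q : ℕ)]) (x : K) :
    dc_phi τ (id_incl K q x) = τ x := by
  simp [dc_phi, id_incl_apply]

/-- The maximal ideal `ker (dc_phi τ)`. -/
def dc_maxOf (τ : K →ₐ[ℚ] AlgebraicClosure ℚ_[(q : ℕ)]) : MaximalSpectrum (id_A K q) :=
  ⟨RingHom.ker (dc_phi τ), by
    have : (RingHom.ker (dc_phi τ)).IsPrime := RingHom.ker_isPrime _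
    exact IsArtinianRing.isMaximal_of_isPrime _⟩

theorem dc_norm_maxOf (τ : K →ₐ[ℚ] AlgebraicClosure ℚ_[(q : ℕ)]) (a : id_A K q) :
    dc_norm K q (dc_maxOf τ) a =
      spectralNorm ℚ_[(q : ℕ)] (AlgebraicClosure ℚ_[(q : ℕ)]) (dc_phi τ a) := by
  have hinj := Ideal.kerLiftAlg_injective (dc_phi τ)
  have h1 : Ideal.kerLiftAlg (dc_phi τ) (Ideal.Quotient.mk _ a) = dc_phi τ a :=
    Ideal.kerLiftAlg_mk _ a
  have h2 := minpoly.algHom_eq (Ideal.kerLiftAlg (dc_phi τ)) hinj (Ideal.Quotient.mk _ a)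
  rw [h1] at h2
  show spectralValue (minpoly ℚ_[(q : ℕ)] (Ideal.Quotient.mk (RingHom.ker (dc_phi τ)) a)) =
    spectralValue (minpoly ℚ_[(q : ℕ)] (dc_phi τ a))
  rw [h2]

/-- **Product formula**: `|N_{K/ℚ}(x)|_q = ∏_τ ‖1 ⊗ x‖_{𝔪_τ}`. -/
theorem dc_norm_algebraNorm (x : K) :
    ‖((Algebra.norm ℚ x : ℚ) : ℚ_[(q : ℕ)])‖ =
      ∏ τ : K →ₐ[ℚ] AlgebraicClosure ℚ_[(q : ℕ)], dc_norm K q (dc_maxOf τ) (id_incl K q x) := by
  have h1 := Algebra.norm_eq_prod_embeddings ℚ (AlgebraicClosure ℚ_[(q : ℕ)]) x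
  have h2 : algebraMap ℚ (AlgebraicClosure ℚ_[(q : ℕ)]) (Algebra.norm ℚ x) =
      algebraMap ℚ_[(q : ℕ)] (AlgebraicClosure ℚ_[(q : ℕ)])
        ((Algebra.norm ℚ x : ℚ) : ℚ_[(q : ℕ)]) := by
    rw [IsScalarTower.algebraMap_apply ℚ ℚ_[(q : ℕ)] (AlgebraicClosure ℚ_[(q : ℕ)])]
    rfl
  rw [← spectralNorm_extends (L := AlgebraicClosure ℚ_[(q : ℕ)]), ← h2, h1,
    ← spectralMulAlgNorm_def, map_prod]
  refine Finset.prod_congr rfl fun τ _ => ?_
  rw [spectralMulAlgNorm_def, dc_norm_maxOf, dc_phi_incl]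

/-- `q` divides the norm of an element of a prime above `q`. -/
theorem dc_dvd_norm_of_mem {w : HeightOneSpectrum (𝓞 K)} (hw : ((q : ℕ) : 𝓞 K) ∈ w.asIdeal)
    {x : 𝓞 K} (hx : x ∈ w.asIdeal) : ((q : ℕ) : ℤ) ∣ Algebra.norm ℤ x := by
  have h1 : Ideal.absNorm w.asIdeal ∣ Ideal.absNorm (Ideal.span {x}) :=
    Ideal.absNorm_dvd_absNorm_of_le ((Ideal.span_singleton_le_iff_mem _).2 hx)
  rw [Ideal.absNorm_span_singleton] at h1
  have h2 : (q : ℕ) ∣ Ideal.absNorm w.asIdeal := by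
    by_contra hnd
    have hcop : Nat.Coprime (q : ℕ) (Ideal.absNorm w.asIdeal) :=
      (Nat.Prime.coprime_iff_not_dvd q.2).2 hnd
    have hI : IsCoprime ((q : ℕ) : ℤ) ((Ideal.absNorm w.asIdeal : ℕ) : ℤ) :=
      Nat.isCoprime_iff_coprime.2 hcop
    obtain ⟨u, v, huv⟩ := hI
    have h3 : ((u * ((q : ℕ) : ℤ) + v * ((Ideal.absNorm w.asIdeal : ℕ) : ℤ) : ℤ) : 𝓞 K) ∈
        w.asIdeal := by
      push_cast
      exact Ideal.add_mem _ (Ideal.mul_mem_left _ _ hw)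
        (Ideal.mul_mem_left _ _ (Ideal.absNorm_mem w.asIdeal))
    rw [huv, Int.cast_one] at h3
    exact w.isPrime.ne_top ((Ideal.eq_top_iff_one _).2 h3)
  have h4 : ((q : ℕ) : ℤ) ∣ ((Algebra.norm ℤ x).natAbs : ℤ) :=
    Int.natCast_dvd_natCast.2 (h2.trans h1)
  exact (Int.dvd_natAbs).1 h4

theorem dc_prime_surjective (w : HeightOneSpectrum (𝓞 K))
    (hw : ((q : ℕ) : 𝓞 K) ∈ w.asIdeal) :
    ∃ 𝔪 : MaximalSpectrum (id_A K q), dc_prime 𝔪 = w := by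
  classical
  by_contra hcon
  have hcon' : ∀ 𝔪 : MaximalSpectrum (id_A K q), dc_prime 𝔪 ≠ w := fun 𝔪 h => hcon ⟨𝔪, h⟩
  have : Fintype (MaximalSpectrum (id_A K q)) := Fintype.ofFinite _
  obtain ⟨M, hM⟩ := Ideal.exists_maximal (id_A K q)
  let 𝔪₀ : MaximalSpectrum (id_A K q) := ⟨M, hM⟩
  -- prime avoidance
  have havoid : ¬ ((w.asIdeal : Set (𝓞 K)) ⊆
      ⋃ 𝔪 ∈ ((Finset.univ : Finset (MaximalSpectrum (id_A K q))) :
          Set (MaximalSpectrum (id_A K q))),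
        (((dc_prime 𝔪).asIdeal : Ideal (𝓞 K)) : Set (𝓞 K))) := by
    rw [Ideal.subset_union_prime (f := fun 𝔪 : MaximalSpectrum (id_A K q) => (dc_prime 𝔪).asIdeal)
      𝔪₀ 𝔪₀ (fun 𝔪 _ _ _ => (dc_prime 𝔪).isPrime)]
    rintro ⟨𝔪, -, hle⟩
    have heq : w.asIdeal = (dc_prime 𝔪).asIdeal :=
      w.isMaximal.eq_of_le (dc_prime 𝔪).isPrime.ne_top hle
    exact hcon' 𝔪 (HeightOneSpectrum.ext heq.symm)
  rw [Set.not_subset] at havoid
  obtain ⟨x, hxw, hx⟩ := havoid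
  have hx' : ∀ 𝔪 : MaximalSpectrum (id_A K q),
      dc_norm K q 𝔪 (id_incl K q (algebraMap (𝓞 K) K x)) = 1 := by
    intro 𝔪
    rw [← dc_notMem_ideal]
    intro hmem
    apply hx
    simp only [Finset.coe_univ, Set.mem_univ, Set.iUnion_true, Set.mem_iUnion, SetLike.mem_coe]
    exact ⟨𝔪, hmem⟩
  have h1 := dc_norm_algebraNorm (q := q) (algebraMap (𝓞 K) K x)
  rw [Finset.prod_eq_one (fun τ _ => hx' (dc_maxOf τ))] at h1
  have h2 : ((Algebra.norm ℚ (algebraMap (𝓞 K) K x) : ℚ) : ℚ_[(q : ℕ)]) =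
      ((Algebra.norm ℤ x : ℤ) : ℚ_[(q : ℕ)]) := by
    rw [← Algebra.coe_norm_int x, Rat.cast_intCast]
  rw [h2] at h1
  have h3 : ‖((Algebra.norm ℤ x : ℤ) : ℚ_[(q : ℕ)])‖ < 1 :=
    Padic.norm_intCast_lt_one_iff.2 (dc_dvd_norm_of_mem hw hxw)
  rw [h1] at h3
  exact lt_irrefl _ h3

end Fermat.Agent.S55
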