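import Fermat.Agent.S55.Idele.Defs

/-!
# S55 / block [G0]: the dictionary `MaxSpec (ℚ_q ⊗ K) ↔ primes of K over q`

For a number field `K` (any type, not necessarily normal over `ℚ`) and a prime `q`, both the
maximal ideals of `ℚ_[q] ⊗[ℚ] K` and the primes of `𝓞 K` over `q` are in bijection with the
`Gal(ℚ̄_q/ℚ_q)`-orbits of embeddings `φ : K →ₐ[ℚ] PadicAlgCl q`:

* `id_dc_max φ`  := kernel of `a ⊗ x ↦ a * φ x`;
* `id_dc_prime φ` := `{x ∈ 𝓞 K | ‖φ x‖ < 1}`.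

Both maps are surjective, have the Galois orbits as fibres, and are equivariant for
`φ ↦ φ ∘ σ⁻¹`, `σ : K ≃ₐ[ℚ] K`.
-/

set_option autoImplicit false
set_option linter.style.haveILetI false

open scoped TensorProduct NumberField NNReal
open IsDedekindDomain

noncomputable section

namespace Fermat.Agent.S55

variable (K : Type*) [Field K] [NumberField K] (q : ℕ) [Fact q.Prime]

/-! ### Embeddings and maximal ideals -/

instance id_dc_isArtinianRing : IsArtinianRing (ℚ_[q] ⊗[ℚ] K) :=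
  IsArtinianRing.of_finite ℚ_[q] _

variable {K q}

/-- The `ℚ_[q]`-algebra map `ℚ_[q] ⊗ K → PadicAlgCl q` attached to an embedding of `K`. -/
def id_dc_lift (φ : K →ₐ[ℚ] PadicAlgCl q) : ℚ_[q] ⊗[ℚ] K →ₐ[ℚ_[q]] PadicAlgCl q :=
  Algebra.TensorProduct.lift (Algebra.ofId ℚ_[q] (PadicAlgCl q)) φ fun _ _ => Commute.all _ _

@[simp]
theorem id_dc_lift_tmul (φ : K →ₐ[ℚ] PadicAlgCl q) (a : ℚ_[q]) (x : K) :
    id_dc_lift φ (a ⊗ₜ[ℚ] x) = algebraMap ℚ_[q] (PadicAlgCl q) a * φ x := by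
  simp [id_dc_lift, Algebra.ofId_apply]

theorem id_dc_lift_one_tmul (φ : K →ₐ[ℚ] PadicAlgCl q) (x : K) :
    id_dc_lift φ (1 ⊗ₜ[ℚ] x) = φ x := by
  rw [id_dc_lift_tmul, map_one, one_mul]

/-- A `ℚ_[q]`-algebra map out of `ℚ_[q] ⊗ K` is determined by its restriction to `K`. -/
theorem id_dc_lift_restrict (f : ℚ_[q] ⊗[ℚ] K →ₐ[ℚ_[q]] PadicAlgCl q) :
    id_dc_lift ((f.restrictScalars ℚ).comp Algebra.TensorProduct.includeRight) = f := by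
  apply Algebra.TensorProduct.ext'
  intro a x
  rw [id_dc_lift_tmul]
  have h1 : a ⊗ₜ[ℚ] x = a • ((1 : ℚ_[q]) ⊗ₜ[ℚ] x) := by
    rw [TensorProduct.smul_tmul', smul_eq_mul, mul_one]
  rw [h1, map_smul, Algebra.smul_def]
  rfl

/-- The maximal ideal of `ℚ_[q] ⊗ K` attached to an embedding. -/
def id_dc_max (φ : K →ₐ[ℚ] PadicAlgCl q) : MaximalSpectrum (ℚ_[q] ⊗[ℚ] K) :=
  ⟨RingHom.ker (id_dc_lift φ),
    haveI : (RingHom.ker (id_dc_lift φ)).IsPrime := RingHom.ker_isPrime _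
    IsArtinianRing.isMaximal_of_isPrime _⟩

theorem id_dc_mem_max (φ : K →ₐ[ℚ] PadicAlgCl q) (z : ℚ_[q] ⊗[ℚ] K) :
    z ∈ (id_dc_max φ).asIdeal ↔ id_dc_lift φ z = 0 := RingHom.mem_ker

/-- Two embeddings of an algebraic extension of `ℚ_[q]` into `PadicAlgCl q` are conjugate. -/
theorem id_dc_exists_conj {κ : Type*} [Field κ] [Algebra ℚ_[q] κ] [Algebra.IsAlgebraic ℚ_[q] κ]
    (ι ι' : κ →ₐ[ℚ_[q]] PadicAlgCl q) :
    ∃ g : PadicAlgCl q ≃ₐ[ℚ_[q]] PadicAlgCl q, ∀ x, g (ι x) = ι' x := by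
  letI : Algebra κ (PadicAlgCl q) := ι.toRingHom.toAlgebra
  haveI : IsScalarTower ℚ_[q] κ (PadicAlgCl q) :=
    IsScalarTower.of_algebraMap_eq fun a => (ι.commutes a).symm
  haveI : Algebra.IsAlgebraic κ (PadicAlgCl q) := Algebra.IsAlgebraic.tower_top (K := ℚ_[q]) κ
  obtain ⟨g, hg⟩ := IsAlgClosed.surjective_domRestrict_of_isAlgebraic (K := ℚ_[q]) (L := κ)
    (M := PadicAlgCl q) (E := PadicAlgCl q) ι'
  refine ⟨AlgEquiv.ofBijective g (Algebra.IsAlgebraic.algHom_bijective g), fun x => ?_⟩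
  exact DFunLike.congr_fun hg x

/-- Every maximal ideal comes from an embedding. -/
theorem id_dc_max_surjective (𝔪 : MaximalSpectrum (ℚ_[q] ⊗[ℚ] K)) :
    ∃ φ : K →ₐ[ℚ] PadicAlgCl q, id_dc_max φ = 𝔪 := by
  haveI := 𝔪.isMaximal
  letI : Field ((ℚ_[q] ⊗[ℚ] K) ⧸ 𝔪.asIdeal) := Ideal.Quotient.field _
  haveI : Algebra.IsAlgebraic ℚ_[q] ((ℚ_[q] ⊗[ℚ] K) ⧸ 𝔪.asIdeal) := Algebra.IsAlgebraic.of_finite _ _
  let ι : ((ℚ_[q] ⊗[ℚ] K) ⧸ 𝔪.asIdeal) →ₐ[ℚ_[q]] PadicAlgCl q := IsAlgClosed.lift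
  let f : ℚ_[q] ⊗[ℚ] K →ₐ[ℚ_[q]] PadicAlgCl q := ι.comp (Ideal.Quotient.mkₐ ℚ_[q] 𝔪.asIdeal)
  refine ⟨(f.restrictScalars ℚ).comp Algebra.TensorProduct.includeRight, ?_⟩
  apply MaximalSpectrum.ext
  ext z
  rw [id_dc_mem_max, id_dc_lift_restrict]
  show ι (Ideal.Quotient.mk 𝔪.asIdeal z) = 0 ↔ _
  rw [map_eq_zero_iff ι ι.toRingHom.injective, Ideal.Quotient.eq_zero_iff_mem]

/-- Conjugate embeddings give the same maximal ideal. -/
theorem id_dc_max_conj (φ : K →ₐ[ℚ] PadicAlgCl q) (g : PadicAlgCl q ≃ₐ[ℚ_[q]] PadicAlgCl q)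
    (φ' : K →ₐ[ℚ] PadicAlgCl q) (h : ∀ x, φ' x = g (φ x)) : id_dc_max φ' = id_dc_max φ := by
  have hl : id_dc_lift φ' = (g : PadicAlgCl q →ₐ[ℚ_[q]] PadicAlgCl q).comp (id_dc_lift φ) := by
    apply Algebra.TensorProduct.ext'
    intro a x
    simp [h]
  apply MaximalSpectrum.ext
  ext z
  rw [id_dc_mem_max, id_dc_mem_max, hl]
  show g (id_dc_lift φ z) = 0 ↔ _
  rw [map_eq_zero_iff g g.injective]

/-- Embeddings with the same maximal ideal are conjugate. -/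
theorem id_dc_conj_of_max_eq (φ φ' : K →ₐ[ℚ] PadicAlgCl q) (h : id_dc_max φ = id_dc_max φ') :
    ∃ g : PadicAlgCl q ≃ₐ[ℚ_[q]] PadicAlgCl q, ∀ x, φ' x = g (φ x) := by
  set 𝔪 := id_dc_max φ with h𝔪
  haveI := 𝔪.isMaximal
  letI : Field ((ℚ_[q] ⊗[ℚ] K) ⧸ 𝔪.asIdeal) := Ideal.Quotient.field _
  haveI : Algebra.IsAlgebraic ℚ_[q] ((ℚ_[q] ⊗[ℚ] K) ⧸ 𝔪.asIdeal) := Algebra.IsAlgebraic.of_finite _ _
  let ι : ((ℚ_[q] ⊗[ℚ] K) ⧸ 𝔪.asIdeal) →ₐ[ℚ_[q]] PadicAlgCl q :=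
    Ideal.Quotient.liftₐ 𝔪.asIdeal (id_dc_lift φ) fun z hz => (id_dc_mem_max φ z).1 hz
  let ι' : ((ℚ_[q] ⊗[ℚ] K) ⧸ 𝔪.asIdeal) →ₐ[ℚ_[q]] PadicAlgCl q :=
    Ideal.Quotient.liftₐ 𝔪.asIdeal (id_dc_lift φ') fun z hz =>
      (id_dc_mem_max φ' z).1 (by rw [← h]; exact hz)
  obtain ⟨g, hg⟩ := id_dc_exists_conj ι ι'
  refine ⟨g, fun x => ?_⟩
  have := hg (Ideal.Quotient.mk 𝔪.asIdeal (1 ⊗ₜ[ℚ] x))
  change g (id_dc_lift φ (1 ⊗ₜ[ℚ] x)) = id_dc_lift φ' (1 ⊗ₜ[ℚ] x) at this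
  rw [id_dc_lift_one_tmul, id_dc_lift_one_tmul] at this
  exact this.symm

/-! ### Embeddings and primes -/

/-- Integral elements of `PadicAlgCl q` have norm at most one. -/
theorem id_dc_norm_le_one_of_isIntegral (y : PadicAlgCl q) (hy : IsIntegral ℤ y) : ‖y‖ ≤ 1 := by
  let O : ValuationSubring (PadicAlgCl q) := (Valued.v : Valuation (PadicAlgCl q) ℝ≥0).valuationSubring
  have h1 : IsIntegral O y := hy.tower_top
  obtain ⟨z, hz⟩ := IsIntegrallyClosed.isIntegral_iff.1 h1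
  have h2 : y ∈ O := by rw [← hz]; exact z.2
  have h3 : (Valued.v : Valuation (PadicAlgCl q) ℝ≥0) y ≤ 1 :=
    (Valuation.mem_valuationSubring_iff _ _).1 h2
  rw [PadicAlgCl.valuation_def] at h3
  exact_mod_cast h3

theorem id_dc_norm_le_one (φ : K →ₐ[ℚ] PadicAlgCl q) (x : 𝓞 K) : ‖φ (x : K)‖ ≤ 1 := by
  apply id_dc_norm_le_one_of_isIntegral
  have h : IsIntegral ℤ (x : K) := x.2
  exact h.map (φ.restrictScalars ℤ)

/-- Galois invariance of the norm of `PadicAlgCl q`. -/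
theorem id_dc_norm_algEquiv (g : PadicAlgCl q ≃ₐ[ℚ_[q]] PadicAlgCl q) (y : PadicAlgCl q) :
    ‖g y‖ = ‖y‖ :=
  (spectralNorm_eq_of_equiv g y).symm

theorem id_dc_norm_natCast_q : ‖((q : ℕ) : PadicAlgCl q)‖ = (q : ℝ)⁻¹ := by
  have h : ((q : ℕ) : PadicAlgCl q) = algebraMap ℚ_[q] (PadicAlgCl q) (q : ℚ_[q]) := by
    rw [map_natCast]
  rw [h]
  have := PadicAlgCl.norm_extends q (q : ℚ_[q])
  rw [this, Padic.norm_p]

/-- The ideal `{x ∈ 𝓞 K | ‖φ x‖ < 1}`. -/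
def id_dc_ideal (φ : K →ₐ[ℚ] PadicAlgCl q) : Ideal (𝓞 K) where
  carrier := {x | ‖φ (x : K)‖ < 1}
  zero_mem' := by simp
  add_mem' := by
    intro a b ha hb
    have ha' : ‖φ (a : K)‖ < 1 := ha
    have hb' : ‖φ (b : K)‖ < 1 := hb
    show ‖φ ((a + b : 𝓞 K) : K)‖ < 1
    have : ((a + b : 𝓞 K) : K) = (a : K) + (b : K) := rfl
    rw [this, map_add]
    exact lt_of_le_of_lt (PadicAlgCl.isNonarchimedean q _ _) (max_lt ha' hb')
  smul_mem' := by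
    intro c x hx
    have hx' : ‖φ (x : K)‖ < 1 := hx
    show ‖φ ((c • x : 𝓞 K) : K)‖ < 1
    have : ((c • x : 𝓞 K) : K) = (c : K) * (x : K) := rfl
    rw [this, map_mul, norm_mul]
    calc ‖φ (c : K)‖ * ‖φ (x : K)‖ ≤ 1 * ‖φ (x : K)‖ :=
          mul_le_mul_of_nonneg_right (id_dc_norm_le_one φ c) (norm_nonneg _)
      _ < 1 := by rw [one_mul]; exact hx'

theorem id_dc_mem_ideal (φ : K →ₐ[ℚ] PadicAlgCl q) (x : 𝓞 K) :
    x ∈ id_dc_ideal φ ↔ ‖φ (x : K)‖ < 1 := Iff.rfl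

theorem id_dc_notMem_ideal (φ : K →ₐ[ℚ] PadicAlgCl q) (x : 𝓞 K) :
    x ∉ id_dc_ideal φ ↔ ‖φ (x : K)‖ = 1 := by
  rw [id_dc_mem_ideal, not_lt]
  exact ⟨fun h => le_antisymm (id_dc_norm_le_one φ x) h, fun h => h.ge⟩

theorem id_dc_natCast_mem_ideal (φ : K →ₐ[ℚ] PadicAlgCl q) : ((q : ℕ) : 𝓞 K) ∈ id_dc_ideal φ := by
  rw [id_dc_mem_ideal]
  have : (((q : ℕ) : 𝓞 K) : K) = ((q : ℕ) : K) := by simp
  rw [this, map_natCast, id_dc_norm_natCast_q]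
  have hq : (1 : ℝ) < q := by exact_mod_cast (Fact.out : q.Prime).one_lt
  exact inv_lt_one_of_one_lt₀ hq

instance id_dc_ideal_isPrime (φ : K →ₐ[ℚ] PadicAlgCl q) : (id_dc_ideal φ).IsPrime where
  ne_top' := by
    intro h
    have : (1 : 𝓞 K) ∈ id_dc_ideal φ := by rw [h]; trivial
    rw [id_dc_mem_ideal] at this
    simp at this
  mem_or_mem' := by
    intro a b hab
    by_contra hcon
    push Not at hcon
    rw [id_dc_notMem_ideal, id_dc_notMem_ideal] at hcon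
    rw [id_dc_mem_ideal] at hab
    have : ((a * b : 𝓞 K) : K) = (a : K) * (b : K) := rfl
    rw [this, map_mul, norm_mul, hcon.1, hcon.2, mul_one] at hab
    exact lt_irrefl _ hab

theorem id_dc_ideal_ne_bot (φ : K →ₐ[ℚ] PadicAlgCl q) : id_dc_ideal φ ≠ ⊥ := by
  intro h
  have h1 := id_dc_natCast_mem_ideal φ
  rw [h, Ideal.mem_bot] at h1
  have : ((q : ℕ) : 𝓞 K) ≠ 0 := by
    exact_mod_cast (Fact.out : q.Prime).ne_zero
  exact this h1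

/-- The prime of `𝓞 K` over `q` attached to an embedding. -/
def id_dc_prime (φ : K →ₐ[ℚ] PadicAlgCl q) : HeightOneSpectrum (𝓞 K) :=
  ⟨id_dc_ideal φ, inferInstance, id_dc_ideal_ne_bot φ⟩

@[simp]
theorem id_dc_prime_asIdeal (φ : K →ₐ[ℚ] PadicAlgCl q) : (id_dc_prime φ).asIdeal = id_dc_ideal φ :=
  rfl

/-- Conjugate embeddings give the same prime. -/
theorem id_dc_prime_conj (φ : K →ₐ[ℚ] PadicAlgCl q) (g : PadicAlgCl q ≃ₐ[ℚ_[q]] PadicAlgCl q)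
    (φ' : K →ₐ[ℚ] PadicAlgCl q) (h : ∀ x, φ' x = g (φ x)) : id_dc_prime φ' = id_dc_prime φ := by
  ext x
  rw [id_dc_prime_asIdeal, id_dc_prime_asIdeal, id_dc_mem_ideal, id_dc_mem_ideal, h,
    id_dc_norm_algEquiv]

omit [NumberField K] in
/-- If `q` and `n` lie in a proper ideal then `q ∣ n`. -/
theorem id_dc_dvd_of_mem {I : Ideal (𝓞 K)} (hI : I ≠ ⊤) (hq : ((q : ℕ) : 𝓞 K) ∈ I) (n : ℕ)
    (hn : ((n : ℕ) : 𝓞 K) ∈ I) : q ∣ n := by
  by_contra hdvd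
  have hcop : Nat.Coprime q n := (Nat.Prime.coprime_iff_not_dvd Fact.out).2 hdvd
  have h1 : ((Nat.gcd q n : ℕ) : ℤ) = q * Nat.gcdA q n + n * Nat.gcdB q n := Nat.gcd_eq_gcd_ab q n
  rw [hcop.gcd_eq_one] at h1
  have h2 : (1 : 𝓞 K) = ((q : ℕ) : 𝓞 K) * ((Nat.gcdA q n : ℤ) : 𝓞 K)
      + ((n : ℕ) : 𝓞 K) * ((Nat.gcdB q n : ℤ) : 𝓞 K) := by
    have := congrArg (fun z : ℤ => (z : 𝓞 K)) h1
    simpa using this
  apply hI
  rw [Ideal.eq_top_iff_one, h2]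
  exact I.add_mem (I.mul_mem_right _ hq) (I.mul_mem_right _ hn)

/-- Every prime of `𝓞 K` over `q` comes from an embedding. -/
theorem id_dc_prime_surjective (w : HeightOneSpectrum (𝓞 K))
    (hw : ((q : ℕ) : 𝓞 K) ∈ w.asIdeal) :
    ∃ φ : K →ₐ[ℚ] PadicAlgCl q, id_dc_prime φ = w := by
  classical
  by_contra hne
  push Not at hne
  have hmax : w.asIdeal.IsMaximal := w.isMaximal
  have hnle : ∀ φ : K →ₐ[ℚ] PadicAlgCl q, ¬ w.asIdeal ≤ id_dc_ideal φ := by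
    intro φ hle
    apply hne φ
    ext1
    exact (hmax.eq_of_le (id_dc_ideal_isPrime φ).ne_top hle).symm
  obtain ⟨φ₀⟩ : Nonempty (K →ₐ[ℚ] PadicAlgCl q) := ⟨IsAlgClosed.lift⟩
  have hav := (Ideal.subset_union_prime (s := (Finset.univ : Finset (K →ₐ[ℚ] PadicAlgCl q)))
    (f := fun φ => id_dc_ideal φ) φ₀ φ₀ (fun φ _ _ _ => id_dc_ideal_isPrime φ)
    (I := w.asIdeal)).not.2 (by
      rintro ⟨φ, -, hle⟩
      exact hnle φ hle)
  rw [Set.not_subset] at hav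
  obtain ⟨x, hxw, hx⟩ := hav
  have hx1 : ∀ φ : K →ₐ[ℚ] PadicAlgCl q, ‖φ (x : K)‖ = 1 := by
    intro φ
    rw [← id_dc_notMem_ideal]
    intro hmem
    apply hx
    simp only [Finset.coe_univ, Set.mem_univ, Set.iUnion_true, Set.mem_iUnion, SetLike.mem_coe]
    exact ⟨φ, hmem⟩
  -- the norm of `x`
  have hprod := Algebra.norm_eq_prod_embeddings ℚ (PadicAlgCl q) (x : K)
  have hnorm1 : ‖algebraMap ℚ (PadicAlgCl q) (Algebra.norm ℚ (x : K))‖ = 1 := by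
    rw [hprod, norm_prod]
    exact Finset.prod_eq_one fun φ _ => hx1 φ
  -- but `q` divides the norm
  have hmem : ((Ideal.absNorm (Ideal.span {x}) : ℕ) : 𝓞 K) ∈ w.asIdeal :=
    (Ideal.span_le.2 (by simpa using hxw)) (Ideal.absNorm_mem (Ideal.span {x}))
  have hdvd : q ∣ (Algebra.norm ℤ x).natAbs := by
    rw [← Ideal.absNorm_span_singleton]
    exact id_dc_dvd_of_mem hmax.ne_top hw _ hmem
  have hlt : ‖algebraMap ℚ (PadicAlgCl q) (Algebra.norm ℚ (x : K))‖ < 1 := by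
    rw [← Algebra.coe_norm_int x]
    have h1 : algebraMap ℚ (PadicAlgCl q) ((Algebra.norm ℤ x : ℤ) : ℚ)
        = algebraMap ℚ_[q] (PadicAlgCl q) ((Algebra.norm ℤ x : ℤ) : ℚ_[q]) := by
      simp
    rw [h1]
    have h2 := PadicAlgCl.norm_extends q ((Algebra.norm ℤ x : ℤ) : ℚ_[q])
    rw [h2, Padic.norm_intCast_lt_one_iff]
    exact Int.natCast_dvd.2 hdvd
  rw [hnorm1] at hlt
  exact lt_irrefl _ hlt

/-! ### The norm `‖φ ·‖` is determined by the prime `id_dc_prime φ` -/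

/-- Elements of the localisation at `w = id_dc_prime φ` have norm at most one. -/
theorem id_dc_norm_le_one_of_valuation (φ : K →ₐ[ℚ] PadicAlgCl q) (y : K)
    (hy : (id_dc_prime φ).valuation K y ≤ 1) : ‖φ y‖ ≤ 1 := by
  obtain ⟨n, d, hnd⟩ := (id_dc_prime φ).exists_primeCompl_mul_eq_of_integer y hy
  have hd : ‖φ ((d : 𝓞 K) : K)‖ = 1 := (id_dc_notMem_ideal φ d).1 d.2
  have h1 : ‖φ y‖ * ‖φ ((d : 𝓞 K) : K)‖ = ‖φ (n : K)‖ := by
    rw [← norm_mul, ← map_mul]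
    exact congrArg (fun t => ‖φ t‖) hnd
  rw [hd, mul_one] at h1
  rw [h1]
  exact id_dc_norm_le_one φ n

theorem id_dc_norm_eq_one_of_valuation (φ : K →ₐ[ℚ] PadicAlgCl q) (y : K)
    (hy : (id_dc_prime φ).valuation K y = 1) : ‖φ y‖ = 1 := by
  have hy0 : y ≠ 0 := by
    rintro rfl
    simp at hy
  apply le_antisymm (id_dc_norm_le_one_of_valuation φ y hy.le)
  have h1 : (id_dc_prime φ).valuation K y⁻¹ ≤ 1 := by rw [map_inv₀, hy, inv_one]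
  have h2 := id_dc_norm_le_one_of_valuation φ y⁻¹ h1
  rw [map_inv₀, norm_inv] at h2
  have hpos : 0 < ‖φ y‖ := norm_pos_iff.2 ((map_ne_zero φ).2 hy0)
  exact (inv_le_one₀ hpos).1 h2

/-- The ramification exponent of `w` over `q`, from the valuation. -/
def id_dc_e (w : HeightOneSpectrum (𝓞 K)) (q : ℕ) : ℕ :=
  (-(WithZero.log (w.valuation K ((q : ℕ) : K)))).toNat

/-- **The norm through an embedding is determined by the prime**:
`‖φ x‖ ^ e * (q⁻¹) ^ (log (w.valuation x)) = 1`. -/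
theorem id_dc_norm_pow (φ : K →ₐ[ℚ] PadicAlgCl q) (x : K) (hx : x ≠ 0) :
    ‖φ x‖ ^ id_dc_e (id_dc_prime φ) q *
      ((q : ℝ)⁻¹) ^ (WithZero.log ((id_dc_prime φ).valuation K x)) = 1 := by
  set w := id_dc_prime φ with hw
  have hq0 : ((q : ℕ) : K) ≠ 0 := by exact_mod_cast (Fact.out : q.Prime).ne_zero
  have hvx : w.valuation K x ≠ 0 := (Valuation.ne_zero_iff _).2 hx
  have hvq : w.valuation K ((q : ℕ) : K) ≠ 0 := (Valuation.ne_zero_iff _).2 hq0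
  have hvq1 : w.valuation K ((q : ℕ) : K) < 1 := by
    have := (w.valuation_lt_one_iff_mem (K := K) ((q : ℕ) : 𝓞 K)).2 (id_dc_natCast_mem_ideal φ)
    simpa using this
  set a := WithZero.log (w.valuation K x) with ha
  set b := WithZero.log (w.valuation K ((q : ℕ) : K)) with hb
  have hb0 : b < 0 := by
    rw [hb, WithZero.log_lt_iff_lt_exp hvq, WithZero.exp_zero]
    exact hvq1
  have he : ((id_dc_e w q : ℕ) : ℤ) = -b := by
    rw [id_dc_e, ← hb]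
    exact Int.toNat_of_nonneg (by omega)
  have hy : w.valuation K (x ^ id_dc_e w q * ((q : ℕ) : K) ^ a) = 1 := by
    have hne : w.valuation K (x ^ id_dc_e w q * ((q : ℕ) : K) ^ a) ≠ 0 :=
      (Valuation.ne_zero_iff _).2 (mul_ne_zero (pow_ne_zero _ hx) (zpow_ne_zero _ hq0))
    rw [← WithZero.exp_log hne, ← WithZero.exp_zero, WithZero.exp_inj, map_mul, map_pow,
      map_zpow₀, WithZero.log_mul (pow_ne_zero _ hvx) (zpow_ne_zero _ hvq), WithZero.log_pow,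
      WithZero.log_zpow, ← ha, ← hb, nsmul_eq_mul, smul_eq_mul, he]
    ring
  have h1 := id_dc_norm_eq_one_of_valuation φ _ hy
  rw [map_mul, map_pow, map_zpow₀, map_natCast, norm_mul, norm_pow, norm_zpow,
    id_dc_norm_natCast_q] at h1
  exact h1

/-- Embeddings with the same prime induce the same norm on `K`. -/
theorem id_dc_norm_eq_of_prime_eq (φ φ' : K →ₐ[ℚ] PadicAlgCl q)
    (h : id_dc_prime φ = id_dc_prime φ') (x : K) : ‖φ x‖ = ‖φ' x‖ := by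
  rcases eq_or_ne x 0 with rfl | hx
  · simp
  have h1 := id_dc_norm_pow φ x hx
  have h2 := id_dc_norm_pow φ' x hx
  rw [← h] at h2
  have hqpos : (0 : ℝ) < (q : ℝ)⁻¹ := inv_pos.2 (by exact_mod_cast (Fact.out : q.Prime).pos)
  have hne : ((q : ℝ)⁻¹) ^ (WithZero.log ((id_dc_prime φ).valuation K x)) ≠ 0 :=
    (zpow_pos hqpos _).ne'
  have h3 : ‖φ x‖ ^ id_dc_e (id_dc_prime φ) q = ‖φ' x‖ ^ id_dc_e (id_dc_prime φ) q :=
    mul_right_cancel₀ hne (h1.trans h2.symm)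
  have he0 : id_dc_e (id_dc_prime φ) q ≠ 0 := by
    intro h0
    rw [h0, pow_zero, one_mul] at h1
    -- then `(q⁻¹)^a = 1` for all ... use `x := q`
    have hq0 : ((q : ℕ) : K) ≠ 0 := by exact_mod_cast (Fact.out : q.Prime).ne_zero
    have h4 := id_dc_norm_pow φ ((q : ℕ) : K) hq0
    rw [h0, pow_zero, one_mul] at h4
    have hvq : (id_dc_prime φ).valuation K ((q : ℕ) : K) ≠ 0 := (Valuation.ne_zero_iff _).2 hq0
    have hvq1 : (id_dc_prime φ).valuation K ((q : ℕ) : K) < 1 := by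
      have := ((id_dc_prime φ).valuation_lt_one_iff_mem (K := K) ((q : ℕ) : 𝓞 K)).2
        (id_dc_natCast_mem_ideal φ)
      simpa using this
    have hb0 : WithZero.log ((id_dc_prime φ).valuation K ((q : ℕ) : K)) < 0 := by
      rw [WithZero.log_lt_iff_lt_exp hvq, WithZero.exp_zero]
      exact hvq1
    have hq1 : (q : ℝ)⁻¹ < 1 :=
      inv_lt_one_of_one_lt₀ (by exact_mod_cast (Fact.out : q.Prime).one_lt)
    have := one_lt_zpow_of_neg₀ hqpos hq1 hb0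
    rw [h4] at this
    exact lt_irrefl _ this
  exact (pow_left_inj₀ (norm_nonneg _) (norm_nonneg _) he0).1 h3

/-! ### Equal norms give equal maximal ideals -/

/-- Every element of `ℚ_[q] ⊗ K` is `∑ i, a i ⊗ b i` for a basis `b` of `K`. -/
theorem id_dc_exists_coord {ι : Type*} [Fintype ι] (b : Module.Basis ι ℚ K)
    (z : ℚ_[q] ⊗[ℚ] K) : ∃ a : ι → ℚ_[q], z = ∑ i, a i ⊗ₜ[ℚ] b i := by
  classical
  refine ⟨fun i => TensorProduct.equivFinsuppOfBasisRight b z i, ?_⟩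
  conv_lhs => rw [← (TensorProduct.equivFinsuppOfBasisRight b).symm_apply_apply z]
  rw [TensorProduct.equivFinsuppOfBasisRight_symm_apply, Finsupp.sum_fintype _ _ (by simp)]

theorem id_dc_lift_sum {ι : Type*} [Fintype ι] (φ : K →ₐ[ℚ] PadicAlgCl q) (a : ι → ℚ_[q])
    (b : ι → K) :
    id_dc_lift φ (∑ i, a i ⊗ₜ[ℚ] b i) = ∑ i, algebraMap ℚ_[q] (PadicAlgCl q) (a i) * φ (b i) := by
  rw [map_sum]
  exact Finset.sum_congr rfl fun i _ => id_dc_lift_tmul φ (a i) (b i)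

/-- If `‖φ x‖ = ‖φ' x‖` on `K` then `ker (id_dc_lift φ) ≤ ker (id_dc_lift φ')`
(`ℚ` is dense in `ℚ_[q]`). -/
theorem id_dc_lift_eq_zero_of_norm_eq (φ φ' : K →ₐ[ℚ] PadicAlgCl q)
    (h : ∀ x : K, ‖φ x‖ = ‖φ' x‖) (z : ℚ_[q] ⊗[ℚ] K) (hz : id_dc_lift φ z = 0) :
    id_dc_lift φ' z = 0 := by
  classical
  let b := Module.finBasis ℚ K
  obtain ⟨a, rfl⟩ := id_dc_exists_coord b z
  rw [id_dc_lift_sum] at hz ⊢
  set C : ℝ := ∑ i, ‖φ (b i)‖ + ∑ i, ‖φ' (b i)‖ + 1 with hC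
  have hCpos : 0 < C := by
    have h1 : 0 ≤ ∑ i, ‖φ (b i)‖ := Finset.sum_nonneg fun _ _ => norm_nonneg _
    have h2 : 0 ≤ ∑ i, ‖φ' (b i)‖ := Finset.sum_nonneg fun _ _ => norm_nonneg _
    linarith
  rw [← norm_le_zero_iff]
  apply le_of_forall_pos_le_add
  intro ε hε
  rw [zero_add]
  -- rational approximations of the coordinates
  have hr : ∀ i, ∃ r : ℚ, ‖a i - r‖ < ε / C := fun i => Padic.rat_dense q (a i) (div_pos hε hCpos)
  choose r hr using hr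
  have hcast : ∀ (ψ : K →ₐ[ℚ] PadicAlgCl q) (i), ψ (r i • b i)
      = algebraMap ℚ_[q] (PadicAlgCl q) (r i : ℚ_[q]) * ψ (b i) := by
    intro ψ i
    rw [Algebra.smul_def, map_mul, AlgHom.commutes, eq_ratCast, map_ratCast]
  have hsplit : ∀ ψ : K →ₐ[ℚ] PadicAlgCl q,
      ∑ i, algebraMap ℚ_[q] (PadicAlgCl q) (a i) * ψ (b i)
        = ∑ i, algebraMap ℚ_[q] (PadicAlgCl q) (a i - r i) * ψ (b i) + ψ (∑ i, r i • b i) := by
    intro ψ
    rw [map_sum, ← Finset.sum_add_distrib]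
    refine Finset.sum_congr rfl fun i _ => ?_
    rw [hcast, map_sub]
    ring
  have hbound : ∀ ψ : K →ₐ[ℚ] PadicAlgCl q,
      ‖∑ i, algebraMap ℚ_[q] (PadicAlgCl q) (a i - r i) * ψ (b i)‖
        ≤ ε / C * ∑ i, ‖ψ (b i)‖ := by
    intro ψ
    rw [Finset.mul_sum]
    refine (norm_sum_le _ _).trans (Finset.sum_le_sum fun i _ => ?_)
    rw [norm_mul]
    have h1 : ‖algebraMap ℚ_[q] (PadicAlgCl q) (a i - r i)‖ = ‖a i - r i‖ :=
      PadicAlgCl.norm_extends q _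
    rw [h1]
    exact mul_le_mul_of_nonneg_right (hr i).le (norm_nonneg _)
  -- the rational combination is small through `φ`, hence through `φ'`
  have hsmall : ‖φ' (∑ i, r i • b i)‖ ≤ ε / C * ∑ i, ‖φ (b i)‖ := by
    rw [← h]
    have h1 := hsplit φ
    rw [hz] at h1
    have h2 : φ (∑ i, r i • b i)
        = -∑ i, algebraMap ℚ_[q] (PadicAlgCl q) (a i - r i) * φ (b i) := by
      rw [eq_neg_iff_add_eq_zero, add_comm]
      exact h1.symm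
    rw [h2, norm_neg]
    exact hbound φ
  rw [hsplit φ']
  refine (norm_add_le _ _).trans ?_
  have hsum : ε / C * ∑ i, ‖φ' (b i)‖ + ε / C * ∑ i, ‖φ (b i)‖ ≤ ε := by
    rw [← mul_add, div_mul_eq_mul_div, div_le_iff₀ hCpos]
    apply mul_le_mul_of_nonneg_left _ hε.le
    rw [hC]
    linarith
  exact (add_le_add (hbound φ') hsmall).trans hsum

/-- Embeddings with the same prime have the same maximal ideal. -/
theorem id_dc_max_eq_of_prime_eq (φ φ' : K →ₐ[ℚ] PadicAlgCl q)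
    (h : id_dc_prime φ = id_dc_prime φ') : id_dc_max φ = id_dc_max φ' := by
  have hn := id_dc_norm_eq_of_prime_eq φ φ' h
  apply MaximalSpectrum.ext
  ext z
  rw [id_dc_mem_max, id_dc_mem_max]
  exact ⟨id_dc_lift_eq_zero_of_norm_eq φ φ' hn z,
    id_dc_lift_eq_zero_of_norm_eq φ' φ (fun x => (hn x).symm) z⟩

/-- Embeddings with the same prime are conjugate. -/
theorem id_dc_conj_of_prime_eq (φ φ' : K →ₐ[ℚ] PadicAlgCl q)
    (h : id_dc_prime φ = id_dc_prime φ') :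
    ∃ g : PadicAlgCl q ≃ₐ[ℚ_[q]] PadicAlgCl q, ∀ x, φ' x = g (φ x) :=
  id_dc_conj_of_max_eq φ φ' (id_dc_max_eq_of_prime_eq φ φ' h)

/-- Embeddings with the same maximal ideal have the same prime. -/
theorem id_dc_prime_eq_of_max_eq (φ φ' : K →ₐ[ℚ] PadicAlgCl q)
    (h : id_dc_max φ = id_dc_max φ') : id_dc_prime φ = id_dc_prime φ' := by
  obtain ⟨g, hg⟩ := id_dc_conj_of_max_eq φ φ' h
  exact (id_dc_prime_conj φ g φ' hg).symm

/-! ### Equivariance -/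

theorem id_dc_lift_comp_symm (φ : K →ₐ[ℚ] PadicAlgCl q) (σ : K ≃ₐ[ℚ] K) (z : ℚ_[q] ⊗[ℚ] K) :
    id_dc_lift (φ.comp (σ.symm : K →ₐ[ℚ] K)) z = id_dc_lift φ (σ⁻¹ • z) := by
  induction z using TensorProduct.induction_on with
  | zero => simp
  | tmul a x =>
    rw [ga_smul_tmul, id_dc_lift_tmul, id_dc_lift_tmul]
    rfl
  | add z₁ z₂ h₁ h₂ => rw [map_add, smul_add, map_add, h₁, h₂]

/-- `𝔪_{φ ∘ σ⁻¹} = σ(𝔪_φ)`, elementwise. -/
theorem id_dc_mem_max_comp_symm (φ : K →ₐ[ℚ] PadicAlgCl q) (σ : K ≃ₐ[ℚ] K)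
    (z : ℚ_[q] ⊗[ℚ] K) :
    z ∈ (id_dc_max (φ.comp (σ.symm : K →ₐ[ℚ] K))).asIdeal ↔ σ⁻¹ • z ∈ (id_dc_max φ).asIdeal := by
  rw [id_dc_mem_max, id_dc_mem_max, id_dc_lift_comp_symm]

/-- `w_{φ ∘ σ⁻¹} = σ • w_φ`. -/
theorem id_dc_prime_comp_symm (φ : K →ₐ[ℚ] PadicAlgCl q) (σ : K ≃ₐ[ℚ] K) :
    id_dc_prime (φ.comp (σ.symm : K →ₐ[ℚ] K)) = σ • id_dc_prime φ := by
  ext x
  rw [id_smul_asIdeal, Ideal.mem_pointwise_smul_iff_inv_smul_mem, id_dc_prime_asIdeal,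
    id_dc_prime_asIdeal, id_dc_mem_ideal, id_dc_mem_ideal]
  rfl

/-! ### The dictionary -/

variable (K q)

/-- The prime of `𝓞 K` attached to a maximal ideal of `ℚ_[q] ⊗ K`. -/
def id_dc_maxToPrime (𝔪 : MaximalSpectrum (ℚ_[q] ⊗[ℚ] K)) : HeightOneSpectrum (𝓞 K) :=
  id_dc_prime (Classical.choose (id_dc_max_surjective 𝔪))

/-- The maximal ideal of `ℚ_[q] ⊗ K` attached to a prime of `𝓞 K` over `q`. -/
def id_dc_primeToMax (w : {w : HeightOneSpectrum (𝓞 K) // ((q : ℕ) : 𝓞 K) ∈ w.asIdeal}) :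
    MaximalSpectrum (ℚ_[q] ⊗[ℚ] K) :=
  id_dc_max (Classical.choose (id_dc_prime_surjective w.1 w.2))

variable {K q}

theorem id_dc_maxToPrime_max (φ : K →ₐ[ℚ] PadicAlgCl q) :
    id_dc_maxToPrime K q (id_dc_max φ) = id_dc_prime φ :=
  id_dc_prime_eq_of_max_eq _ _ (Classical.choose_spec (id_dc_max_surjective (id_dc_max φ)))

theorem id_dc_primeToMax_prime (φ : K →ₐ[ℚ] PadicAlgCl q) :
    id_dc_primeToMax K q ⟨id_dc_prime φ, id_dc_natCast_mem_ideal φ⟩ = id_dc_max φ :=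
  id_dc_max_eq_of_prime_eq _ _
    (Classical.choose_spec (id_dc_prime_surjective (id_dc_prime φ) (id_dc_natCast_mem_ideal φ)))

theorem id_dc_natCast_mem_maxToPrime (𝔪 : MaximalSpectrum (ℚ_[q] ⊗[ℚ] K)) :
    ((q : ℕ) : 𝓞 K) ∈ (id_dc_maxToPrime K q 𝔪).asIdeal :=
  id_dc_natCast_mem_ideal _

variable (K q)

/-- **The dictionary**: maximal ideals of `ℚ_[q] ⊗[ℚ] K` ↔ primes of `𝓞 K` over `q`. -/
def id_dc_maxEquiv : MaximalSpectrum (ℚ_[q] ⊗[ℚ] K) ≃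
    {w : HeightOneSpectrum (𝓞 K) // ((q : ℕ) : 𝓞 K) ∈ w.asIdeal} where
  toFun 𝔪 := ⟨id_dc_maxToPrime K q 𝔪, id_dc_natCast_mem_maxToPrime 𝔪⟩
  invFun w := id_dc_primeToMax K q w
  left_inv 𝔪 := by
    obtain ⟨φ, rfl⟩ := id_dc_max_surjective 𝔪
    have h : (⟨id_dc_maxToPrime K q (id_dc_max φ), id_dc_natCast_mem_maxToPrime (id_dc_max φ)⟩ :
        {w : HeightOneSpectrum (𝓞 K) // ((q : ℕ) : 𝓞 K) ∈ w.asIdeal})
        = ⟨id_dc_prime φ, id_dc_natCast_mem_ideal φ⟩ := Subtype.ext (id_dc_maxToPrime_max φ)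
    show id_dc_primeToMax K q ⟨id_dc_maxToPrime K q (id_dc_max φ), _⟩ = id_dc_max φ
    rw [h, id_dc_primeToMax_prime]
  right_inv w := by
    obtain ⟨w, hw⟩ := w
    obtain ⟨φ, rfl⟩ := id_dc_prime_surjective w hw
    apply Subtype.ext
    show id_dc_maxToPrime K q (id_dc_primeToMax K q ⟨id_dc_prime φ, hw⟩) = id_dc_prime φ
    rw [id_dc_primeToMax_prime, id_dc_maxToPrime_max]

variable {K q}

@[simp]
theorem id_dc_maxEquiv_max (φ : K →ₐ[ℚ] PadicAlgCl q) :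
    (id_dc_maxEquiv K q (id_dc_max φ)).1 = id_dc_prime φ := id_dc_maxToPrime_max φ

/-- **Equivariance of the dictionary**, in a form independent of the chosen action on the
maximal spectrum: if `𝔪' = σ(𝔪)` elementwise then the prime of `𝔪'` is `σ •` the prime of `𝔪`. -/
theorem id_dc_maxEquiv_smul (σ : K ≃ₐ[ℚ] K) (𝔪 𝔪' : MaximalSpectrum (ℚ_[q] ⊗[ℚ] K))
    (h : ∀ z, z ∈ 𝔪'.asIdeal ↔ σ⁻¹ • z ∈ 𝔪.asIdeal) :
    (id_dc_maxEquiv K q 𝔪').1 = σ • (id_dc_maxEquiv K q 𝔪).1 := by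
  obtain ⟨φ, rfl⟩ := id_dc_max_surjective 𝔪
  have h' : 𝔪' = id_dc_max (φ.comp (σ.symm : K →ₐ[ℚ] K)) := by
    apply MaximalSpectrum.ext
    ext z
    rw [h, id_dc_mem_max_comp_symm]
  rw [h', id_dc_maxEquiv_max, id_dc_maxEquiv_max, id_dc_prime_comp_symm]

/-- Characterisation of the prime attached to `𝔪` through any embedding with kernel `𝔪`. -/
theorem id_dc_mem_maxEquiv (φ : K →ₐ[ℚ] PadicAlgCl q) (x : 𝓞 K) :
    x ∈ (id_dc_maxEquiv K q (id_dc_max φ)).1.asIdeal ↔ ‖φ (x : K)‖ < 1 := by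
  rw [id_dc_maxEquiv_max]
  rfl

end Fermat.Agent.S55
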