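import Mathlib
import Fermat.Agent.S55.Idele.Dictionary
import Fermat.Agent.S55.Idele.DictPrime

/-!
# S55 / block [G0], Dictionary part 3: the exports

`K` is an arbitrary number field (`Type u`), `q : Nat.Primes`, `A := id_A K q = ℚ_[q] ⊗[ℚ] K`,
`Γ := K ≃ₐ[ℚ] K`.

* `id_maxAction`: the action of `Γ` on `MaximalSpectrum A`, `(σ • 𝔪).asIdeal = σ • 𝔪.asIdeal`.
* `id_maxEquiv K q` (`= id_dc_maxEquiv K q`), `id_maxEquiv_smul` (equivariance),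
  `id_maxEquiv_val : (id_maxEquiv K q 𝔪).1 = dc_prime 𝔪`.
* Bridge between the two descriptions of the norms:
  `dc_norm_eq_norm_lift : dc_norm K q (id_dc_max φ) a = ‖id_dc_lift φ a‖`, and the equivariance
  `dc_norm_smul_smul : dc_norm K q (σ • 𝔪) (σ • a) = dc_norm K q 𝔪 a`.
* The order maps `dc_ord K q 𝔪 : Aˣ →* Multiplicative ℤ` (normalised valuation at `𝔪`), with
  `dc_ord_inclU` (restriction to `Kˣ` is `id_ordZ K (dc_prime 𝔪)`), `dc_ord_eq_one_iff`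
  (kernel = norm one), `dc_ord_smul_smul` (equivariance), `dc_exists_ord_eq` (simultaneous
  surjectivity already on `Kˣ`), and the prime-indexed form `id_ordA K q w`.
-/

set_option autoImplicit false

open scoped TensorProduct NumberField Pointwise
open IsDedekindDomain

noncomputable section

namespace Fermat.Agent.S55

universe u

variable (K : Type u) [Field K] [NumberField K] (q : Nat.Primes)

/-! ### The action on the maximal spectrum -/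

theorem dc_smul_isMaximal (σ : K ≃ₐ[ℚ] K) (I : Ideal (id_A K q)) [hI : I.IsMaximal] :
    (σ • I).IsMaximal := by
  rw [Ideal.pointwise_smul_eq_comap]
  exact Ideal.comap_isMaximal_of_surjective _ (RingEquiv.surjective _)

/-- `K ≃ₐ[ℚ] K` acts on the maximal spectrum of `ℚ_[q] ⊗[ℚ] K`. -/
instance id_maxAction : MulAction (K ≃ₐ[ℚ] K) (MaximalSpectrum (id_A K q)) where
  smul σ 𝔪 := ⟨σ • 𝔪.asIdeal, haveI := 𝔪.isMaximal; dc_smul_isMaximal K q σ 𝔪.asIdeal⟩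
  one_smul 𝔪 := MaximalSpectrum.ext (one_smul _ 𝔪.asIdeal)
  mul_smul σ τ 𝔪 := MaximalSpectrum.ext (mul_smul σ τ 𝔪.asIdeal)

variable {K q}

@[simp]
theorem id_maxAction_asIdeal (σ : K ≃ₐ[ℚ] K) (𝔪 : MaximalSpectrum (id_A K q)) :
    (σ • 𝔪).asIdeal = σ • 𝔪.asIdeal := rfl

theorem id_mem_smul_max (σ : K ≃ₐ[ℚ] K) (𝔪 : MaximalSpectrum (id_A K q)) (z : id_A K q) :
    z ∈ (σ • 𝔪).asIdeal ↔ σ⁻¹ • z ∈ 𝔪.asIdeal :=
  Ideal.mem_pointwise_smul_iff_inv_smul_mem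

theorem id_smul_mem_smul_max (σ : K ≃ₐ[ℚ] K) (𝔪 : MaximalSpectrum (id_A K q)) (z : id_A K q) :
    σ • z ∈ (σ • 𝔪).asIdeal ↔ z ∈ 𝔪.asIdeal := by
  rw [id_mem_smul_max, inv_smul_smul]

/-! ### The dictionary under its reserved name -/

variable (K q)

/-- **The dictionary**: maximal ideals of `ℚ_[q] ⊗[ℚ] K` ↔ primes of `𝓞 K` above `q`
(`= id_dc_maxEquiv`). -/
def id_maxEquiv : MaximalSpectrum (id_A K q) ≃
    {w : HeightOneSpectrum (𝓞 K) // ((q : ℕ) : 𝓞 K) ∈ w.asIdeal} :=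
  id_dc_maxEquiv K (q : ℕ)

theorem id_maxEquiv_def : id_maxEquiv K q = id_dc_maxEquiv K (q : ℕ) := rfl

variable {K q}

/-- **Equivariance of the dictionary.** -/
theorem id_maxEquiv_smul (σ : K ≃ₐ[ℚ] K) (𝔪 : MaximalSpectrum (id_A K q)) :
    (id_maxEquiv K q (σ • 𝔪)).1 = σ • (id_maxEquiv K q 𝔪).1 :=
  id_dc_maxEquiv_smul σ 𝔪 (σ • 𝔪) (fun z => id_mem_smul_max σ 𝔪 z)

theorem id_maxEquiv_smul_eq_iff (σ : K ≃ₐ[ℚ] K) (𝔪 : MaximalSpectrum (id_A K q)) :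
    σ • 𝔪 = 𝔪 ↔ σ • (id_maxEquiv K q 𝔪).1 = (id_maxEquiv K q 𝔪).1 := by
  rw [← id_maxEquiv_smul]
  constructor
  · intro h
    rw [h]
  · intro h
    exact (id_maxEquiv K q).injective (Subtype.ext h)

/-! ### Bridge: the spectral norm at `𝔪` is the norm through any embedding with kernel `𝔪` -/

theorem dc_norm_eq_norm_lift (φ : K →ₐ[ℚ] PadicAlgCl (q : ℕ)) (a : id_A K q) :
    dc_norm K q (id_dc_max φ) a = ‖id_dc_lift φ a‖ := by
  have hker : ∀ a ∈ (id_dc_max φ).asIdeal, id_dc_lift φ a = 0 :=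
    fun a ha => (id_dc_mem_max φ a).1 ha
  let f : dc_F K q (id_dc_max φ) →ₐ[ℚ_[(q : ℕ)]] PadicAlgCl (q : ℕ) :=
    Ideal.Quotient.liftₐ (id_dc_max φ).asIdeal (id_dc_lift φ) hker
  have hf : f (dc_mk K q (id_dc_max φ) a) = id_dc_lift φ a := rfl
  rw [← PadicAlgCl.spectralNorm_eq, ← hf, dc_norm]
  unfold spectralNorm
  rw [minpoly.algHom_eq f f.injective]

theorem dc_norm_incl_eq_norm (φ : K →ₐ[ℚ] PadicAlgCl (q : ℕ)) (x : K) :
    dc_norm K q (id_dc_max φ) (id_incl K q x) = ‖φ x‖ := by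
  rw [dc_norm_eq_norm_lift, id_incl_apply, id_dc_lift_one_tmul]

/-- The two constructions of the prime attached to a maximal ideal agree. -/
theorem dc_prime_eq_id_dc_prime (φ : K →ₐ[ℚ] PadicAlgCl (q : ℕ)) :
    dc_prime (id_dc_max φ) = id_dc_prime φ := by
  ext x
  rw [dc_prime_asIdeal, dc_mem_ideal, id_dc_prime_asIdeal, id_dc_mem_ideal, dc_norm_incl_eq_norm]

theorem id_maxEquiv_val (𝔪 : MaximalSpectrum (id_A K q)) :
    (id_maxEquiv K q 𝔪).1 = dc_prime 𝔪 := by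
  obtain ⟨φ, rfl⟩ := id_dc_max_surjective 𝔪
  rw [id_maxEquiv_def, id_dc_maxEquiv_max, dc_prime_eq_id_dc_prime]

theorem id_maxEquiv_symm_prime (w : {w : HeightOneSpectrum (𝓞 K) // ((q : ℕ) : 𝓞 K) ∈ w.asIdeal}) :
    dc_prime ((id_maxEquiv K q).symm w) = w.1 := by
  rw [← id_maxEquiv_val, Equiv.apply_symm_apply]

/-- `σ • 𝔪_φ = 𝔪_{φ ∘ σ⁻¹}`. -/
theorem id_smul_dc_max (σ : K ≃ₐ[ℚ] K) (φ : K →ₐ[ℚ] PadicAlgCl (q : ℕ)) :
    σ • (id_dc_max φ : MaximalSpectrum (id_A K q)) =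
      id_dc_max (φ.comp (σ.symm : K →ₐ[ℚ] K)) := by
  apply MaximalSpectrum.ext
  ext z
  rw [id_mem_smul_max, id_dc_mem_max_comp_symm]

/-- **Equivariance of the norms.** -/
theorem dc_norm_smul_smul (σ : K ≃ₐ[ℚ] K) (𝔪 : MaximalSpectrum (id_A K q)) (a : id_A K q) :
    dc_norm K q (σ • 𝔪) (σ • a) = dc_norm K q 𝔪 a := by
  obtain ⟨φ, rfl⟩ := id_dc_max_surjective 𝔪
  rw [id_smul_dc_max, dc_norm_eq_norm_lift, dc_norm_eq_norm_lift, id_dc_lift_comp_symm,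
    inv_smul_smul]

theorem dc_prime_smul (σ : K ≃ₐ[ℚ] K) (𝔪 : MaximalSpectrum (id_A K q)) :
    dc_prime (σ • 𝔪) = σ • dc_prime 𝔪 := by
  rw [← id_maxEquiv_val, ← id_maxEquiv_val, id_maxEquiv_smul]

/-! ### Units -/

theorem dc_isUnit_iff (a : id_A K q) :
    IsUnit a ↔ ∀ 𝔪 : MaximalSpectrum (id_A K q), dc_norm K q 𝔪 a ≠ 0 := by
  constructor
  · intro h 𝔪 h0
    rw [dc_norm_eq_zero_iff] at h0
    exact 𝔪.isMaximal.ne_top (Ideal.eq_top_of_isUnit_mem _ h0 h)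
  · intro h
    by_contra hu
    obtain ⟨M, hM, haM⟩ := exists_max_ideal_of_mem_nonunits (show a ∈ nonunits _ from hu)
    exact h ⟨M, hM⟩ ((dc_norm_eq_zero_iff _ a).2 haM)

theorem dc_norm_unit_pos (𝔪 : MaximalSpectrum (id_A K q)) (u : (id_A K q)ˣ) :
    0 < dc_norm K q 𝔪 (u : id_A K q) :=
  lt_of_le_of_ne (dc_norm_nonneg 𝔪 _) (Ne.symm ((dc_isUnit_iff (u : id_A K q)).1 u.isUnit 𝔪))

/-! ### The normalised order at a maximal ideal -/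

variable (𝔪 : MaximalSpectrum (id_A K q))

/-- `x ↦ dc_norm 𝔪 (1 ⊗ x)` as a monoid-with-zero homomorphism `K →*₀ ℝ`. -/
def dc_normHom : K →*₀ ℝ where
  toFun x := dc_norm K q 𝔪 (id_incl K q x)
  map_zero' := by rw [map_zero, dc_norm_zero]
  map_one' := by rw [map_one, dc_norm_one]
  map_mul' x y := by rw [map_mul, dc_norm_mul]

theorem dc_normHom_apply (x : K) : dc_normHom 𝔪 x = dc_norm K q 𝔪 (id_incl K q x) := rfl

/-- A chosen uniformizer of `K` at the prime `dc_prime 𝔪`. -/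
def dc_unif : K := Classical.choose ((dc_prime 𝔪).valuation_exists_uniformizer K)

theorem dc_unif_spec : (dc_prime 𝔪).valuation K (dc_unif 𝔪) = WithZero.exp (-1 : ℤ) :=
  Classical.choose_spec ((dc_prime 𝔪).valuation_exists_uniformizer K)

theorem dc_unif_ne_zero : dc_unif 𝔪 ≠ 0 := by
  intro h
  have := dc_unif_spec 𝔪
  rw [h, map_zero] at this
  exact WithZero.exp_ne_zero this.symm

/-- The norm of a uniformizer at `𝔪`: the generator in `(0, 1)` of the value group of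
`dc_norm 𝔪`. -/
def dc_c : ℝ := dc_norm K q 𝔪 (id_incl K q (dc_unif 𝔪))

theorem dc_c_pos : 0 < dc_c 𝔪 := dc_norm_incl_pos 𝔪 (dc_unif_ne_zero 𝔪)

theorem dc_c_lt_one : dc_c 𝔪 < 1 := by
  rw [dc_c, dc_norm_lt_one_iff, dc_unif_spec, ← WithZero.exp_zero, WithZero.exp_lt_exp]
  norm_num

theorem dc_c_zpow_injective : Function.Injective (fun n : ℤ => dc_c 𝔪 ^ n) :=
  zpow_right_injective₀ (dc_c_pos 𝔪) (dc_c_lt_one 𝔪).ne

/-- **Ord compatibility, exact form**: on `Kˣ` the norm at `𝔪` is `c ^ ord_w`, `w = dc_prime 𝔪`. -/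
theorem dc_norm_incl_eq_zpow (x : Kˣ) :
    dc_norm K q 𝔪 (id_incl K q (x : K)) = dc_c 𝔪 ^ (id_ordZ K (dc_prime 𝔪) x) := by
  set n := id_ordZ K (dc_prime 𝔪) x with hn
  have hval : (dc_prime 𝔪).valuation K ((x : K) * dc_unif 𝔪 ^ (-n)) = 1 := by
    rw [map_mul, map_zpow₀, id_valuation_eq_exp, dc_unif_spec, ← WithZero.exp_zsmul,
      ← WithZero.exp_add, ← hn, ← WithZero.exp_zero, WithZero.exp_inj]
    simp
  have h1 := (dc_norm_eq_one_iff 𝔪 _).2 hval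
  rw [← dc_normHom_apply, map_mul, map_zpow₀, dc_normHom_apply, dc_normHom_apply] at h1
  change _ * dc_c 𝔪 ^ (-n) = 1 at h1
  rw [zpow_neg] at h1
  have hc : dc_c 𝔪 ^ n ≠ 0 := zpow_ne_zero _ (dc_c_pos 𝔪).ne'
  field_simp at h1
  exact h1

/-- Any uniformizer has norm `dc_c 𝔪`. -/
theorem dc_c_eq {π : K} (hπ : (dc_prime 𝔪).valuation K π = WithZero.exp (-1 : ℤ)) :
    dc_norm K q 𝔪 (id_incl K q π) = dc_c 𝔪 := by
  have hπ0 : π ≠ 0 := by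
    rintro rfl
    rw [map_zero] at hπ
    exact WithZero.exp_ne_zero hπ.symm
  have h := dc_norm_incl_eq_zpow 𝔪 (Units.mk0 π hπ0)
  have h1 : id_ordZ K (dc_prime 𝔪) (Units.mk0 π hπ0) = 1 := by
    rw [id_ordZ, Units.val_mk0, hπ, WithZero.log_exp, neg_neg]
  rw [h1, zpow_one] at h
  exact h

/-- The value group of `dc_norm 𝔪` on units is generated by `dc_c 𝔪`. -/
theorem dc_exists_ord (u : (id_A K q)ˣ) :
    ∃ n : ℤ, dc_norm K q 𝔪 (u : id_A K q) = dc_c 𝔪 ^ n := by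
  obtain ⟨z, hz⟩ := dc_exists_approx (u : id_A K q) (dc_norm_unit_pos 𝔪 u)
  have h1 : dc_norm K q 𝔪 (id_incl K q z) = dc_norm K q 𝔪 (u : id_A K q) := by
    have h2 : id_incl K q z = (u : id_A K q) + -((u : id_A K q) - id_incl K q z) := by ring
    rw [h2]
    apply dc_norm_add_eq_left
    rw [dc_norm_neg]
    exact hz 𝔪
  have hz0 : z ≠ 0 := by
    rintro rfl
    rw [map_zero, dc_norm_zero] at h1
    exact (dc_norm_unit_pos 𝔪 u).ne h1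
  exact ⟨id_ordZ K (dc_prime 𝔪) (Units.mk0 z hz0), by
    rw [← h1]; exact dc_norm_incl_eq_zpow 𝔪 (Units.mk0 z hz0)⟩

/-- The normalised order of a unit of `ℚ_[q] ⊗[ℚ] K` at the maximal ideal `𝔪`. -/
def dc_ordZ (u : (id_A K q)ˣ) : ℤ := Classical.choose (dc_exists_ord 𝔪 u)

theorem dc_norm_eq_zpow_ordZ (u : (id_A K q)ˣ) :
    dc_norm K q 𝔪 (u : id_A K q) = dc_c 𝔪 ^ dc_ordZ 𝔪 u :=
  Classical.choose_spec (dc_exists_ord 𝔪 u)

theorem dc_ordZ_eq_of_norm_eq {u : (id_A K q)ˣ} {n : ℤ}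
    (h : dc_norm K q 𝔪 (u : id_A K q) = dc_c 𝔪 ^ n) : dc_ordZ 𝔪 u = n :=
  dc_c_zpow_injective 𝔪 ((dc_norm_eq_zpow_ordZ 𝔪 u).symm.trans h)

theorem dc_ordZ_one : dc_ordZ 𝔪 (1 : (id_A K q)ˣ) = 0 :=
  dc_ordZ_eq_of_norm_eq 𝔪 (by rw [Units.val_one, dc_norm_one, zpow_zero])

theorem dc_ordZ_mul (u v : (id_A K q)ˣ) : dc_ordZ 𝔪 (u * v) = dc_ordZ 𝔪 u + dc_ordZ 𝔪 v :=
  dc_ordZ_eq_of_norm_eq 𝔪 (by
    rw [Units.val_mul, dc_norm_mul, dc_norm_eq_zpow_ordZ, dc_norm_eq_zpow_ordZ,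
      zpow_add₀ (dc_c_pos 𝔪).ne'])

theorem dc_ordZ_inclU (x : Kˣ) : dc_ordZ 𝔪 (id_inclU K q x) = id_ordZ K (dc_prime 𝔪) x :=
  dc_ordZ_eq_of_norm_eq 𝔪 (by rw [id_inclU_coe]; exact dc_norm_incl_eq_zpow 𝔪 x)

theorem dc_ordZ_eq_zero_iff (u : (id_A K q)ˣ) :
    dc_ordZ 𝔪 u = 0 ↔ dc_norm K q 𝔪 (u : id_A K q) = 1 := by
  constructor
  · intro h
    rw [dc_norm_eq_zpow_ordZ, h, zpow_zero]
  · intro h
    exact dc_ordZ_eq_of_norm_eq 𝔪 (by rw [h, zpow_zero])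

/-- The normalised order at `𝔪` as a homomorphism `(ℚ_[q] ⊗[ℚ] K)ˣ →* Multiplicative ℤ`. -/
def dc_ord : (id_A K q)ˣ →* Multiplicative ℤ where
  toFun u := Multiplicative.ofAdd (dc_ordZ 𝔪 u)
  map_one' := by rw [dc_ordZ_one]; rfl
  map_mul' u v := by rw [dc_ordZ_mul]; rfl

theorem dc_ord_apply (u : (id_A K q)ˣ) : dc_ord 𝔪 u = Multiplicative.ofAdd (dc_ordZ 𝔪 u) := rfl

theorem dc_ord_inclU (x : Kˣ) :
    dc_ord 𝔪 (id_inclU K q x) = Multiplicative.ofAdd (id_ordZ K (dc_prime 𝔪) x) := by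
  rw [dc_ord_apply, dc_ordZ_inclU]

theorem dc_ord_eq_one_iff (u : (id_A K q)ˣ) :
    dc_ord 𝔪 u = 1 ↔ dc_norm K q 𝔪 (u : id_A K q) = 1 := by
  rw [dc_ord_apply, ← dc_ordZ_eq_zero_iff]
  exact Iff.rfl

/-! ### Equivariance of the order maps -/

theorem dc_c_smul (σ : K ≃ₐ[ℚ] K) : dc_c (σ • 𝔪) = dc_c 𝔪 := by
  have h1 : (dc_prime (σ • 𝔪)).valuation K (σ (dc_unif 𝔪)) = WithZero.exp (-1 : ℤ) := by
    rw [dc_prime_smul, id_valuation_smul, dc_unif_spec]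
  rw [← dc_c_eq (σ • 𝔪) h1, ← id_smul_incl, dc_norm_smul_smul]
  rfl

theorem dc_ordZ_smul_smul (σ : K ≃ₐ[ℚ] K) (u : (id_A K q)ˣ) :
    dc_ordZ (σ • 𝔪) (σ • u) = dc_ordZ 𝔪 u :=
  dc_ordZ_eq_of_norm_eq (σ • 𝔪) (by
    rw [ga_coe_smul_units, dc_norm_smul_smul, dc_c_smul, dc_norm_eq_zpow_ordZ])

theorem dc_ord_smul_smul (σ : K ≃ₐ[ℚ] K) (u : (id_A K q)ˣ) :
    dc_ord (σ • 𝔪) (σ • u) = dc_ord 𝔪 u := by
  rw [dc_ord_apply, dc_ord_apply, dc_ordZ_smul_smul]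

/-! ### Chinese remainder theorem and simultaneous surjectivity of the orders -/

omit 𝔪 in
theorem dc_pairwise_coprime :
    Pairwise (Function.onFun IsCoprime fun 𝔪 : MaximalSpectrum (id_A K q) => 𝔪.asIdeal) := by
  intro 𝔪 𝔪' h
  change IsCoprime 𝔪.asIdeal 𝔪'.asIdeal
  rw [Ideal.isCoprime_iff_sup_eq]
  exact Ideal.IsMaximal.coprime_of_ne 𝔪.isMaximal 𝔪'.isMaximal
    (fun h' => h (MaximalSpectrum.ext h'))

omit 𝔪 in
/-- Chinese remainder theorem in `ℚ_[q] ⊗[ℚ] K`. -/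
theorem dc_exists_crt (a : MaximalSpectrum (id_A K q) → id_A K q) :
    ∃ b : id_A K q, ∀ 𝔪 : MaximalSpectrum (id_A K q), b - a 𝔪 ∈ 𝔪.asIdeal :=
  Ideal.exists_forall_sub_mem_ideal dc_pairwise_coprime a

omit 𝔪 in
/-- Weak approximation with independent targets at the maximal ideals. -/
theorem dc_exists_approx_pi (a : MaximalSpectrum (id_A K q) → id_A K q) {ε : ℝ} (hε : 0 < ε) :
    ∃ z : K, ∀ 𝔪 : MaximalSpectrum (id_A K q), dc_norm K q 𝔪 (a 𝔪 - id_incl K q z) < ε := by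
  obtain ⟨b, hb⟩ := dc_exists_crt a
  obtain ⟨z, hz⟩ := dc_exists_approx b hε
  refine ⟨z, fun 𝔪 => ?_⟩
  have h : (a 𝔪 - id_incl K q z) - (b - id_incl K q z) ∈ 𝔪.asIdeal := by
    have h1 : (a 𝔪 - id_incl K q z) - (b - id_incl K q z) = -(b - a 𝔪) := by ring
    rw [h1]
    exact 𝔪.asIdeal.neg_mem (hb 𝔪)
  rw [dc_norm_eq_of_sub_mem 𝔪 h]
  exact hz 𝔪

omit 𝔪 in
/-- Simultaneous surjectivity of the orders at the primes above `q`, already on `Kˣ`. -/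
theorem dc_exists_ord_eq (n : MaximalSpectrum (id_A K q) → ℤ) :
    ∃ x : Kˣ, ∀ 𝔪 : MaximalSpectrum (id_A K q), id_ordZ K (dc_prime 𝔪) x = n 𝔪 := by
  classical
  have : Fintype (MaximalSpectrum (id_A K q)) := Fintype.ofFinite _
  -- targets `1 ⊗ π_𝔪 ^ n_𝔪`
  set a : MaximalSpectrum (id_A K q) → id_A K q :=
    fun 𝔪 => id_incl K q (dc_unif 𝔪 ^ n 𝔪) with ha
  have hna : ∀ 𝔪, dc_norm K q 𝔪 (a 𝔪) = dc_c 𝔪 ^ n 𝔪 := by
    intro 𝔪
    rw [ha, ← dc_normHom_apply, map_zpow₀, dc_normHom_apply]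
    rfl
  have hpos : ∀ 𝔪, 0 < dc_norm K q 𝔪 (a 𝔪) := fun 𝔪 => by
    rw [hna]; exact zpow_pos (dc_c_pos 𝔪) _
  -- a positive lower bound for the norms of the targets
  obtain ⟨ε, hε, hεle⟩ : ∃ ε : ℝ, 0 < ε ∧ ∀ 𝔪, ε ≤ dc_norm K q 𝔪 (a 𝔪) := by
    by_cases hne : (Finset.univ : Finset (MaximalSpectrum (id_A K q))).Nonempty
    · refine ⟨Finset.univ.inf' hne (fun 𝔪 => dc_norm K q 𝔪 (a 𝔪)), ?_, fun 𝔪 => ?_⟩
      · rw [Finset.lt_inf'_iff]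
        exact fun 𝔪 _ => hpos 𝔪
      · exact Finset.inf'_le _ (Finset.mem_univ 𝔪)
    · refine ⟨1, one_pos, fun 𝔪 => ?_⟩
      exact absurd ⟨𝔪, Finset.mem_univ 𝔪⟩ hne
  obtain ⟨z, hz⟩ := dc_exists_approx_pi a hε
  have hnz : ∀ 𝔪, dc_norm K q 𝔪 (id_incl K q z) = dc_c 𝔪 ^ n 𝔪 := by
    intro 𝔪
    have h2 : id_incl K q z = a 𝔪 + -(a 𝔪 - id_incl K q z) := by ring
    rw [h2, dc_norm_add_eq_left 𝔪, hna]
    rw [dc_norm_neg]
    exact (hz 𝔪).trans_le (hεle 𝔪)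
  by_cases hz0 : z = 0
  · -- then there is no maximal ideal at all (impossible, but harmless)
    refine ⟨1, fun 𝔪 => ?_⟩
    have := hnz 𝔪
    rw [hz0, map_zero, dc_norm_zero] at this
    exact absurd this.symm (zpow_pos (dc_c_pos 𝔪) _).ne'
  · refine ⟨Units.mk0 z hz0, fun 𝔪 => ?_⟩
    apply dc_c_zpow_injective 𝔪
    change dc_c 𝔪 ^ _ = dc_c 𝔪 ^ _
    rw [← dc_norm_incl_eq_zpow, Units.val_mk0, hnz]

/-! ### The prime-indexed form -/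

variable (K q) in
/-- The normalised order of a unit of `ℚ_[q] ⊗[ℚ] K` at a prime `w` of `K` above `q`. -/
def id_ordA (w : {w : HeightOneSpectrum (𝓞 K) // ((q : ℕ) : 𝓞 K) ∈ w.asIdeal}) :
    (id_A K q)ˣ →* Multiplicative ℤ :=
  dc_ord ((id_maxEquiv K q).symm w)

omit 𝔪 in
theorem id_ordA_def (w : {w : HeightOneSpectrum (𝓞 K) // ((q : ℕ) : 𝓞 K) ∈ w.asIdeal}) :
    id_ordA K q w = dc_ord ((id_maxEquiv K q).symm w) := rfl

theorem id_ordA_maxEquiv : id_ordA K q (id_maxEquiv K q 𝔪) = dc_ord 𝔪 := by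
  rw [id_ordA_def, Equiv.symm_apply_apply]

omit 𝔪 in
/-- On `Kˣ` the order at `w` is the usual normalised `w`-adic order. -/
theorem id_ordA_inclU (w : {w : HeightOneSpectrum (𝓞 K) // ((q : ℕ) : 𝓞 K) ∈ w.asIdeal})
    (x : Kˣ) : id_ordA K q w (id_inclU K q x) = Multiplicative.ofAdd (id_ordZ K w.1 x) := by
  rw [id_ordA_def, dc_ord_inclU, id_maxEquiv_symm_prime]

omit 𝔪 in
/-- Equivariance of the orders: `ord_{σ w} (σ u) = ord_w u`. -/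
theorem id_ordA_smul (σ : K ≃ₐ[ℚ] K)
    (w w' : {w : HeightOneSpectrum (𝓞 K) // ((q : ℕ) : 𝓞 K) ∈ w.asIdeal})
    (h : w'.1 = σ • w.1) (u : (id_A K q)ˣ) :
    id_ordA K q w' (σ • u) = id_ordA K q w u := by
  have h1 : (id_maxEquiv K q).symm w' = σ • (id_maxEquiv K q).symm w := by
    apply (id_maxEquiv K q).injective
    apply Subtype.ext
    rw [Equiv.apply_symm_apply, id_maxEquiv_smul, Equiv.apply_symm_apply, h]
  rw [id_ordA_def, id_ordA_def, h1, dc_ord_smul_smul]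

omit 𝔪 in
/-- Simultaneous surjectivity of the orders at the primes above `q`, already on `Kˣ`. -/
theorem id_exists_ordA_eq
    (n : {w : HeightOneSpectrum (𝓞 K) // ((q : ℕ) : 𝓞 K) ∈ w.asIdeal} → ℤ) :
    ∃ x : Kˣ, ∀ w : {w : HeightOneSpectrum (𝓞 K) // ((q : ℕ) : 𝓞 K) ∈ w.asIdeal},
      id_ordZ K w.1 x = n w := by
  obtain ⟨x, hx⟩ := dc_exists_ord_eq (fun 𝔪 : MaximalSpectrum (id_A K q) => n (id_maxEquiv K q 𝔪))
  refine ⟨x, fun w => ?_⟩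
  have := hx ((id_maxEquiv K q).symm w)
  rw [id_maxEquiv_symm_prime, Equiv.apply_symm_apply] at this
  exact this

omit 𝔪 in
/-- A unit has order `0` at all primes above `q` iff all its norms are `1`. -/
theorem id_ordA_eq_one_iff (u : (id_A K q)ˣ) :
    (∀ w, id_ordA K q w u = 1) ↔
      ∀ 𝔪 : MaximalSpectrum (id_A K q), dc_norm K q 𝔪 (u : id_A K q) = 1 := by
  constructor
  · intro h 𝔪
    rw [← dc_ord_eq_one_iff, ← id_ordA_maxEquiv]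
    exact h _
  · intro h w
    rw [id_ordA_def, dc_ord_eq_one_iff]
    exact h _

end Fermat.Agent.S55
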