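import Mathlib
import Fermat.Agent.S55.Idele.DictExports
import Fermat.Agent.S55.Idele.Transition

/-!
# S55 / block [G0], Dictionary part 5: compatibility with the transition maps

For number fields `K ⊆ L` (`[Algebra K L]`) and `q : Nat.Primes`, the transition map
`id_Amap K L q : ℚ_[q] ⊗ K → ℚ_[q] ⊗ L` is compatible with the norms and the order maps:

* `dct_comap K L q 𝔐`: the maximal ideal of `ℚ_[q] ⊗ K` below a maximal ideal of `ℚ_[q] ⊗ L`;
* `dct_norm_Amap`: `dc_norm L q 𝔐 (id_Amap K L q a) = dc_norm K q (dct_comap K L q 𝔐) a`;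
* `dct_prime_comap`: `dc_prime (dct_comap K L q 𝔐) = id_under K L (dc_prime 𝔐)`;
* `dct_ordZ_AmapU`: `ord_𝔐 (id_AmapU u) = e(𝔐) * ord_𝔪 u`;
* `id_ordA_AmapU`: the prime-indexed form.
-/

set_option autoImplicit false

open scoped TensorProduct NumberField Pointwise
open IsDedekindDomain

noncomputable section

namespace Fermat.Agent.S55

universe u

variable (K L : Type u) [Field K] [NumberField K] [Field L] [NumberField L] [Algebra K L]
  (q : Nat.Primes)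

/-- The maximal ideal of `ℚ_[q] ⊗ K` below a maximal ideal of `ℚ_[q] ⊗ L`. -/
def dct_comap (𝔐 : MaximalSpectrum (id_A L q)) : MaximalSpectrum (id_A K q) :=
  ⟨𝔐.asIdeal.comap (id_Amap K L q),
    haveI := 𝔐.isMaximal
    haveI : (𝔐.asIdeal.comap (id_Amap K L q)).IsPrime := Ideal.comap_isPrime _ _
    IsArtinianRing.isMaximal_of_isPrime _⟩

variable {K L q}

theorem dct_mem_comap (𝔐 : MaximalSpectrum (id_A L q)) (a : id_A K q) :
    a ∈ (dct_comap K L q 𝔐).asIdeal ↔ id_Amap K L q a ∈ 𝔐.asIdeal := Iff.rfl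

/-- The norms are compatible with the transition maps. -/
theorem dct_norm_Amap (𝔐 : MaximalSpectrum (id_A L q)) (a : id_A K q) :
    dc_norm L q 𝔐 (id_Amap K L q a) = dc_norm K q (dct_comap K L q 𝔐) a := by
  have hker : ∀ a ∈ (dct_comap K L q 𝔐).asIdeal,
      ((dc_mk L q 𝔐).comp (id_Amap K L q)) a = 0 := by
    intro a ha
    rw [AlgHom.comp_apply, dc_mk_eq_zero_iff]
    exact (dct_mem_comap 𝔐 a).1 ha
  let f : dc_F K q (dct_comap K L q 𝔐) →ₐ[ℚ_[(q : ℕ)]] dc_F L q 𝔐 :=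
    Ideal.Quotient.liftₐ (dct_comap K L q 𝔐).asIdeal ((dc_mk L q 𝔐).comp (id_Amap K L q)) hker
  have hf : f (dc_mk K q (dct_comap K L q 𝔐) a) = dc_mk L q 𝔐 (id_Amap K L q a) := rfl
  rw [dc_norm, dc_norm, ← hf]
  unfold spectralNorm
  rw [minpoly.algHom_eq f f.injective]

theorem dct_norm_incl (𝔐 : MaximalSpectrum (id_A L q)) (x : K) :
    dc_norm L q 𝔐 (id_incl L q (algebraMap K L x)) =
      dc_norm K q (dct_comap K L q 𝔐) (id_incl K q x) := by
  rw [← id_Amap_incl, dct_norm_Amap]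

/-- The prime attached to the maximal ideal below `𝔐` is the prime below the prime of `𝔐`. -/
theorem dct_prime_comap (𝔐 : MaximalSpectrum (id_A L q)) :
    dc_prime (dct_comap K L q 𝔐) = id_under K L (dc_prime 𝔐) := by
  apply HeightOneSpectrum.ext
  ext x
  rw [dc_prime_asIdeal, dc_mem_ideal, id_under_asIdeal, Ideal.under_def, Ideal.mem_comap,
    dc_prime_asIdeal, dc_mem_ideal, ← dct_norm_incl]
  rfl

/-- The generator of the value group below is the `e`-th power of the generator above. -/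
theorem dct_c_comap (𝔐 : MaximalSpectrum (id_A L q)) :
    dc_c (dct_comap K L q 𝔐) = dc_c 𝔐 ^ id_e K L (dc_prime 𝔐) := by
  set 𝔪 := dct_comap K L q 𝔐 with h𝔪
  have hπ0 : dc_unif 𝔪 ≠ 0 := dc_unif_ne_zero 𝔪
  have h1 : id_ordZ K (dc_prime 𝔪) (Units.mk0 (dc_unif 𝔪) hπ0) = 1 := by
    rw [id_ordZ, Units.val_mk0, dc_unif_spec, WithZero.log_exp, neg_neg]
  have h2 := dc_norm_incl_eq_zpow 𝔐 (id_unitsMap K L (Units.mk0 (dc_unif 𝔪) hπ0))
  rw [id_ordZ_map, ← dct_prime_comap, ← h𝔪, h1, mul_one, id_unitsMap_coe, Units.val_mk0,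
    dct_norm_incl, ← h𝔪, zpow_natCast] at h2
  exact h2

/-- **Orders and transition maps**: `ord_𝔐 (id_AmapU u) = e * ord_𝔪 u`, `𝔪` below `𝔐`. -/
theorem dct_ordZ_AmapU (𝔐 : MaximalSpectrum (id_A L q)) (u : (id_A K q)ˣ) :
    dc_ordZ 𝔐 (id_AmapU K L q u) =
      (id_e K L (dc_prime 𝔐) : ℤ) * dc_ordZ (dct_comap K L q 𝔐) u := by
  apply dc_ordZ_eq_of_norm_eq
  rw [id_AmapU_coe, dct_norm_Amap, dc_norm_eq_zpow_ordZ, dct_c_comap, ← zpow_natCast, ← zpow_mul]

theorem dct_ord_AmapU (𝔐 : MaximalSpectrum (id_A L q)) (u : (id_A K q)ˣ) :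
    dc_ord 𝔐 (id_AmapU K L q u) = dc_ord (dct_comap K L q 𝔐) u ^ id_e K L (dc_prime 𝔐) := by
  rw [dc_ord_apply, dc_ord_apply, dct_ordZ_AmapU, ← ofAdd_nsmul, nsmul_eq_mul]

/-- The dictionary is compatible with "the prime below". -/
theorem dct_maxEquiv_comap (𝔐 : MaximalSpectrum (id_A L q)) :
    (id_maxEquiv K q (dct_comap K L q 𝔐)).1 = id_under K L (id_maxEquiv L q 𝔐).1 := by
  rw [id_maxEquiv_val, id_maxEquiv_val, dct_prime_comap]

theorem dct_symm_under (w : {w : HeightOneSpectrum (𝓞 L) // ((q : ℕ) : 𝓞 L) ∈ w.asIdeal})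
    (v : {v : HeightOneSpectrum (𝓞 K) // ((q : ℕ) : 𝓞 K) ∈ v.asIdeal})
    (h : v.1 = id_under K L w.1) :
    (id_maxEquiv K q).symm v = dct_comap K L q ((id_maxEquiv L q).symm w) := by
  apply (id_maxEquiv K q).injective
  apply Subtype.ext
  rw [Equiv.apply_symm_apply, dct_maxEquiv_comap, Equiv.apply_symm_apply, h]

/-- **Orders and transition maps, prime-indexed form**: for `w` a prime of `L` above `q` and `v`
the prime of `K` below it, `ord_w (id_AmapU u) = e(w|v) • ord_v u`. -/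
theorem id_ordA_AmapU (w : {w : HeightOneSpectrum (𝓞 L) // ((q : ℕ) : 𝓞 L) ∈ w.asIdeal})
    (v : {v : HeightOneSpectrum (𝓞 K) // ((q : ℕ) : 𝓞 K) ∈ v.asIdeal})
    (h : v.1 = id_under K L w.1) (u : (id_A K q)ˣ) :
    id_ordA L q w (id_AmapU K L q u) = id_ordA K q v u ^ id_e K L w.1 := by
  rw [id_ordA_def, id_ordA_def, dct_ord_AmapU, dct_symm_under w v h, id_maxEquiv_symm_prime]

theorem id_ordA_AmapU_toAdd (w : {w : HeightOneSpectrum (𝓞 L) // ((q : ℕ) : 𝓞 L) ∈ w.asIdeal})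
    (v : {v : HeightOneSpectrum (𝓞 K) // ((q : ℕ) : 𝓞 K) ∈ v.asIdeal})
    (h : v.1 = id_under K L w.1) (u : (id_A K q)ˣ) :
    (id_ordA L q w (id_AmapU K L q u)).toAdd =
      (id_e K L w.1 : ℤ) * (id_ordA K q v u).toAdd := by
  rw [id_ordA_AmapU w v h, toAdd_pow, nsmul_eq_mul]

/-- The prime of `K` below a prime of `L` above `q` lies above `q`. -/
theorem dct_q_mem_under (w : {w : HeightOneSpectrum (𝓞 L) // ((q : ℕ) : 𝓞 L) ∈ w.asIdeal}) :
    ((q : ℕ) : 𝓞 K) ∈ (id_under K L w.1).asIdeal :=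
  (id_natCast_mem_under_iff K L w.1 (q : ℕ)).2 w.2

/-! ### Equivariance -/

theorem dct_comap_smul {σK : K ≃ₐ[ℚ] K} {σL : L ≃ₐ[ℚ] L} (h : id_Compat K L σK σL)
    (𝔐 : MaximalSpectrum (id_A L q)) :
    dct_comap K L q (σL • 𝔐) = σK • dct_comap K L q 𝔐 := by
  apply MaximalSpectrum.ext
  ext a
  rw [dct_mem_comap, id_mem_smul_max, id_mem_smul_max, dct_mem_comap,
    id_Amap_smul K L q σK⁻¹ σL⁻¹ h.inv]

end Fermat.Agent.S55
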