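import Mathlib
import Fermat.Agent.S55.Idele.Transition
import Fermat.Agent.S55.Idele.DictTransition

/-!
# S55 / block [G0]: comparison of the `T`-idele class group with the `S`-idele class group

For finite sets of rational primes `S ⊆ T` the natural map
`id_C T K = C_K / ∏_{v ∤ T} U_v  ⟶  id_C S K = C_K / ∏_{v ∤ S} U_v`
is surjective, equivariant, compatible with the maps `id_jq` and with the transition maps
`id_Cmap`, and its kernel is the image of the units at the primes over `T ∖ S`.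

In the model `id_J T K = id_JS T K × id_I T K` the map sends `(x, D)` to
`(x|_S, D + ∑_{q ∈ T ∖ S} ∑_{w ∣ q} ord_w (x q) • w)`; the order maps
`ord_w : (ℚ_[q] ⊗[ℚ] K)ˣ → ℤ` at the primes `w ∣ q` are taken from an abstract package
`icm_Ord K` (instantiated from the dictionary `MaxSpec (ℚ_[q] ⊗ K) ≃ {w ∣ q}`).

Owner: helper28.  Prefix `icm_`.
-/

set_option autoImplicit false

open scoped TensorProduct NumberField nonZeroDivisors Pointwise
open IsDedekindDomain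

noncomputable section

namespace Fermat.Agent.S55

universe u

variable (K : Type u) [Field K] [NumberField K]

/-! ### The rational prime below a prime of `K` -/

theorem icm_exists_below (v : HeightOneSpectrum (𝓞 K)) :
    ∃ q : Nat.Primes, ((q : ℕ) : 𝓞 K) ∈ v.asIdeal := by
  have hmem : ((Ideal.absNorm v.asIdeal : ℕ) : 𝓞 K) ∈ v.asIdeal := Ideal.absNorm_mem v.asIdeal
  have hne1 : Ideal.absNorm v.asIdeal ≠ 1 := by
    intro h
    exact v.isPrime.ne_top (Ideal.absNorm_eq_one_iff.1 h)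
  have hne0 : Ideal.absNorm v.asIdeal ≠ 0 := by
    intro h
    exact v.ne_bot (Ideal.absNorm_eq_zero_iff.1 h)
  -- induction on the factorisation
  have key : ∀ n : ℕ, n ≠ 0 → ((n : ℕ) : 𝓞 K) ∈ v.asIdeal → n ≠ 1 →
      ∃ q : Nat.Primes, ((q : ℕ) : 𝓞 K) ∈ v.asIdeal := by
    intro n
    induction n using Nat.strong_induction_on with
    | _ n ih =>
      intro hn0 hn hn1
      obtain ⟨p, hp, hpn⟩ := Nat.exists_prime_and_dvd hn1
      obtain ⟨m, rfl⟩ := hpn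
      have hm : ((p : ℕ) : 𝓞 K) ∈ v.asIdeal ∨ ((m : ℕ) : 𝓞 K) ∈ v.asIdeal := by
        have : ((p : 𝓞 K)) * (m : 𝓞 K) ∈ v.asIdeal := by
          have h := hn
          rwa [Nat.cast_mul] at h
        exact v.isPrime.mem_or_mem this
      rcases hm with h | h
      · exact ⟨⟨p, hp⟩, h⟩
      · have hm0 : m ≠ 0 := by rintro rfl; simp at hn0
        have hm1 : m ≠ 1 := by
          rintro rfl
          apply v.isPrime.ne_top
          rw [Ideal.eq_top_iff_one]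
          simpa using h
        have hlt : m < p * m := by
          have := hp.one_lt
          nlinarith [Nat.pos_of_ne_zero hm0]
        exact ih m hlt hm0 h hm1
  exact key _ hne0 hmem hne1

/-- The rational prime below a prime of `K`. -/
def icm_below (v : HeightOneSpectrum (𝓞 K)) : Nat.Primes := Classical.choose (icm_exists_below K v)

theorem icm_below_mem (v : HeightOneSpectrum (𝓞 K)) : ((icm_below K v : ℕ) : 𝓞 K) ∈ v.asIdeal :=
  Classical.choose_spec (icm_exists_below K v)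

omit [NumberField K] in
theorem icm_eq_of_mem {v : HeightOneSpectrum (𝓞 K)} {q q' : Nat.Primes}
    (hq : ((q : ℕ) : 𝓞 K) ∈ v.asIdeal) (hq' : ((q' : ℕ) : 𝓞 K) ∈ v.asIdeal) : q = q' := by
  by_contra hne
  have hcop : Nat.Coprime (q : ℕ) (q' : ℕ) :=
    (Nat.coprime_primes q.2 q'.2).2 fun h => hne (Subtype.ext h)
  apply v.isPrime.ne_top
  rw [Ideal.eq_top_iff_one]
  have h1 : ((Nat.gcdA q q' : ℤ) : 𝓞 K) * ((q : ℕ) : 𝓞 K)
      + ((Nat.gcdB q q' : ℤ) : 𝓞 K) * ((q' : ℕ) : 𝓞 K) = 1 := by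
    have h := Nat.gcd_eq_gcd_ab q q'
    rw [hcop.gcd_eq_one] at h
    have h2 := congrArg (fun z : ℤ => (z : 𝓞 K)) h
    simp only [Nat.cast_one, Int.cast_one] at h2
    rw [h2]
    push_cast
    ring
  rw [← h1]
  exact v.asIdeal.add_mem (v.asIdeal.mul_mem_left _ hq) (v.asIdeal.mul_mem_left _ hq')

theorem icm_below_eq {v : HeightOneSpectrum (𝓞 K)} {q : Nat.Primes}
    (hq : ((q : ℕ) : 𝓞 K) ∈ v.asIdeal) : icm_below K v = q :=
  icm_eq_of_mem K (icm_below_mem K v) hq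

theorem icm_mem_iff_below_eq (v : HeightOneSpectrum (𝓞 K)) (q : Nat.Primes) :
    ((q : ℕ) : 𝓞 K) ∈ v.asIdeal ↔ icm_below K v = q :=
  ⟨icm_below_eq K, fun h => h ▸ icm_below_mem K v⟩

theorem icm_primeToS_iff (S : Finset Nat.Primes) (v : HeightOneSpectrum (𝓞 K)) :
    id_PrimeToS S K v ↔ icm_below K v ∉ S := by
  constructor
  · intro h hmem
    exact h _ hmem (icm_below_mem K v)
  · intro h q hq hmem
    exact h (icm_below_eq K hmem ▸ hq)

theorem icm_below_smul (σ : K ≃ₐ[ℚ] K) (v : HeightOneSpectrum (𝓞 K)) :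
    icm_below K (σ • v) = icm_below K v := by
  apply icm_below_eq
  rw [id_smul_asIdeal, Ideal.mem_pointwise_smul_iff_inv_smul_mem]
  have h : σ⁻¹ • (((icm_below K v : ℕ) : 𝓞 K)) = (((icm_below K v : ℕ) : 𝓞 K)) :=
    map_natCast (MulSemiringAction.toRingHom (K ≃ₐ[ℚ] K) (𝓞 K) σ⁻¹) _
  rw [h]
  exact icm_below_mem K v

/-- There are finitely many primes of `K` above a rational prime. -/
theorem icm_finite_over (q : Nat.Primes) :
    {v : HeightOneSpectrum (𝓞 K) | ((q : ℕ) : 𝓞 K) ∈ v.asIdeal}.Finite := by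
  have hq0 : (Ideal.span {((q : ℕ) : 𝓞 K)}) ≠ 0 := by
    rw [Ne, Ideal.zero_eq_bot, Ideal.span_singleton_eq_bot]
    exact_mod_cast q.2.ne_zero
  apply (Ideal.finite_factors hq0).subset
  intro v hv
  simp only [Set.mem_ofPred_eq] at hv ⊢
  rw [Ideal.dvd_iff_le, Ideal.span_singleton_le_iff_mem]
  exact hv

theorem icm_finite_below_mem (T : Finset Nat.Primes) :
    {v : HeightOneSpectrum (𝓞 K) | icm_below K v ∈ T}.Finite := by
  have h : (⋃ q ∈ T, {v : HeightOneSpectrum (𝓞 K) | ((q : ℕ) : 𝓞 K) ∈ v.asIdeal}).Finite :=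
    Set.Finite.biUnion T.finite_toSet fun q _ => icm_finite_over K q
  apply h.subset
  intro v hv
  simp only [Set.mem_iUnion, Set.mem_ofPred_eq, exists_prop]
  exact ⟨icm_below K v, hv, icm_below_mem K v⟩

/-! ### Weak approximation for orders -/

theorem icm_ordZ_inv (v : HeightOneSpectrum (𝓞 K)) (x : Kˣ) :
    id_ordZ K v x⁻¹ = -id_ordZ K v x := by
  have h := id_ordZ_mul K v x x⁻¹
  rw [mul_inv_cancel, id_ordZ_one] at h
  linarith

theorem icm_ordZ_mk0 (v : HeightOneSpectrum (𝓞 K)) (a : 𝓞 K) (ha : (a : K) ≠ 0) (m : ℕ)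
    (h : v.intValuation a = WithZero.exp (-(m : ℤ))) : id_ordZ K v (Units.mk0 (a : K) ha) = m := by
  rw [id_ordZ, Units.val_mk0, HeightOneSpectrum.valuation_of_algebraMap, h, WithZero.log_exp, neg_neg]

/-- Integral elements with prescribed orders at finitely many primes. -/
theorem icm_exists_int (W : Finset (HeightOneSpectrum (𝓞 K))) (m : HeightOneSpectrum (𝓞 K) → ℕ) :
    ∃ a : 𝓞 K, a ≠ 0 ∧ ∀ w ∈ W, w.intValuation a = WithZero.exp (-(m w : ℤ)) := by
  classical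
  rcases W.eq_empty_or_nonempty with rfl | ⟨w₀, hw₀⟩
  · exact ⟨1, one_ne_zero, by simp⟩
  have hπ : ∀ w : HeightOneSpectrum (𝓞 K), ∃ π : 𝓞 K, w.intValuation π = WithZero.exp (-1 : ℤ) :=
    fun w => w.intValuation_exists_uniformizer
  choose π hπ using hπ
  obtain ⟨y, hy⟩ := IsDedekindDomain.exists_forall_sub_mem_ideal (s := W)
    (fun w : HeightOneSpectrum (𝓞 K) => w.asIdeal) (fun w => m w + 1)
    (fun w _ => w.prime) (fun w _ w' _ h hh => h (HeightOneSpectrum.ext hh))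
    (fun w => π w.1 ^ m w.1)
  have key : ∀ w ∈ W, w.intValuation y = WithZero.exp (-(m w : ℤ)) := by
    intro w hw
    have h1 : w.intValuation (y - π w ^ m w) ≤ WithZero.exp (-((m w + 1 : ℕ) : ℤ)) :=
      (w.intValuation_le_pow_iff_mem _ _).2 (hy w hw)
    have h2 : w.intValuation (π w ^ m w) = WithZero.exp (-(m w : ℤ)) := by
      rw [map_pow, hπ, ← WithZero.exp_nsmul]
      simp
    have h3 : w.intValuation (y - π w ^ m w) < w.intValuation (π w ^ m w) := by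
      rw [h2]
      refine lt_of_le_of_lt h1 ?_
      rw [WithZero.exp_lt_exp]
      push_cast
      linarith
    have h4 : y = π w ^ m w + (y - π w ^ m w) := by ring
    rw [h4, Valuation.map_add_eq_of_lt_left _ h3, h2]
  refine ⟨y, ?_, key⟩
  intro hy0
  have := key w₀ hw₀
  rw [hy0, map_zero] at this
  exact WithZero.exp_ne_zero this.symm

/-- **Weak approximation for orders**: elements of `Kˣ` with prescribed orders at finitely many
primes. -/
theorem icm_exists_ordZ (W : Finset (HeightOneSpectrum (𝓞 K))) (n : HeightOneSpectrum (𝓞 K) → ℤ) :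
    ∃ z : Kˣ, ∀ w ∈ W, id_ordZ K w z = n w := by
  obtain ⟨a, ha0, ha⟩ := icm_exists_int K W (fun w => (n w).toNat)
  obtain ⟨b, hb0, hb⟩ := icm_exists_int K W (fun w => (-n w).toNat)
  have ha0' : (a : K) ≠ 0 := by
    intro h
    exact ha0 (by exact_mod_cast (NumberField.RingOfIntegers.coe_eq_zero_iff.1 h))
  have hb0' : (b : K) ≠ 0 := by
    intro h
    exact hb0 (by exact_mod_cast (NumberField.RingOfIntegers.coe_eq_zero_iff.1 h))
  refine ⟨Units.mk0 (a : K) ha0' * (Units.mk0 (b : K) hb0')⁻¹, fun w hw => ?_⟩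
  rw [id_ordZ_mul, icm_ordZ_inv, icm_ordZ_mk0 K w a ha0' _ (ha w hw),
    icm_ordZ_mk0 K w b hb0' _ (hb w hw)]
  omega

/-! ### The order package -/

/-- Order maps `ord_w : (ℚ_[q] ⊗[ℚ] K)ˣ → ℤ` at the primes `w` of `K` (used for `w ∣ q`),
extending the normalised orders of `Kˣ` and compatible with the Galois action. -/
structure icm_Ord where
  /-- the order at `w` on the semilocal units at `q` -/
  ord : ∀ (q : Nat.Primes) (_w : HeightOneSpectrum (𝓞 K)), (id_A K q)ˣ →* Multiplicative ℤ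
  ord_incl : ∀ (q : Nat.Primes) (w : HeightOneSpectrum (𝓞 K)), ((q : ℕ) : 𝓞 K) ∈ w.asIdeal →
    ∀ x : Kˣ, ord q w (id_inclU K q x) = Multiplicative.ofAdd (id_ordZ K w x)
  ord_smul : ∀ (q : Nat.Primes) (σ : K ≃ₐ[ℚ] K) (w : HeightOneSpectrum (𝓞 K)),
    ((q : ℕ) : 𝓞 K) ∈ w.asIdeal → ∀ u : (id_A K q)ˣ, ord q (σ • w) (σ • u) = ord q w u

variable {K}

/-- The integer-valued order. -/
def icm_Ord.ordZ (𝔬 : icm_Ord K) (q : Nat.Primes) (w : HeightOneSpectrum (𝓞 K))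
    (u : (id_A K q)ˣ) : ℤ := (𝔬.ord q w u).toAdd

namespace icm_Ord

variable (𝔬 : icm_Ord K) (q : Nat.Primes) (w : HeightOneSpectrum (𝓞 K))

theorem ordZ_mul (u u' : (id_A K q)ˣ) : 𝔬.ordZ q w (u * u') = 𝔬.ordZ q w u + 𝔬.ordZ q w u' := by
  rw [ordZ, map_mul, toAdd_mul]; rfl

@[simp] theorem ordZ_one : 𝔬.ordZ q w 1 = 0 := by
  rw [ordZ, map_one]; rfl

theorem ordZ_inv (u : (id_A K q)ˣ) : 𝔬.ordZ q w u⁻¹ = -𝔬.ordZ q w u := by
  rw [ordZ, map_inv, toAdd_inv]; rfl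

theorem ordZ_div (u u' : (id_A K q)ˣ) : 𝔬.ordZ q w (u / u') = 𝔬.ordZ q w u - 𝔬.ordZ q w u' := by
  rw [div_eq_mul_inv, ordZ_mul, ordZ_inv, sub_eq_add_neg]

theorem ordZ_incl (hw : ((q : ℕ) : 𝓞 K) ∈ w.asIdeal) (x : Kˣ) :
    𝔬.ordZ q w (id_inclU K q x) = id_ordZ K w x := by
  rw [ordZ, 𝔬.ord_incl q w hw]; rfl

theorem ordZ_smul (σ : K ≃ₐ[ℚ] K) (hw : ((q : ℕ) : 𝓞 K) ∈ w.asIdeal) (u : (id_A K q)ˣ) :
    𝔬.ordZ q (σ • w) (σ • u) = 𝔬.ordZ q w u := by
  rw [ordZ, 𝔬.ord_smul q σ w hw]; rfl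

end icm_Ord

/-! ### The comparison map on ideles -/

variable (𝔬 : icm_Ord K) (S T : Finset Nat.Primes)

/-- The divisor (prime to `S`) of a `T`-idele. -/
def icm_DFun (z : id_J T K) (v : id_P S K) : ℤ :=
  if h : icm_below K v.1 ∈ T then 𝔬.ordZ (icm_below K v.1) v.1 (z.1 ⟨icm_below K v.1, h⟩)
  else z.2.toAdd ⟨v.1, (icm_primeToS_iff K T v.1).2 h⟩

theorem icm_DFun_of_mem (z : id_J T K) (v : id_P S K) {q : Nat.Primes} (hq : q ∈ T)
    (hv : ((q : ℕ) : 𝓞 K) ∈ v.1.asIdeal) : icm_DFun 𝔬 S T z v = 𝔬.ordZ q v.1 (z.1 ⟨q, hq⟩) := by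
  obtain rfl := icm_below_eq K hv
  rw [icm_DFun, dif_pos hq]

theorem icm_DFun_of_primeToS (z : id_J T K) (v : id_P S K) (hv : id_PrimeToS T K v.1) :
    icm_DFun 𝔬 S T z v = z.2.toAdd ⟨v.1, hv⟩ := by
  rw [icm_DFun, dif_neg ((icm_primeToS_iff K T v.1).1 hv)]

theorem icm_DFun_finite (z : id_J T K) : (Function.support (icm_DFun 𝔬 S T z)).Finite := by
  classical
  have h1 := icm_finite_below_mem K T
  have h2 : ((fun v : id_P T K => v.1) '' (z.2.toAdd.support : Set (id_P T K))).Finite :=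
    (Finset.finite_toSet _).image _
  apply Set.Finite.of_injOn (f := fun v : id_P S K => v.1) _ _ (h1.union h2)
  · intro v hv
    rw [Function.mem_support] at hv
    by_cases h : icm_below K v.1 ∈ T
    · exact Or.inl h
    · right
      have hv' : id_PrimeToS T K v.1 := (icm_primeToS_iff K T v.1).2 h
      rw [icm_DFun_of_primeToS 𝔬 S T z v hv'] at hv
      exact ⟨⟨v.1, hv'⟩, Finsupp.mem_support_iff.2 hv, rfl⟩
  · intro v _ v' _ h
    exact Subtype.ext h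

variable {S T}

/-- **The comparison map on ideles** `id_J T K →* id_J S K` for `S ⊆ T`. -/
def icm_Jcomp (hST : S ⊆ T) : id_J T K →* id_J S K where
  toFun z := (fun q : S => z.1 ⟨q.1, hST q.2⟩,
    Multiplicative.ofAdd (Finsupp.ofSupportFinite (icm_DFun 𝔬 S T z) (icm_DFun_finite 𝔬 S T z)))
  map_one' := by
    refine Prod.ext rfl ?_
    apply Multiplicative.toAdd.injective
    ext v
    change icm_DFun 𝔬 S T 1 v = 0
    by_cases h : icm_below K v.1 ∈ T
    · rw [icm_DFun_of_mem 𝔬 S T 1 v h (icm_below_mem K v.1)]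
      exact 𝔬.ordZ_one _ _
    · rw [icm_DFun_of_primeToS 𝔬 S T 1 v ((icm_primeToS_iff K T v.1).2 h)]
      rfl
  map_mul' z z' := by
    refine Prod.ext rfl ?_
    apply Multiplicative.toAdd.injective
    ext v
    change icm_DFun 𝔬 S T (z * z') v = icm_DFun 𝔬 S T z v + icm_DFun 𝔬 S T z' v
    by_cases h : icm_below K v.1 ∈ T
    · rw [icm_DFun_of_mem 𝔬 S T _ v h (icm_below_mem K v.1),
        icm_DFun_of_mem 𝔬 S T _ v h (icm_below_mem K v.1),
        icm_DFun_of_mem 𝔬 S T _ v h (icm_below_mem K v.1)]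
      exact 𝔬.ordZ_mul _ _ _ _
    · have hv := (icm_primeToS_iff K T v.1).2 h
      rw [icm_DFun_of_primeToS 𝔬 S T _ v hv, icm_DFun_of_primeToS 𝔬 S T _ v hv,
        icm_DFun_of_primeToS 𝔬 S T _ v hv]
      rfl

theorem icm_Jcomp_fst (hST : S ⊆ T) (z : id_J T K) (q : S) :
    (icm_Jcomp 𝔬 hST z).1 q = z.1 ⟨q.1, hST q.2⟩ := rfl

theorem icm_Jcomp_snd (hST : S ⊆ T) (z : id_J T K) (v : id_P S K) :
    (icm_Jcomp 𝔬 hST z).2.toAdd v = icm_DFun 𝔬 S T z v := rfl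

theorem icm_Jcomp_snd_of_mem (hST : S ⊆ T) (z : id_J T K) (v : id_P S K) {q : Nat.Primes}
    (hq : q ∈ T) (hv : ((q : ℕ) : 𝓞 K) ∈ v.1.asIdeal) :
    (icm_Jcomp 𝔬 hST z).2.toAdd v = 𝔬.ordZ q v.1 (z.1 ⟨q, hq⟩) :=
  icm_DFun_of_mem 𝔬 S T z v hq hv

theorem icm_Jcomp_snd_of_primeToS (hST : S ⊆ T) (z : id_J T K) (v : id_P S K)
    (hv : id_PrimeToS T K v.1) : (icm_Jcomp 𝔬 hST z).2.toAdd v = z.2.toAdd ⟨v.1, hv⟩ :=
  icm_DFun_of_primeToS 𝔬 S T z v hv

/-- The comparison map is compatible with the diagonal embeddings. -/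
theorem icm_Jcomp_diag (hST : S ⊆ T) (x : Kˣ) :
    icm_Jcomp 𝔬 hST (id_diag T K x) = id_diag S K x := by
  refine Prod.ext rfl ?_
  apply Multiplicative.toAdd.injective
  ext v
  change (icm_Jcomp 𝔬 hST (id_diag T K x)).2.toAdd v = id_ordZ K v.1 x
  by_cases h : icm_below K v.1 ∈ T
  · rw [icm_Jcomp_snd_of_mem 𝔬 hST _ v h (icm_below_mem K v.1)]
    exact 𝔬.ordZ_incl _ _ (icm_below_mem K v.1) x
  · rw [icm_Jcomp_snd_of_primeToS 𝔬 hST _ v ((icm_primeToS_iff K T v.1).2 h)]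
    rfl

/-- **The comparison map** `id_C T K →* id_C S K` for `S ⊆ T`. -/
def icm_comp (hST : S ⊆ T) : id_C T K →* id_C S K :=
  QuotientGroup.map (id_princ T K) (id_princ S K) (icm_Jcomp 𝔬 hST) (by
    rintro _ ⟨x, rfl⟩
    exact ⟨x, (icm_Jcomp_diag 𝔬 hST x).symm⟩)

@[simp] theorem icm_comp_toC (hST : S ⊆ T) (z : id_J T K) :
    icm_comp 𝔬 hST (id_toC T K z) = id_toC S K (icm_Jcomp 𝔬 hST z) := rfl

/-! ### Equivariance -/

theorem icm_Jcomp_smul (hST : S ⊆ T) (σ : K ≃ₐ[ℚ] K) (z : id_J T K) :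
    icm_Jcomp 𝔬 hST (σ • z) = σ • icm_Jcomp 𝔬 hST z := by
  refine Prod.ext rfl ?_
  apply Multiplicative.toAdd.injective
  ext v
  change (icm_Jcomp 𝔬 hST (σ • z)).2.toAdd v = (icm_Jcomp 𝔬 hST z).2.toAdd (σ⁻¹ • v)
  by_cases h : icm_below K v.1 ∈ T
  · have hv' : ((icm_below K v.1 : ℕ) : 𝓞 K) ∈ (σ⁻¹ • v).1.asIdeal := by
      have := icm_below_mem K (σ⁻¹ • v.1)
      rwa [icm_below_smul] at this
    rw [icm_Jcomp_snd_of_mem 𝔬 hST _ v h (icm_below_mem K v.1),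
      icm_Jcomp_snd_of_mem 𝔬 hST _ (σ⁻¹ • v) h hv']
    have h1 : (σ • z).1 ⟨icm_below K v.1, h⟩ = σ • z.1 ⟨icm_below K v.1, h⟩ := rfl
    rw [h1, ← 𝔬.ordZ_smul _ _ σ hv', id_P_smul_val, smul_inv_smul]
  · have hv : id_PrimeToS T K v.1 := (icm_primeToS_iff K T v.1).2 h
    have hv' : id_PrimeToS T K (σ⁻¹ • v).1 := id_primeToS_smul T K σ⁻¹ hv
    rw [icm_Jcomp_snd_of_primeToS 𝔬 hST _ v hv, icm_Jcomp_snd_of_primeToS 𝔬 hST _ (σ⁻¹ • v) hv']
    rfl

/-- The comparison map is Galois equivariant (hence commutes with all norm maps). -/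
theorem icm_comp_smul (hST : S ⊆ T) (σ : K ≃ₐ[ℚ] K) (c : id_C T K) :
    icm_comp 𝔬 hST (σ • c) = σ • icm_comp 𝔬 hST c := by
  obtain ⟨z, rfl⟩ := id_toC_surjective T K c
  rw [id_smul_toC, icm_comp_toC, icm_comp_toC, id_smul_toC, icm_Jcomp_smul]

/-! ### Components -/

theorem icm_Jcomp_inI_of_primeToS (hST : S ⊆ T) (D : id_I T K) (v : id_P S K)
    (h : id_PrimeToS T K v.1) :
    (icm_Jcomp 𝔬 hST (id_inI T K D)).2.toAdd v = D.toAdd ⟨v.1, h⟩ := by
  rw [icm_Jcomp_snd_of_primeToS 𝔬 hST _ v h]; rfl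

theorem icm_Jcomp_inI_of_not_primeToS (hST : S ⊆ T) (D : id_I T K) (v : id_P S K)
    (h : ¬ id_PrimeToS T K v.1) : (icm_Jcomp 𝔬 hST (id_inI T K D)).2.toAdd v = 0 := by
  have h' : icm_below K v.1 ∈ T := by
    by_contra hh
    exact h ((icm_primeToS_iff K T v.1).2 hh)
  rw [icm_Jcomp_snd_of_mem 𝔬 hST _ v h' (icm_below_mem K v.1)]
  exact 𝔬.ordZ_one _ _

/-- Compatibility with the local components at the primes of `S`. -/
theorem icm_comp_jq (hST : S ⊆ T) (q : S) (a : (id_A K q.1)ˣ) :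
    icm_comp 𝔬 hST (id_jq T K ⟨q.1, hST q.2⟩ a) = id_jq S K q a := by
  classical
  change id_toC S K (icm_Jcomp 𝔬 hST (id_inS T K (id_inq T K ⟨q.1, hST q.2⟩ a)))
    = id_toC S K (id_inS S K (id_inq S K q a))
  congr 1
  refine Prod.ext ?_ ?_
  · funext q'
    change (id_inq T K ⟨q.1, hST q.2⟩ a) ⟨q'.1, hST q'.2⟩ = (id_inq S K q a) q'
    by_cases hqq : q' = q
    · subst hqq
      simp [id_inq]
    · have h2 : (⟨q'.1, hST q'.2⟩ : T) ≠ ⟨q.1, hST q.2⟩ := by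
        intro h
        apply hqq
        exact Subtype.ext (by simpa using congrArg Subtype.val h)
      simp [id_inq, Pi.mulSingle_eq_of_ne hqq, Pi.mulSingle_eq_of_ne h2]
  · apply Multiplicative.toAdd.injective
    ext v
    change (icm_Jcomp 𝔬 hST (id_inS T K (id_inq T K ⟨q.1, hST q.2⟩ a))).2.toAdd v = 0
    by_cases h : icm_below K v.1 ∈ T
    · rw [icm_Jcomp_snd_of_mem 𝔬 hST _ v h (icm_below_mem K v.1)]
      have hne : (⟨icm_below K v.1, h⟩ : T) ≠ ⟨q.1, hST q.2⟩ := by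
        intro heq
        have h1 : icm_below K v.1 = q.1 := by simpa using congrArg Subtype.val heq
        exact (icm_primeToS_iff K S v.1).1 v.2 (h1 ▸ q.2)
      have h2 : (id_inS T K (id_inq T K ⟨q.1, hST q.2⟩ a)).1 ⟨icm_below K v.1, h⟩ = 1 := by
        change (id_inq T K ⟨q.1, hST q.2⟩ a) ⟨icm_below K v.1, h⟩ = 1
        simp [id_inq, Pi.mulSingle_eq_of_ne hne]
      rw [h2]
      exact 𝔬.ordZ_one _ _
    · rw [icm_Jcomp_snd_of_primeToS 𝔬 hST _ v ((icm_primeToS_iff K T v.1).2 h)]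
      rfl

/-- A component at a prime `q ∈ T ∖ S` has trivial `S`-part. -/
theorem icm_Jcomp_inq_fst (hST : S ⊆ T) (q : T) (hq : q.1 ∉ S) (u : (id_A K q.1)ˣ) :
    (icm_Jcomp 𝔬 hST (id_inS T K (id_inq T K q u))).1 = 1 := by
  classical
  funext q'
  change (id_inq T K q u) ⟨q'.1, hST q'.2⟩ = 1
  have hne : (⟨q'.1, hST q'.2⟩ : T) ≠ q := by
    intro h
    apply hq
    rw [← h]
    exact q'.2
  simp [id_inq, Pi.mulSingle_eq_of_ne hne]

/-- A component at a prime `q ∈ T` goes to the divisor `∑_{w ∣ q} ord_w(u) • w`: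
coefficient at `v ∣ q`. -/
theorem icm_Jcomp_inq_snd_of_mem (hST : S ⊆ T) (q : T) (u : (id_A K q.1)ˣ) (v : id_P S K)
    (hv : ((q.1 : ℕ) : 𝓞 K) ∈ v.1.asIdeal) :
    (icm_Jcomp 𝔬 hST (id_inS T K (id_inq T K q u))).2.toAdd v = 𝔬.ordZ q.1 v.1 u := by
  classical
  rw [icm_Jcomp_snd_of_mem 𝔬 hST _ v q.2 hv]
  change 𝔬.ordZ q.1 v.1 ((id_inq T K q u) q) = _
  simp [id_inq]

/-- A component at a prime `q ∈ T` goes to the divisor `∑_{w ∣ q} ord_w(u) • w`:
coefficient at `v ∤ q`. -/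
theorem icm_Jcomp_inq_snd_of_not_mem (hST : S ⊆ T) (q : T) (u : (id_A K q.1)ˣ) (v : id_P S K)
    (hv : ((q.1 : ℕ) : 𝓞 K) ∉ v.1.asIdeal) :
    (icm_Jcomp 𝔬 hST (id_inS T K (id_inq T K q u))).2.toAdd v = 0 := by
  classical
  by_cases h : icm_below K v.1 ∈ T
  · rw [icm_Jcomp_snd_of_mem 𝔬 hST _ v h (icm_below_mem K v.1)]
    have hne : (⟨icm_below K v.1, h⟩ : T) ≠ q := by
      intro heq
      apply hv
      rw [← heq]
      exact icm_below_mem K v.1
    have h2 : (id_inS T K (id_inq T K q u)).1 ⟨icm_below K v.1, h⟩ = 1 := by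
      change (id_inq T K q u) ⟨icm_below K v.1, h⟩ = 1
      simp [id_inq, Pi.mulSingle_eq_of_ne hne]
    rw [h2]
    exact 𝔬.ordZ_one _ _
  · rw [icm_Jcomp_snd_of_primeToS 𝔬 hST _ v ((icm_primeToS_iff K T v.1).2 h)]
    rfl

/-! ### Surjectivity -/

omit [NumberField K] in
theorem icm_primeToS_mono (hST : S ⊆ T) {v : HeightOneSpectrum (𝓞 K)} (h : id_PrimeToS T K v) :
    id_PrimeToS S K v := fun q hq => h q (hST hq)

theorem icm_Jcomp_surjective (hST : S ⊆ T) : Function.Surjective (icm_Jcomp 𝔬 hST) := by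
  classical
  rintro ⟨y, E⟩
  let n : HeightOneSpectrum (𝓞 K) → ℤ := fun w =>
    if h : id_PrimeToS S K w then E.toAdd ⟨w, h⟩ else 0
  have hz : ∀ q : Nat.Primes, ∃ z : Kˣ, ∀ w ∈ (icm_finite_over K q).toFinset,
      id_ordZ K w z = n w := fun q => icm_exists_ordZ K _ n
  choose z hz using hz
  let x : id_JS T K := fun q => if h : q.1 ∈ S then y ⟨q.1, h⟩ else id_inclU K q.1 (z q.1)
  let ι : id_P T K → id_P S K := fun v => ⟨v.1, icm_primeToS_mono hST v.2⟩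
  have hι : Function.Injective ι := fun v v' h =>
    Subtype.ext (congrArg (fun t : id_P S K => t.1) h)
  let D : id_I T K := Multiplicative.ofAdd (Finsupp.comapDomain ι E.toAdd hι.injOn)
  refine ⟨(x, D), Prod.ext ?_ ?_⟩
  · funext q
    change x ⟨q.1, hST q.2⟩ = y q
    simp only [x, dif_pos q.2]
  · apply Multiplicative.toAdd.injective
    ext v
    change (icm_Jcomp 𝔬 hST (x, D)).2.toAdd v = E.toAdd v
    by_cases h : icm_below K v.1 ∈ T
    · rw [icm_Jcomp_snd_of_mem 𝔬 hST _ v h (icm_below_mem K v.1)]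
      have hS : icm_below K v.1 ∉ S := (icm_primeToS_iff K S v.1).1 v.2
      have hx : x ⟨icm_below K v.1, h⟩ = id_inclU K (icm_below K v.1) (z (icm_below K v.1)) := by
        simp only [x, dif_neg hS]
      change 𝔬.ordZ (icm_below K v.1) v.1 (x ⟨icm_below K v.1, h⟩) = E.toAdd v
      rw [hx, 𝔬.ordZ_incl _ _ (icm_below_mem K v.1), hz (icm_below K v.1) v.1
        (by rw [Set.Finite.mem_toFinset]; exact icm_below_mem K v.1)]
      simp only [n, dif_pos v.2]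
      rfl
    · rw [icm_Jcomp_snd_of_primeToS 𝔬 hST _ v ((icm_primeToS_iff K T v.1).2 h)]
      rfl

/-- The comparison map `id_C T K → id_C S K` is surjective. -/
theorem icm_comp_surjective (hST : S ⊆ T) : Function.Surjective (icm_comp 𝔬 hST) := by
  intro c
  obtain ⟨z, rfl⟩ := id_toC_surjective S K c
  obtain ⟨z', rfl⟩ := icm_Jcomp_surjective 𝔬 hST z
  exact ⟨id_toC T K z', rfl⟩

/-! ### The kernel -/

/-- **The kernel of the comparison map** is the image of the units at the primes over `T ∖ S`. -/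
theorem icm_comp_eq_one_iff (hST : S ⊆ T) (c : id_C T K) :
    icm_comp 𝔬 hST c = 1 ↔ ∃ u : id_JS T K, (∀ q : T, q.1 ∈ S → u q = 1) ∧
      (∀ q : T, q.1 ∉ S → ∀ w : HeightOneSpectrum (𝓞 K), ((q.1 : ℕ) : 𝓞 K) ∈ w.asIdeal →
        𝔬.ordZ q.1 w (u q) = 0) ∧ id_jS T K u = c := by
  constructor
  · intro h
    obtain ⟨z, rfl⟩ := id_toC_surjective T K c
    rw [icm_comp_toC, id_toC_eq_one_iff] at h
    obtain ⟨x, hx⟩ := h
    have hx1 : ∀ q : S, id_inclU K q.1 x = z.1 ⟨q.1, hST q.2⟩ := fun q => by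
      have := congrArg (fun t : id_J S K => t.1 q) hx
      exact this
    have hx2 : ∀ v : id_P S K, id_ordZ K v.1 x = (icm_Jcomp 𝔬 hST z).2.toAdd v := fun v => by
      have := congrArg (fun t : id_J S K => t.2.toAdd v) hx
      exact this
    refine ⟨(z / id_diag T K x).1, ?_, ?_, ?_⟩
    · intro q hq
      change z.1 q / id_inclU K q.1 x = 1
      rw [hx1 ⟨q.1, hq⟩, div_self']
    · intro q hq w hw
      change 𝔬.ordZ q.1 w (z.1 q / id_inclU K q.1 x) = 0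
      have hwS : id_PrimeToS S K w := (icm_primeToS_iff K S w).2 (by rwa [icm_below_eq K hw])
      rw [𝔬.ordZ_div, 𝔬.ordZ_incl _ _ hw, hx2 ⟨w, hwS⟩,
        icm_Jcomp_snd_of_mem 𝔬 hST z ⟨w, hwS⟩ q.2 hw, sub_self]
    · change id_toC T K (id_inS T K (z / id_diag T K x).1) = id_toC T K z
      have h2 : id_inS T K (z / id_diag T K x).1 = z / id_diag T K x := by
        refine Prod.ext rfl ?_
        apply Multiplicative.toAdd.injective
        ext v
        change (0 : ℤ) = z.2.toAdd v - id_ordZ K v.1 x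
        rw [hx2 ⟨v.1, icm_primeToS_mono hST v.2⟩,
          icm_Jcomp_snd_of_primeToS 𝔬 hST z ⟨v.1, icm_primeToS_mono hST v.2⟩ v.2]
        exact (sub_self _).symm
      rw [h2, map_div, id_toC_diag, div_one]
  · rintro ⟨u, hu1, hu2, rfl⟩
    change id_toC S K (icm_Jcomp 𝔬 hST (id_inS T K u)) = 1
    have : icm_Jcomp 𝔬 hST (id_inS T K u) = 1 := by
      refine Prod.ext ?_ ?_
      · funext q
        exact hu1 ⟨q.1, hST q.2⟩ q.2
      · apply Multiplicative.toAdd.injective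
        ext v
        change (icm_Jcomp 𝔬 hST (id_inS T K u)).2.toAdd v = 0
        by_cases h : icm_below K v.1 ∈ T
        · rw [icm_Jcomp_snd_of_mem 𝔬 hST _ v h (icm_below_mem K v.1)]
          exact hu2 ⟨icm_below K v.1, h⟩ ((icm_primeToS_iff K S v.1).1 v.2) v.1 (icm_below_mem K v.1)
        · rw [icm_Jcomp_snd_of_primeToS 𝔬 hST _ v ((icm_primeToS_iff K T v.1).2 h)]
          rfl
    rw [this, map_one]

/-! ### Functoriality in `S ⊆ T` -/

theorem icm_Jcomp_refl (z : id_J S K) : icm_Jcomp 𝔬 (Finset.Subset.refl S) z = z := by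
  refine Prod.ext rfl ?_
  apply Multiplicative.toAdd.injective
  ext v
  change (icm_Jcomp 𝔬 (Finset.Subset.refl S) z).2.toAdd v = z.2.toAdd v
  rw [icm_Jcomp_snd_of_primeToS 𝔬 _ z v v.2]
  rfl

theorem icm_comp_refl (c : id_C S K) : icm_comp 𝔬 (Finset.Subset.refl S) c = c := by
  obtain ⟨z, rfl⟩ := id_toC_surjective S K c
  rw [icm_comp_toC, icm_Jcomp_refl]

theorem icm_Jcomp_trans {T' : Finset Nat.Primes} (hST : S ⊆ T) (hTT' : T ⊆ T') (z : id_J T' K) :
    icm_Jcomp 𝔬 hST (icm_Jcomp 𝔬 hTT' z) = icm_Jcomp 𝔬 (hST.trans hTT') z := by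
  refine Prod.ext rfl ?_
  apply Multiplicative.toAdd.injective
  ext v
  change (icm_Jcomp 𝔬 hST (icm_Jcomp 𝔬 hTT' z)).2.toAdd v = (icm_Jcomp 𝔬 (hST.trans hTT') z).2.toAdd v
  by_cases h : icm_below K v.1 ∈ T
  · rw [icm_Jcomp_snd_of_mem 𝔬 hST _ v h (icm_below_mem K v.1),
      icm_Jcomp_snd_of_mem 𝔬 (hST.trans hTT') _ v (hTT' h) (icm_below_mem K v.1)]
    rfl
  · have hv : id_PrimeToS T K v.1 := (icm_primeToS_iff K T v.1).2 h
    rw [icm_Jcomp_snd_of_primeToS 𝔬 hST _ v hv]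
    by_cases h' : icm_below K v.1 ∈ T'
    · rw [icm_Jcomp_snd_of_mem 𝔬 hTT' z ⟨v.1, hv⟩ h' (icm_below_mem K v.1),
        icm_Jcomp_snd_of_mem 𝔬 (hST.trans hTT') z v h' (icm_below_mem K v.1)]
    · have hv' : id_PrimeToS T' K v.1 := (icm_primeToS_iff K T' v.1).2 h'
      rw [icm_Jcomp_snd_of_primeToS 𝔬 hTT' z ⟨v.1, hv⟩ hv',
        icm_Jcomp_snd_of_primeToS 𝔬 (hST.trans hTT') z v hv']

theorem icm_comp_trans {T' : Finset Nat.Primes} (hST : S ⊆ T) (hTT' : T ⊆ T') (c : id_C T' K) :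
    icm_comp 𝔬 hST (icm_comp 𝔬 hTT' c) = icm_comp 𝔬 (hST.trans hTT') c := by
  obtain ⟨z, rfl⟩ := id_toC_surjective T' K c
  rw [icm_comp_toC, icm_comp_toC, icm_comp_toC, icm_Jcomp_trans]

/-- The comparison map sends the `T`-adic part onto the subgroup generated by the `S`-adic part and
the primes over `T ∖ S`; in particular it maps `id_CSo T K` into the classes of ideles whose
divisor is supported over `T`. -/
theorem icm_comp_jS (hST : S ⊆ T) (x : id_JS T K) :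
    icm_comp 𝔬 hST (id_jS T K x) = id_toC S K (icm_Jcomp 𝔬 hST (id_inS T K x)) := rfl

/-! ### Compatibility with the transition maps -/

section transition

variable {L : Type u} [Field L] [NumberField L] [Algebra K L] (𝔬L : icm_Ord L)

/-- Compatibility of two order packages along `K ⊆ L`:
`ord_{w'} (u) = e(w' ∣ w) • ord_w (u)` for `u ∈ (ℚ_[q] ⊗ K)ˣ`. -/
def icm_OrdCompat : Prop :=
  ∀ (q : Nat.Primes) (w' : HeightOneSpectrum (𝓞 L)), ((q : ℕ) : 𝓞 L) ∈ w'.asIdeal →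
    ∀ u : (id_A K q)ˣ, 𝔬L.ordZ q w' (id_AmapU K L q u)
      = (id_e K L w' : ℤ) * 𝔬.ordZ q (id_under K L w') u

theorem icm_Jmap_Jcomp (hc : icm_OrdCompat 𝔬 𝔬L) (hST : S ⊆ T) (z : id_J T K) :
    id_Jmap S K L (icm_Jcomp 𝔬 hST z) = icm_Jcomp 𝔬L hST (id_Jmap T K L z) := by
  refine Prod.ext rfl ?_
  apply Multiplicative.toAdd.injective
  ext w
  change (id_Imap S K L (icm_Jcomp 𝔬 hST z).2).toAdd w = (icm_Jcomp 𝔬L hST (id_Jmap T K L z)).2.toAdd w
  rw [id_Imap_apply]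
  by_cases h : icm_below L w.1 ∈ T
  · have hw : ((icm_below L w.1 : ℕ) : 𝓞 K) ∈ (id_underP S K L w).1.asIdeal :=
      (id_natCast_mem_under_iff K L w.1 _).2 (icm_below_mem L w.1)
    rw [icm_Jcomp_snd_of_mem 𝔬L hST _ w h (icm_below_mem L w.1),
      icm_Jcomp_snd_of_mem 𝔬 hST z (id_underP S K L w) h hw]
    exact (hc _ w.1 (icm_below_mem L w.1) _).symm
  · have hwT : id_PrimeToS T L w.1 := (icm_primeToS_iff L T w.1).2 h
    have hvT : id_PrimeToS T K (id_underP S K L w).1 := (id_primeToS_under_iff T K L w.1).2 hwT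
    rw [icm_Jcomp_snd_of_primeToS 𝔬L hST _ w hwT,
      icm_Jcomp_snd_of_primeToS 𝔬 hST z (id_underP S K L w) hvT]
    exact (id_Imap_apply T K L z.2 ⟨w.1, hwT⟩).symm

/-- The comparison maps commute with the transition maps `id_Cmap`. -/
theorem icm_Cmap_comp (hc : icm_OrdCompat 𝔬 𝔬L) (hST : S ⊆ T) (c : id_C T K) :
    id_Cmap S K L (icm_comp 𝔬 hST c) = icm_comp 𝔬L hST (id_Cmap T K L c) := by
  obtain ⟨z, rfl⟩ := id_toC_surjective T K c
  rw [icm_comp_toC, id_Cmap_toC, id_Cmap_toC, icm_comp_toC, icm_Jmap_Jcomp 𝔬 𝔬L hc]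

end transition

/-! ### The concrete order package, from the dictionary -/

section concrete

theorem icm_natCast_mem_smul_iff (K : Type u) [Field K] [NumberField K] (σ : K ≃ₐ[ℚ] K)
    (w : HeightOneSpectrum (𝓞 K)) (n : ℕ) :
    ((n : ℕ) : 𝓞 K) ∈ (σ • w).asIdeal ↔ ((n : ℕ) : 𝓞 K) ∈ w.asIdeal := by
  rw [id_smul_asIdeal, Ideal.mem_pointwise_smul_iff_inv_smul_mem]
  have h : σ⁻¹ • ((n : ℕ) : 𝓞 K) = ((n : ℕ) : 𝓞 K) :=
    map_natCast (MulSemiringAction.toRingHom (K ≃ₐ[ℚ] K) (𝓞 K) σ⁻¹) _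
  rw [h]

/-- **The order package of a number field**: `ord_w` at `w ∣ q` is the normalised valuation of
the factor of `ℚ_[q] ⊗[ℚ] K` attached to `w` by the dictionary (`id_ordA`). -/
@[reducible] def icm_ordFun (K : Type u) [Field K] [NumberField K] (q : Nat.Primes)
    (w : HeightOneSpectrum (𝓞 K)) : (id_A K q)ˣ →* Multiplicative ℤ :=
  haveI : Decidable (((q : ℕ) : 𝓞 K) ∈ w.asIdeal) := Classical.propDecidable _
  if h : ((q : ℕ) : 𝓞 K) ∈ w.asIdeal then id_ordA K q ⟨w, h⟩ else 1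

theorem icm_ordFun_of_mem (K : Type u) [Field K] [NumberField K] (q : Nat.Primes)
    (w : HeightOneSpectrum (𝓞 K)) (hw : ((q : ℕ) : 𝓞 K) ∈ w.asIdeal) :
    icm_ordFun K q w = id_ordA K q ⟨w, hw⟩ := dif_pos hw

/-- The order package of a number field. -/
def icm_ord (K : Type u) [Field K] [NumberField K] : icm_Ord K where
  ord q w := icm_ordFun K q w
  ord_incl q w hw x := by rw [icm_ordFun_of_mem K q w hw, id_ordA_inclU]
  ord_smul q σ w hw u := by
    have hw' : ((q : ℕ) : 𝓞 K) ∈ (σ • w).asIdeal := (icm_natCast_mem_smul_iff K σ w _).2 hw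
    rw [icm_ordFun_of_mem K q _ hw', icm_ordFun_of_mem K q w hw]
    exact id_ordA_smul σ ⟨w, hw⟩ ⟨σ • w, hw'⟩ rfl u

theorem icm_ord_of_mem (K : Type u) [Field K] [NumberField K] (q : Nat.Primes)
    (w : HeightOneSpectrum (𝓞 K)) (hw : ((q : ℕ) : 𝓞 K) ∈ w.asIdeal) :
    (icm_ord K).ord q w = id_ordA K q ⟨w, hw⟩ := icm_ordFun_of_mem K q w hw

theorem icm_ordZ_of_mem (K : Type u) [Field K] [NumberField K] (q : Nat.Primes)
    (w : HeightOneSpectrum (𝓞 K)) (hw : ((q : ℕ) : 𝓞 K) ∈ w.asIdeal) (u : (id_A K q)ˣ) :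
    (icm_ord K).ordZ q w u = (id_ordA K q ⟨w, hw⟩ u).toAdd := by
  rw [icm_Ord.ordZ, icm_ord_of_mem K q w hw]

/-- The concrete order packages are compatible along any extension of number fields. -/
theorem icm_ordCompat (K L : Type u) [Field K] [NumberField K] [Field L] [NumberField L]
    [Algebra K L] : icm_OrdCompat (icm_ord K) (icm_ord L) := by
  intro q w' hw' u
  have hw : ((q : ℕ) : 𝓞 K) ∈ (id_under K L w').asIdeal :=
    (id_natCast_mem_under_iff K L w' _).2 hw'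
  rw [icm_ordZ_of_mem L q w' hw', icm_ordZ_of_mem K q _ hw]
  exact id_ordA_AmapU_toAdd ⟨w', hw'⟩ ⟨id_under K L w', hw⟩ rfl u

variable {S T : Finset Nat.Primes}

/-- **The comparison map** `id_C T K ↠ id_C S K` for `S ⊆ T`. -/
def icm_C (K : Type u) [Field K] [NumberField K] {S T : Finset Nat.Primes} (hST : S ⊆ T) :
    id_C T K →* id_C S K := icm_comp (icm_ord K) hST

/-- The comparison map on ideles. -/
def icm_J (K : Type u) [Field K] [NumberField K] {S T : Finset Nat.Primes} (hST : S ⊆ T) :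
    id_J T K →* id_J S K := icm_Jcomp (icm_ord K) hST

theorem icm_C_toC (hST : S ⊆ T) (z : id_J T K) :
    icm_C K hST (id_toC T K z) = id_toC S K (icm_J K hST z) := icm_comp_toC _ hST z

theorem icm_C_surjective (hST : S ⊆ T) : Function.Surjective (icm_C K hST) :=
  icm_comp_surjective _ hST

theorem icm_C_smul (hST : S ⊆ T) (σ : K ≃ₐ[ℚ] K) (c : id_C T K) :
    icm_C K hST (σ • c) = σ • icm_C K hST c := icm_comp_smul _ hST σ c

theorem icm_C_jq (hST : S ⊆ T) (q : S) (a : (id_A K q.1)ˣ) :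
    icm_C K hST (id_jq T K ⟨q.1, hST q.2⟩ a) = id_jq S K q a := icm_comp_jq _ hST q a

theorem icm_C_refl (c : id_C S K) : icm_C K (Finset.Subset.refl S) c = c := icm_comp_refl _ c

theorem icm_C_trans {T' : Finset Nat.Primes} (hST : S ⊆ T) (hTT' : T ⊆ T') (c : id_C T' K) :
    icm_C K hST (icm_C K hTT' c) = icm_C K (hST.trans hTT') c := icm_comp_trans _ hST hTT' c

/-- The comparison maps commute with the transition maps. -/
theorem icm_C_Cmap {L : Type u} [Field L] [NumberField L] [Algebra K L] (hST : S ⊆ T)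
    (c : id_C T K) :
    id_Cmap S K L (icm_C K hST c) = icm_C L hST (id_Cmap T K L c) :=
  icm_Cmap_comp _ _ (icm_ordCompat K L) hST c

/-- The order at `w ∣ q` of a semilocal unit vanishes for all `w ∣ q` iff all the `dc_ord 𝔪`
vanish. -/
theorem icm_ordZ_eq_zero_iff (q : Nat.Primes) (u : (id_A K q)ˣ) :
    (∀ w : HeightOneSpectrum (𝓞 K), ((q : ℕ) : 𝓞 K) ∈ w.asIdeal → (icm_ord K).ordZ q w u = 0) ↔
      ∀ 𝔪 : MaximalSpectrum (id_A K q), dc_ord 𝔪 u = 1 := by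
  constructor
  · intro h 𝔪
    have h1 := h (id_maxEquiv K q 𝔪).1 (id_maxEquiv K q 𝔪).2
    rw [icm_ordZ_of_mem K q _ (id_maxEquiv K q 𝔪).2] at h1
    have h2 : id_ordA K q (id_maxEquiv K q 𝔪) u = 1 := Multiplicative.toAdd.injective h1
    rwa [id_ordA_maxEquiv] at h2
  · intro h w hw
    rw [icm_ordZ_of_mem K q w hw, id_ordA_def, h]
    rfl

/-- The subgroup of `id_JS T K` of the families which are `1` at the primes of `S` and units
(all orders `0`, equivalently all norms `1`) at the primes of `T ∖ S`. -/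
def icm_UT (K : Type u) [Field K] [NumberField K] (S T : Finset Nat.Primes) :
    Subgroup (id_JS T K) where
  carrier := {u | (∀ q : T, q.1 ∈ S → u q = 1) ∧
    ∀ q : T, q.1 ∉ S → ∀ 𝔪 : MaximalSpectrum (id_A K q.1), dc_ord 𝔪 (u q) = 1}
  one_mem' := ⟨fun _ _ => rfl, fun _ _ 𝔪 => map_one (dc_ord 𝔪)⟩
  mul_mem' := by
    rintro u u' ⟨h1, h2⟩ ⟨h1', h2'⟩
    refine ⟨fun q hq => ?_, fun q hq 𝔪 => ?_⟩
    · change u q * u' q = 1
      rw [h1 q hq, h1' q hq, mul_one]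
    · change dc_ord 𝔪 (u q * u' q) = 1
      rw [map_mul, h2 q hq 𝔪, h2' q hq 𝔪, mul_one]
  inv_mem' := by
    rintro u ⟨h1, h2⟩
    refine ⟨fun q hq => ?_, fun q hq 𝔪 => ?_⟩
    · change (u q)⁻¹ = 1
      rw [h1 q hq, inv_one]
    · change dc_ord 𝔪 (u q)⁻¹ = 1
      rw [map_inv, h2 q hq 𝔪, inv_one]

theorem icm_mem_UT (u : id_JS T K) :
    u ∈ icm_UT K S T ↔ (∀ q : T, q.1 ∈ S → u q = 1) ∧
      ∀ q : T, q.1 ∉ S → ∀ 𝔪 : MaximalSpectrum (id_A K q.1), dc_ord 𝔪 (u q) = 1 := Iff.rfl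

theorem icm_mem_UT_iff_norm (u : id_JS T K) :
    u ∈ icm_UT K S T ↔ (∀ q : T, q.1 ∈ S → u q = 1) ∧
      ∀ q : T, q.1 ∉ S → ∀ 𝔪 : MaximalSpectrum (id_A K q.1),
        dc_norm K q.1 𝔪 ((u q : (id_A K q.1)ˣ) : id_A K q.1) = 1 := by
  rw [icm_mem_UT]
  refine and_congr Iff.rfl (forall_congr' fun q => forall_congr' fun _ => forall_congr' fun 𝔪 => ?_)
  exact dc_ord_eq_one_iff 𝔪 (u q)

/-- **The kernel of the comparison map**, pointwise form. -/
theorem icm_C_eq_one_iff (hST : S ⊆ T) (c : id_C T K) :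
    icm_C K hST c = 1 ↔ ∃ u ∈ icm_UT K S T, id_jS T K u = c := by
  rw [icm_C, icm_comp_eq_one_iff]
  constructor
  · rintro ⟨u, h1, h2, h3⟩
    exact ⟨u, ⟨h1, fun q hq => (icm_ordZ_eq_zero_iff q.1 (u q)).1 (h2 q hq)⟩, h3⟩
  · rintro ⟨u, ⟨h1, h2⟩, h3⟩
    exact ⟨u, h1, fun q hq => (icm_ordZ_eq_zero_iff q.1 (u q)).2 (h2 q hq), h3⟩

/-- **The kernel of the comparison map** is the image of the units at the primes over
`T ∖ S`. -/
theorem icm_C_ker (hST : S ⊆ T) : (icm_C K hST).ker = (icm_UT K S T).map (id_jS T K) := by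
  ext c
  rw [MonoidHom.mem_ker, icm_C_eq_one_iff, Subgroup.mem_map]

/-- The comparison map kills the classes of the ideles which are `1` at `S` and units at the
primes over `T ∖ S` (`dc_ordZ` form). -/
theorem icm_C_toC_inS_of_unit (hST : S ⊆ T) (x : id_JS T K) (h1 : ∀ q : T, q.1 ∈ S → x q = 1)
    (h2 : ∀ q : T, q.1 ∉ S → ∀ 𝔪 : MaximalSpectrum (id_A K q.1), dc_ordZ 𝔪 (x q) = 0) :
    icm_C K hST (id_toC T K (id_inS T K x)) = 1 := by
  rw [icm_C_eq_one_iff]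
  refine ⟨x, ⟨h1, fun q hq 𝔪 => ?_⟩, rfl⟩
  rw [dc_ord_apply, h2 q hq 𝔪]
  rfl

/-- The comparison map kills `id_jq T K q u` for `q ∈ T ∖ S` and `u` a unit at all primes
over `q`. -/
theorem icm_C_jq_of_unit (hST : S ⊆ T) (q : T) (hq : q.1 ∉ S) (u : (id_A K q.1)ˣ)
    (hu : ∀ 𝔪 : MaximalSpectrum (id_A K q.1), dc_ordZ 𝔪 u = 0) :
    icm_C K hST (id_jq T K q u) = 1 := by
  classical
  refine icm_C_toC_inS_of_unit hST (id_inq T K q u) (fun q' hq' => ?_) (fun q' _ 𝔪 => ?_)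
  · have hne : q' ≠ q := fun h => hq (h ▸ hq')
    simp [id_inq, Pi.mulSingle_eq_of_ne hne]
  · by_cases hqq : q' = q
    · subst hqq
      have : id_inq T K q' u q' = u := by simp [id_inq]
      rw [this]
      exact hu 𝔪
    · have : id_inq T K q u q' = 1 := by simp [id_inq, Pi.mulSingle_eq_of_ne hqq]
      rw [this]
      exact dc_ordZ_one 𝔪

end concrete

end Fermat.Agent.S55
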