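import Mathlib
import Fermat.Agent.S55.Idele.DictExports
import Fermat.Agent.S55.SUnit.SemilocalRing
import Fermat.Agent.S55.Idele.Semilocal

/-!
# S55 / block [G0], Dictionary part 4: the count of stable primes

For an arbitrary number field `K`, `q : Nat.Primes` and `σ : K ≃ₐ[ℚ] K`, the number of `σ`-stable
maximal ideals of `ℚ_[q] ⊗[ℚ] K` is the number of `σ`-stable primes of `K` above `q`:

* `dc_card_fixed` for the action `id_maxAction`;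
* `dc_card_fixed_specPerm` for the permutation `hq_specPerm (ga_act ℚ_[q] σ).toRingEquiv` of
  `SUnit/SemilocalRing.lean`.
-/

set_option autoImplicit false

open scoped TensorProduct NumberField Pointwise
open IsDedekindDomain

noncomputable section

namespace Fermat.Agent.S55

universe u

variable {K : Type u} [Field K] [NumberField K] {q : Nat.Primes}

/-- The `σ`-stable maximal ideals of `ℚ_[q] ⊗[ℚ] K` ↔ the `σ`-stable primes of `K` above `q`. -/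
def dc_fixedEquiv (σ : K ≃ₐ[ℚ] K) :
    {𝔪 : MaximalSpectrum (id_A K q) // σ • 𝔪 = 𝔪} ≃
      {w : HeightOneSpectrum (𝓞 K) // ((q : ℕ) : 𝓞 K) ∈ w.asIdeal ∧ σ • w = w} :=
  ((id_maxEquiv K q).subtypeEquiv
      (q := fun w : {w : HeightOneSpectrum (𝓞 K) // ((q : ℕ) : 𝓞 K) ∈ w.asIdeal} => σ • w.1 = w.1)
      (fun 𝔪 => id_maxEquiv_smul_eq_iff σ 𝔪)).trans
    (Equiv.subtypeSubtypeEquivSubtypeInter
      (fun w : HeightOneSpectrum (𝓞 K) => ((q : ℕ) : 𝓞 K) ∈ w.asIdeal)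
      (fun w : HeightOneSpectrum (𝓞 K) => σ • w = w))

theorem dc_fixedEquiv_val (σ : K ≃ₐ[ℚ] K) (𝔪 : {𝔪 : MaximalSpectrum (id_A K q) // σ • 𝔪 = 𝔪}) :
    (dc_fixedEquiv σ 𝔪).1 = dc_prime 𝔪.1 := by
  rw [← id_maxEquiv_val]
  rfl

/-- **The count**: `#{σ-stable maximal ideals of ℚ_[q] ⊗ K} = #{σ-stable primes of K above q}`. -/
theorem dc_card_fixed (σ : K ≃ₐ[ℚ] K) :
    Nat.card {𝔪 : MaximalSpectrum (id_A K q) // σ • 𝔪 = 𝔪} =
      Nat.card {w : HeightOneSpectrum (𝓞 K) // ((q : ℕ) : 𝓞 K) ∈ w.asIdeal ∧ σ • w = w} :=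
  Nat.card_congr (dc_fixedEquiv σ)

/-- The permutation of `SUnit/SemilocalRing.lean` is the action `id_maxAction`. -/
theorem dc_specPerm_eq_smul (σ : K ≃ₐ[ℚ] K) (𝔪 : MaximalSpectrum (id_A K q)) :
    hq_specPerm (ga_act ℚ_[(q : ℕ)] σ).toRingEquiv 𝔪 = σ • 𝔪 := by
  apply MaximalSpectrum.ext
  ext z
  rw [hq_mem_specPerm, id_mem_smul_max]
  have h : (ga_act ℚ_[(q : ℕ)] σ).toRingEquiv.symm z = σ⁻¹ • z := by
    apply (ga_act ℚ_[(q : ℕ)] σ).toRingEquiv.injective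
    rw [RingEquiv.apply_symm_apply]
    change z = σ • σ⁻¹ • z
    rw [smul_inv_smul]
  rw [h]

/-- **The count**, in the form consumed by `hq_semilocal_ring`. -/
theorem dc_card_fixed_specPerm (σ : K ≃ₐ[ℚ] K) :
    Nat.card {𝔪 : MaximalSpectrum (id_A K q) //
        hq_specPerm (ga_act ℚ_[(q : ℕ)] σ).toRingEquiv 𝔪 = 𝔪} =
      Nat.card {w : HeightOneSpectrum (𝓞 K) // ((q : ℕ) : 𝓞 K) ∈ w.asIdeal ∧ σ • w = w} := by
  rw [← dc_card_fixed σ]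
  apply Nat.card_congr
  exact Equiv.subtypeEquivRight (fun 𝔪 => by rw [dc_specPerm_eq_smul])

/-- Version over a finite set `S` of rational primes: the `σ`-stable pairs `(q, 𝔪)`, `q ∈ S`,
correspond to the `σ`-stable primes of `K` above `S`. -/
theorem dc_card_fixed_sigma (S : Finset Nat.Primes) (σ : K ≃ₐ[ℚ] K) :
    Nat.card (Σ q : S, {𝔪 : MaximalSpectrum (id_A K q.1) // σ • 𝔪 = 𝔪}) =
      Nat.card {w : HeightOneSpectrum (𝓞 K) //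
        (∃ q ∈ S, ((q : ℕ) : 𝓞 K) ∈ w.asIdeal) ∧ σ • w = w} := by
  apply Nat.card_congr
  refine Equiv.ofBijective
    (fun x => ⟨(dc_fixedEquiv σ x.2).1, ⟨x.1.1, x.1.2, (dc_fixedEquiv σ x.2).2.1⟩,
      (dc_fixedEquiv σ x.2).2.2⟩) ⟨?_, ?_⟩
  · rintro ⟨q₁, 𝔪₁⟩ ⟨q₂, 𝔪₂⟩ h
    have hw : (dc_fixedEquiv σ 𝔪₁).1 = (dc_fixedEquiv σ 𝔪₂).1 := congrArg Subtype.val h
    -- the two rational primes agree since both lie in the same prime ideal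
    have hq : q₁ = q₂ := by
      by_contra hne
      have h1 : ((q₁.1 : ℕ) : 𝓞 K) ∈ (dc_fixedEquiv σ 𝔪₁).1.asIdeal := (dc_fixedEquiv σ 𝔪₁).2.1
      have h2 : ((q₂.1 : ℕ) : 𝓞 K) ∈ (dc_fixedEquiv σ 𝔪₁).1.asIdeal := by
        rw [hw]; exact (dc_fixedEquiv σ 𝔪₂).2.1
      have hcop : Nat.Coprime (q₁.1 : ℕ) (q₂.1 : ℕ) :=
        (Nat.coprime_primes q₁.1.2 q₂.1.2).2 (fun h' => hne (Subtype.ext (Subtype.ext h')))
      have h3 : (1 : 𝓞 K) ∈ (dc_fixedEquiv σ 𝔪₁).1.asIdeal := by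
        have hb := Nat.gcd_eq_gcd_ab (q₁.1 : ℕ) (q₂.1 : ℕ)
        rw [hcop.gcd_eq_one] at hb
        have hb' : (1 : 𝓞 K) = ((q₁.1 : ℕ) : 𝓞 K) * ((Nat.gcdA (q₁.1 : ℕ) (q₂.1 : ℕ) : ℤ) : 𝓞 K) +
            ((q₂.1 : ℕ) : 𝓞 K) * ((Nat.gcdB (q₁.1 : ℕ) (q₂.1 : ℕ) : ℤ) : 𝓞 K) := by
          have := congrArg (fun t : ℤ => (t : 𝓞 K)) hb
          simpa using this
        rw [hb']
        exact Ideal.add_mem _ (Ideal.mul_mem_right _ _ h1) (Ideal.mul_mem_right _ _ h2)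
      exact (dc_fixedEquiv σ 𝔪₁).1.isPrime.ne_top ((Ideal.eq_top_iff_one _).2 h3)
    subst hq
    have : dc_fixedEquiv σ 𝔪₁ = dc_fixedEquiv σ 𝔪₂ := Subtype.ext hw
    rw [(dc_fixedEquiv σ).injective this]
  · rintro ⟨w, ⟨q, hqS, hqw⟩, hσ⟩
    refine ⟨⟨⟨q, hqS⟩, (dc_fixedEquiv σ).symm ⟨w, hqw, hσ⟩⟩, ?_⟩
    apply Subtype.ext
    change ((dc_fixedEquiv σ) ((dc_fixedEquiv σ).symm ⟨w, hqw, hσ⟩)).1 = w
    rw [Equiv.apply_symm_apply]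

end Fermat.Agent.S55
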