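import Fermat.Agent.S55.Places.Galois
import Fermat.Agent.S55.Idele.Primes
import Fermat.Agent.S55.Idele.Transition

/-!
# S55 / ideles: unramified outside `S` (prelude sense) ⟹ `ord_w(ℓ) = 1`

For a finite normal `L ⊆ ℚ̄` unramified outside `S` in the prelude's sense (inertia subgroups of
valuation subrings of `ℚ̄`), every prime `w` of `𝓞 L` prime to `S`, over the rational prime `ℓ`,
has `w.valuation L ℓ = exp (-1)`.
-/

set_option autoImplicit false
set_option linter.style.haveILetI false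
set_option linter.unusedSectionVars false

namespace Fermat.Agent.S55

open Fermat.Agent.S54 Fermat.Agent.S14.Reduction NumberField IsDedekindDomain

open scoped Pointwise

local notation "Qbar" => AlgebraicClosure ℚ

noncomputable section

variable (S : Finset Nat.Primes) (L : IntermediateField ℚ Qbar) [Normal ℚ L] [NumberField L]

/-- Instance-path repair: a normal number field inside `ℚ̄` is Galois over `ℚ`. -/
theorem iu_isGalois : IsGalois ℚ L := ⟨⟩

/-- The ideal `(ℓ)` of `ℤ` extends to `(ℓ)` in `𝓞 L`. -/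
theorem iu_map_span (ℓ : ℕ) :
    (Ideal.span {(ℓ : ℤ)}).map (algebraMap ℤ (𝓞 L)) = Ideal.span {((ℓ : ℕ) : 𝓞 L)} := by
  rw [Ideal.map_span, Set.image_singleton]
  simp

/-- A prime of `𝓞 L` containing `ℓ` lies over `(ℓ)`. -/
theorem iu_liesOver (w : HeightOneSpectrum (𝓞 L)) (ℓ : ℕ) (hℓ : ℓ.Prime)
    (hmem : ((ℓ : ℕ) : 𝓞 L) ∈ w.asIdeal) : w.asIdeal.LiesOver (Ideal.span {(ℓ : ℤ)}) := by
  haveI hspanmax : (Ideal.span {(ℓ : ℤ)}).IsMaximal :=
    PrincipalIdealRing.isMaximal_of_irreducible (Nat.prime_iff_prime_int.mp hℓ).irreducible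
  constructor
  refine hspanmax.eq_of_le (Ideal.IsPrime.ne_top (Ideal.IsPrime.under ℤ w.asIdeal)) ?_
  rw [Ideal.span_singleton_le_iff_mem, Ideal.under_def, Ideal.mem_comap]
  simpa using hmem

/-- **Unramified outside `S` in the prelude's sense implies `ord_w(ℓ) = 1`** for the primes `w`
prime to `S`. -/
theorem iu_valuation_prime (hL : L.IsUnramifiedOutside S) (w : HeightOneSpectrum (𝓞 L))
    (hw : id_PrimeToS S L w) (ℓ : ℕ) (hℓ : ℓ.Prime) (hmem : ((ℓ : ℕ) : 𝓞 L) ∈ w.asIdeal) :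
    w.valuation L ((ℓ : ℕ) : L) = WithZero.exp (-1 : ℤ) := by
  haveI := iu_isGalois L
  -- `ℓ ∉ S`
  have hq : (⟨ℓ, hℓ⟩ : Nat.Primes) ∉ S := fun h => hw ⟨ℓ, hℓ⟩ h hmem
  -- the valuation subring of `ℚ̄` above `w`
  obtain ⟨A, hA, hAw⟩ := pl_exists_valuationSubring L w hℓ hmem
  have hin := pl_inertia_eq_bot L A hL ⟨ℓ, hℓ⟩ hq hA
  have hideal : w.asIdeal = pl_ideal L A := by rw [← hAw, pl_prime_asIdeal]
  rw [← hideal] at hin
  -- ramification index one
  haveI hspanmax : (Ideal.span {(ℓ : ℤ)}).IsMaximal :=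
    PrincipalIdealRing.isMaximal_of_irreducible (Nat.prime_iff_prime_int.mp hℓ).irreducible
  haveI : w.asIdeal.LiesOver (Ideal.span {(ℓ : ℤ)}) := iu_liesOver L w ℓ hℓ hmem
  haveI : w.asIdeal.IsPrime := w.isPrime
  have hcard := Ideal.card_inertia_eq_ramificationIdxIn (G := L ≃ₐ[ℚ] L)
    (Ideal.span {(ℓ : ℤ)}) w.asIdeal
  rw [Ideal.ramificationIdxIn_eq_ramificationIdx (Ideal.span {(ℓ : ℤ)}) w.asIdeal (L ≃ₐ[ℚ] L)]
    at hcard
  have hℓ0 : ((ℓ : ℕ) : 𝓞 L) ≠ 0 := by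
    exact_mod_cast hℓ.ne_zero
  have hmap0 : (Ideal.span {(ℓ : ℤ)}).map (algebraMap ℤ (𝓞 L)) ≠ ⊥ := by
    rw [iu_map_span, Ne, Ideal.span_singleton_eq_bot]
    exact hℓ0
  rw [Ideal.IsDedekindDomain.ramificationIdx_eq_multiplicity (Ideal.span {(ℓ : ℤ)}) w.asIdeal hmap0,
    iu_map_span] at hcard
  have hone : Nat.card (w.asIdeal.inertia (L ≃ₐ[ℚ] L)) = 1 := by
    show Nat.card (w.asIdeal.toAddSubgroup.inertia (L ≃ₐ[ℚ] L)) = 1
    rw [hin]
    exact Subgroup.card_bot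
  have hval : ((ℓ : ℕ) : L) = algebraMap (𝓞 L) L ((ℓ : ℕ) : 𝓞 L) := by
    rw [map_natCast]
  rw [hval, HeightOneSpectrum.valuation_of_algebraMap,
    HeightOneSpectrum.intValuation_eq_exp_neg_multiplicity w hℓ0, ← hcard, hone]
  rfl

end

noncomputable section

universe u

variable (K L : Type u) [Field K] [NumberField K] [Field L] [NumberField L] [Algebra K L]

/-- If `ord_w(ℓ) = 1` for the rational prime `ℓ` below `w`, then `w` is unramified over every
subfield: `id_e K L w = 1`. -/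
theorem iu_e_eq_one (w : HeightOneSpectrum (𝓞 L)) (ℓ : ℕ)
    (hval : w.valuation L ((ℓ : ℕ) : L) = WithZero.exp (-1 : ℤ)) : id_e K L w = 1 := by
  have h := id_valuation_map K L w ((ℓ : ℕ) : K)
  rw [map_natCast, hval] at h
  have hℓ0 : ((ℓ : ℕ) : K) ≠ 0 := by
    intro h0
    rw [h0, map_zero, zero_pow (id_e_ne_zero K L w)] at h
    exact WithZero.exp_ne_zero h
  set a := (id_under K L w).valuation K ((ℓ : ℕ) : K) with ha
  have ha0 : a ≠ 0 := (Valuation.ne_zero_iff _).2 hℓ0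
  have hexp : a = WithZero.exp (WithZero.log a) := (WithZero.exp_log ha0).symm
  rw [hexp, ← WithZero.exp_nsmul, WithZero.exp_inj, nsmul_eq_mul] at h
  have h1 : (id_e K L w : ℤ) ∣ 1 := ⟨-WithZero.log a, by linarith⟩
  have h2 : (id_e K L w : ℤ) = 1 :=
    Int.eq_one_of_dvd_one (Int.natCast_nonneg _) h1
  exact_mod_cast h2

end

end Fermat.Agent.S55
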