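import Fermat.Agent.S55.Idele.LevelTransition
import Fermat.Agent.S55.Idele.UnramIndex

/-!
# S55 / block [G0]: levels are unramified over each other outside `S`

`iu_levUnram S : id_LevUnram S`: the hypothesis `hunr` of `id_tC_range` (`Idele/LevelTransition`)
holds, from `iu_valuation_prime` (`Idele/UnramIndex`).
-/

set_option autoImplicit false
set_option linter.style.haveILetI false
set_option linter.unusedSectionVars false

open scoped NumberField
open IsDedekindDomain

noncomputable section

namespace Fermat.Agent.S55

/-- Levels are unramified over each other outside `S`. -/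
theorem iu_levUnram (S : Finset Nat.Primes) : id_LevUnram S := by
  intro a b h
  letI := id_levAlgebra h
  intro w
  obtain ⟨ℓ, hℓ, hmem⟩ := pl_exists_prime_mem b.L w.1
  exact iu_e_eq_one a.L b.L w.1 ℓ (iu_valuation_prime S b.L b.unr w.1 w.2 ℓ hℓ hmem)

end Fermat.Agent.S55
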