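import Mathlib
import Fermat.Agent.S55.Idele.LayersIneq
import Fermat.Agent.S55.G1.Main
import Fermat.Agent.S55.SecondIneq.LayerMain
import Fermat.Agent.S55.Idele.LevUnram
import Fermat.Agent.S55.LocalCF.PClass
import Fermat.Agent.S55.FinGrp.Sylow

/-!
# S55 / block [G3]: the cyclic-layer hypothesis for the `S`-idele class modules, unconditionally

The first inequality (`fq_first_ineq`, G1) and the second inequality
(`si_layer_second_inequality`, G2) discharge the two hypotheses of
`idl_cyclicLayers_of_inequalities`.  For a Galois number field `L0 / ℚ` whose primes outside `S`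
have ramification index one (`S ≠ ∅`, `p` odd) the module `C_S(L0)` satisfies the cyclic-layer
hypothesis; in particular for the levels `a : du_Lev S`.  Consequences: `H¹(P, C_S(L0)) = 0` for
`p`-subgroups, no `p`-torsion in `H¹` of any layer, and the bound on the `p`-primary part of `H²`.
-/

set_option autoImplicit false
set_option linter.style.haveILetI false
set_option linter.unusedSectionVars false

open scoped NumberField
open IsDedekindDomain groupCohomology CategoryTheory

noncomputable section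

namespace Fermat.Agent.S55

/-- **G3, unconditional form.** -/
theorem idl_cyclicLayers_unr (S : Finset Nat.Primes) {L0 : Type} [Field L0] [NumberField L0]
    [IsGalois ℚ L0] (p : ℕ) [Fact p.Prime] (hp2 : p ≠ 2) (hS : S.Nonempty)
    (h0 : ∀ w : id_P S L0, id_e ℚ L0 w.1 = 1) : dv_CyclicLayers p (id_CRep S L0) :=
  idl_cyclicLayers_of_inequalities S p hS h0
    (fun K _ _ σ hσ => ⟨(fq_first_ineq S K hS σ p hp2 hσ).2.1,
      (fq_first_ineq S K hS σ p hp2 hσ).2.2⟩)
    (fun E L _ _ _ _ _ _ hdeg σ hσ hunr =>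
      si_layer_second_inequality S E L hS p hp2 hdeg σ hσ hunr)

/-! ### Consequences of the cyclic-layer hypothesis (generic) -/

section generic

variable {Γ : Type} [Group Γ] [Finite Γ] (p : ℕ) [Fact p.Prime] (C : Rep.{0} ℤ Γ)

/-- If `H¹(P, C) = 0` for the `p`-subgroups `P`, then `H¹(K, C)` has no `p`-torsion, for every
subgroup `K`. -/
theorem idl_h1_torsion_of_pgroup
    (h1 : ∀ P : Subgroup Γ, IsPGroup p P → Subsingleton (H1 (Rep.res P.subtype C)))
    (K : Subgroup Γ) (x : H1 (Rep.res K.subtype C)) (hx : p • x = 0) : x = 0 := by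
  classical
  have : Fintype K := Fintype.ofFinite _
  have : Fintype ((default : Sylow p K) : Subgroup K) := Fintype.ofFinite _
  have hP : IsPGroup p (((default : Sylow p K) : Subgroup K).map K.subtype) :=
    (default : Sylow p K).isPGroup'.map K.subtype
  have hz1 : Limits.IsZero (groupCohomology
      (Rep.res ((default : Sylow p K) : Subgroup K).subtype (Rep.res K.subtype C)) 1) := by
    rw [ModuleCat.isZero_iff_subsingleton]
    exact dv_subsingleton_nested C K _ 1 (h1 _ hP)
  have hz : Limits.IsZero (tateCohomology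
      (Rep.res ((default : Sylow p K) : Subgroup K).subtype (Rep.res K.subtype C))
      ((1 : ℕ) : ℤ)) :=
    hz1.of_iso ((TateCohomology.isoGroupCohomology 1).app _)
  have ι : tateCohomology (Rep.res K.subtype C) ((1 : ℕ) : ℤ) ≅
      groupCohomology (Rep.res K.subtype C) 1 :=
    (TateCohomology.isoGroupCohomology 1).app (Rep.res K.subtype C)
  have e1 : ι.hom.hom (ι.inv.hom x) = x := congrArg (fun f => f.hom x) ι.inv_hom_id
  have e2 : ι.inv.hom x = 0 := by
    refine fg_eq_zero_of_sylow (default : Sylow p K) ((1 : ℕ) : ℤ) (Rep.res K.subtype C) hz _ 1 ?_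
    rw [pow_one, ← map_nsmul, hx, map_zero]
  rw [← e1, e2, map_zero]

/-- Under the cyclic-layer hypothesis `H¹(K, C)` has no `p`-torsion, for every subgroup `K`. -/
theorem idl_h1_torsion_of_cyclicLayers (hcyc : dv_CyclicLayers p C)
    (K : Subgroup Γ) (x : H1 (Rep.res K.subtype C)) (hx : p • x = 0) : x = 0 :=
  idl_h1_torsion_of_pgroup p C (fun P hP => dv_pgroup_H1 p C hcyc P hP) K x hx

end generic

section kernel

variable {G Γ : Type} [Group G] [Finite G] [Group Γ] (p : ℕ) [Fact p.Prime] (A : Rep.{0} ℤ G)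
  (π : G →* Γ)

/-- If `H¹(P, A) = 0` for the `p`-subgroups `P` of `G` and `ker π` is a `p`-group, then `H¹`
of the kernel of every layer `π⁻¹(K) → K` vanishes (the hypothesis `hN1` of `rc_ci_pclass`). -/
theorem idl_hN1_of_pgroup
    (h1 : ∀ P : Subgroup G, IsPGroup p P → Subsingleton (H1 (Rep.res P.subtype A)))
    (hker : IsPGroup p π.ker) (K : Subgroup Γ) :
    Subsingleton (groupCohomology
      (Rep.res (lc_piSub π K).ker.subtype (Rep.res (K.comap π).subtype A)) 1) := by
  have hle : ((lc_piSub π K).ker).map (K.comap π).subtype ≤ π.ker := by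
    rintro _ ⟨x, hx, rfl⟩
    have hx' : lc_piSub π K x = 1 := MonoidHom.mem_ker.1 hx
    exact MonoidHom.mem_ker.2 (congrArg Subtype.val hx')
  exact dv_subsingleton_nested A (K.comap π) (lc_piSub π K).ker 1 (h1 _ (hker.to_le hle))

end kernel

/-! ### Galois number fields inside `ℚ̄`, unramified outside `S` -/

local notation "Qbar" => AlgebraicClosure ℚ

section field

variable (S : Finset Nat.Primes) (L : IntermediateField ℚ Qbar) [Normal ℚ L] [NumberField L]
  (hL : L.IsUnramifiedOutside S)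

include hL

/-- The primes outside `S` of a normal number field unramified outside `S` have ramification
index one over `ℚ`. -/
theorem idl_field_e_eq_one (w : id_P S L) : id_e ℚ L w.1 = 1 := by
  obtain ⟨ℓ, hℓ, hmem⟩ := pl_exists_prime_mem L w.1
  exact iu_e_eq_one ℚ L w.1 ℓ (iu_valuation_prime S L hL w.1 w.2 ℓ hℓ hmem)

variable (hS : S.Nonempty) (p : ℕ) [Fact p.Prime] (hp2 : p ≠ 2)

include hS hp2

/-- **G3**: `C_S(L)` satisfies the cyclic-layer hypothesis, for `L / ℚ` finite Galois unramified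
outside `S ≠ ∅` and `p` odd. -/
theorem idl_cyclicLayers_field : dv_CyclicLayers p (id_CRep S L) := by
  haveI := iu_isGalois L
  exact idl_cyclicLayers_unr S p hp2 hS (idl_field_e_eq_one S L hL)

/-- `H¹(P, C_S(L)) = 0` for the `p`-subgroups `P` of `Gal(L/ℚ)`. -/
theorem idl_field_H1_pgroup (P : Subgroup (L ≃ₐ[ℚ] L)) (hP : IsPGroup p P) :
    Subsingleton (H1 (Rep.res P.subtype (id_CRep S L))) :=
  dv_pgroup_H1 p (id_CRep S L) (idl_cyclicLayers_field S L hL hS p hp2) P hP

/-- `|H²(P, C_S(L))|` divides `|P|` for the `p`-subgroups `P` of `Gal(L/ℚ)`. -/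
theorem idl_field_H2_pgroup (P : Subgroup (L ≃ₐ[ℚ] L)) (hP : IsPGroup p P) :
    Finite (H2 (Rep.res P.subtype (id_CRep S L))) ∧
      Nat.card (H2 (Rep.res P.subtype (id_CRep S L))) ∣ Nat.card P :=
  dv_pgroup_H2' p (id_CRep S L) (idl_cyclicLayers_field S L hL hS p hp2) P hP

/-- `H¹(K, C_S(L))` has no `p`-torsion, for every subgroup `K` of `Gal(L/ℚ)`. -/
theorem idl_field_h1_torsion (K : Subgroup (L ≃ₐ[ℚ] L))
    (x : H1 (Rep.res K.subtype (id_CRep S L))) (hx : p • x = 0) : x = 0 :=
  idl_h1_torsion_of_cyclicLayers p (id_CRep S L) (idl_cyclicLayers_field S L hL hS p hp2) K x hx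

/-- The `p`-primary part of `H²(K, C_S(L))` has at most `|K|_p` elements. -/
theorem idl_field_pPrimary_bound (K : Subgroup (L ≃ₐ[ℚ] L)) :
    Finite {z : H2 (Rep.res K.subtype (id_CRep S L)) // tt_IsPPrimary p z} ∧
      Nat.card {z : H2 (Rep.res K.subtype (id_CRep S L)) // tt_IsPPrimary p z} ≤
        ordProj[p] (Nat.card K) :=
  lc_pPrimary_bound p (id_CRep S L) (idl_cyclicLayers_field S L hL hS p hp2) K

/-- The hypothesis `hN1` of `rc_ci_pclass` for `A = C_S(L)`: for `π : Gal(L/ℚ) →* Γ` with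
kernel a `p`-group, `H¹` of the kernel of every layer vanishes. -/
theorem idl_field_hN1 {Γ : Type} [Group Γ] (π : (L ≃ₐ[ℚ] L) →* Γ) (hker : IsPGroup p π.ker)
    (K : Subgroup Γ) :
    Subsingleton (groupCohomology
      (Rep.res (lc_piSub π K).ker.subtype (Rep.res (K.comap π).subtype (id_CRep S L))) 1) :=
  idl_hN1_of_pgroup p (id_CRep S L) π
    (fun P hP => idl_field_H1_pgroup S L hL hS p hp2 P hP) hker K

end field

/-! ### The levels -/

section level

variable (S : Finset Nat.Primes) (hS : S.Nonempty) (p : ℕ) [Fact p.Prime] (hp2 : p ≠ 2)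
  (a : du_Lev S)

include hS hp2

/-- **G3 for the levels**: `C_S(a.L)` satisfies the cyclic-layer hypothesis. -/
theorem idl_cyclicLayers_level : dv_CyclicLayers p (id_CRep S a.L) :=
  idl_cyclicLayers_field S a.L a.unr hS p hp2

/-- `H¹(P, C_S(a.L)) = 0` for the `p`-subgroups `P` of `a.Γ`. -/
theorem idl_level_H1_pgroup (P : Subgroup (a.L ≃ₐ[ℚ] a.L)) (hP : IsPGroup p P) :
    Subsingleton (H1 (Rep.res P.subtype (id_CRep S a.L))) :=
  idl_field_H1_pgroup S a.L a.unr hS p hp2 P hP

/-- `|H²(P, C_S(a.L))|` divides `|P|` for the `p`-subgroups `P` of `a.Γ`. -/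
theorem idl_level_H2_pgroup (P : Subgroup (a.L ≃ₐ[ℚ] a.L)) (hP : IsPGroup p P) :
    Finite (H2 (Rep.res P.subtype (id_CRep S a.L))) ∧
      Nat.card (H2 (Rep.res P.subtype (id_CRep S a.L))) ∣ Nat.card P :=
  idl_field_H2_pgroup S a.L a.unr hS p hp2 P hP

/-- `H¹(K, C_S(a.L))` has no `p`-torsion, for every subgroup `K` of `a.Γ`. -/
theorem idl_level_h1_torsion (K : Subgroup (a.L ≃ₐ[ℚ] a.L))
    (x : H1 (Rep.res K.subtype (id_CRep S a.L))) (hx : p • x = 0) : x = 0 :=
  idl_field_h1_torsion S a.L a.unr hS p hp2 K x hx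

/-- The `p`-primary part of `H²(K, C_S(a.L))` has at most `|K|_p` elements. -/
theorem idl_level_pPrimary_bound (K : Subgroup (a.L ≃ₐ[ℚ] a.L)) :
    Finite {z : H2 (Rep.res K.subtype (id_CRep S a.L)) // tt_IsPPrimary p z} ∧
      Nat.card {z : H2 (Rep.res K.subtype (id_CRep S a.L)) // tt_IsPPrimary p z} ≤
        ordProj[p] (Nat.card K) :=
  idl_field_pPrimary_bound S a.L a.unr hS p hp2 K

end level

end Fermat.Agent.S55
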