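import Fermat.Agent.S55.Idele.Defs

/-!
# S55 / Idele: the short exact sequence `0 → Kˣ → J_S(K) → C_S(K) → 0` in `Rep` (prefix `id_ses_`)

* `id_ses_shortExact_of` : generic criterion: a short complex of `Rep k G` is short exact as soon
  as `f` is injective, `g` is surjective and `ker g ⊆ im f` (element form);
* `id_ses S K : ShortComplex (Rep ℤ (K ≃ₐ[ℚ] K))` with `X₁ = id_KRep K`, `X₂ = id_JRep S K`,
  `X₃ = id_CRep S K`, `f = id_diagRep S K`, `g = id_toCRep S K` (all `rfl`);
* `id_ses_shortExact S K hS : (id_ses S K).ShortExact` for `S ≠ ∅`.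
-/

set_option autoImplicit false

namespace Fermat.Agent.S55

open CategoryTheory

universe u v w

/-- A short complex of representations is short exact if `f` is injective, `g` is surjective and
every element killed by `g` is in the image of `f`. -/
theorem id_ses_shortExact_of {k : Type v} {G : Type w} [CommRing k] [Group G]
    (X : ShortComplex (Rep.{u} k G)) (hf : Function.Injective X.f.hom)
    (hg : Function.Surjective X.g.hom)
    (hex : ∀ x : X.X₂.V, X.g.hom x = 0 → ∃ y : X.X₁.V, X.f.hom y = x) : X.ShortExact where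
  exact := by
    rw [← ShortComplex.exact_map_iff_of_faithful X (forget₂ (Rep.{u} k G) (ModuleCat.{u} k)),
      ShortComplex.moduleCat_exact_iff]
    intro x hx
    exact hex x hx
  mono_f := (Rep.mono_iff_injective _).2 hf
  epi_g := (Rep.epi_iff_surjective _).2 hg

variable (S : Finset Nat.Primes) (K : Type u) [Field K] [NumberField K]

theorem id_ses_zero : id_diagRep S K ≫ id_toCRep S K = 0 := by
  ext x
  exact id_toC_diag S K (Additive.toMul x)

/-- The short complex `Kˣ → J_S(K) → C_S(K)` of `Gal(K/ℚ)`-modules. -/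
noncomputable def id_ses : ShortComplex (Rep.{u} ℤ (K ≃ₐ[ℚ] K)) :=
  ShortComplex.mk (id_diagRep S K) (id_toCRep S K) (id_ses_zero S K)

@[simp] theorem id_ses_X₁ : (id_ses S K).X₁ = id_KRep K := rfl
@[simp] theorem id_ses_X₂ : (id_ses S K).X₂ = id_JRep S K := rfl
@[simp] theorem id_ses_X₃ : (id_ses S K).X₃ = id_CRep S K := rfl
@[simp] theorem id_ses_f : (id_ses S K).f = id_diagRep S K := rfl
@[simp] theorem id_ses_g : (id_ses S K).g = id_toCRep S K := rfl

/-- **`0 → Kˣ → J_S(K) → C_S(K) → 0` is short exact** (`S ≠ ∅`). -/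
theorem id_ses_shortExact (hS : S.Nonempty) : (id_ses S K).ShortExact := by
  refine id_ses_shortExact_of (id_ses S K) ?_ ?_ ?_
  · intro x y hxy
    exact Additive.toMul.injective (id_diag_injective S K hS hxy)
  · intro c
    obtain ⟨z, hz⟩ := id_toC_surjective S K (Additive.toMul c)
    exact ⟨Additive.ofMul z, hz⟩
  · intro z hz
    obtain ⟨x, hx⟩ := (id_toC_eq_one_iff S K (Additive.toMul z)).1 hz
    exact ⟨Additive.ofMul x, hx⟩

end Fermat.Agent.S55
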