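import Fermat.Agent.S55.Idele.E1Final
import Fermat.Agent.S55.Recip.TChangePlace
import Fermat.Agent.S55.Idele.Semilocal

/-!
# S55, block G5 (G-abs): the unit dictionary (prefix `ia_`)

`ia_unitDict : ia_UnitDict`: a unit `u` of `ℚ_q ⊗ L` (`L/ℚ` finite Galois) all of whose Galois
conjugates have norm one at the canonical place has order zero at every maximal ideal.  (The Galois
group is transitive on the maximal ideals and the order maps are equivariant.)  With it the
hypothesis `hE1` of `isa_habs` / `ism_seam` follows from the export of block G4 alone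
(`ia_hE1`).
-/

set_option autoImplicit false
set_option linter.style.haveILetI false
set_option linter.unusedSectionVars false

open CategoryTheory groupCohomology ExtCitation

noncomputable section

namespace Fermat.Agent.S55

local notation "Qbar" => AlgebraicClosure ℚ

theorem ia_unitDict : ia_UnitDict := by
  intro q L _ _ _ u h 𝔪
  have : IsGalois ℚ ↥L := ⟨⟩
  have := 𝔪.isMaximal.isPrime
  have := (rc_tq_max q L).isMaximal.isPrime
  obtain ⟨g, hg⟩ := ga_exists_smul_eq ℚ_[(q : ℕ)] (rc_tq_max q L).asIdeal 𝔪.asIdeal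
  have h𝔪 : 𝔪 = g • rc_tq_max q L := MaximalSpectrum.ext hg
  have h1 : dc_ordZ (g • rc_tq_max q L) (g • (g⁻¹ • u)) = dc_ordZ (rc_tq_max q L) (g⁻¹ • u) :=
    dc_ordZ_smul_smul (rc_tq_max q L) g (g⁻¹ • u)
  rw [smul_inv_smul] at h1
  rw [h𝔪, h1, dc_ordZ_eq_zero_iff, rc_tq_norm_max]
  exact h g⁻¹

/-- **The hypothesis `hE1` of `isa_habs` / `ism_seam`** from the export of block G4. -/
theorem ia_hE1 {S : Finset Nat.Primes} (p : ℕ) [Fact p.Prime] (hp2 : p ≠ 2)
    (hS : S.Nonempty) (hpS : pPrime p ∈ S)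
    (hG4 : ∀ (T : Finset Nat.Primes) (b : ia_Lev T), pPrime p ∈ T →
      (∀ ζ : Qbar, ζ ^ p = 1 → ζ ∈ b.L) → ia_G4 p b) (K : du_Lev S) :
    ∃ (K₁ L : du_Lev S) (_ : K ≤ K₁) (h : K₁ ≤ L), ∀ c : (id_CRep S L.L).V,
      ∃ d : (id_CRep S K₁.L).V, e2_nrm (L.rel K₁) (id_CRep S L.L) c = id_tC h (p • d) :=
  ia_hE1_of_G4 p hp2 hS hpS hG4 ia_unitDict K

end Fermat.Agent.S55
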