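import Fermat.Agent.S55.Idele.LocalField
import Fermat.Agent.S55.Idele.Defs
import Fermat.Agent.S55.Idele.Semilocal
import Fermat.Agent.S55.Trans.LocUnits
import Fermat.Agent.S55.Tate.ClassModule

/-!
# S55, block G0: the local unit modules of the seam G → D (prefix `il_`)

For `q : Nat.Primes` and a finite normal `L ⊆ ℚ̄` this file provides, in the shapes of the fields
`Xq`, `pr`, `lam`, `lam_inj`, `lam_equiv`, `lam_range`, `lam_Eval`, `tJ_lam` of `du_Seam`: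

* `il_Xq q L : Rep ℤ ↥(il_D q L)`: the units of `L·ℚ_q`, the decomposition group acting through
  `il_galEquiv`;
* `il_pr q L : tt_res (il_D q L) (id_ARep ↥L q) ⟶ il_Xq q L`, induced by `il_ev`;
* `il_lam q L : (il_Xq q L).V →+ tl_locUnits q`, the inclusion `(L·ℚ_q)ˣ ⊆ (PadicAlgCl q)ˣ`.
-/

set_option autoImplicit false
set_option linter.unusedSectionVars false

open scoped TensorProduct
open ExtCitation NumberField

namespace Fermat.Agent.S55

local notation "Qbar" => AlgebraicClosure ℚ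

noncomputable section

variable (q : Nat.Primes) (L : IntermediateField ℚ Qbar) [FiniteDimensional ℚ L] [Normal ℚ L]

/-- The local module `X_q = (L·ℚ_q)ˣ` as a module over the decomposition group `D_q(L)`. -/
def il_Xq : Rep.{0} ℤ ↥(il_D (q : ℕ) L) :=
  Rep.res (il_galEquiv (q : ℕ) L).symm.toMonoidHom
    (Rep.ofAlgebraAutOnUnits ℚ_[(q : ℕ)] ↥(il_Lq (q : ℕ) L))

/-- Elements of `X_q` from units of `L·ℚ_q`. -/
def il_Xq.of (u : (↥(il_Lq (q : ℕ) L))ˣ) : (il_Xq q L).V := Additive.ofMul u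

/-- The underlying unit of an element of `X_q`. -/
def il_Xq.val (x : (il_Xq q L).V) : (↥(il_Lq (q : ℕ) L))ˣ := Additive.toMul x

theorem il_Xq_ρ_coe (d : ↥(il_D (q : ℕ) L)) (x : (il_Xq q L).V) :
    ((il_Xq.val q L ((il_Xq q L).ρ d x) : (↥(il_Lq (q : ℕ) L))ˣ) : ↥(il_Lq (q : ℕ) L)) =
      (il_galEquiv (q : ℕ) L).symm d ((il_Xq.val q L x : (↥(il_Lq (q : ℕ) L))ˣ) :
        ↥(il_Lq (q : ℕ) L)) := rfl

theorem il_theta_galEquiv_symm (d : ↥(il_D (q : ℕ) L)) :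
    il_theta (q : ℕ) L ((il_galEquiv (q : ℕ) L).symm d) = (d : L ≃ₐ[ℚ] L) := by
  rw [← il_galEquiv_coe, MulEquiv.apply_symm_apply]

/-! ### The projection `pr : (ℚ_q ⊗ L)ˣ → (L·ℚ_q)ˣ` -/

section pr

variable [NumberField L]

/-- The map on units induced by `il_evLq`. -/
def il_prU : (id_A ↥L q)ˣ →* (↥(il_Lq (q : ℕ) L))ˣ := Units.map (il_evLq (q : ℕ) L).toMonoidHom

theorem il_prU_coe (u : (id_A ↥L q)ˣ) :
    (((il_prU q L u : (↥(il_Lq (q : ℕ) L))ˣ) : ↥(il_Lq (q : ℕ) L)) : PadicAlgCl (q : ℕ)) =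
      il_ev (q : ℕ) L (u : id_A ↥L q) := rfl

/-- Equivariance of `il_prU` for the decomposition group. -/
theorem il_prU_smul (d : ↥(il_D (q : ℕ) L)) (u : (id_A ↥L q)ˣ) :
    ((il_prU q L ((d : L ≃ₐ[ℚ] L) • u) : (↥(il_Lq (q : ℕ) L))ˣ) : ↥(il_Lq (q : ℕ) L)) =
      (il_galEquiv (q : ℕ) L).symm d ((il_prU q L u : (↥(il_Lq (q : ℕ) L))ˣ) :
        ↥(il_Lq (q : ℕ) L)) := by
  apply Subtype.ext
  rw [il_prU_coe, ga_coe_smul_units, ga_smul_def]
  conv_lhs => rw [← il_theta_galEquiv_symm q L d]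
  rw [il_ev_act_theta]
  rfl

/-- `il_prU` in additive notation. -/
def il_prA : Additive (id_A ↥L q)ˣ →+ Additive (↥(il_Lq (q : ℕ) L))ˣ :=
  MonoidHom.toAdditive (il_prU q L)

/-- The projection `pr_q` of the seam: restriction to `D_q(L)` of `(ℚ_q ⊗ L)ˣ` onto `(L·ℚ_q)ˣ`. -/
def il_pr : tt_res (il_D (q : ℕ) L) (id_ARep ↥L q) ⟶ il_Xq q L :=
  ga_mkHom (tt_res (il_D (q : ℕ) L) (id_ARep ↥L q)) (il_Xq q L)
    (il_prA q L) (fun d y => by
      apply Additive.toMul.injective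
      apply Units.ext
      exact il_prU_smul q L d (Additive.toMul y))

theorem il_pr_hom_ofMul (u : (id_A ↥L q)ˣ) :
    (il_pr q L).hom (Additive.ofMul u : Additive (id_A ↥L q)ˣ) =
      Additive.ofMul (il_prU q L u) := rfl

theorem il_prU_eq_one_iff (u : (id_A ↥L q)ˣ) :
    il_prU q L u = 1 ↔ il_ev (q : ℕ) L (u : id_A ↥L q) = 1 := by
  constructor
  · intro h
    rw [← il_prU_coe, h]
    rfl
  · intro h
    apply Units.ext
    apply Subtype.ext
    rw [il_prU_coe, h]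
    rfl

/-- The kernel of `pr` is `1 + 𝔪_q`, `𝔪_q = ker (il_ev)` (shape of `hker` in `ga_frob`). -/
theorem il_pr_eq_zero_iff (u : (id_A ↥L q)ˣ) :
    (il_pr q L).hom (Additive.ofMul u : Additive (id_A ↥L q)ˣ) = 0 ↔
      (u : id_A ↥L q) - 1 ∈ RingHom.ker (il_ev (q : ℕ) L) := by
  have h1 : (il_pr q L).hom (Additive.ofMul u : Additive (id_A ↥L q)ˣ) = 0 ↔
      il_prU q L u = 1 := by
    rw [il_pr_hom_ofMul]
    exact Iff.rfl
  rw [h1, il_prU_eq_one_iff, RingHom.mem_ker]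
  have h2 : il_ev (q : ℕ) L ((u : id_A ↥L q) - 1) = il_ev (q : ℕ) L (u : id_A ↥L q) - 1 := by
    rw [map_sub, map_one]
  rw [h2, sub_eq_zero]

omit q L in
/-- In a reduced Artinian ring, a non-zero residue class modulo a maximal ideal lifts to a unit. -/
theorem il_exists_unit_lift {R : Type*} [CommRing R] [IsArtinianRing R] [IsReduced R]
    (m : Ideal R) [hm : m.IsMaximal] (z : R) (hz : z ∉ m) : ∃ u : Rˣ, (u : R) - z ∈ m := by
  classical
  let x : ∀ I : MaximalSpectrum R, R ⧸ I.asIdeal := fun I =>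
    if I.asIdeal = m then Ideal.Quotient.mk _ z else 1
  set r := (IsArtinianRing.equivPi R).symm x with hr
  have hr' : ∀ I : MaximalSpectrum R, Ideal.Quotient.mk I.asIdeal r = x I := by
    intro I
    have h0 : IsArtinianRing.equivPi R r = x := (IsArtinianRing.equivPi R).apply_symm_apply x
    have h1 : IsArtinianRing.equivPi R r I = x I := by rw [h0]
    rw [IsArtinianRing.equivPi_apply] at h1
    exact h1
  have hunit : IsUnit r := by
    by_contra hnu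
    obtain ⟨M, hM, hrM⟩ := exists_max_ideal_of_mem_nonunits hnu
    have h1 := hr' ⟨M, hM⟩
    have h2 : Ideal.Quotient.mk M r = 0 := Ideal.Quotient.eq_zero_iff_mem.2 hrM
    rw [h2] at h1
    by_cases hMm : M = m
    · have h3 : x ⟨M, hM⟩ = Ideal.Quotient.mk M z := if_pos hMm
      rw [h3] at h1
      have h4 : z ∈ M := Ideal.Quotient.eq_zero_iff_mem.1 h1.symm
      rw [hMm] at h4
      exact hz h4
    · have h3 : x ⟨M, hM⟩ = 1 := if_neg hMm
      rw [h3] at h1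
      have h4 : (1 : R) ∈ M := by
        rw [← Ideal.Quotient.eq_zero_iff_mem, map_one]
        exact h1.symm
      exact hM.ne_top ((Ideal.eq_top_iff_one M).2 h4)
  refine ⟨hunit.unit, ?_⟩
  have h1 := hr' ⟨m, hm⟩
  have h3 : x ⟨m, hm⟩ = Ideal.Quotient.mk m z := if_pos rfl
  rw [h3] at h1
  exact (Ideal.Quotient.mk_eq_mk_iff_sub_mem _ _).1 h1

instance il_ker_ev_isMaximal : (RingHom.ker (il_evLq (q : ℕ) L)).IsMaximal :=
  RingHom.ker_isMaximal_of_surjective _ (il_evLq_surjective (q : ℕ) L)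

theorem il_mem_ker_evLq_iff (z : id_A ↥L q) :
    z ∈ RingHom.ker (il_evLq (q : ℕ) L) ↔ il_ev (q : ℕ) L z = 0 := by
  rw [RingHom.mem_ker]
  constructor
  · intro h
    rw [← il_evLq_coe, h]
    rfl
  · intro h
    apply Subtype.ext
    rw [il_evLq_coe, h]
    rfl

theorem il_prU_surjective : Function.Surjective (il_prU q L) := by
  intro y
  obtain ⟨z, hz⟩ := il_evLq_surjective (q : ℕ) L (y : ↥(il_Lq (q : ℕ) L))
  have hzm : z ∉ RingHom.ker (il_evLq (q : ℕ) L) := by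
    rw [RingHom.mem_ker, hz]
    exact y.ne_zero
  obtain ⟨u, hu⟩ := il_exists_unit_lift (RingHom.ker (il_evLq (q : ℕ) L)) z hzm
  refine ⟨u, Units.ext ?_⟩
  rw [RingHom.mem_ker, map_sub, sub_eq_zero] at hu
  rw [← hz, ← hu]
  rfl

theorem il_pr_surjective : Function.Surjective (il_pr q L).hom := by
  intro x
  obtain ⟨u, hu⟩ := il_prU_surjective q L (Additive.toMul x)
  refine ⟨(Additive.ofMul u : Additive (id_A ↥L q)ˣ), ?_⟩
  rw [il_pr_hom_ofMul, hu]
  rfl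

end pr

/-! ### The embedding `lam : (L·ℚ_q)ˣ → (PadicAlgCl q)ˣ` -/

section lam

/-- The inclusion `(L·ℚ_q)ˣ →* (PadicAlgCl q)ˣ`. -/
def il_lamU : (↥(il_Lq (q : ℕ) L))ˣ →* (PadicAlgCl (q : ℕ))ˣ :=
  Units.map ((il_Lq (q : ℕ) L).val : ↥(il_Lq (q : ℕ) L) →ₐ[ℚ_[(q : ℕ)]] PadicAlgCl (q : ℕ)).toMonoidHom

theorem il_lamU_coe (u : (↥(il_Lq (q : ℕ) L))ˣ) :
    ((il_lamU q L u : (PadicAlgCl (q : ℕ))ˣ) : PadicAlgCl (q : ℕ)) =
      ((u : ↥(il_Lq (q : ℕ) L)) : PadicAlgCl (q : ℕ)) := rfl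

theorem il_lamU_injective : Function.Injective (il_lamU q L) := by
  intro u v h
  apply Units.ext
  apply Subtype.ext
  rw [← il_lamU_coe, ← il_lamU_coe, h]

/-- The field `lam` of the seam: `X_q → tl_locUnits q`. -/
def il_lam : (il_Xq q L).V →+ tl_locUnits q where
  toFun x := tl_locUnits.of q (il_lamU q L (il_Xq.val q L x))
  map_zero' := by
    show tl_locUnits.of q (il_lamU q L 1) = 0
    rw [map_one]
    rfl
  map_add' x y := by
    show tl_locUnits.of q (il_lamU q L (il_Xq.val q L x * il_Xq.val q L y)) = _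
    rw [map_mul]
    rfl

theorem il_lam_val (x : (il_Xq q L).V) :
    tl_locUnits.val q (il_lam q L x) = il_lamU q L (il_Xq.val q L x) := rfl

theorem il_lam_coe (x : (il_Xq q L).V) :
    ((tl_locUnits.val q (il_lam q L x) : (PadicAlgCl (q : ℕ))ˣ) : PadicAlgCl (q : ℕ)) =
      (((il_Xq.val q L x : (↥(il_Lq (q : ℕ) L))ˣ) : ↥(il_Lq (q : ℕ) L)) : PadicAlgCl (q : ℕ)) :=
  rfl

theorem il_locUnits_ext {u v : tl_locUnits q}
    (h : ((tl_locUnits.val q u : (PadicAlgCl (q : ℕ))ˣ) : PadicAlgCl (q : ℕ)) =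
      ((tl_locUnits.val q v : (PadicAlgCl (q : ℕ))ˣ) : PadicAlgCl (q : ℕ))) : u = v := by
  apply Additive.toMul.injective
  exact Units.ext h

/-- The field `lam_inj` of the seam. -/
theorem il_lam_injective : Function.Injective (il_lam q L) := by
  intro x y h
  apply Additive.toMul.injective
  apply il_lamU_injective q L
  exact congrArg (tl_locUnits.val q) h

/-- The element of `Gal(L·ℚ_q/ℚ_q)` attached to `d ∈ D_q(L)` is the restriction of any `τ` in the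
local Galois group mapping to `d`. -/
theorem il_galEquiv_symm_eq (d : ↥(il_D (q : ℕ) L))
    (τ : PadicAlgCl (q : ℕ) ≃ₐ[ℚ_[(q : ℕ)]] PadicAlgCl (q : ℕ))
    (h : (d : L ≃ₐ[ℚ] L) = il_res (q : ℕ) L τ) :
    (il_galEquiv (q : ℕ) L).symm d = il_resLq (q : ℕ) L τ := by
  apply il_theta_injective (q : ℕ) L
  rw [il_theta_galEquiv_symm, il_theta_resLq, h]

/-- The field `lam_equiv` of the seam. -/
theorem il_lam_equiv (τ : primeLocalGaloisGroup q) (d : ↥(il_D (q : ℕ) L))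
    (h : (d : L ≃ₐ[ℚ] L) = il_res (q : ℕ) L τ) (x : (il_Xq q L).V) :
    il_lam q L ((il_Xq q L).ρ d x) = τ • il_lam q L x := by
  apply il_locUnits_ext
  rw [tl_locUnits.val_smul, il_lam_coe, il_lam_coe, il_Xq_ρ_coe, il_galEquiv_symm_eq q L d τ h]
  exact il_resLq_coe (q : ℕ) L τ _

/-- The field `lam_range` of the seam: the units fixed by the kernel of `G_q → Γ_L` are the units
of `L·ℚ_q`. -/
theorem il_lam_range (u : tl_locUnits q)
    (h : ∀ τ : primeLocalGaloisGroup q, il_res (q : ℕ) L τ = 1 → τ • u = u) :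
    ∃ x, il_lam q L x = u := by
  have hmem : ((tl_locUnits.val q u : (PadicAlgCl (q : ℕ))ˣ) : PadicAlgCl (q : ℕ)) ∈
      il_Lq (q : ℕ) L := by
    rw [il_mem_Lq_iff]
    intro τ hτ
    have h1 := congrArg (fun v => ((tl_locUnits.val q v : (PadicAlgCl (q : ℕ))ˣ) :
      PadicAlgCl (q : ℕ))) (h τ hτ)
    exact h1
  have hne : (⟨_, hmem⟩ : ↥(il_Lq (q : ℕ) L)) ≠ 0 := by
    intro h0
    have h1 := congrArg (fun y : ↥(il_Lq (q : ℕ) L) => (y : PadicAlgCl (q : ℕ))) h0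
    exact (tl_locUnits.val q u).ne_zero h1
  refine ⟨il_Xq.of q L (Units.mk0 _ hne), ?_⟩
  apply il_locUnits_ext
  rfl

end lam

/-! ### Compatibility with the global units and with change of level -/

section compat

variable [NumberField L]

/-- The field `lam_Eval` of the seam on `Lˣ`: the composite
`Lˣ → (ℚ_q ⊗ L)ˣ → (L·ℚ_q)ˣ → (PadicAlgCl q)ˣ` is `padicEmbedding q`. -/
theorem il_lam_pr_inclU (x : (↥L)ˣ) :
    ((tl_locUnits.val q (il_lam q L ((il_pr q L).hom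
      (Additive.ofMul (id_inclU ↥L q x) : Additive (id_A ↥L q)ˣ))) : (PadicAlgCl (q : ℕ))ˣ) :
        PadicAlgCl (q : ℕ)) = padicEmbedding (q : ℕ) (((x : ↥L) : ↥L) : Qbar) := by
  rw [il_lam_coe, il_pr_hom_ofMul]
  show il_ev (q : ℕ) L ((id_inclU ↥L q x : (id_A ↥L q)ˣ) : id_A ↥L q) = _
  rw [id_inclU_coe, id_incl_apply]
  exact il_ev_one_tmul (q : ℕ) L (x : ↥L)

/-- `lam ∘ pr` in terms of `il_ev`. -/
theorem il_lam_pr (u : (id_A ↥L q)ˣ) :
    ((tl_locUnits.val q (il_lam q L ((il_pr q L).hom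
      (Additive.ofMul u : Additive (id_A ↥L q)ˣ))) : (PadicAlgCl (q : ℕ))ˣ) :
        PadicAlgCl (q : ℕ)) = il_ev (q : ℕ) L (u : id_A ↥L q) := rfl

variable (L' : IntermediateField ℚ Qbar) [FiniteDimensional ℚ L'] [Normal ℚ L'] [NumberField L']

/-- The transition map `ℚ_q ⊗ L → ℚ_q ⊗ L'` attached to an embedding `ι : L → L'`. -/
def il_Tmap (ι : ↥L →ₐ[ℚ] ↥L') : id_A ↥L q →ₐ[ℚ_[(q : ℕ)]] id_A ↥L' q :=
  Algebra.TensorProduct.map (AlgHom.id ℚ_[(q : ℕ)] ℚ_[(q : ℕ)]) ι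

theorem il_Tmap_tmul (ι : ↥L →ₐ[ℚ] ↥L') (a : ℚ_[(q : ℕ)]) (x : ↥L) :
    il_Tmap q L L' ι (a ⊗ₜ[ℚ] x) = a ⊗ₜ[ℚ] ι x := rfl

/-- The evaluation maps are compatible with change of level (the field `tJ_lam` of the seam,
before passing to units). -/
theorem il_ev_Tmap (ι : ↥L →ₐ[ℚ] ↥L') (hι : ∀ x : ↥L, ((ι x : ↥L') : Qbar) = (x : Qbar))
    (z : id_A ↥L q) : il_ev (q : ℕ) L' (il_Tmap q L L' ι z) = il_ev (q : ℕ) L z := by
  induction z using TensorProduct.induction_on with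
  | zero => rw [map_zero, map_zero, map_zero]
  | tmul a x => rw [il_Tmap_tmul, il_ev_tmul, il_ev_tmul, hι]
  | add z w hz hw => rw [map_add, map_add, map_add, hz, hw]

/-- The field `tJ_lam` of the seam. -/
theorem il_lam_pr_Tmap (ι : ↥L →ₐ[ℚ] ↥L') (hι : ∀ x : ↥L, ((ι x : ↥L') : Qbar) = (x : Qbar))
    (u : (id_A ↥L q)ˣ) :
    il_lam q L' ((il_pr q L').hom (Additive.ofMul (Units.map (il_Tmap q L L' ι).toMonoidHom u) :
      Additive (id_A ↥L' q)ˣ)) =
    il_lam q L ((il_pr q L).hom (Additive.ofMul u : Additive (id_A ↥L q)ˣ)) := by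
  apply il_locUnits_ext
  rw [il_lam_pr, il_lam_pr]
  exact il_ev_Tmap q L L' ι hι (u : id_A ↥L q)

end compat

end

end Fermat.Agent.S55
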