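import Fermat.Agent.S55.Idele.Defs
import Fermat.Agent.S55.Places.NumberField
import Fermat.Agent.S55.Kummer.Unram

/-!
# S55 / block [G0]: the `S`-unit fields of the seam G → D (prefix `ie_`)

For a number field `K` (any type) and a finite set `S` of rational primes:

* `ie_ESAction`: the Galois action on the `S`-units `id_ES S K = ker (id_div S K)`;
  `ie_ERep S K : Rep ℤ (K ≃ₐ[ℚ] K)`.
* `ie_eps S K q : ie_ERep S K ⟶ id_ARep K q.1` (`q : S`), the diagonal embedding of the `S`-units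
  into `(ℚ_[q] ⊗ K)ˣ`; injective (`ie_eps_injective`).
* `ie_eps_exact`: `0 → E_S → ∏_{q ∈ S} (ℚ_[q] ⊗ K)ˣ → C_S(K)` is exact (the field `ε_exact` of
  `du_Seam`).

For `L : IntermediateField ℚ ℚ̄` a number field:

* `ie_eval S L : (ie_ERep S L).V →+ Additive ℚ̄ˣ`, injective (`ie_eval_injective`), with range the
  `S`-units of `ℚ̄` (in the sense `ku_IsSUnit`) lying in `L` (`ie_eval_range`), and equivariant for
  `restrictNormalHom` when `L/ℚ` is normal (`ie_eval_equiv`).
-/

set_option autoImplicit false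

open scoped TensorProduct NumberField nonZeroDivisors Pointwise
open IsDedekindDomain CategoryTheory

noncomputable section

namespace Fermat.Agent.S55

universe u

local notation "GQ" => (AlgebraicClosure ℚ ≃ₐ[ℚ] AlgebraicClosure ℚ)
local notation "Qbar" => AlgebraicClosure ℚ

section General

variable (S : Finset Nat.Primes) (K : Type u) [Field K] [NumberField K]

/-- The `S`-units are stable under the Galois action. -/
theorem ie_smul_mem_ES (σ : K ≃ₐ[ℚ] K) {x : Kˣ} (hx : x ∈ id_ES S K) : σ • x ∈ id_ES S K := by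
  rw [id_ES, MonoidHom.mem_ker] at hx ⊢
  rw [← id_smul_div, hx, smul_one]

/-- The Galois action on the `S`-units. -/
instance ie_ESAction : MulDistribMulAction (K ≃ₐ[ℚ] K) ↥(id_ES S K) where
  smul σ x := ⟨σ • (x : Kˣ), ie_smul_mem_ES S K σ x.2⟩
  one_smul x := Subtype.ext (one_smul _ (x : Kˣ))
  mul_smul σ τ x := Subtype.ext (mul_smul σ τ (x : Kˣ))
  smul_mul σ x y := Subtype.ext (smul_mul' σ (x : Kˣ) (y : Kˣ))
  smul_one σ := Subtype.ext (smul_one σ)

@[simp]
theorem ie_coe_smul (σ : K ≃ₐ[ℚ] K) (x : ↥(id_ES S K)) :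
    ((σ • x : ↥(id_ES S K)) : Kˣ) = σ • (x : Kˣ) := rfl

/-- The `S`-units as a `Rep`. -/
abbrev ie_ERep : Rep.{u} ℤ (K ≃ₐ[ℚ] K) := Rep.ofMulDistribMulAction (K ≃ₐ[ℚ] K) ↥(id_ES S K)

/-- The diagonal embedding of the `S`-units into `(ℚ_[q] ⊗ K)ˣ`. -/
def ie_epsHom (q : Nat.Primes) : ↥(id_ES S K) →* (id_A K q)ˣ :=
  (id_inclU K q).comp (id_ES S K).subtype

@[simp]
theorem ie_epsHom_apply (q : Nat.Primes) (x : ↥(id_ES S K)) :
    ie_epsHom S K q x = id_inclU K q (x : Kˣ) := rfl

theorem ie_epsHom_injective (q : Nat.Primes) : Function.Injective (ie_epsHom S K q) :=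
  (id_inclU_injective K q).comp Subtype.val_injective

theorem ie_epsHom_smul (q : Nat.Primes) (σ : K ≃ₐ[ℚ] K) (x : ↥(id_ES S K)) :
    ie_epsHom S K q (σ • x) = σ • ie_epsHom S K q x :=
  (id_smul_inclU K q σ (x : Kˣ)).symm

/-- `ε_q : E_S ⟶ (ℚ_[q] ⊗ K)ˣ` for `q ∈ S`. -/
def ie_eps (q : S) : ie_ERep S K ⟶ id_ARep K q.1 :=
  id_repHom (ie_epsHom S K q.1) (ie_epsHom_smul S K q.1)

theorem ie_eps_apply (q : S) (x : ↥(id_ES S K)) :
    (ie_eps S K q).hom (Additive.ofMul x) = Additive.ofMul (id_inclU K q.1 (x : Kˣ)) := rfl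

theorem ie_eps_injective (q : S) : Function.Injective (ie_eps S K q).hom := by
  intro x y h
  have h1 : Additive.ofMul (ie_epsHom S K q.1 x.toMul) = Additive.ofMul (ie_epsHom S K q.1 y.toMul) := h
  have h2 := ie_epsHom_injective S K q.1 (Additive.ofMul.injective h1)
  exact Additive.toMul.injective h2

/-! ### Exactness of `0 → E_S → ∏_{q ∈ S} (ℚ_[q] ⊗ K)ˣ → C_S(K)` -/

/-- The product of the components is the identity of `∏_{q ∈ S} (ℚ_[q] ⊗ K)ˣ`. -/
theorem ie_prod_inq (X : id_JS S K) : (∏ q, id_inq S K q (X q)) = X := by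
  classical
  unfold id_inq
  simp only [MonoidHom.mulSingle_apply]
  convert Finset.univ_prod_mulSingle X

/-- The product of the `j_q` is `j_S`. -/
theorem ie_prod_jq (X : id_JS S K) : ∏ q, id_jq S K q (X q) = id_jS S K X := by
  have h1 : id_jS S K (∏ q, id_inq S K q (X q)) = ∏ q, id_jS S K (id_inq S K q (X q)) :=
    map_prod (id_jS S K) (fun q => id_inq S K q (X q)) Finset.univ
  have h2 : id_jS S K (∏ q, id_inq S K q (X q)) = id_jS S K X :=
    congrArg _ (ie_prod_inq S K X)
  exact h1.symm.trans h2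

/-- The sum of the `j_q` is `j_S`. -/
theorem ie_sum_jq (x : ∀ q : S, (id_ARep K q.1).V) :
    (∑ q, (id_jqRep S K q).hom (x q)) =
      Additive.ofMul (id_jS S K (fun q => (x q).toMul)) := by
  have h := ie_prod_jq S K (fun q => (x q).toMul)
  have h3 := ofMul_prod (Finset.univ : Finset S) (fun q => id_jq S K q ((x q).toMul))
  exact h3.symm.trans (congrArg Additive.ofMul h)

/-- **Exactness** (the field `ε_exact` of `du_Seam`): a family `(x_q)_{q ∈ S}` of semilocal units
has trivial class in `C_S(K)` iff it is the diagonal image of an `S`-unit. -/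
theorem ie_eps_exact (x : ∀ q : S, (id_ARep K q.1).V) :
    (∑ q, (id_jqRep S K q).hom (x q)) = 0 ↔
      ∃ e : (ie_ERep S K).V, ∀ q, (ie_eps S K q).hom e = x q := by
  have hsum := ie_sum_jq S K x
  set X : id_JS S K := fun q => (x q).toMul with hX
  have h0 : (∑ q, (id_jqRep S K q).hom (x q)) = 0 ↔ id_toC S K (id_inS S K X) = 1 := by
    constructor
    · intro h
      have h1 : Additive.ofMul (id_jS S K X) = 0 := hsum.symm.trans h
      exact h1
    · intro h
      exact hsum.trans h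
  refine h0.trans ((id_toC_eq_one_iff S K _).trans ?_)
  constructor
  · rintro ⟨y, hy⟩
    have hy1 : id_diagS S K y = X := congrArg Prod.fst hy
    have hy2 : id_div S K y = 1 := congrArg Prod.snd hy
    refine ⟨Additive.ofMul (⟨y, hy2⟩ : ↥(id_ES S K)), fun q => ?_⟩
    have h3 : id_inclU K q.1 y = (x q).toMul := congrFun hy1 q
    exact congrArg Additive.ofMul h3
  · rintro ⟨e, he⟩
    set e' : ↥(id_ES S K) := Additive.toMul (α := ↥(id_ES S K)) e with he'
    refine ⟨(e' : Kˣ), ?_⟩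
    apply Prod.ext
    · funext q
      have h3 : Additive.ofMul (id_inclU K q.1 (e' : Kˣ)) = x q := he q
      exact congrArg Additive.toMul h3
    · exact e'.2

end General

/-! ### The `S`-units of a level field inside `ℚ̄ˣ` -/

section Eval

variable (S : Finset Nat.Primes) (L : IntermediateField ℚ Qbar) [NumberField L]

/-- `id_PrimeToS` is the complement of `pl_primesOver`. -/
theorem ie_primeToS_iff (P : HeightOneSpectrum (𝓞 L)) :
    id_PrimeToS S L P ↔ P ∉ pl_primesOver L S := by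
  rw [pl_mem_primesOver]
  constructor
  · rintro h ⟨q, hq, hmem⟩
    exact h q hq hmem
  · intro h q hq hmem
    exact h ⟨q, hq, hmem⟩

/-- Membership in the `S`-units of `L` in the valuation-subring language. -/
theorem ie_mem_ES_iff (x : Lˣ) : x ∈ id_ES S L ↔ ku_IsSUnit S (((x : Lˣ) : L) : Qbar) := by
  rw [id_mem_ES_iff, pl_isSUnit_iff]
  constructor
  · intro h P hP
    exact h P ((ie_primeToS_iff S L P).2 hP)
  · intro h P hP
    exact h P ((ie_primeToS_iff S L P).1 hP)

/-- The inclusion of the `S`-units of `L` into `ℚ̄ˣ`. -/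
def ie_evalHom : ↥(id_ES S L) →* Qbarˣ :=
  (Units.map (L.val : L →ₐ[ℚ] Qbar).toMonoidHom).comp (id_ES S L).subtype

@[simp]
theorem ie_evalHom_coe (x : ↥(id_ES S L)) :
    ((ie_evalHom S L x : Qbarˣ) : Qbar) = (((x : Lˣ) : L) : Qbar) := rfl

theorem ie_evalHom_injective : Function.Injective (ie_evalHom S L) := by
  intro x y h
  apply Subtype.ext
  apply Units.ext
  apply Subtype.ext
  have := congrArg (fun u : Qbarˣ => (u : Qbar)) h
  simpa using this

/-- `Eval : E_S(L) →+ ℚ̄ˣ` (the field `Eval` of `du_Seam`). -/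
def ie_eval : (ie_ERep S L).V →+ Additive Qbarˣ :=
  (MonoidHom.toAdditive (ie_evalHom S L) : Additive ↥(id_ES S L) →+ Additive Qbarˣ)

theorem ie_eval_apply (x : ↥(id_ES S L)) :
    ie_eval S L (Additive.ofMul x) = Additive.ofMul (ie_evalHom S L x) := rfl

theorem ie_eval_coe (e : (ie_ERep S L).V) :
    (((ie_eval S L e).toMul : Qbarˣ) : Qbar) =
      ((((Additive.toMul (α := ↥(id_ES S L)) e : ↥(id_ES S L)) : Lˣ) : L) : Qbar) := rfl

theorem ie_eval_injective : Function.Injective (ie_eval S L) := by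
  intro x y h
  have h1 : ie_evalHom S L (Additive.toMul (α := ↥(id_ES S L)) x) =
      ie_evalHom S L (Additive.toMul (α := ↥(id_ES S L)) y) := congrArg Additive.toMul h
  exact Additive.toMul.injective (ie_evalHom_injective S L h1)

/-- The range of `Eval` (the field `Eval_range` of `du_Seam`). -/
theorem ie_eval_range (x : Qbarˣ) :
    (∃ e, ie_eval S L e = Additive.ofMul x) ↔ ((x : Qbar) ∈ L ∧ ku_IsSUnit S (x : Qbar)) := by
  constructor
  · rintro ⟨e, he⟩
    set e' : ↥(id_ES S L) := Additive.toMul (α := ↥(id_ES S L)) e with he'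
    have h1 : ie_evalHom S L e' = x := congrArg Additive.toMul he
    have h2 : (x : Qbar) = (((e' : Lˣ) : L) : Qbar) := by rw [← h1]; rfl
    rw [h2]
    exact ⟨((e' : Lˣ) : L).2, (ie_mem_ES_iff S L (e' : Lˣ)).1 e'.2⟩
  · rintro ⟨hxL, hxS⟩
    have hx0 : (x : Qbar) ≠ 0 := x.ne_zero
    have hx0' : (⟨(x : Qbar), hxL⟩ : L) ≠ 0 := fun h => hx0 (congrArg Subtype.val h)
    set y : Lˣ := Units.mk0 ⟨(x : Qbar), hxL⟩ hx0' with hy
    have hyS : y ∈ id_ES S L := (ie_mem_ES_iff S L y).2 hxS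
    refine ⟨Additive.ofMul (⟨y, hyS⟩ : ↥(id_ES S L)), ?_⟩
    rw [ie_eval_apply]
    congr 1
    apply Units.ext
    rfl

/-- Equivariance of `Eval` (the field `Eval_equiv` of `du_Seam`). -/
theorem ie_eval_equiv [Normal ℚ L] (σ : GQ) (e : (ie_ERep S L).V) :
    (((ie_eval S L ((ie_ERep S L).ρ (AlgEquiv.restrictNormalHom L σ) e)).toMul : Qbarˣ) : Qbar) =
      σ (((ie_eval S L e).toMul : Qbarˣ) : Qbar) := by
  set e' : ↥(id_ES S L) := Additive.toMul (α := ↥(id_ES S L)) e with he'
  change ((AlgEquiv.restrictNormalHom L σ) ((e' : Lˣ) : L) : Qbar) = σ ((((e' : Lˣ) : L)) : Qbar)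
  exact AlgEquiv.restrictNormal_commutes σ L ((e' : Lˣ) : L)

/-- Two `S`-units of two level fields have the same image in `ℚ̄ˣ` iff they are equal in `ℚ̄`
(for the field `tJ_ε` of `du_Seam`). -/
theorem ie_eval_eq_iff (L' : IntermediateField ℚ Qbar) [NumberField L'] (e : (ie_ERep S L).V)
    (e' : (ie_ERep S L').V) :
    ie_eval S L e = ie_eval S L' e' ↔
      ((((Additive.toMul (α := ↥(id_ES S L)) e : ↥(id_ES S L)) : Lˣ) : L) : Qbar) =
        ((((Additive.toMul (α := ↥(id_ES S L')) e' : ↥(id_ES S L')) : L'ˣ) : L') : Qbar) := by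
  constructor
  · intro h
    have h1 := congrArg (fun z : Additive Qbarˣ => ((z.toMul : Qbarˣ) : Qbar)) h
    exact h1
  · intro h
    apply Additive.toMul.injective
    apply Units.ext
    exact h

end Eval

end Fermat.Agent.S55
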