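import Fermat.Agent.S55.Idele.LevelTransition
import Fermat.Agent.S55.Idele.LocalUnits
import Fermat.Agent.S55.Idele.SUnitSeam
import Fermat.Agent.S55.Idele.LevUnram
import Fermat.Agent.S55.LocalCF.Seam
import Fermat.Agent.S55.Tate.ClassModuleTransport
import Fermat.Agent.S55.Recip.OrbitGalois

/-!
# S55 / block [G]: assembly of the seam `du_Seam p S` (G → D)

`id_seam hS P hsum hcap habs : du_Seam p S` from

* `P a : PClassModule p (id_CRep S a.L)`, the global `p`-class module of every level (blocks G1-G4),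
* `hsum`, the sum formula `inv ∘ j_q = inv_q ∘ pr ∘ res` (block G4),
* `hcap` (capitulation) and `habs` (absorption of norms) (block G5).

All the other fields are proved here from `Idele/*`:
`dat a = id_ldData p a (P a) (hsum a)` with `C = id_CRep S a.L`, `Jq q = id_ARep a.L q`,
`j q = id_jqRep S a.L q`, `D q = il_D q a.L`, `Xq q = il_Xq q a.L`, `pr q = il_pr q a.L`,
`Pq q = id_levPq p a q` (`lq_pclass` transported along `il_galEquiv`), `frob = ga_frob`,
`shapiro = ob_ga_shapiro`, `E a = ie_ERep S a.L`, `lam = il_lam`, `tC = id_tC`, `tJ = id_tJ`.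
-/

set_option autoImplicit false
set_option linter.style.haveILetI false
set_option linter.unusedSectionVars false

open scoped TensorProduct NumberField nonZeroDivisors Pointwise
open IsDedekindDomain CategoryTheory ExtCitation

noncomputable section

namespace Fermat.Agent.S55

local notation "Qbar" => AlgebraicClosure ℚ
local notation "GQ" => (AlgebraicClosure ℚ ≃ₐ[ℚ] AlgebraicClosure ℚ)

variable {S : Finset Nat.Primes}

instance id_levIsGalois (a : du_Lev S) : IsGalois ℚ a.L := ⟨⟩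

/-- The decomposition group of the seam is `il_D`. -/
theorem id_levD_eq (a : du_Lev S) (q : Nat.Primes) : il_D (q : ℕ) a.L = a.D q := rfl

/-- The distinguished maximal ideal of `ℚ_q ⊗ L`. -/
abbrev id_levM (a : du_Lev S) (q : Nat.Primes) : Ideal (id_A a.L q) :=
  RingHom.ker (il_evLq (q : ℕ) a.L)

theorem id_lev_hD (a : du_Lev S) (q : Nat.Primes) (g : a.L ≃ₐ[ℚ] a.L) :
    g ∈ il_D (q : ℕ) a.L ↔ g • id_levM a q = id_levM a q := by
  have key : ∀ g : a.L ≃ₐ[ℚ] a.L, g ∈ il_D (q : ℕ) a.L → g • id_levM a q ≤ id_levM a q := by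
    intro g hg z hz
    rw [Ideal.mem_pointwise_smul_iff_inv_smul_mem] at hz
    have h1 := (il_mem_D_iff_ker (q : ℕ) a.L g).1 hg (g⁻¹ • z)
      ((il_mem_ker_evLq_iff q a.L _).1 hz)
    rw [il_mem_ker_evLq_iff]
    have h2 : ga_act ℚ_[(q : ℕ)] g (g⁻¹ • z) = z := by
      rw [← ga_smul_def, smul_inv_smul]
    rw [h2] at h1
    exact h1
  constructor
  · intro hg
    apply le_antisymm (key g hg)
    have h1 := key g⁻¹ (inv_mem hg)
    intro z hz
    have h2 : g⁻¹ • z ∈ g⁻¹ • id_levM a q := Ideal.smul_mem_pointwise_smul_iff.2 hz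
    rw [Ideal.mem_pointwise_smul_iff_inv_smul_mem]
    exact h1 h2
  · intro hg
    rw [il_mem_D_iff_ker]
    intro z hz
    have h1 : z ∈ id_levM a q := (il_mem_ker_evLq_iff q a.L z).2 hz
    have h2 : g • z ∈ g • id_levM a q := Ideal.smul_mem_pointwise_smul_iff.2 h1
    rw [hg] at h2
    exact (il_mem_ker_evLq_iff q a.L _).1 h2

theorem id_lev_hker (a : du_Lev S) (q : Nat.Primes) (u : (id_A a.L q)ˣ) :
    (il_pr q a.L).hom (Additive.ofMul u : Additive (id_A a.L q)ˣ) = 0 ↔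
      (u : id_A a.L q) - 1 ∈ id_levM a q := by
  rw [il_pr_eq_zero_iff, il_mem_ker_evLq_iff, RingHom.mem_ker]

instance id_levLqIsGalois (a : du_Lev S) (q : Nat.Primes) :
    IsGalois ℚ_[(q : ℕ)] ↥(il_Lq (q : ℕ) a.L) := ⟨⟩

variable (p : ℕ) [Fact p.Prime]

/-- The local `p`-class module at `q`. -/
def id_levPq (a : du_Lev S) (q : Nat.Primes) : PClassModule p (il_Xq q a.L) :=
  (lq_pclass p (il_Lq (q : ℕ) a.L)).transportGroup (il_galEquiv (q : ℕ) a.L).symm

theorem id_lev_frob (a : du_Lev S) (q : Nat.Primes) (Y : Rep.{0} ℤ a.Γ)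
    (ψ' : tt_res (il_D (q : ℕ) a.L) Y ⟶ il_Xq q a.L) :
    ∃ ψ : Y ⟶ id_ARep a.L q,
      (Rep.resFunctor (il_D (q : ℕ) a.L).subtype).map ψ ≫ il_pr q a.L = ψ' :=
  ga_frob (id_levM a q) (il_D (q : ℕ) a.L) (id_lev_hD a q) (il_Xq q a.L) (il_pr q a.L)
    (id_lev_hker a q) (il_pr_surjective q a.L) Y ψ'

theorem id_lev_shapiro (a : du_Lev S) (q : Nat.Primes) (Y : Rep.{0} ℤ a.Γ) (n : ℕ)
    (hn : n = 1 ∨ n = 2) (z : groupCohomology (tt_hom Y (id_ARep a.L q)) n)
    (hz : (tt_coeffMap (tt_homPost (tt_res (il_D (q : ℕ) a.L) Y) (il_pr q a.L)) n).hom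
      ((tt_resMap (il_D (q : ℕ) a.L) (tt_hom Y (id_ARep a.L q)) n).hom z) = 0) : z = 0 :=
  ob_ga_shapiro (id_levM a q) (il_D (q : ℕ) a.L) (id_lev_hD a q) (il_Xq q a.L) (il_pr q a.L)
    (id_lev_hker a q) (il_pr_surjective q a.L) Y n hn z hz

/-- The one-level data of the seam, from the global class module and the sum formula. -/
def id_ldData (a : du_Lev S) (P : PClassModule p (id_CRep S a.L))
    (hsum : ∀ (q : ↥S) (z : groupCohomology (id_ARep a.L q.1) 2), tt_IsPPrimary p z →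
      P.invTop ((tt_coeffMap (id_jqRep S a.L q) 2).hom z) =
        (id_levPq p a q.1).invTop ((tt_coeffMap (il_pr q.1 a.L) 2).hom
          ((tt_resMap (il_D (q.1 : ℕ) a.L) (id_ARep a.L q.1) 2).hom z))) :
    ld_Data p a.Γ ↥S where
  C := id_CRep S a.L
  P := P
  D q := il_D (q.1 : ℕ) a.L
  Jq q := id_ARep a.L q.1
  j q := id_jqRep S a.L q
  Xq q := il_Xq q.1 a.L
  Pq q := id_levPq p a q.1
  pr q := il_pr q.1 a.L
  frob q Y ψ' := id_lev_frob a q.1 Y ψ'
  sum := hsum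


/-! ### The seam -/

theorem id_lev_lam_Eval (a : du_Lev S) (q : ↥S) (e : (ie_ERep S a.L).V) :
    letI : Fact (q.1 : ℕ).Prime := ⟨q.1.2⟩
    (((tl_locUnits.val q.1 (il_lam q.1 a.L ((il_pr q.1 a.L).hom ((ie_eps S a.L q).hom e))) :
        (PadicAlgCl (q.1 : ℕ))ˣ) : PadicAlgCl (q.1 : ℕ))) =
      padicEmbedding (q.1 : ℕ) (((ie_eval S a.L e).toMul : Qbarˣ) : Qbar) :=
  il_lam_pr_inclU q.1 a.L ((Additive.toMul (α := ↥(id_ES S a.L)) e : ↥(id_ES S a.L)) : (a.L)ˣ)

theorem id_lev_tJ_eps {a b : du_Lev S} (h : a ≤ b) (q : ↥S) (e : (ie_ERep S a.L).V)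
    (e' : (ie_ERep S b.L).V) (hee' : ie_eval S a.L e = ie_eval S b.L e') :
    id_tJ h q ((ie_eps S a.L q).hom e) = (ie_eps S b.L q).hom e' := by
  letI := id_levAlgebra h
  have h1 := (ie_eval_eq_iff S a.L b.L e e').1 hee'
  set x : ↥(id_ES S a.L) := Additive.toMul (α := ↥(id_ES S a.L)) e with hx
  set x' : ↥(id_ES S b.L) := Additive.toMul (α := ↥(id_ES S b.L)) e' with hx'
  have h2 : id_unitsMap a.L b.L (x : (a.L)ˣ) = (x' : (b.L)ˣ) := by
    apply Units.ext
    apply Subtype.ext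
    exact h1
  change Additive.ofMul (id_AmapU a.L b.L q.1 (id_inclU a.L q.1 (x : (a.L)ˣ))) =
    Additive.ofMul (id_inclU b.L q.1 (x' : (b.L)ˣ))
  rw [id_AmapU_inclU, ← h2]
  rfl

theorem id_lev_tJ_lam {a b : du_Lev S} (h : a ≤ b) (q : ↥S) (x : (id_ARep a.L q.1).V) :
    il_lam q.1 b.L ((il_pr q.1 b.L).hom (id_tJ h q x)) =
      il_lam q.1 a.L ((il_pr q.1 a.L).hom x) := by
  letI := id_levAlgebra h
  exact il_lam_pr_Tmap q.1 a.L b.L (id_iota a.L b.L) (fun _ => rfl) x.toMul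

open Classical in
/-- **The seam G → D**, from the global class modules, the sum formula, capitulation and
absorption. -/
def id_seam (hS : S.Nonempty) (P : ∀ a : du_Lev S, PClassModule p (id_CRep S a.L))
    (hsum : ∀ (a : du_Lev S) (q : ↥S) (z : groupCohomology (id_ARep a.L q.1) 2),
      tt_IsPPrimary p z →
      (P a).invTop ((tt_coeffMap (id_jqRep S a.L q) 2).hom z) =
        (id_levPq p a q.1).invTop ((tt_coeffMap (il_pr q.1 a.L) 2).hom
          ((tt_resMap (il_D (q.1 : ℕ) a.L) (id_ARep a.L q.1) 2).hom z)))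
    (hcap : ∀ a : du_Lev S, ∃ b : du_Lev S, ∃ h : a ≤ b, ∀ c : (id_CRep S a.L).V,
      ∃ n : ℕ, ¬ p ∣ n ∧ n • id_tC h c ∈ du_Co (id_ldData p b (P b) (hsum b)))
    (habs : ∀ K : du_Lev S, ∃ a₁ : du_Lev S, K ≤ a₁ ∧ ∀ a : du_Lev S, a₁ ≤ a → ∀ hKa : K ≤ a,
      ∀ c : (id_CRep S a.L).V, ∃ n : ℕ, ¬ p ∣ n ∧ ∃ x : ∀ q : ↥S, (id_ARep K.L q.1).V,
        n • (∑ h ∈ Finset.univ.filter (fun h : a.Γ => h ∈ a.rel K), (id_CRep S a.L).ρ h c) =
          ∑ q, (id_jqRep S a.L q).hom (id_tJ hKa q (x q))) :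
    du_Seam p S where
  dat a := id_ldData p a (P a) (hsum a)
  dat_D _ _ := rfl
  shapiro a q Y _ n hn z hz := id_lev_shapiro a q.1 Y n hn z hz
  E a := ie_ERep S a.L
  ε a q := ie_eps S a.L q
  ε_exact a x := ie_eps_exact S a.L x
  ε_inj a q := ie_eps_injective S a.L q
  Eval a := ie_eval S a.L
  Eval_inj a := ie_eval_injective S a.L
  Eval_range a x := ie_eval_range S a.L x
  Eval_equiv a σ e := ie_eval_equiv S a.L σ e
  lam a q := il_lam q.1 a.L
  lam_inj a q := il_lam_injective q.1 a.L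
  lam_equiv a q τ d hd x := il_lam_equiv q.1 a.L τ d hd x
  lam_range a q u hu := il_lam_range q.1 a.L u hu
  lam_Eval a q e := id_lev_lam_Eval a q e
  tC h := id_tC h
  tJ h q := id_tJ h q
  tC_inj h := id_tC_inj hS h
  tJ_inj h q := id_tJ_inj h q
  tC_equiv h σ c := id_tC_equiv h σ c
  tJ_equiv h q σ x := id_tJ_equiv h q σ x
  tC_range h c hc := id_tC_range hS (iu_levUnram S) h c hc
  tJ_range h q x hx := id_tJ_range h q x hx
  tC_j h q x := id_tC_j h q x
  tC_trans h h' x := id_tC_trans h h' x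
  tJ_trans h h' q x := id_tJ_trans h h' q x
  tJ_ε h q e e' hee' := id_lev_tJ_eps h q e e' hee'
  tJ_lam h q x := id_lev_tJ_lam h q x
  cap := hcap
  abs := habs

end Fermat.Agent.S55
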