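import Fermat.Agent.S55.Idele.SeamAbs
import Fermat.Agent.S55.Recip.SeamSum

/-!
# S55 / block [G]: the seam from the G4 export and (E1') (prefix `ism_`)

`ism_seam` : `du_Seam p S` from

* `P a` : the global `p`-class modules of the levels,
* `hmain` : the G4 export "the top invariant of the image of a `p`-primary idele class is its total
  invariant" for the data `rc_tc_sum (rc_ii_data p S a.L) (𝔻out a)` (any outside data killing the
  `S`-part of the ideles),
* `hE1` : the existence theorem in exponent `p` (G5).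

Capitulation (`isc_hcap`) and the reduction of absorption (`isa_habs`) are plugged in.
-/

set_option autoImplicit false
set_option linter.unusedSectionVars false

open scoped NumberField
open IsDedekindDomain CategoryTheory ExtCitation

noncomputable section

namespace Fermat.Agent.S55

local notation "Qbar" => AlgebraicClosure ℚ

variable {S : Finset Nat.Primes} (p : ℕ) [Fact p.Prime]

/-- The field `hsum` of `id_seam` for all levels, from the G4 export on the top layers. -/
theorem ism_hsum (P : ∀ a : du_Lev S, PClassModule p (id_CRep S a.L))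
    {Qout : du_Lev S → Type} (𝔻out : ∀ a : du_Lev S, rc_InvData p (id_JRep S ↥a.L) (Qout a))
    (hout : ∀ (a : du_Lev S) (q' : Qout a) (x : id_JS S ↥a.L),
      ((𝔻out a).pr q').hom (Additive.ofMul (id_inS S ↥a.L x) : Additive (id_J S ↥a.L)) = 0)
    (hfin : ∀ a : du_Lev S, rc_FinSupp (rc_tc_sum (rc_ii_data p S a.L) (𝔻out a)))
    (hmain : ∀ (a : du_Lev S)
      (w : groupCohomology (tt_res (⊤ : Subgroup a.Γ) (id_JRep S ↥a.L)) 2), tt_IsPPrimary p w →
        (P a).inv ⊤ ((tt_coeffMap (rc_ci_resMor (id_toCRep S ↥a.L) ⊤) 2).hom w) =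
          rc_INV (rc_tc_sum (rc_ii_data p S a.L) (𝔻out a)) (hfin a) ⊤ w) :
    ∀ (a : du_Lev S) (q : ↥S) (z : groupCohomology (id_ARep a.L q.1) 2),
      tt_IsPPrimary p z →
      (P a).invTop ((tt_coeffMap (id_jqRep S a.L q) 2).hom z) =
        (id_levPq p a q.1).invTop ((tt_coeffMap (il_pr q.1 a.L) 2).hom
          ((tt_resMap (il_D (q.1 : ℕ) a.L) (id_ARep a.L q.1) 2).hom z)) :=
  fun a q z hz =>
    rc_ss_hsum_lev p a (𝔻out a) (hout a) (hfin a) (P a) (hmain a) q z hz

/-- **The seam G → D** from the G4 export and (E1'). -/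
def ism_seam (hS : S.Nonempty) (hpS : pPrime p ∈ S)
    (P : ∀ a : du_Lev S, PClassModule p (id_CRep S a.L))
    {Qout : du_Lev S → Type} (𝔻out : ∀ a : du_Lev S, rc_InvData p (id_JRep S ↥a.L) (Qout a))
    (hout : ∀ (a : du_Lev S) (q' : Qout a) (x : id_JS S ↥a.L),
      ((𝔻out a).pr q').hom (Additive.ofMul (id_inS S ↥a.L x) : Additive (id_J S ↥a.L)) = 0)
    (hfin : ∀ a : du_Lev S, rc_FinSupp (rc_tc_sum (rc_ii_data p S a.L) (𝔻out a)))
    (hmain : ∀ (a : du_Lev S)
      (w : groupCohomology (tt_res (⊤ : Subgroup a.Γ) (id_JRep S ↥a.L)) 2), tt_IsPPrimary p w →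
        (P a).inv ⊤ ((tt_coeffMap (rc_ci_resMor (id_toCRep S ↥a.L) ⊤) 2).hom w) =
          rc_INV (rc_tc_sum (rc_ii_data p S a.L) (𝔻out a)) (hfin a) ⊤ w)
    (hE1 : ∀ K : du_Lev S, ∃ (K₁ L : du_Lev S) (_ : K ≤ K₁) (h : K₁ ≤ L),
      ∀ c : (id_CRep S L.L).V, ∃ d : (id_CRep S K₁.L).V,
        e2_nrm (L.rel K₁) (id_CRep S L.L) c = id_tC h (p • d)) : du_Seam p S :=
  id_seam p hS P (ism_hsum p P 𝔻out hout hfin hmain)
    (isc_hcap p hpS P (ism_hsum p P 𝔻out hout hfin hmain))
    (isa_habs p hS P (ism_hsum p P 𝔻out hout hfin hmain) hE1)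

end Fermat.Agent.S55
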