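import Mathlib
import Fermat.Agent.S55.Idele.Defs

/-!
# S55 / block [G0]: the `T`-version of the `S`-idele class group sequence

`K` a number field, `S : Finset Nat.Primes`, `T : Finset (id_P S K)` a finite set of primes of `K`
not above `S`.

* `id_JT S K T : Subgroup (id_J S K)`: the `T`-ideles (ideal component supported on `T`);
  `id_TStable S K T` (class): `T` is stable under `K ≃ₐ[ℚ] K`; then `id_JTAction`.
* `id_ET S K T : Subgroup Kˣ := (id_JT S K T).comap (id_diag S K)`: the `T`-units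
  (`id_mem_ET_iff`, `id_mem_ET_iff_valuation`, `id_ET_eq_unit : id_ET = (id_TSet S K T).unit K`,
  `id_TSet_finite`), `id_ETAction`.
* `id_diagT : E_T →* J_T`, `id_toCT : J_T →* id_C S K`, `id_diagT_injective`, `id_toCT_ker`,
  `id_toCT_surjective`, equivariance `id_smul_diagT`, `id_smul_toCT`: the exact sequence
  `1 → E_T → J_T → C_S(K) → 1` (input of `hq_hexagon`).
* `id_count_spanSingleton`: `FractionalIdeal.count K v (x) = id_ordZ K v x`;
  `id_countHom : (FractionalIdeal (𝓞 K)⁰ K)ˣ →* id_I S K` (surjective, principal ideals go to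
  `id_div`), `id_finite_ClS : Finite (id_ClS S K)`.
* `id_exists_T_ge`, `id_exists_T`: a finite stable `T` (containing a given `T₀`) with
  `id_JT S K T ⊔ id_princ S K = ⊤`.
* `id_JTEquiv : J_T ≃* id_JS S K × (T → Multiplicative ℤ)` and its equivariance `id_JTEquiv_smul`.
-/

set_option autoImplicit false
set_option linter.unusedSectionVars false

open scoped TensorProduct NumberField nonZeroDivisors Pointwise
open IsDedekindDomain

noncomputable section

namespace Fermat.Agent.S55

universe u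

variable (S : Finset Nat.Primes) (K : Type u) [Field K] [NumberField K] (T : Finset (id_P S K))

/-! ### The `T`-ideles -/

/-- The `T`-ideles inside `J_S(K)`: the ideal component is supported on `T`
(`= ∏_{v ∣ S} K_vˣ × ⨁_{v ∈ T} ℤ`, i.e. `J_{S ∪ T}` modulo the units at `T` and outside). -/
def id_JT : Subgroup (id_J S K) where
  carrier := {z | ∀ v : id_P S K, v ∉ T → z.2.toAdd v = 0}
  one_mem' := fun _ _ => rfl
  mul_mem' := by
    intro a b ha hb v hv
    change a.2.toAdd v + b.2.toAdd v = 0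
    rw [ha v hv, hb v hv, add_zero]
  inv_mem' := by
    intro a ha v hv
    change -(a.2.toAdd v) = 0
    rw [ha v hv, neg_zero]

theorem id_mem_JT_iff (z : id_J S K) :
    z ∈ id_JT S K T ↔ ∀ v : id_P S K, v ∉ T → z.2.toAdd v = 0 := Iff.rfl

theorem id_JT_mono {T T' : Finset (id_P S K)} (h : T ⊆ T') : id_JT S K T ≤ id_JT S K T' :=
  fun _ hz v hv => hz v (fun hv' => hv (h hv'))

theorem id_inS_mem_JT (a : id_JS S K) : id_inS S K a ∈ id_JT S K T := fun _ _ => rfl

/-- `T` is stable under `K ≃ₐ[ℚ] K`. -/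
class id_TStable : Prop where
  smul_mem : ∀ (σ : K ≃ₐ[ℚ] K) (v : id_P S K), v ∈ T → σ • v ∈ T

theorem id_smul_mem_T_iff [id_TStable S K T] (σ : K ≃ₐ[ℚ] K) (v : id_P S K) :
    σ • v ∈ T ↔ v ∈ T := by
  constructor
  · intro h
    have := id_TStable.smul_mem (S := S) (K := K) (T := T) σ⁻¹ _ h
    rwa [inv_smul_smul] at this
  · exact id_TStable.smul_mem σ v

theorem id_snd_smul_apply (σ : K ≃ₐ[ℚ] K) (z : id_J S K) (v : id_P S K) :
    (σ • z).2.toAdd v = z.2.toAdd (σ⁻¹ • v) := rfl

theorem id_smul_mem_JT [id_TStable S K T] (σ : K ≃ₐ[ℚ] K) {z : id_J S K}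
    (hz : z ∈ id_JT S K T) : σ • z ∈ id_JT S K T := by
  intro v hv
  rw [id_snd_smul_apply]
  apply hz
  rwa [id_smul_mem_T_iff]

instance id_JTAction [id_TStable S K T] :
    MulDistribMulAction (K ≃ₐ[ℚ] K) ↥(id_JT S K T) where
  smul σ z := ⟨σ • z.1, id_smul_mem_JT S K T σ z.2⟩
  one_smul z := Subtype.ext (one_smul _ z.1)
  mul_smul σ τ z := Subtype.ext (mul_smul σ τ z.1)
  smul_mul σ a b := Subtype.ext (smul_mul' σ a.1 b.1)
  smul_one σ := Subtype.ext (smul_one σ)

@[simp]
theorem id_JT_coe_smul [id_TStable S K T] (σ : K ≃ₐ[ℚ] K) (z : ↥(id_JT S K T)) :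
    ((σ • z : ↥(id_JT S K T)) : id_J S K) = σ • (z : id_J S K) := rfl

/-! ### The `T`-units -/

/-- The `T`-units: elements of `Kˣ` whose prime-to-`S` divisor is supported on `T`
(`= Kˣ ∩ J_T`; these are the `(S ∪ T)`-units of `K`). -/
def id_ET : Subgroup Kˣ := (id_JT S K T).comap (id_diag S K)

theorem id_mem_ET_iff (x : Kˣ) :
    x ∈ id_ET S K T ↔ ∀ v : id_P S K, v ∉ T → id_ordZ K v.1 x = 0 := Iff.rfl

theorem id_mem_ET_iff_valuation (x : Kˣ) :
    x ∈ id_ET S K T ↔ ∀ v : id_P S K, v ∉ T → v.1.valuation K (x : K) = 1 := by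
  rw [id_mem_ET_iff]
  refine forall_congr' fun v => forall_congr' fun _ => ?_
  exact id_ordZ_eq_zero_iff K v.1 x

theorem id_ES_le_ET : id_ES S K ≤ id_ET S K T := by
  intro x hx v _
  have h : id_div S K x = 1 := hx
  change (id_div S K x).toAdd v = 0
  rw [h]
  rfl

theorem id_smul_mem_ET [id_TStable S K T] (σ : K ≃ₐ[ℚ] K) {x : Kˣ} (hx : x ∈ id_ET S K T) :
    σ • x ∈ id_ET S K T := by
  change id_diag S K (σ • x) ∈ id_JT S K T
  rw [← id_smul_diag]
  exact id_smul_mem_JT S K T σ hx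

instance id_ETAction [id_TStable S K T] :
    MulDistribMulAction (K ≃ₐ[ℚ] K) ↥(id_ET S K T) where
  smul σ x := ⟨σ • x.1, id_smul_mem_ET S K T σ x.2⟩
  one_smul x := Subtype.ext (one_smul _ x.1)
  mul_smul σ τ x := Subtype.ext (mul_smul σ τ x.1)
  smul_mul σ a b := Subtype.ext (smul_mul' σ a.1 b.1)
  smul_one σ := Subtype.ext (smul_one σ)

@[simp]
theorem id_ET_coe_smul [id_TStable S K T] (σ : K ≃ₐ[ℚ] K) (x : ↥(id_ET S K T)) :
    ((σ • x : ↥(id_ET S K T)) : Kˣ) = σ • (x : Kˣ) := rfl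

/-- The set of primes of `K` at which a `T`-unit may have nonzero order: the primes above `S`
together with (the images of) the primes in `T`. -/
def id_TSet : Set (HeightOneSpectrum (𝓞 K)) :=
  {w | ¬ id_PrimeToS S K w ∨ ∃ h : id_PrimeToS S K w, (⟨w, h⟩ : id_P S K) ∈ T}

theorem id_mem_TSet_iff (w : HeightOneSpectrum (𝓞 K)) :
    w ∈ id_TSet S K T ↔ ¬ id_PrimeToS S K w ∨ ∃ h : id_PrimeToS S K w, (⟨w, h⟩ : id_P S K) ∈ T :=
  Iff.rfl

theorem id_notMem_TSet_iff (w : HeightOneSpectrum (𝓞 K)) :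
    w ∉ id_TSet S K T ↔ ∃ h : id_PrimeToS S K w, (⟨w, h⟩ : id_P S K) ∉ T := by
  rw [id_mem_TSet_iff]
  constructor
  · intro h
    have h1 : id_PrimeToS S K w := by
      by_contra h1
      exact h (Or.inl h1)
    exact ⟨h1, fun h2 => h (Or.inr ⟨h1, h2⟩)⟩
  · rintro ⟨h, hT⟩ h'
    rcases h' with h' | ⟨_, h'⟩
    · exact h' h
    · exact hT h'

/-- `id_ET` is Mathlib's group of `id_TSet`-units. -/
theorem id_ET_eq_unit : id_ET S K T = (id_TSet S K T).unit K := by
  ext x
  rw [id_mem_ET_iff_valuation]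
  constructor
  · intro h w hw
    obtain ⟨hw1, hw2⟩ := (id_notMem_TSet_iff S K T w).1 hw
    exact h ⟨w, hw1⟩ hw2
  · intro h v hv
    exact h v.1 ((id_notMem_TSet_iff S K T v.1).2 ⟨v.2, hv⟩)

/-! ### The exact sequence `1 → E_T → J_T → C_S(K) → 1` -/

/-- The diagonal embedding `E_T →* J_T`. -/
def id_diagT : ↥(id_ET S K T) →* ↥(id_JT S K T) :=
  ((id_diag S K).comp (id_ET S K T).subtype).codRestrict (id_JT S K T) (fun x => x.2)

@[simp]
theorem id_diagT_coe (x : ↥(id_ET S K T)) :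
    ((id_diagT S K T x : ↥(id_JT S K T)) : id_J S K) = id_diag S K (x : Kˣ) := rfl

theorem id_diagT_injective (hS : S.Nonempty) : Function.Injective (id_diagT S K T) := by
  intro x y h
  apply Subtype.ext
  apply id_diag_injective S K hS
  exact congrArg (fun z : ↥(id_JT S K T) => (z : id_J S K)) h

/-- The projection `J_T →* C_S(K)`. -/
def id_toCT : ↥(id_JT S K T) →* id_C S K := (id_toC S K).comp (id_JT S K T).subtype

@[simp]
theorem id_toCT_apply (z : ↥(id_JT S K T)) : id_toCT S K T z = id_toC S K (z : id_J S K) := rfl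

/-- Exactness in the middle. -/
theorem id_toCT_ker : (id_toCT S K T).ker = (id_diagT S K T).range := by
  ext z
  rw [MonoidHom.mem_ker, id_toCT_apply, id_toC_eq_one_iff, MonoidHom.mem_range]
  constructor
  · rintro ⟨x, hx⟩
    have hxT : x ∈ id_ET S K T := by
      change id_diag S K x ∈ id_JT S K T
      rw [hx]
      exact z.2
    exact ⟨⟨x, hxT⟩, Subtype.ext hx⟩
  · rintro ⟨x, rfl⟩
    exact ⟨(x : Kˣ), rfl⟩

/-- Surjectivity, as soon as `J_S(K) = J_T · Kˣ`. -/
theorem id_toCT_surjective (h : id_JT S K T ⊔ id_princ S K = ⊤) :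
    Function.Surjective (id_toCT S K T) := by
  intro c
  obtain ⟨z, rfl⟩ := id_toC_surjective S K c
  have hz : z ∈ id_JT S K T ⊔ id_princ S K := by
    rw [h]
    exact Subgroup.mem_top z
  obtain ⟨t, ht, _, ⟨x, rfl⟩, rfl⟩ := Subgroup.mem_sup.1 hz
  refine ⟨⟨t, ht⟩, ?_⟩
  rw [id_toCT_apply, map_mul, id_toC_diag]
  exact (mul_one (id_toC S K t)).symm

theorem id_smul_diagT [id_TStable S K T] (σ : K ≃ₐ[ℚ] K) (x : ↥(id_ET S K T)) :
    id_diagT S K T (σ • x) = σ • id_diagT S K T x := by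
  apply Subtype.ext
  rw [id_diagT_coe, id_JT_coe_smul, id_diagT_coe, id_ET_coe_smul, id_smul_diag]

theorem id_smul_toCT [id_TStable S K T] (σ : K ≃ₐ[ℚ] K) (z : ↥(id_JT S K T)) :
    id_toCT S K T (σ • z) = σ • id_toCT S K T z := by
  rw [id_toCT_apply, id_toCT_apply, id_JT_coe_smul, id_smul_toC]

/-! ### Finiteness of `id_TSet` -/

theorem id_finite_not_primeToS : {w : HeightOneSpectrum (𝓞 K) | ¬ id_PrimeToS S K w}.Finite := by
  have h : {w : HeightOneSpectrum (𝓞 K) | ¬ id_PrimeToS S K w} ⊆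
      ⋃ q ∈ S, {w : HeightOneSpectrum (𝓞 K) | w.asIdeal ∣ Ideal.span {((q : ℕ) : 𝓞 K)}} := by
    intro w hw
    simp only [id_PrimeToS, not_forall, not_not, Set.mem_ofPred_eq] at hw
    obtain ⟨q, hq, hqw⟩ := hw
    simp only [Set.mem_iUnion, Set.mem_ofPred_eq]
    exact ⟨q, hq, Ideal.dvd_span_singleton.2 hqw⟩
  refine Set.Finite.subset (Set.Finite.biUnion S.finite_toSet fun q _ => ?_) h
  apply Ideal.finite_factors
  rw [Ne, Ideal.zero_eq_bot, Ideal.span_singleton_eq_bot]
  exact Nat.cast_ne_zero.2 q.2.ne_zero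

theorem id_TSet_finite : (id_TSet S K T).Finite := by
  have h : id_TSet S K T ⊆ {w : HeightOneSpectrum (𝓞 K) | ¬ id_PrimeToS S K w} ∪
      (fun v : id_P S K => v.1) '' (T : Set (id_P S K)) := by
    rintro w (hw | ⟨hw, hT⟩)
    · exact Or.inl hw
    · exact Or.inr ⟨⟨w, hw⟩, hT, rfl⟩
  exact ((id_finite_not_primeToS S K).union (T.finite_toSet.image _)).subset h

/-! ### `J_T` as a product -/

/-- The action on `T` when `T` is stable. -/
instance id_TAction [id_TStable S K T] : MulAction (K ≃ₐ[ℚ] K) ↥T where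
  smul σ v := ⟨σ • v.1, id_TStable.smul_mem σ v.1 v.2⟩
  one_smul v := Subtype.ext (one_smul _ v.1)
  mul_smul σ τ v := Subtype.ext (mul_smul σ τ v.1)

@[simp]
theorem id_T_coe_smul [id_TStable S K T] (σ : K ≃ₐ[ℚ] K) (v : ↥T) :
    ((σ • v : ↥T) : id_P S K) = σ • (v : id_P S K) := rfl

open Classical in
/-- The divisor supported on `T` with prescribed multiplicities. -/
def id_divOfT (f : ↥T → Multiplicative ℤ) : id_I S K :=
  Multiplicative.ofAdd
    (Finsupp.onFinset T (fun v => if h : v ∈ T then (f ⟨v, h⟩).toAdd else 0) (by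
      intro v hv
      by_contra h
      exact hv (dif_neg h)))

open Classical in
theorem id_divOfT_apply_mem (f : ↥T → Multiplicative ℤ) (v : ↥T) :
    (id_divOfT S K T f).toAdd v.1 = (f v).toAdd := by
  change (if h : v.1 ∈ T then (f ⟨v.1, h⟩).toAdd else 0) = _
  rw [dif_pos v.2]

open Classical in
theorem id_divOfT_apply_notMem (f : ↥T → Multiplicative ℤ) {v : id_P S K} (hv : v ∉ T) :
    (id_divOfT S K T f).toAdd v = 0 := by
  change (if h : v ∈ T then (f ⟨v, h⟩).toAdd else 0) = _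
  rw [dif_neg hv]

/-- `J_T ≃ ∏_{v ∣ S} K_vˣ × ℤ[T]` (multiplicatively written). -/
def id_JTEquiv : ↥(id_JT S K T) ≃* id_JS S K × (↥T → Multiplicative ℤ) where
  toFun z := (z.1.1, fun v => Multiplicative.ofAdd (z.1.2.toAdd v.1))
  invFun a := ⟨(a.1, id_divOfT S K T a.2), fun _ hv => id_divOfT_apply_notMem S K T a.2 hv⟩
  left_inv z := by
    apply Subtype.ext
    apply Prod.ext
    · rfl
    · apply Multiplicative.toAdd.injective
      ext v
      by_cases hv : v ∈ T
      · exact id_divOfT_apply_mem S K T _ ⟨v, hv⟩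
      · rw [z.2 v hv]
        exact id_divOfT_apply_notMem S K T _ hv
  right_inv a := by
    apply Prod.ext
    · rfl
    · funext v
      change Multiplicative.ofAdd ((id_divOfT S K T a.2).toAdd v.1) = a.2 v
      rw [id_divOfT_apply_mem]
      rfl
  map_mul' z w := rfl

@[simp]
theorem id_JTEquiv_fst (z : ↥(id_JT S K T)) : (id_JTEquiv S K T z).1 = (z : id_J S K).1 := rfl

@[simp]
theorem id_JTEquiv_snd (z : ↥(id_JT S K T)) (v : ↥T) :
    (id_JTEquiv S K T z).2 v = Multiplicative.ofAdd ((z : id_J S K).2.toAdd v.1) := rfl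

/-- Equivariance of `id_JTEquiv`: the Galois group acts on the second factor by permuting `T`. -/
theorem id_JTEquiv_smul [id_TStable S K T] (σ : K ≃ₐ[ℚ] K) (z : ↥(id_JT S K T)) :
    id_JTEquiv S K T (σ • z) =
      (σ • (id_JTEquiv S K T z).1, fun v => (id_JTEquiv S K T z).2 (σ⁻¹ • v)) := rfl

/-! ### Orders, fractional ideals and finiteness of the `S`-class group -/

/-- The order of `x` at `v` is the multiplicity of `v` in the principal fractional ideal `(x)`. -/
theorem id_count_spanSingleton (v : HeightOneSpectrum (𝓞 K)) (x : Kˣ) :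
    FractionalIdeal.count K v (FractionalIdeal.spanSingleton (𝓞 K)⁰ (x : K)) = id_ordZ K v x := by
  obtain ⟨n, d, hd, hx⟩ := IsFractionRing.div_surjective (A := 𝓞 K) (x : K)
  have hd0 : d ≠ 0 := nonZeroDivisors.ne_zero hd
  have hdK : algebraMap (𝓞 K) K d ≠ 0 := by
    rwa [Ne, FaithfulSMul.algebraMap_eq_zero_iff]
  have hn0 : n ≠ 0 := by
    rintro rfl
    rw [map_zero, zero_div] at hx
    exact x.ne_zero hx.symm
  have hI : FractionalIdeal.spanSingleton (𝓞 K)⁰ (x : K) ≠ 0 :=
    FractionalIdeal.spanSingleton_ne_zero_iff.2 x.ne_zero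
  have haJ : FractionalIdeal.spanSingleton (𝓞 K)⁰ (x : K) =
      FractionalIdeal.spanSingleton (𝓞 K)⁰ ((algebraMap (𝓞 K) K) d)⁻¹ *
        ((Ideal.span {n} : Ideal (𝓞 K)) : FractionalIdeal (𝓞 K)⁰ K) := by
    rw [FractionalIdeal.coeIdeal_span_singleton, FractionalIdeal.spanSingleton_mul_spanSingleton,
      ← hx, div_eq_inv_mul]
  rw [FractionalIdeal.count_well_defined K v hI haJ, id_ordZ, ← hx, map_div₀,
    HeightOneSpectrum.valuation_of_algebraMap, HeightOneSpectrum.valuation_of_algebraMap,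
    HeightOneSpectrum.intValuation_if_neg v hn0, HeightOneSpectrum.intValuation_if_neg v hd0,
    ← WithZero.exp_sub, WithZero.log_exp]
  ring

/-- The prime-to-`S` divisor of an invertible fractional ideal, as a finitely supported
function. -/
def id_countFun (I : (FractionalIdeal (𝓞 K)⁰ K)ˣ) : id_P S K →₀ ℤ :=
  Finsupp.ofSupportFinite (fun v => FractionalIdeal.count K v.1 (I : FractionalIdeal (𝓞 K)⁰ K)) (by
    have h := Filter.eventually_cofinite.1
      (FractionalIdeal.finite_factors (K := K) (I : FractionalIdeal (𝓞 K)⁰ K))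
    apply Set.Finite.of_injOn (f := fun v : id_P S K => v.1) _ _ h
    · intro v hv
      exact hv
    · intro v _ w _ hvw
      exact Subtype.ext hvw)

@[simp]
theorem id_countFun_apply (I : (FractionalIdeal (𝓞 K)⁰ K)ˣ) (v : id_P S K) :
    id_countFun S K I v = FractionalIdeal.count K v.1 (I : FractionalIdeal (𝓞 K)⁰ K) := rfl

/-- The prime-to-`S` divisor map on invertible fractional ideals. -/
def id_countHom : (FractionalIdeal (𝓞 K)⁰ K)ˣ →* id_I S K where
  toFun I := Multiplicative.ofAdd (id_countFun S K I)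
  map_one' := by
    apply Multiplicative.toAdd.injective
    ext v
    exact FractionalIdeal.count_one K v.1
  map_mul' I J := by
    apply Multiplicative.toAdd.injective
    ext v
    exact FractionalIdeal.count_mul K v.1 I.ne_zero J.ne_zero

theorem id_countHom_apply (I : (FractionalIdeal (𝓞 K)⁰ K)ˣ) (v : id_P S K) :
    (id_countHom S K I).toAdd v = FractionalIdeal.count K v.1 (I : FractionalIdeal (𝓞 K)⁰ K) := rfl

theorem id_countHom_principal (x : Kˣ) :
    id_countHom S K (toPrincipalIdeal (𝓞 K) K x) = id_div S K x := by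
  apply Multiplicative.toAdd.injective
  ext v
  rw [id_countHom_apply, id_div_apply, coe_toPrincipalIdeal, id_count_spanSingleton]

theorem id_countHom_surjective : Function.Surjective (id_countHom S K) := by
  classical
  intro D
  set exps : HeightOneSpectrum (𝓞 K) →₀ ℤ :=
    Finsupp.embDomain (Function.Embedding.subtype _) D.toAdd with hexps
  set I : FractionalIdeal (𝓞 K)⁰ K :=
    exps.prod (fun w n => ((w.asIdeal : Ideal (𝓞 K)) : FractionalIdeal (𝓞 K)⁰ K) ^ n) with hIdef
  have hI : I ≠ 0 := by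
    rw [hIdef, Finsupp.prod, Finset.prod_ne_zero_iff]
    intro w _
    exact zpow_ne_zero _ (FractionalIdeal.coeIdeal_ne_zero.mpr w.ne_bot)
  refine ⟨Units.mk0 I hI, ?_⟩
  apply Multiplicative.toAdd.injective
  ext v
  rw [id_countHom_apply, Units.val_mk0, hIdef, FractionalIdeal.count_finsuppProd, hexps]
  exact Finsupp.embDomain_apply_self (Function.Embedding.subtype _) D.toAdd v

/-- Finiteness of the `S`-class group `I^S(K) / (principal divisors)`. -/
instance id_finite_ClS : Finite (id_ClS S K) := by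
  have h1 : Finite ((FractionalIdeal (𝓞 K)⁰ K)ˣ ⧸ (toPrincipalIdeal (𝓞 K) K).range) :=
    Finite.of_equiv _ (ClassGroup.equiv (R := 𝓞 K) K).toEquiv
  have hle : (toPrincipalIdeal (𝓞 K) K).range ≤ ((id_div S K).range).comap (id_countHom S K) := by
    rintro _ ⟨x, rfl⟩
    exact ⟨x, (id_countHom_principal S K x).symm⟩
  let f : (FractionalIdeal (𝓞 K)⁰ K)ˣ ⧸ (toPrincipalIdeal (𝓞 K) K).range →* id_ClS S K :=
    QuotientGroup.map _ _ (id_countHom S K) hle
  have hf : Function.Surjective f := by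
    intro y
    induction y using QuotientGroup.induction_on with
    | H D =>
      obtain ⟨I, rfl⟩ := id_countHom_surjective S K D
      exact ⟨(I : (FractionalIdeal (𝓞 K)⁰ K)ˣ ⧸ (toPrincipalIdeal (𝓞 K) K).range), rfl⟩
  exact Finite.of_surjective f hf

/-! ### Existence of `T` -/

/-- **Finiteness of the class group, idelic form.** Every finite set of primes prime to `S` is
contained in a finite Galois-stable set `T` with `J_S(K) = J_T · Kˣ`. -/
theorem id_exists_T_ge (T₀ : Finset (id_P S K)) :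
    ∃ T : Finset (id_P S K), T₀ ⊆ T ∧ id_TStable S K T ∧ id_JT S K T ⊔ id_princ S K = ⊤ := by
  classical
  have : Fintype (id_ClS S K) := Fintype.ofFinite _
  let rep : id_ClS S K → id_I S K := fun c => Quotient.out c
  have hrep : ∀ c, ((rep c : id_I S K) : id_ClS S K) = c := fun c => Quotient.out_eq c
  let T₁ : Finset (id_P S K) :=
    T₀ ∪ Finset.univ.biUnion (fun c : id_ClS S K => (rep c).toAdd.support)
  let T : Finset (id_P S K) :=
    Finset.univ.biUnion (fun σ : K ≃ₐ[ℚ] K => T₁.image (fun v => σ • v))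
  have hT₁ : T₁ ⊆ T := by
    intro v hv
    refine Finset.mem_biUnion.2 ⟨1, Finset.mem_univ _, Finset.mem_image.2 ⟨v, hv, one_smul _ v⟩⟩
  refine ⟨T, fun v hv => hT₁ (Finset.mem_union_left _ hv), ⟨?_⟩, ?_⟩
  · intro τ v hv
    obtain ⟨σ, _, hv⟩ := Finset.mem_biUnion.1 hv
    obtain ⟨w, hw, rfl⟩ := Finset.mem_image.1 hv
    refine Finset.mem_biUnion.2 ⟨τ * σ, Finset.mem_univ _, Finset.mem_image.2 ⟨w, hw, ?_⟩⟩
    exact mul_smul τ σ w
  · rw [eq_top_iff]
    intro z _
    -- the class of the ideal component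
    have h1 : ((rep (z.2 : id_ClS S K) : id_I S K) : id_ClS S K) = (z.2 : id_ClS S K) := hrep _
    rw [QuotientGroup.eq] at h1
    obtain ⟨x, hx⟩ := h1
    have hz : z = (z * (id_diag S K x)⁻¹) * id_diag S K x := by
      rw [inv_mul_cancel_right]
    rw [hz]
    refine Subgroup.mul_mem_sup ?_ ⟨x, rfl⟩
    intro v hv
    have h2 : (z * (id_diag S K x)⁻¹).2 = rep (z.2 : id_ClS S K) := by
      change z.2 * (id_div S K x)⁻¹ = _
      rw [hx]
      simp
    rw [h2]
    by_contra h3
    apply hv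
    apply hT₁
    refine Finset.mem_union_right _
      (Finset.mem_biUnion.2 ⟨(z.2 : id_ClS S K), Finset.mem_univ _, ?_⟩)
    exact Finsupp.mem_support_iff.2 h3

theorem id_exists_T :
    ∃ T : Finset (id_P S K), id_TStable S K T ∧ id_JT S K T ⊔ id_princ S K = ⊤ := by
  obtain ⟨T, _, h⟩ := id_exists_T_ge S K ∅
  exact ⟨T, h⟩

end Fermat.Agent.S55
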