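import Fermat.Agent.S55.Idele.Transition
import Fermat.Agent.S55.Idele.TVersion
import Fermat.Agent.S55.Places.NumberField
import Fermat.Agent.S55.Kummer.Unram

/-!
# S55, block G5: `p`-capitulation of the `S`-class group (G-cap), prefix `ic_`

* generic part (`K ⊆ L` number fields): if `div x = a ^ (n * m)` in `I^S(K)` and `x` has an
  `n`-th root `y` in `L`, then the extension of `a ^ m` to `L` is the principal divisor `div y`
  (`ic_Imap_pow_eq_div`), and classes `c ∈ C_S(K)` whose ideal part becomes principal after raising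
  to the `m`-th power land in `C_S°(L)` after raising to the `m`-th power (`ic_pow_mem_CSo`);
* dictionary: `div x = b ^ n` implies `ku_IsLocalPow S K n x` (`ic_isLocalPow_of_div_eq_pow`);
* **(G-cap)** `ic_cap`: for a level field `K` (unramified outside `S ∋ p`) there is a normal level
  field `L2 ⊇ K` such that `(id_Cmap c) ^ m ∈ C_S°(L2)` for all `c : id_C S K`, where `m` is the
  prime-to-`p` part of `|Cl_S(K)|`.
-/

set_option autoImplicit false
set_option linter.unusedSectionVars false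

open scoped NumberField
open IsDedekindDomain

noncomputable section

namespace Fermat.Agent.S55

local notation "Qbar" => AlgebraicClosure ℚ

universe u

section generic

variable (S : Finset Nat.Primes) (K L : Type u) [Field K] [NumberField K] [Field L] [NumberField L]
  [Algebra K L]

omit [Algebra K L] in
/-- `I^S(K)` is torsion-free. -/
theorem ic_I_pow_injective {n : ℕ} (hn : n ≠ 0) {a b : id_I S K} (h : a ^ n = b ^ n) : a = b := by
  apply Multiplicative.toAdd.injective
  ext v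
  have h1 := congrArg (fun c : id_I S K => c.toAdd v) h
  have h2 : n • (a.toAdd v) = n • (b.toAdd v) := h1
  rw [nsmul_eq_mul, nsmul_eq_mul] at h2
  exact mul_left_cancel₀ (Nat.cast_ne_zero.2 hn) h2

/-- Root extraction: if `div x = a ^ (n * m)` and `x = y ^ n` in `L`, then the extension of `a ^ m`
to `L` is `div y`. -/
theorem ic_Imap_pow_eq_div {n m : ℕ} (hn : n ≠ 0) (a : id_I S K) (x : Kˣ)
    (hx : id_div S K x = a ^ (n * m)) (y : Lˣ) (hy : y ^ n = id_unitsMap K L x) :
    id_Imap S K L a ^ m = id_div S L y := by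
  apply ic_I_pow_injective S L hn
  rw [← pow_mul, ← map_pow, mul_comm, ← hx, id_Imap_div, ← map_pow, hy]

/-- If the ideal part of `z : J_S(L)` is principal then the class of `z` lies in `C_S°(L)`. -/
theorem ic_toC_mem_CSo (z : id_J S L) (w : Lˣ) (hw : z.2 = id_div S L w) :
    id_toC S L z ∈ id_CSo S L := by
  refine ⟨z.1 * (id_diagS S L w)⁻¹, ?_⟩
  change id_toC S L (id_inS S L (z.1 * (id_diagS S L w)⁻¹)) = id_toC S L z
  have h1 : id_inS S L (z.1 * (id_diagS S L w)⁻¹) = z * (id_diag S L w)⁻¹ := by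
    apply Prod.ext
    · rfl
    · show (1 : id_I S L) = z.2 * (id_div S L w)⁻¹
      rw [hw, mul_inv_cancel]
  rw [h1, map_mul, map_inv, id_toC_diag, inv_one]
  exact mul_one (id_toC S L z)

/-- Classes whose ideal part is, up to a principal divisor, an ideal `a₀` with
`(extension of a₀) ^ m` principal in `L`, land in `C_S°(L)` after raising to the power `m`. -/
theorem ic_pow_mem_CSo (m : ℕ) (z : id_J S K) (a₀ : id_I S K) (t : Kˣ)
    (hz : z.2 = a₀ * id_div S K t) (y : Lˣ) (hy : id_Imap S K L a₀ ^ m = id_div S L y) :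
    id_Cmap S K L (id_toC S K z) ^ m ∈ id_CSo S L := by
  rw [id_Cmap_toC, ← map_pow]
  apply ic_toC_mem_CSo S L _ (y * id_unitsMap K L t ^ m)
  show (id_Jmap S K L z).2 ^ m = _
  rw [id_Jmap_snd, hz, map_mul, mul_pow, hy, id_Imap_div, ← map_pow, ← map_mul]

end generic

/-! ### `C_S°` is generated by the local components -/

section CSo

variable (S : Finset Nat.Primes) (K : Type u) [Field K] [NumberField K]

omit S K in
/-- The image of a product under a homomorphism is generated by the images of the factors. -/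
theorem ic_range_pi_le_iSup {ι : Type*} [Fintype ι] [DecidableEq ι] {M : ι → Type*}
    [∀ i, CommGroup (M i)] {H : Type*} [CommGroup H] (f : (∀ i, M i) →* H) :
    f.range ≤ ⨆ i, (f.comp (MonoidHom.mulSingle M i)).range := by
  rintro _ ⟨x, rfl⟩
  have h1 : x = ∏ i, Pi.mulSingle i (x i) := (Finset.univ_prod_mulSingle x).symm
  rw [h1, map_prod]
  refine Subgroup.prod_mem _ fun i _ => ?_
  exact Subgroup.mem_iSup_of_mem i ⟨x i, rfl⟩

open Classical in
/-- `C_S°(K)` is the subgroup generated by the images of the `j_q`, `q ∈ S` (this is `du_Co`). -/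
theorem ic_CSo_eq_iSup : id_CSo S K = ⨆ q : ↥S, (id_jq S K q).range := by
  apply le_antisymm
  · exact ic_range_pi_le_iSup (M := fun q : ↥S => (id_A K q.1)ˣ) (H := id_C S K) (id_jS S K)
  · rw [iSup_le_iff]
    rintro q _ ⟨a, rfl⟩
    exact ⟨id_inq S K q a, rfl⟩

end CSo

/-! ### The order homomorphism -/

section ord

variable (K : Type u) [Field K] [NumberField K]

/-- `ord_v` as a homomorphism `Kˣ →* Multiplicative ℤ`. -/
def ic_ordHom (v : HeightOneSpectrum (𝓞 K)) : Kˣ →* Multiplicative ℤ where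
  toFun x := Multiplicative.ofAdd (id_ordZ K v x)
  map_one' := by rw [id_ordZ_one]; rfl
  map_mul' x y := by rw [id_ordZ_mul]; rfl

theorem ic_ordHom_apply (v : HeightOneSpectrum (𝓞 K)) (x : Kˣ) :
    (ic_ordHom K v x).toAdd = id_ordZ K v x := rfl

theorem ic_ordZ_pow (v : HeightOneSpectrum (𝓞 K)) (x : Kˣ) (n : ℕ) :
    id_ordZ K v (x ^ n) = n * id_ordZ K v x := by
  rw [← ic_ordHom_apply, map_pow, toAdd_pow, ic_ordHom_apply, nsmul_eq_mul]

theorem ic_ordZ_zpow (v : HeightOneSpectrum (𝓞 K)) (x : Kˣ) (n : ℤ) :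
    id_ordZ K v (x ^ n) = n * id_ordZ K v x := by
  rw [← ic_ordHom_apply, map_zpow, toAdd_zpow, ic_ordHom_apply, smul_eq_mul]

theorem ic_ordZ_div (v : HeightOneSpectrum (𝓞 K)) (x y : Kˣ) :
    id_ordZ K v (x / y) = id_ordZ K v x - id_ordZ K v y := by
  rw [← ic_ordHom_apply, map_div, toAdd_div, ic_ordHom_apply, ic_ordHom_apply]

end ord

/-! ### Level fields -/

section level

open Fermat.Agent.S14.Reduction

variable (S : Finset Nat.Primes) (K : IntermediateField ℚ Qbar) [NumberField K]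

theorem ic_primeToS_iff (v : HeightOneSpectrum (𝓞 K)) :
    id_PrimeToS S K v ↔ v ∉ pl_primesOver K S := by
  rw [pl_mem_primesOver]
  constructor
  · rintro h ⟨q, hq, hqv⟩
    exact h q hq hqv
  · intro h q hq hqv
    exact h ⟨q, hq, hqv⟩

/-- **Dictionary.** If the prime-to-`S` divisor of `x ∈ Kˣ` is an `n`-th power, then `x` is locally
an `n`-th power up to units outside `S`, in the valuation-subring language of `Kummer/Unram`. -/
theorem ic_isLocalPow_of_div_eq_pow (n : ℕ) (x : (↥K)ˣ) (b : id_I S K)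
    (hx : id_div S K x = b ^ n) : ku_IsLocalPow S K n (((x : (↥K)ˣ) : ↥K) : Qbar) := by
  intro q hq A hA
  set v := pl_prime K A q.2 hA with hvdef
  have hv : id_PrimeToS S K v :=
    (ic_primeToS_iff S K v).2 (fun h => hq ((pl_prime_mem_primesOver_iff K A q hA).1 h))
  obtain ⟨π, hπ⟩ := id_exists_ordZ_eq_one (↥K) v
  let w : id_P S K := ⟨v, hv⟩
  set e : ℤ := b.toAdd w with he
  have hord : id_ordZ K v x = n * e := by
    have h1 := congrArg (fun c : id_I S K => c.toAdd w) hx
    have h2 : (id_div S K x).toAdd w = n • b.toAdd w := h1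
    rw [id_div_apply, nsmul_eq_mul] at h2
    exact h2
  set z : (↥K)ˣ := π ^ e with hz
  have hzord : id_ordZ K v z = e := by rw [hz, ic_ordZ_zpow, hπ, mul_one]
  have h1 : v.valuation K (((x / z ^ n : (↥K)ˣ) : (↥K)ˣ) : ↥K) = 1 := by
    rw [← id_ordZ_eq_zero_iff, ic_ordZ_div, ic_ordZ_pow, hord, hzord, sub_self]
  have h2 := (pl_valuation_eq_one_iff K A q.2 hA _).1 h1
  refine ⟨(((z : (↥K)ˣ) : ↥K) : Qbar), ((z : (↥K)ˣ) : ↥K).2, ?_, ?_⟩
  · intro h0
    exact z.ne_zero (Subtype.ext h0)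
  · have h3 : ((((x / z ^ n : (↥K)ˣ) : (↥K)ˣ) : ↥K) : Qbar) =
        (((x : (↥K)ˣ) : ↥K) : Qbar) / ((((z : (↥K)ˣ) : ↥K) : Qbar)) ^ n := by
      simp
    rw [h3, map_div₀, map_pow] at h2
    have hne : A.valuation ((((z : (↥K)ˣ) : ↥K) : Qbar)) ^ n ≠ 0 := by
      apply pow_ne_zero
      rw [Valuation.ne_zero_iff]
      intro h0
      exact z.ne_zero (Subtype.ext h0)
    rw [div_eq_one_iff_eq hne] at h2
    exact h2

/-- **(G-cap).** For a level field `K` (unramified outside `S ∋ p`) there are a normal level field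
`L2 ⊇ K` and an integer `m` prime to `p` (the prime-to-`p` part of `|Cl_S(K)|`) such that the
`m`-th power of the image in `C_S(L2)` of any class of `C_S(K)` lies in `C_S°(L2)`. -/
theorem ic_cap (p : Nat.Primes) (hpS : p ∈ S) (hK : K.IsUnramifiedOutside S) :
    ∃ L2 : IntermediateField ℚ Qbar, K ≤ L2 ∧ L2.IsUnramifiedOutside S ∧ Normal ℚ L2 ∧
      ∃ m : ℕ, ¬ (p : ℕ) ∣ m ∧ ∀ [NumberField L2] [Algebra K L2],
        (∀ x : K, ((algebraMap K L2 x : L2) : Qbar) = (x : Qbar)) →
          ∀ c : id_C S K, id_Cmap S K L2 c ^ m ∈ id_CSo S L2 := by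
  classical
  let _ : Fintype (id_ClS S K) := Fintype.ofFinite _
  have hh : Nat.card (id_ClS S K) ≠ 0 := Nat.card_pos.ne'
  obtain ⟨k, m, hm, hkm⟩ := Nat.exists_eq_pow_mul_and_not_dvd hh (p : ℕ) p.2.ne_one
  -- representatives of the classes
  have hrep : ∀ γ : id_ClS S K, ∃ a : id_I S K, (QuotientGroup.mk a : id_ClS S K) = γ :=
    QuotientGroup.mk_surjective
  choose a ha using hrep
  have hx : ∀ γ : id_ClS S K, ∃ x : (↥K)ˣ, id_div S K x = a γ ^ ((p : ℕ) ^ k * m) := by
    intro γ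
    have h1 : ((QuotientGroup.mk (a γ ^ Nat.card (id_ClS S K)) : id_ClS S K)) = 1 := by
      rw [QuotientGroup.mk_pow, ha]
      exact pow_card_eq_one'
    rw [QuotientGroup.eq_one_iff, hkm] at h1
    exact h1
  choose x hx using hx
  let X : Finset Qbar := Finset.univ.image (fun γ : id_ClS S K => (((x γ : (↥K)ˣ) : ↥K) : Qbar))
  obtain ⟨L2, hle, hL2, hnorm, hroots, -⟩ := ku_exists_levelField hpS hK k X
    (fun y hy => by
      obtain ⟨γ, -, rfl⟩ := Finset.mem_image.1 hy
      exact ((x γ : (↥K)ˣ) : ↥K).2)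
    (fun y hy => by
      obtain ⟨γ, -, rfl⟩ := Finset.mem_image.1 hy
      exact ic_isLocalPow_of_div_eq_pow S K _ (x γ) (a γ ^ m) (by rw [hx, pow_mul, pow_right_comm]))
  refine ⟨L2, hle, hL2, hnorm, m, hm, ?_⟩
  intro _ _ hcompat c
  obtain ⟨z, rfl⟩ := id_toC_surjective S K c
  set γ : id_ClS S K := QuotientGroup.mk z.2 with hγ
  have h1 : (QuotientGroup.mk (a γ) : id_ClS S K) = QuotientGroup.mk z.2 := ha γ
  rw [QuotientGroup.eq] at h1
  obtain ⟨t, ht⟩ := h1
  obtain ⟨y, hy⟩ := IsAlgClosed.exists_pow_nat_eq ((((x γ : (↥K)ˣ) : ↥K)) : Qbar)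
    (pow_pos p.2.pos k)
  have hyL : y ∈ L2 := hroots _ (Finset.mem_image_of_mem _ (Finset.mem_univ γ)) y hy
  have hy0 : (⟨y, hyL⟩ : ↥L2) ≠ 0 := by
    intro h0
    have h1 : y = 0 := congrArg (fun w : ↥L2 => (w : Qbar)) h0
    rw [h1, zero_pow (pow_ne_zero k p.2.ne_zero)] at hy
    exact (x γ).ne_zero (Subtype.ext hy.symm)
  have hy' : (Units.mk0 (⟨y, hyL⟩ : ↥L2) hy0) ^ ((p : ℕ) ^ k) = id_unitsMap K L2 (x γ) := by
    apply Units.ext
    apply Subtype.ext
    rw [Units.val_pow_eq_pow_val, Units.val_mk0, id_unitsMap_coe, hcompat]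
    exact hy
  refine ic_pow_mem_CSo S K L2 m z (a γ) t ?_ (Units.mk0 (⟨y, hyL⟩ : ↥L2) hy0)
    (ic_Imap_pow_eq_div S K L2 (pow_ne_zero k p.2.ne_zero) (a γ) (x γ) (hx γ) _ hy')
  rw [ht, mul_inv_cancel_left]

end level

end Fermat.Agent.S55
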