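import Fermat.Agent.S55.Idele.Seam
import Fermat.Agent.S55.Idele.Capitulation

/-!
# S55 / block [G]: the capitulation input `hcap` of `id_seam` (prefix `isc_`)

* `isc_cap` : the cofinal form of `ic_cap` (Idele/Capitulation.lean): for a level field `K` there
  are a level field `L2 ⊇ K` and `m` prime to `p` such that for EVERY number field `L3 ⊇ L2`
  inside `ℚ̄` the `m`-th power of the image in `C_S(L3)` of any class of `C_S(K)` lies in
  `C_S°(L3)` (same proof as `ic_cap`: only the `p^k`-th roots contained in `L2` are used);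
* `isc_mem_du_Co` : `C_S°` in the additive language of the seam (`du_Co (id_ldData ..)`);
* **`isc_hcap`** : the hypothesis `hcap` of `id_seam`, verbatim.
-/

set_option autoImplicit false
set_option linter.unusedSectionVars false
set_option linter.style.haveILetI false

open scoped NumberField
open IsDedekindDomain CategoryTheory ExtCitation

noncomputable section

namespace Fermat.Agent.S55

local notation "Qbar" => AlgebraicClosure ℚ

section level

variable (S : Finset Nat.Primes) (K : IntermediateField ℚ Qbar) [NumberField K]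

/-- **(G-cap), cofinal form.** For a level field `K` (unramified outside `S ∋ p`) there are a normal
level field `L2 ⊇ K` and an integer `m` prime to `p` such that, for every number field
`L3 ⊇ L2` inside `ℚ̄`, the `m`-th power of the image in `C_S(L3)` of any class of `C_S(K)` lies
in `C_S°(L3)`. -/
theorem isc_cap (p : Nat.Primes) (hpS : p ∈ S) (hK : K.IsUnramifiedOutside S) :
    ∃ L2 : IntermediateField ℚ Qbar, K ≤ L2 ∧ L2.IsUnramifiedOutside S ∧ Normal ℚ L2 ∧
      ∃ m : ℕ, ¬ (p : ℕ) ∣ m ∧ ∀ (L3 : IntermediateField ℚ Qbar), L2 ≤ L3 →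
        ∀ [NumberField L3] [Algebra K L3],
        (∀ x : K, ((algebraMap K L3 x : L3) : Qbar) = (x : Qbar)) →
          ∀ c : id_C S K, id_Cmap S K L3 c ^ m ∈ id_CSo S L3 := by
  classical
  let _ : Fintype (id_ClS S K) := Fintype.ofFinite _
  have hh : Nat.card (id_ClS S K) ≠ 0 := Nat.card_pos.ne'
  obtain ⟨k, m, hm, hkm⟩ := Nat.exists_eq_pow_mul_and_not_dvd hh (p : ℕ) p.2.ne_one
  -- representatives of the classes
  have hrep : ∀ γ : id_ClS S K, ∃ a : id_I S K, (QuotientGroup.mk a : id_ClS S K) = γ :=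
    QuotientGroup.mk_surjective
  choose a ha using hrep
  have hx : ∀ γ : id_ClS S K, ∃ x : (↥K)ˣ, id_div S K x = a γ ^ ((p : ℕ) ^ k * m) := by
    intro γ
    have h1 : ((QuotientGroup.mk (a γ ^ Nat.card (id_ClS S K)) : id_ClS S K)) = 1 := by
      rw [QuotientGroup.mk_pow, ha]
      exact pow_card_eq_one'
    rw [QuotientGroup.eq_one_iff, hkm] at h1
    exact h1
  choose x hx using hx
  let X : Finset Qbar := Finset.univ.image (fun γ : id_ClS S K => (((x γ : (↥K)ˣ) : ↥K) : Qbar))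
  obtain ⟨L2, hle, hL2, hnorm, hroots, -⟩ := ku_exists_levelField hpS hK k X
    (fun y hy => by
      obtain ⟨γ, -, rfl⟩ := Finset.mem_image.1 hy
      exact ((x γ : (↥K)ˣ) : ↥K).2)
    (fun y hy => by
      obtain ⟨γ, -, rfl⟩ := Finset.mem_image.1 hy
      exact ic_isLocalPow_of_div_eq_pow S K _ (x γ) (a γ ^ m) (by rw [hx, pow_mul, pow_right_comm]))
  refine ⟨L2, hle, hL2, hnorm, m, hm, ?_⟩
  intro L3 hL23 _ _ hcompat c
  obtain ⟨z, rfl⟩ := id_toC_surjective S K c
  set γ : id_ClS S K := QuotientGroup.mk z.2 with hγ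
  have h1 : (QuotientGroup.mk (a γ) : id_ClS S K) = QuotientGroup.mk z.2 := ha γ
  rw [QuotientGroup.eq] at h1
  obtain ⟨t, ht⟩ := h1
  obtain ⟨y, hy⟩ := IsAlgClosed.exists_pow_nat_eq ((((x γ : (↥K)ˣ) : ↥K)) : Qbar)
    (pow_pos p.2.pos k)
  have hyL : y ∈ L3 := hL23 (hroots _ (Finset.mem_image_of_mem _ (Finset.mem_univ γ)) y hy)
  have hy0 : (⟨y, hyL⟩ : ↥L3) ≠ 0 := by
    intro h0
    have h1 : y = 0 := congrArg (fun w : ↥L3 => (w : Qbar)) h0
    rw [h1, zero_pow (pow_ne_zero k p.2.ne_zero)] at hy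
    exact (x γ).ne_zero (Subtype.ext hy.symm)
  have hy' : (Units.mk0 (⟨y, hyL⟩ : ↥L3) hy0) ^ ((p : ℕ) ^ k) = id_unitsMap K L3 (x γ) := by
    apply Units.ext
    apply Subtype.ext
    rw [Units.val_pow_eq_pow_val, Units.val_mk0, id_unitsMap_coe, hcompat]
    exact hy
  refine ic_pow_mem_CSo S K L3 m z (a γ) t ?_ (Units.mk0 (⟨y, hyL⟩ : ↥L3) hy0)
    (ic_Imap_pow_eq_div S K L3 (pow_ne_zero k p.2.ne_zero) (a γ) (x γ) (hx γ) _ hy')
  rw [ht, mul_inv_cancel_left]

end level

section seam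

variable {S : Finset Nat.Primes} (p : ℕ) [Fact p.Prime]

/-- `C_S°(b)` in the additive language of the seam: the additive form of an element of `id_CSo`
lies in `du_Co` of the one-level data. -/
theorem isc_mem_du_Co (b : du_Lev S) (P : PClassModule p (id_CRep S b.L))
    (hsum : ∀ (q : ↥S) (z : groupCohomology (id_ARep b.L q.1) 2), tt_IsPPrimary p z →
      P.invTop ((tt_coeffMap (id_jqRep S b.L q) 2).hom z) =
        (id_levPq p b q.1).invTop ((tt_coeffMap (il_pr q.1 b.L) 2).hom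
          ((tt_resMap (il_D (q.1 : ℕ) b.L) (id_ARep b.L q.1) 2).hom z)))
    (c : id_C S b.L) (hc : c ∈ id_CSo S b.L) :
    (Additive.ofMul c : (id_CRep S b.L).V) ∈ du_Co (id_ldData p b P hsum) := by
  obtain ⟨X, rfl⟩ := hc
  have h1 := ie_sum_jq S b.L (fun q : ↥S => (Additive.ofMul (X q) : (id_ARep b.L q.1).V))
  have h2 : (Additive.ofMul (id_jS S b.L X) : (id_CRep S b.L).V) =
      ∑ q, (id_jqRep S b.L q).hom (Additive.ofMul (X q) : (id_ARep b.L q.1).V) := h1.symm
  rw [h2]
  have h3 : ∀ q : ↥S, (id_jqRep S b.L q).hom (Additive.ofMul (X q) : (id_ARep b.L q.1).V) ∈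
      du_Co (id_ldData p b P hsum) := fun q =>
    AddSubgroup.mem_iSup_of_mem (S := fun q : ↥S =>
      ((id_ldData p b P hsum).j q).hom.toAddMonoidHom.range) q ⟨_, rfl⟩
  exact (du_Co (id_ldData p b P hsum)).sum_mem fun q _ => h3 q

/-- **The hypothesis `hcap` of `id_seam`** (capitulation), from `ic_cap`/`isc_cap`. -/
theorem isc_hcap (hpS : pPrime p ∈ S) (P : ∀ a : du_Lev S, PClassModule p (id_CRep S a.L))
    (hsum : ∀ (a : du_Lev S) (q : ↥S) (z : groupCohomology (id_ARep a.L q.1) 2),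
      tt_IsPPrimary p z →
      (P a).invTop ((tt_coeffMap (id_jqRep S a.L q) 2).hom z) =
        (id_levPq p a q.1).invTop ((tt_coeffMap (il_pr q.1 a.L) 2).hom
          ((tt_resMap (il_D (q.1 : ℕ) a.L) (id_ARep a.L q.1) 2).hom z))) :
    ∀ a : du_Lev S, ∃ b : du_Lev S, ∃ h : a ≤ b, ∀ c : (id_CRep S a.L).V,
      ∃ n : ℕ, ¬ p ∣ n ∧ n • id_tC h c ∈ du_Co (id_ldData p b (P b) (hsum b)) := by
  intro a
  obtain ⟨L2, hle, hL2, -, m, hm, H⟩ := isc_cap S a.L (pPrime p) hpS a.unr
  obtain ⟨b, hb⟩ := du_Lev.exists_ge_field L2 hL2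
  have h : a ≤ b := le_trans (α := IntermediateField ℚ Qbar) hle hb
  refine ⟨b, h, fun c => ⟨m, hm, ?_⟩⟩
  letI := id_levAlgebra h
  have h1 : id_Cmap S a.L b.L (Additive.toMul c) ^ m ∈ id_CSo S b.L :=
    H b.L hb (fun _ => rfl) (Additive.toMul c)
  exact isc_mem_du_Co p b (P b) (hsum b) _ h1

end seam

end Fermat.Agent.S55
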