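import Fermat.Agent.S55.Idele.AbsNorm
import Fermat.Agent.S55.Tate.ReciprocityDual
import Fermat.Agent.S55.Tate.ReciprocityRelNorm

/-!
# S55, block G5 (G-abs): the equality (E2) for a Kummer layer of field levels (prefix `ia_`)

`K ≤ b` field levels for `T`, `G = Gal(b/K)` commutative of exponent `p`, `P` a `p`-class module
structure on `C_T(b)`.  If `|G|` is the index of `p • C_T(K)` in `C_T(K)` then
`N_G C_T(b) = t (p • C_T(K))` (`ia_E2`).

Dictionary between the `e2_` language (sums over `Finset.univ.filter (· ∈ G)`, invariants under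
`g ∈ G`) and the `rcp_` language on the layer `tt_res G C`.
-/

set_option autoImplicit false
set_option linter.style.haveILetI false
set_option linter.unusedSectionVars false

open CategoryTheory

noncomputable section

namespace Fermat.Agent.S55

section dict

variable {Γ : Type} [Group Γ] [Fintype Γ] (G : Subgroup Γ) [Fintype ↥G] (C : Rep.{0} ℤ Γ)

/-- Invariants: `e2_` form = `rcp_` form on the layer. -/
theorem ia_inv_eq : e2_inv G C = rcp_inv (tt_res G C) := by
  ext c
  constructor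
  · intro hc g
    exact hc g.1 g.2
  · intro hc g hg
    exact hc ⟨g, hg⟩

/-- Norm: `e2_` form = `rcp_` form on the layer. -/
theorem ia_nrm_eq (c : C.V) : e2_nrm G C c = rcp_norm (tt_res G C) c := by
  rw [ia_nrm_eq_sum, rcp_norm_apply]
  rfl

theorem ia_norms_eq : e2_norms G C = rcp_norms (tt_res G C) := by
  ext c
  constructor
  · rintro ⟨a, rfl⟩
    exact ⟨a, (ia_nrm_eq G C a).symm⟩
  · rintro ⟨a, rfl⟩
    exact ⟨a, ia_nrm_eq G C a⟩

end dict

section E2

variable {Γ : Type} [Group Γ] [Fintype Γ] {p : ℕ} [Fact p.Prime] {C : Rep.{0} ℤ Γ}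

/-- For a commutative layer `G` of exponent `p`: `p` kills `C^G / N_G C` and
`|C^G / N_G C| = |G|`. -/
theorem ia_layer_count (P : PClassModule p C) (G : Subgroup Γ)
    (hexp : ∀ g ∈ G, g ^ p = 1) (hcomm : ∀ g ∈ G, ∀ g' ∈ G, g * g' = g' * g) :
    (∀ c ∈ e2_inv G C, ∃ a, p • c = e2_nrm G C a) ∧
      (e2_norms G C).relIndex (e2_inv G C) = Nat.card ↥G := by
  classical
  letI : Fintype ↥G := Fintype.ofFinite _
  have hpG : IsPGroup p ↥G := by
    intro g
    refine ⟨1, ?_⟩
    rw [pow_one]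
    exact Subtype.ext (by rw [Subgroup.coe_pow]; exact hexp g.1 g.2)
  have hcomm' : IsMulCommutative ↥G :=
    ⟨⟨fun g g' => Subtype.ext (hcomm g.1 g.2 g'.1 g'.2)⟩⟩
  have hcom : commutator ↥G = ⊥ := (commutator_eq_bot_iff ↥G).2 hcomm'
  constructor
  · intro c hc
    rw [ia_inv_eq] at hc
    have h1 := rcp_exponent_smul_mem_pGroup (P.restrict G) hpG p (fun g => by
      have : g ^ p = 1 := Subtype.ext (by rw [Subgroup.coe_pow]; exact hexp g.1 g.2)
      rw [this]; exact one_mem _) hc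
    obtain ⟨a, ha⟩ := h1
    exact ⟨a, by rw [ia_nrm_eq]; exact ha.symm⟩
  · rw [ia_inv_eq, ia_norms_eq]
    have h2 := (rcp_card_quot_pGroup (P.restrict G) hpG).2
    rw [AddSubgroup.relIndex, AddSubgroup.index, h2]
    show Nat.card (↥G ⧸ commutator ↥G) = Nat.card ↥G
    rw [hcom]
    exact (Subgroup.index_bot (G := ↥G))

end E2

section fields

variable {T : Finset Nat.Primes} {p : ℕ} [Fact p.Prime]

/-- **(E2)** for a Kummer layer `b/K` of field levels: if `G = Gal(b/K)` is commutative of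
exponent `p` and `|G|` is the index of `p • C_T(K)`, the norm group `N_G C_T(b)` is exactly the
image of `p • C_T(K)`. -/
theorem ia_E2 (hT : T.Nonempty) {K b : ia_Lev T} (h : K ≤ b)
    (P : PClassModule p (id_CRep T b.L))
    (hexp : ∀ g ∈ b.rel K, g ^ p = 1) (hcomm : ∀ g ∈ b.rel K, ∀ g' ∈ b.rel K, g * g' = g' * g)
    (hcard : (e2_pow (id_CRep T K.L).V p).index = Nat.card ↥(b.rel K)) :
    (∀ c, ∃ d, e2_nrm (b.rel K) (id_CRep T b.L) c = ia_tC h (p • d)) ∧
      ∀ d, ∃ c, e2_nrm (b.rel K) (id_CRep T b.L) c = ia_tC h (p • d) := by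
  obtain ⟨hkill, hidx⟩ := ia_layer_count P (b.rel K) hexp hcomm
  refine e2_norm_eq_forall (e2_norm_eq (ia_tC h) (ia_tC_inj hT h) ?_ ?_ p hkill
    (Nat.card ↥(b.rel K)) Nat.card_pos.ne' hidx hcard)
  · intro c hc
    exact ia_tC_range hT h c hc
  · intro c₀ g hg
    exact ia_tC_fixed h hg c₀

end fields

end Fermat.Agent.S55
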