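import Fermat.Agent.S55.Dual.AbsReduce
import Fermat.Agent.S55.Idele.Comparison
import Fermat.Agent.S55.Idele.LevelTransition

/-!
# S55 / block [G5]: the counting step (E2) of (G-abs) in abstract form, and the comparison
map against norms (prefix `e2_`)

* `e2_eq_map_of_relIndex`: pure group theory.  If `N ≤ I = tC(C₀)` (`tC` injective), `p` kills
  `I / N` and `|I / N| = |C₀ / p C₀| ≠ 0`, then `N = tC (p • C₀)`.
* `e2_norm_eq`: the same for a representation `C` of a finite group `Γ` and a subgroup `G`, with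
  `I = C^G` and `N = N_G C` (norm in the shape of `ar_N`).
* `e2_tower`: the same for an `ar_Tower` and the norm `ar_N`.
* `e2_kappa`: the comparison map `icm_C` in `Rep`-additive form; it commutes with the action,
  with finite sums over group elements (norms), and with the transition maps.
* `e2_push`, `e2_push_lev`: the last step of (E1'), pushing an inclusion of norm groups from
  `C_T` to `C_S` along the comparison map.
-/

set_option autoImplicit false
set_option linter.style.haveILetI false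
set_option linter.unusedSectionVars false

open CategoryTheory

namespace Fermat.Agent.S55

local notation "Qbar" => AlgebraicClosure ℚ
local notation "GQ" => (AlgebraicClosure ℚ ≃ₐ[ℚ] AlgebraicClosure ℚ)

/-! ### (A) pure group theory -/

section pure

variable {C C₀ : Type*} [AddCommGroup C] [AddCommGroup C₀]

/-- `p • C₀` as a subgroup. -/
abbrev e2_pow (C₀ : Type*) [AddCommGroup C₀] (p : ℕ) : AddSubgroup C₀ :=
  (nsmulAddMonoidHom p : C₀ →+ C₀).range

theorem e2_mem_pow {p : ℕ} (x : C₀) : x ∈ e2_pow C₀ p ↔ ∃ d : C₀, p • d = x := Iff.rfl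

/-- Two nested subgroups of the same nonzero relative index in `I` coincide. -/
theorem e2_eq_of_le_of_relIndex {P N I : AddSubgroup C} (hPN : P ≤ N) (hNI : N ≤ I)
    (h : P.relIndex I = N.relIndex I) (h0 : N.relIndex I ≠ 0) : P = N := by
  have h1 := AddSubgroup.relIndex_mul_relIndex P N I hPN hNI
  rw [h] at h1
  have h2 : P.relIndex N = 1 := by
    have : P.relIndex N * N.relIndex I = 1 * N.relIndex I := by rw [h1, one_mul]
    exact Nat.eq_of_mul_eq_mul_right (Nat.pos_of_ne_zero h0) this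
  exact le_antisymm hPN (AddSubgroup.relIndex_eq_one.1 h2)

/-- **(E2), pure group form.** -/
theorem e2_eq_map_of_relIndex (tC : C₀ →+ C) (htC : Function.Injective tC) (I N : AddSubgroup C)
    (hI : I = tC.range) (hNI : N ≤ I) (p : ℕ) (hkill : ∀ c ∈ I, p • c ∈ N)
    (hcard : N.relIndex I = (e2_pow C₀ p).index) (h0 : (e2_pow C₀ p).index ≠ 0) :
    N = (e2_pow C₀ p).map tC := by
  have hPN : (e2_pow C₀ p).map tC ≤ N := by
    rintro _ ⟨_, ⟨d, rfl⟩, rfl⟩
    have : tC (nsmulAddMonoidHom p d) = p • tC d := map_nsmul tC p d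
    rw [this]
    exact hkill _ (hI ▸ ⟨d, rfl⟩)
  have hPI : ((e2_pow C₀ p).map tC).relIndex I = (e2_pow C₀ p).index := by
    rw [hI, AddMonoidHom.range_eq_map, AddSubgroup.relIndex_map_map_of_injective _ _ htC,
      AddSubgroup.relIndex_top_right]
  exact (e2_eq_of_le_of_relIndex hPN hNI (hPI.trans hcard.symm) (hcard ▸ h0)).symm

/-- Variant with the common value `g` of the two cardinalities. -/
theorem e2_eq_map_of_card (tC : C₀ →+ C) (htC : Function.Injective tC) (I N : AddSubgroup C)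
    (hI : I = tC.range) (hNI : N ≤ I) (p : ℕ) (hkill : ∀ c ∈ I, p • c ∈ N) (g : ℕ) (hg : g ≠ 0)
    (hcard : Nat.card (↥I ⧸ N.addSubgroupOf I) = g) (hcard' : (e2_pow C₀ p).index = g) :
    N = (e2_pow C₀ p).map tC :=
  e2_eq_map_of_relIndex tC htC I N hI hNI p hkill (hcard.trans hcard'.symm) (hcard'.symm ▸ hg)

end pure

/-! ### (B) representation form -/

section rep

universe w v

variable {Γ : Type v} [Group Γ] [Fintype Γ] (G : Subgroup Γ) (C : Rep.{w} ℤ Γ)

/-- The `G`-invariants of `C`. -/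
def e2_inv : AddSubgroup C.V where
  carrier := {c | ∀ g ∈ G, C.ρ g c = c}
  zero_mem' := fun g _ => map_zero _
  add_mem' := by
    intro a b ha hb g hg
    rw [map_add, ha g hg, hb g hg]
  neg_mem' := by
    intro a ha g hg
    rw [map_neg, ha g hg]

theorem e2_mem_inv (c : C.V) : c ∈ e2_inv G C ↔ ∀ g ∈ G, C.ρ g c = c := Iff.rfl

open Classical in
/-- The norm `N_G` on `C` (shape of `ar_N`). -/
noncomputable def e2_nrm : C.V →+ C.V :=
  ∑ h ∈ Finset.univ.filter (fun h : Γ => h ∈ G), ((C.ρ h : C.V →ₗ[ℤ] C.V) : C.V →+ C.V)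

open Classical in
theorem e2_nrm_apply (c : C.V) :
    e2_nrm G C c = ∑ h ∈ Finset.univ.filter (fun h : Γ => h ∈ G), C.ρ h c := by
  unfold e2_nrm
  rw [AddMonoidHom.finsetSum_apply]
  rfl

theorem e2_nrm_mem_inv (c : C.V) : e2_nrm G C c ∈ e2_inv G C := by
  classical
  intro g hg
  rw [e2_nrm_apply, map_sum]
  refine Finset.sum_nbij' (fun h => g * h) (fun h => g⁻¹ * h) ?_ ?_ ?_ ?_ ?_
  · intro h hh
    simp only [Finset.mem_filter, Finset.mem_univ, true_and] at hh ⊢
    exact mul_mem hg hh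
  · intro h hh
    simp only [Finset.mem_filter, Finset.mem_univ, true_and] at hh ⊢
    exact mul_mem (inv_mem hg) hh
  · intro h _
    simp
  · intro h _
    simp
  · intro h _
    rw [map_mul]
    rfl

/-- The subgroup of norms `N_G C`. -/
noncomputable def e2_norms : AddSubgroup C.V := (e2_nrm G C).range

theorem e2_norms_le_inv : e2_norms G C ≤ e2_inv G C := by
  rintro _ ⟨c, rfl⟩
  exact e2_nrm_mem_inv G C c

variable {G C}

/-- **(E2), representation form.** -/
theorem e2_norm_eq {C₀ : Type*} [AddCommGroup C₀] (tC : C₀ →+ C.V) (htC : Function.Injective tC)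
    (hrange : ∀ c ∈ e2_inv G C, ∃ c₀, tC c₀ = c) (hfix : ∀ c₀, tC c₀ ∈ e2_inv G C) (p : ℕ)
    (hkill : ∀ c ∈ e2_inv G C, ∃ a, p • c = e2_nrm G C a) (g : ℕ) (hg : g ≠ 0)
    (hcard : (e2_norms G C).relIndex (e2_inv G C) = g) (hcard' : (e2_pow C₀ p).index = g) :
    e2_norms G C = (e2_pow C₀ p).map tC := by
  refine e2_eq_map_of_relIndex tC htC (e2_inv G C) (e2_norms G C) ?_ (e2_norms_le_inv G C) p ?_
    (hcard.trans hcard'.symm) (hcard'.symm ▸ hg)
  · ext c
    constructor
    · intro hc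
      obtain ⟨c₀, rfl⟩ := hrange c hc
      exact ⟨c₀, rfl⟩
    · rintro ⟨c₀, rfl⟩
      exact hfix c₀
  · intro c hc
    obtain ⟨a, ha⟩ := hkill c hc
    exact ⟨a, ha.symm⟩

theorem e2_norm_eq_forall {C₀ : Type*} [AddCommGroup C₀] {tC : C₀ →+ C.V} {p : ℕ}
    (h : e2_norms G C = (e2_pow C₀ p).map tC) :
    (∀ c, ∃ d : C₀, e2_nrm G C c = tC (p • d)) ∧ ∀ d : C₀, ∃ c, e2_nrm G C c = tC (p • d) := by
  constructor
  · intro c
    have : e2_nrm G C c ∈ (e2_pow C₀ p).map tC := h ▸ ⟨c, rfl⟩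
    obtain ⟨_, ⟨d, rfl⟩, hd⟩ := this
    exact ⟨d, hd.symm⟩
  · intro d
    have : tC (p • d) ∈ e2_norms G C := h ▸ ⟨p • d, ⟨d, rfl⟩, rfl⟩
    obtain ⟨c, hc⟩ := this
    exact ⟨c, hc⟩

end rep

/-! ### (C) tower form -/

section tower

variable {p : ℕ} {S : Finset Nat.Primes} (𝔗 : ar_Tower p S)

theorem e2_ar_N_eq (a K : du_Lev S) (c : (𝔗.dat a).C.V) :
    ar_N 𝔗 a K c = e2_nrm (a.rel K) (𝔗.dat a).C c := by
  rw [e2_nrm_apply]
  rfl

theorem e2_tC_mem_inv {K a : du_Lev S} (h : K ≤ a) (d : (𝔗.dat K).C.V) :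
    𝔗.tC h d ∈ e2_inv (a.rel K) (𝔗.dat a).C := by
  rintro _ ⟨σ, hσ, rfl⟩
  rw [← 𝔗.tC_equiv h σ d]
  congr 1
  have : K.q σ = 1 := (K.q_eq_one_iff σ).2 hσ
  rw [this, map_one]
  rfl

theorem e2_exists_of_mem_inv {K a : du_Lev S} (h : K ≤ a) (c : (𝔗.dat a).C.V)
    (hc : c ∈ e2_inv (a.rel K) (𝔗.dat a).C) : ∃ d, 𝔗.tC h d = c :=
  𝔗.tC_range h c (fun σ hσ => hc _ ⟨σ, hσ, rfl⟩)

/-- **(E2), tower form**: if `p` kills `C(a)^G / N_G C(a)`, `G = Gal(a/K)`, and
`|C(a)^G / N_G| = |C(K) / p| ≠ 0`, then `N_{a/K} C(a) = tC (p • C(K))`. -/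
theorem e2_tower {K a : du_Lev S} (h : K ≤ a)
    (hkill : ∀ c : (𝔗.dat a).C.V, (∀ g ∈ a.rel K, (𝔗.dat a).C.ρ g c = c) →
      ∃ x, p • c = ar_N 𝔗 a K x) (g : ℕ) (hg : g ≠ 0)
    (hcard : (e2_norms (a.rel K) (𝔗.dat a).C).relIndex (e2_inv (a.rel K) (𝔗.dat a).C) = g)
    (hcard' : (e2_pow (𝔗.dat K).C.V p).index = g) :
    (∀ c, ∃ d : (𝔗.dat K).C.V, ar_N 𝔗 a K c = 𝔗.tC h (p • d)) ∧
      ∀ d : (𝔗.dat K).C.V, ∃ c, ar_N 𝔗 a K c = 𝔗.tC h (p • d) := by
  have h1 := e2_norm_eq (G := a.rel K) (C := (𝔗.dat a).C) (𝔗.tC h) (𝔗.tC_inj h)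
    (fun c hc => e2_exists_of_mem_inv 𝔗 h c hc) (fun d => e2_tC_mem_inv 𝔗 h d) p
    (fun c hc => by
      obtain ⟨x, hx⟩ := hkill c hc
      exact ⟨x, hx.trans (e2_ar_N_eq 𝔗 a K x)⟩) g hg hcard hcard'
  obtain ⟨h2, h3⟩ := e2_norm_eq_forall h1
  refine ⟨fun c => ?_, fun d => ?_⟩
  · obtain ⟨d, hd⟩ := h2 c
    exact ⟨d, (e2_ar_N_eq 𝔗 a K c).trans hd⟩
  · obtain ⟨c, hc⟩ := h3 d
    exact ⟨c, (e2_ar_N_eq 𝔗 a K c).trans hc⟩

/-- **Norms and transition maps.**  For levels `K ≤ L ≤ a` and a set `s` of representatives in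
`Gal(a/ℚ)` of `Gal(L/K)` (i.e. restriction maps `s` bijectively onto `Gal(L/K)`), the sum
`∑_{t ∈ s} t (tC c)` is `tC (N_{L/K} c)`. -/
theorem e2_sum_tC {K L a : du_Lev S} (hLa : L ≤ a) (s : Finset a.Γ)
    (hs : Set.BijOn (du_Lev.res hLa) (s : Set a.Γ) (L.rel K : Set L.Γ)) (c : (𝔗.dat L).C.V) :
    ∑ t ∈ s, (𝔗.dat a).C.ρ t (𝔗.tC hLa c) = 𝔗.tC hLa (ar_N 𝔗 L K c) := by
  classical
  have hρ : ∀ t : a.Γ, (𝔗.dat a).C.ρ t (𝔗.tC hLa c) =
      𝔗.tC hLa ((𝔗.dat L).C.ρ (du_Lev.res hLa t) c) := by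
    intro t
    obtain ⟨σ, rfl⟩ := a.q_surjective t
    rw [du_Lev.res_q, 𝔗.tC_equiv hLa σ c]
  unfold ar_N
  rw [map_sum]
  refine Finset.sum_bij (fun t _ => du_Lev.res hLa t) ?_ ?_ ?_ ?_
  · intro t ht
    simp only [Finset.mem_filter, Finset.mem_univ, true_and]
    exact hs.mapsTo ht
  · intro t ht t' ht' h
    exact hs.injOn ht ht' h
  · intro g hg
    simp only [Finset.mem_filter, Finset.mem_univ, true_and] at hg
    obtain ⟨t, ht, rfl⟩ := hs.surjOn hg
    exact ⟨t, ht, rfl⟩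
  · intro t _
    exact hρ t

end tower

/-! ### (D) the comparison map against the action, norms and transition maps -/

section comparison

open scoped TensorProduct NumberField nonZeroDivisors Pointwise

universe u

variable {S T : Finset Nat.Primes} (hST : S ⊆ T)

/-- The comparison map `C_T(K) → C_S(K)` in additive (`Rep`) form. -/
noncomputable def e2_kappa (K : Type u) [Field K] [NumberField K] :
    (id_CRep T K).V →+ (id_CRep S K).V :=
  (MonoidHom.toAdditive (icm_C K hST) : Additive (id_C T K) →+ Additive (id_C S K))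

/-- The transition map `C_S(K) → C_S(L)` in additive (`Rep`) form, for an arbitrary extension of
number fields (`id_tC h` is the case of two levels). -/
noncomputable def e2_tCf (S : Finset Nat.Primes) (K L : Type u) [Field K] [NumberField K] [Field L]
    [NumberField L] [Algebra K L] : (id_CRep S K).V →+ (id_CRep S L).V :=
  (MonoidHom.toAdditive (id_Cmap S K L) : Additive (id_C S K) →+ Additive (id_C S L))

theorem e2_tCf_apply (S : Finset Nat.Primes) (K L : Type u) [Field K] [NumberField K] [Field L]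
    [NumberField L] [Algebra K L] (c : id_C S K) :
    e2_tCf S K L (Additive.ofMul c) = Additive.ofMul (id_Cmap S K L c) := rfl

theorem e2_tCf_eq_tC {a b : du_Lev S} (h : a ≤ b) :
    letI := id_levAlgebra h
    e2_tCf S a.L b.L = id_tC h := rfl

theorem e2_tCf_trans (S : Finset Nat.Primes) (K L L' : Type u) [Field K] [NumberField K] [Field L]
    [NumberField L] [Field L'] [NumberField L'] [Algebra K L] [Algebra L L'] [Algebra K L']
    [IsScalarTower K L L'] (c : (id_CRep S K).V) :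
    e2_tCf S L L' (e2_tCf S K L c) = e2_tCf S K L' c :=
  congrArg Additive.ofMul (id_Cmap_trans S K L L' (Additive.toMul c))

variable {K : Type u} [Field K] [NumberField K]

theorem e2_kappa_apply (c : id_C T K) :
    e2_kappa hST K (Additive.ofMul c) = Additive.ofMul (icm_C K hST c) := rfl

theorem e2_kappa_surjective : Function.Surjective (e2_kappa hST K) := by
  intro c
  obtain ⟨c', hc'⟩ := icm_C_surjective (K := K) hST (Additive.toMul c)
  exact ⟨Additive.ofMul c', congrArg Additive.ofMul hc'⟩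

/-- `κ` is equivariant. -/
theorem e2_kappa_rho (σ : K ≃ₐ[ℚ] K) (c : (id_CRep T K).V) :
    e2_kappa hST K ((id_CRep T K).ρ σ c) = (id_CRep S K).ρ σ (e2_kappa hST K c) :=
  congrArg Additive.ofMul (icm_C_smul hST σ (Additive.toMul c))

/-- `κ` commutes with finite sums over group elements, in particular with norms. -/
theorem e2_kappa_sum (s : Finset (K ≃ₐ[ℚ] K)) (c : (id_CRep T K).V) :
    e2_kappa hST K (∑ σ ∈ s, (id_CRep T K).ρ σ c) =
      ∑ σ ∈ s, (id_CRep S K).ρ σ (e2_kappa hST K c) := by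
  rw [map_sum]
  exact Finset.sum_congr rfl (fun σ _ => e2_kappa_rho hST σ c)

/-- `κ` commutes with the norm `N_G` (for any `Fintype` instance on the Galois group). -/
theorem e2_kappa_nrm [Fintype (K ≃ₐ[ℚ] K)] (G : Subgroup (K ≃ₐ[ℚ] K)) (c : (id_CRep T K).V) :
    e2_kappa hST K (e2_nrm G (id_CRep T K) c) = e2_nrm G (id_CRep S K) (e2_kappa hST K c) := by
  classical
  rw [e2_nrm_apply, e2_nrm_apply]
  exact e2_kappa_sum hST _ c

/-- `κ` on the image of `j_q`, `q ∈ S`. -/
theorem e2_kappa_jq (q : S) (x : (id_ARep K q.1).V) :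
    e2_kappa hST K ((id_jqRep T K ⟨q.1, hST q.2⟩).hom x) = (id_jqRep S K q).hom x :=
  congrArg Additive.ofMul (icm_C_jq hST q (Additive.toMul x))

/-- `κ` kills the classes of the ideles which are `1` at `S` and units at the primes over
`T ∖ S`. -/
theorem e2_kappa_unit (x : id_JS T K) (h1 : ∀ q : T, q.1 ∈ S → x q = 1)
    (h2 : ∀ q : T, q.1 ∉ S → ∀ 𝔪 : MaximalSpectrum (id_A K q.1), dc_ordZ 𝔪 (x q) = 0) :
    e2_kappa hST K (Additive.ofMul (id_toC T K (id_inS T K x))) = 0 :=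
  congrArg Additive.ofMul (icm_C_toC_inS_of_unit hST x h1 h2)

/-- `κ` commutes with the transition maps (arbitrary extension of number fields). -/
theorem e2_kappa_tCf {L : Type u} [Field L] [NumberField L] [Algebra K L]
    (c : (id_CRep T K).V) :
    e2_kappa hST L (e2_tCf T K L c) = e2_tCf S K L (e2_kappa hST K c) :=
  (congrArg Additive.ofMul (icm_C_Cmap (K := K) (L := L) hST (Additive.toMul c))).symm

/-- `κ (n • c) = n • κ c`. -/
theorem e2_kappa_nsmul (n : ℕ) (c : (id_CRep T K).V) :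
    e2_kappa hST K (n • c) = n • e2_kappa hST K c := map_nsmul _ n c

/-- **The final push of (E1'), field form.**  Let `K ⊆ L ⊆ L'` be number fields, `G` a group of
automorphisms of `L`.  If in `C_T(L')` every norm `N_G c'`, `c' ∈ C_T(L)`, is a `p`-th multiple
from `C_T(K)` up to an element killed by the comparison map `κ : C_T → C_S`, and
`C_S(L) → C_S(L')` is injective, then `N_G C_S(L) ⊆ t(p • C_S(K))`. -/
theorem e2_push {L L' : Type u} [Field L] [NumberField L] [Field L'] [NumberField L']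
    [Algebra K L] [Algebra L L'] [Algebra K L'] [IsScalarTower K L L']
    (hinj : Function.Injective (id_Cmap S L L')) [Fintype (L ≃ₐ[ℚ] L)]
    (G : Subgroup (L ≃ₐ[ℚ] L)) (p : ℕ)
    (H : ∀ c' : (id_CRep T L).V, ∃ d' : (id_CRep T K).V, ∃ u : (id_CRep T L').V,
      e2_kappa hST L' u = 0 ∧
      e2_tCf T L L' (e2_nrm G (id_CRep T L) c') = e2_tCf T K L' (p • d') + u)
    (c : (id_CRep S L).V) :
    ∃ d : (id_CRep S K).V, e2_nrm G (id_CRep S L) c = e2_tCf S K L (p • d) := by
  obtain ⟨c', rfl⟩ := e2_kappa_surjective hST c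
  obtain ⟨d', u, hu, hN⟩ := H c'
  refine ⟨e2_kappa hST K d', ?_⟩
  have h1 := congrArg (e2_kappa hST L') hN
  rw [map_add, hu, add_zero] at h1
  have h2 : e2_kappa hST L' (e2_tCf T L L' (e2_nrm G (id_CRep T L) c')) =
      e2_tCf S L L' (e2_nrm G (id_CRep S L) (e2_kappa hST L c')) :=
    (e2_kappa_tCf hST (K := L) (L := L') _).trans
      (congrArg (e2_tCf S L L') (e2_kappa_nrm hST G c'))
  have h3 : e2_kappa hST L' (e2_tCf T K L' (p • d')) =
      e2_tCf S L L' (e2_tCf S K L (p • e2_kappa hST K d')) := by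
    refine (e2_kappa_tCf hST (K := K) (L := L') (p • d')).trans ?_
    refine (e2_tCf_trans S K L L' _).symm.trans ?_
    exact congrArg (fun x => e2_tCf S L L' (e2_tCf S K L x)) (map_nsmul (e2_kappa hST K) p d')
  have h4 := (h2.symm.trans h1).trans h3
  exact Additive.toMul.injective (hinj (Additive.ofMul.injective h4))

/-- **The final push of (E1'), level form**: `K ≤ L` levels for `S`, `L'` any number field over
`L.L`; the conclusion is `hE1` of `ar_abs` for the idele tower (after `e2_ar_N_eq`). -/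
theorem e2_push_lev {K L : du_Lev S} (h : K ≤ L) {L' : Type} [Field L'] [NumberField L']
    [Algebra L.L L'] [Algebra K.L L']
    (htower : letI := id_levAlgebra h; IsScalarTower K.L L.L L')
    (hinj : Function.Injective (id_Cmap S L.L L')) (p : ℕ)
    (H : ∀ c' : (id_CRep T L.L).V, ∃ d' : (id_CRep T K.L).V, ∃ u : (id_CRep T L').V,
      e2_kappa hST L' u = 0 ∧
      e2_tCf T L.L L' (e2_nrm (L.rel K) (id_CRep T L.L) c') = e2_tCf T K.L L' (p • d') + u)
    (c : (id_CRep S L.L).V) :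
    ∃ d : (id_CRep S K.L).V, e2_nrm (L.rel K) (id_CRep S L.L) c = id_tC h (p • d) := by
  letI := id_levAlgebra h
  haveI := htower
  exact e2_push hST (K := K.L) (L := L.L) (L' := L') hinj (L.rel K) p H c

end comparison

end Fermat.Agent.S55
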