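import Fermat.Agent.S55.Idele.AbsLevels
import Fermat.Agent.S55.Idele.E2Abstract

/-!
# S55, block G5 (G-abs): transition maps and relative norms for field levels (prefix `ia_`)

For field levels `a ≤ b` (`ia_Lev T`): the transition map `ia_tC h : C_T(a) → C_T(b)` in `Rep`
form, its injectivity / equivariance / descent, and the compatibility with relative norms:
`∑ i, (s i) • ia_tC h c = ia_tC h (N_{a/K} c)` for a system `s` of representatives in `Gal(b/K)`
of `Gal(a/K)` (`ia_tC_nrm`), together with the existence of such a system in the shape consumed by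
`rcp_pair_eq_zero_of_relnorm` (`ia_exists_transversal`).
-/

set_option autoImplicit false
set_option linter.style.haveILetI false
set_option linter.unusedSectionVars false

open scoped TensorProduct NumberField nonZeroDivisors Pointwise
open IsDedekindDomain

noncomputable section

namespace Fermat.Agent.S55

local notation "Qbar" => AlgebraicClosure ℚ
local notation "GQ" => (AlgebraicClosure ℚ ≃ₐ[ℚ] AlgebraicClosure ℚ)

variable {T : Finset Nat.Primes}

/-- The transition map `C_T(a) → C_T(b)` between field levels, in `Rep` (additive) form. -/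
def ia_tC {a b : ia_Lev T} (h : a ≤ b) : (id_CRep T a.L).V →+ (id_CRep T b.L).V :=
  letI := ia_algebra h
  e2_tCf T a.L b.L

theorem ia_tC_apply {a b : ia_Lev T} (h : a ≤ b) (c : id_C T a.L) :
    letI := ia_algebra h
    ia_tC h (Additive.ofMul c) = Additive.ofMul (id_Cmap T a.L b.L c) := rfl

theorem ia_tC_inj (hT : T.Nonempty) {a b : ia_Lev T} (h : a ≤ b) :
    Function.Injective (ia_tC h) := by
  letI := ia_algebra h
  intro x y hxy
  exact (ia_isGal h).Cmap_injective T hT hxy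

/-- Equivariance along the restriction `Gal(b/ℚ) → Gal(a/ℚ)`. -/
theorem ia_tC_rho {a b : ia_Lev T} (h : a ≤ b) (g : b.Γ) (c : (id_CRep T a.L).V) :
    ia_tC h ((id_CRep T a.L).ρ (ia_Lev.res h g) c) = (id_CRep T b.L).ρ g (ia_tC h c) := by
  letI := ia_algebra h
  exact congrArg Additive.ofMul (id_Cmap_smul T a.L b.L (ia_compat_res h g) c.toMul)

theorem ia_tC_fixed {a b : ia_Lev T} (h : a ≤ b) {g : b.Γ} (hg : g ∈ b.rel a)
    (c : (id_CRep T a.L).V) : (id_CRep T b.L).ρ g (ia_tC h c) = ia_tC h c := by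
  rw [← ia_tC_rho]
  have h1 : ia_Lev.res h g = 1 := by
    rw [← MonoidHom.mem_ker, ia_Lev.ker_res]; exact hg
  rw [h1, map_one]
  rfl

/-- Descent: the image of the transition map is the invariants of `Gal(b/a)`. -/
theorem ia_tC_range (hT : T.Nonempty) {a b : ia_Lev T} (h : a ≤ b) (c : (id_CRep T b.L).V)
    (hc : ∀ g ∈ b.rel a, (id_CRep T b.L).ρ g c = c) : ∃ c₀, ia_tC h c₀ = c := by
  letI := ia_algebra h
  obtain ⟨c₀, hc₀⟩ := (ia_isGal h).Cmap_range T hT (ia_unram h) c.toMul (by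
    intro g hg
    exact congrArg Additive.toMul (hc g hg))
  exact ⟨Additive.ofMul c₀, congrArg Additive.ofMul hc₀⟩

theorem ia_tC_trans {a b c : ia_Lev T} (h : a ≤ b) (h' : b ≤ c) (x : (id_CRep T a.L).V) :
    ia_tC h' (ia_tC h x) = ia_tC (le_trans (α := IntermediateField ℚ Qbar) h h') x := by
  letI := ia_algebra h
  letI := ia_algebra h'
  letI := ia_algebra (le_trans (α := IntermediateField ℚ Qbar) h h')
  haveI := ia_isScalarTower h h'
  exact congrArg Additive.ofMul (id_Cmap_trans T a.L b.L c.L x.toMul)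

/-! ### Relative norms -/

/-- The norm `N_G` as a sum over the subtype. -/
theorem ia_nrm_eq_sum {Γ : Type} [Group Γ] [Fintype Γ] (G : Subgroup Γ) [Fintype ↥G]
    (C : Rep.{0} ℤ Γ) (c : C.V) : e2_nrm G C c = ∑ h : ↥G, C.ρ (h : Γ) c := by
  classical
  rw [e2_nrm_apply]
  exact (Finset.sum_subtype (Finset.univ.filter (fun h : Γ => h ∈ G))
    (p := fun h : Γ => h ∈ G) (fun h => by simp) (fun h => C.ρ h c))

/-- **Norm compatibility.**  For `K ≤ a ≤ b` and a family `s` of elements of `Gal(b/ℚ)` whose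
restrictions to `a` enumerate `Gal(a/K)`, the partial norm `∑ i, s i • (t c)` of an element coming
from `a` is the image of the norm `N_{a/K} c`. -/
theorem ia_tC_nrm {K a b : ia_Lev T} (h : a ≤ b) {ι : Type} [Fintype ι] (s : ι → b.Γ)
    (r : ι ≃ ↥(a.rel K)) (hr : ∀ i, ia_Lev.res h (s i) = (r i : a.Γ))
    (c : (id_CRep T a.L).V) :
    ∑ i, (id_CRep T b.L).ρ (s i) (ia_tC h c) =
      ia_tC h (e2_nrm (a.rel K) (id_CRep T a.L) c) := by
  letI : Fintype ↥(a.rel K) := Fintype.ofFinite _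
  rw [ia_nrm_eq_sum, map_sum, ← Equiv.sum_comp r]
  refine Finset.sum_congr rfl fun i _ => ?_
  rw [← ia_tC_rho, hr]

/-- A system of representatives in `Gal(b/K)` of `Gal(a/K) = Gal(b/K)/Gal(b/a)`, in the shape
consumed by `rcp_pair_eq_zero_of_relnorm` (index type `↥(a.rel K)`). -/
theorem ia_exists_transversal {K a b : ia_Lev T} (h : a ≤ b) :
    ∃ s : ↥(a.rel K) → ↥(b.rel K), (∀ x, ia_Lev.res h (s x : b.Γ) = (x : a.Γ)) ∧
      Function.Bijective (fun x => (QuotientGroup.mk (s x) :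
        ↥(b.rel K) ⧸ (b.rel a).subgroupOf (b.rel K))) := by
  have hex : ∀ x : ↥(a.rel K), ∃ g : ↥(b.rel K), ia_Lev.res h (g : b.Γ) = (x : a.Γ) := by
    intro x
    have hx : (x : a.Γ) ∈ (b.rel K).map (ia_Lev.res h) := by
      rw [ia_Lev.map_res_rel]; exact x.2
    obtain ⟨g, hg, hgx⟩ := hx
    exact ⟨⟨g, hg⟩, hgx⟩
  choose s hs using hex
  refine ⟨s, hs, ?_, ?_⟩
  · intro x y hxy
    have h1 : (s x)⁻¹ * s y ∈ (b.rel a).subgroupOf (b.rel K) := QuotientGroup.eq.1 hxy
    rw [Subgroup.mem_subgroupOf, ← ia_Lev.ker_res h, MonoidHom.mem_ker] at h1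
    have h2 : ia_Lev.res h ((s x : b.Γ))⁻¹ * ia_Lev.res h (s y : b.Γ) = 1 := by
      rw [← map_mul]; exact h1
    rw [map_inv, hs, hs, inv_mul_eq_one] at h2
    exact Subtype.ext h2
  · intro z
    obtain ⟨g, rfl⟩ := QuotientGroup.mk_surjective z
    refine ⟨⟨ia_Lev.res h (g : b.Γ), ia_Lev.res_mem_rel h g.2⟩, ?_⟩
    apply QuotientGroup.eq.2
    rw [Subgroup.mem_subgroupOf, ← ia_Lev.ker_res h, MonoidHom.mem_ker]
    show ia_Lev.res h (((s _)⁻¹ * g : ↥(b.rel K)) : b.Γ) = 1
    rw [Subgroup.coe_mul, Subgroup.coe_inv, map_mul, map_inv, hs, inv_mul_cancel]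

end Fermat.Agent.S55
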