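import Fermat.Agent.S55.Dual.Levels

/-!
# S55 / block [G5]: reduction of (G-abs) to the existence theorem in exponent `p` (prefix `are_`; the strong-form twin is `Dual/AbsReduce.lean`, prefix `ar_`)

Pure algebra on the fields of the seam `du_Seam` (`Dual/Seam.lean`).  The field `abs` of the seam
(absorption of norms: for every level `K` there is a level `a₁ ≥ K` such that for all `a ≥ a₁` the
norms `N_{a/K} c`, `c ∈ C_S(a)`, lie in the image of `C_S°(K)` up to a prime-to-`p` multiple) follows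
from the one-step statement (E1): every level `K` containing `ζ_p` has a level `b ≥ K` with
`N_{b/K} C_S(b) ⊆ C_S(K)^p · C_S°(K)` up to prime-to-`p` multiples.

* `are_nrm X H c`: the norm `∑_{h ∈ H} h • c` in a `Rep`.
* `are_mem_rel_iff_res`: `rel b K = res⁻¹ (rel a K)` for `K ≤ a ≤ b`.
* `are_nrm_trans`: transitivity of norms along `K ≤ a ≤ b`.
* `are_abs_of_E1`: the reduction.
-/

set_option autoImplicit false

open CategoryTheory groupCohomology ExtCitation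

namespace Fermat.Agent.S55

local notation "Qbar" => AlgebraicClosure ℚ
local notation "GQ" => (AlgebraicClosure ℚ ≃ₐ[ℚ] AlgebraicClosure ℚ)

/-! ### Norms over a subgroup -/

section Norm

variable {Γ : Type} [Group Γ] [Fintype Γ]

open Classical in
/-- The norm `∑_{h ∈ H} h • c`. -/
noncomputable def are_nrm (X : Rep.{0} ℤ Γ) (H : Subgroup Γ) (c : X.V) : X.V :=
  ∑ h ∈ Finset.univ.filter (fun h : Γ => h ∈ H), X.ρ h c

open Classical in
theorem are_nrm_def (X : Rep.{0} ℤ Γ) (H : Subgroup Γ) (c : X.V) :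
    are_nrm X H c = ∑ h ∈ Finset.univ.filter (fun h : Γ => h ∈ H), X.ρ h c := rfl

open Classical in
theorem are_nrm_eq_sum_ite (X : Rep.{0} ℤ Γ) (H : Subgroup Γ) (c : X.V) :
    are_nrm X H c = ∑ h : Γ, if h ∈ H then X.ρ h c else 0 := by
  rw [are_nrm_def, Finset.sum_filter]

theorem are_nrm_add (X : Rep.{0} ℤ Γ) (H : Subgroup Γ) (c c' : X.V) :
    are_nrm X H (c + c') = are_nrm X H c + are_nrm X H c' := by
  classical
  rw [are_nrm_def, are_nrm_def, are_nrm_def, ← Finset.sum_add_distrib]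
  exact Finset.sum_congr rfl fun h _ => map_add _ _ _

theorem are_nrm_zero (X : Rep.{0} ℤ Γ) (H : Subgroup Γ) : are_nrm X H (0 : X.V) = 0 := by
  classical
  rw [are_nrm_def]
  exact Finset.sum_eq_zero fun h _ => map_zero _

/-- The norm as an additive map. -/
noncomputable def are_nrmHom (X : Rep.{0} ℤ Γ) (H : Subgroup Γ) : X.V →+ X.V where
  toFun := are_nrm X H
  map_zero' := are_nrm_zero X H
  map_add' := are_nrm_add X H

theorem are_nrm_nsmul (X : Rep.{0} ℤ Γ) (H : Subgroup Γ) (n : ℕ) (c : X.V) :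
    are_nrm X H (n • c) = n • are_nrm X H c :=
  map_nsmul (are_nrmHom X H) n c

theorem are_nrm_sum {ι : Type*} (X : Rep.{0} ℤ Γ) (H : Subgroup Γ) (s : Finset ι) (f : ι → X.V) :
    are_nrm X H (∑ i ∈ s, f i) = ∑ i ∈ s, are_nrm X H (f i) :=
  map_sum (are_nrmHom X H) f s

/-- Norms are invariant under the subgroup. -/
theorem are_smul_nrm (X : Rep.{0} ℤ Γ) (H : Subgroup Γ) {k : Γ} (hk : k ∈ H) (c : X.V) :
    X.ρ k (are_nrm X H c) = are_nrm X H c := by
  classical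
  rw [are_nrm_def, map_sum]
  refine Finset.sum_nbij' (fun h => k * h) (fun h => k⁻¹ * h) ?_ ?_ ?_ ?_ ?_
  · intro h hh
    rw [Finset.mem_filter] at hh ⊢
    exact ⟨Finset.mem_univ _, mul_mem hk hh.2⟩
  · intro h hh
    rw [Finset.mem_filter] at hh ⊢
    exact ⟨Finset.mem_univ _, mul_mem (inv_mem hk) hh.2⟩
  · intro h _
    exact inv_mul_cancel_left k h
  · intro h _
    exact mul_inv_cancel_left k h
  · intro h _
    rw [map_mul]
    rfl

/-- Norms commute with morphisms of representations. -/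
theorem are_hom_nrm {X Y : Rep.{0} ℤ Γ} (f : X ⟶ Y) (H : Subgroup Γ) (c : X.V) :
    f.hom (are_nrm X H c) = are_nrm Y H (f.hom c) := by
  classical
  rw [are_nrm_def, are_nrm_def, map_sum]
  exact Finset.sum_congr rfl fun h _ => Rep.hom_comm_apply f h c

end Norm

/-! ### Levels: relative Galois groups and transitivity of norms -/

section Levels

variable {S : Finset Nat.Primes}

theorem are_q_mem_rel (a K : du_Lev S) {σ : GQ} (hσ : σ ∈ K.L.fixingSubgroup) :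
    a.q σ ∈ a.rel K := ⟨σ, hσ, rfl⟩

/-- `rel b K` is the preimage of `rel a K` under the restriction `Γ_b → Γ_a` (`K ≤ a ≤ b`). -/
theorem are_mem_rel_iff_res {K a b : du_Lev S} (hKa : K ≤ a) (hab : a ≤ b) (g : b.Γ) :
    g ∈ b.rel K ↔ du_Lev.res hab g ∈ a.rel K := by
  obtain ⟨σ, rfl⟩ := b.q_surjective g
  rw [du_Lev.res_q]
  constructor
  · rintro ⟨τ, hτ, hτσ⟩
    have h1 : a.q τ = a.q σ := by
      rw [← du_Lev.res_q hab, ← du_Lev.res_q hab]
      exact congrArg _ hτσ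
    exact ⟨τ, hτ, h1⟩
  · rintro ⟨τ, hτ, hτσ⟩
    have hτσ' : a.q τ = a.q σ := hτσ
    have h1 : τ⁻¹ * σ ∈ a.L.fixingSubgroup := by
      rw [← du_Lev.q_eq_one_iff, map_mul, map_inv, hτσ', inv_mul_cancel]
    have h2 : τ⁻¹ * σ ∈ K.L.fixingSubgroup := IntermediateField.fixingSubgroup_antitone hKa h1
    have h3 : σ = τ * (τ⁻¹ * σ) := by group
    refine ⟨σ, ?_, rfl⟩
    rw [h3]
    exact mul_mem hτ h2

theorem are_mem_rel_iff_res_eq_one {a b : du_Lev S} (hab : a ≤ b) (g : b.Γ) :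
    g ∈ b.rel a ↔ du_Lev.res hab g = 1 := by
  rw [← du_Lev.ker_res hab, MonoidHom.mem_ker]

/-- **Transitivity of norms** along `K ≤ a ≤ b`, for a pair of modules with an equivariant
transition map `t`: if `t c' = N_{b/a} c` then `N_{b/K} c = t (N_{a/K} c')`. -/
theorem are_nrm_trans {K a b : du_Lev S} (hKa : K ≤ a) (hab : a ≤ b)
    (Xa : Rep.{0} ℤ a.Γ) (Xb : Rep.{0} ℤ b.Γ) (t : Xa.V →+ Xb.V)
    (ht : ∀ (σ : GQ) (x : Xa.V), t (Xa.ρ (a.q σ) x) = Xb.ρ (b.q σ) (t x))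
    (c : Xb.V) (c' : Xa.V) (hc : t c' = are_nrm Xb (b.rel a) c) :
    are_nrm Xb (b.rel K) c = t (are_nrm Xa (a.rel K) c') := by
  classical
  have hfib : ∀ g : a.Γ, g ∈ a.rel K →
      (∑ h ∈ (Finset.univ.filter (fun h : b.Γ => h ∈ b.rel K)).filter
        (fun h => du_Lev.res hab h = g), Xb.ρ h c) = t (Xa.ρ g c') := by
    intro g hg
    obtain ⟨σ, rfl⟩ := a.q_surjective g
    rw [ht, hc, are_nrm_def, map_sum]
    symm
    refine Finset.sum_nbij' (fun k => b.q σ * k) (fun h => (b.q σ)⁻¹ * h) ?_ ?_ ?_ ?_ ?_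
    · intro k hk
      rw [Finset.mem_filter] at hk
      have hk1 : du_Lev.res hab k = 1 := (are_mem_rel_iff_res_eq_one hab k).1 hk.2
      have hres : du_Lev.res hab (b.q σ * k) = a.q σ := by
        rw [map_mul, du_Lev.res_q, hk1, mul_one]
      rw [Finset.mem_filter, Finset.mem_filter]
      refine ⟨⟨Finset.mem_univ _, ?_⟩, hres⟩
      rw [are_mem_rel_iff_res hKa hab, hres]
      exact hg
    · intro h hh
      rw [Finset.mem_filter, Finset.mem_filter] at hh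
      rw [Finset.mem_filter]
      refine ⟨Finset.mem_univ _, ?_⟩
      rw [are_mem_rel_iff_res_eq_one hab, map_mul, map_inv, du_Lev.res_q, hh.2, inv_mul_cancel]
    · intro k _
      exact inv_mul_cancel_left _ k
    · intro h _
      exact mul_inv_cancel_left _ h
    · intro k _
      rw [map_mul]
      rfl
  have hmaps : ∀ h ∈ Finset.univ.filter (fun h : b.Γ => h ∈ b.rel K),
      du_Lev.res hab h ∈ Finset.univ.filter (fun g : a.Γ => g ∈ a.rel K) := by
    intro h hh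
    rw [Finset.mem_filter] at hh ⊢
    exact ⟨Finset.mem_univ _, (are_mem_rel_iff_res hKa hab h).1 hh.2⟩
  rw [are_nrm_def, ← Finset.sum_fiberwise_of_maps_to hmaps, are_nrm_def, map_sum]
  refine Finset.sum_congr rfl fun g hg => ?_
  rw [Finset.mem_filter] at hg
  exact hfib g hg.2

end Levels

/-! ### The reduction -/

section Main

variable {p : ℕ} {S : Finset Nat.Primes} (dat : ∀ a : du_Lev S, ld_Data p a.Γ ↥S)
  (tC : ∀ {a b : du_Lev S}, a ≤ b → (dat a).C.V →+ (dat b).C.V)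
  (tJ : ∀ {a b : du_Lev S}, a ≤ b → ∀ q : ↥S, ((dat a).Jq q).V →+ ((dat b).Jq q).V)

/-- `n • N_{a/K} c ∈ tC (p^i • C_K) + (image of ∏ J_q(K))` for some `n` prime to `p`. -/
def are_Good (i : ℕ) {K a : du_Lev S} (hKa : K ≤ a) (c : (dat a).C.V) : Prop :=
  ∃ n : ℕ, ¬ p ∣ n ∧ ∃ (d : (dat K).C.V) (x : ∀ q : ↥S, ((dat K).Jq q).V),
    n • are_nrm (dat a).C (a.rel K) c =
      tC hKa (p ^ i • d) + ∑ q, ((dat a).j q).hom (tJ hKa q (x q))

/-- `n • N_{a/K} c ∈ (image of ∏ J_q(K))` for some `n` prime to `p`. -/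
def are_Abs {K a : du_Lev S} (hKa : K ≤ a) (c : (dat a).C.V) : Prop :=
  ∃ n : ℕ, ¬ p ∣ n ∧ ∃ x : ∀ q : ↥S, ((dat K).Jq q).V,
    n • are_nrm (dat a).C (a.rel K) c = ∑ q, ((dat a).j q).hom (tJ hKa q (x q))

variable
  (tC_inj : ∀ {a b : du_Lev S} (h : a ≤ b), Function.Injective (tC h))
  (tC_equiv : ∀ {a b : du_Lev S} (h : a ≤ b) (σ : GQ) (c : (dat a).C.V),
    tC h ((dat a).C.ρ (a.q σ) c) = (dat b).C.ρ (b.q σ) (tC h c))
  (tC_range : ∀ {a b : du_Lev S} (h : a ≤ b) (c : (dat b).C.V),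
    (∀ σ ∈ a.L.fixingSubgroup, (dat b).C.ρ (b.q σ) c = c) → ∃ c₀, tC h c₀ = c)
  (tJ_range : ∀ {a b : du_Lev S} (h : a ≤ b) (q : ↥S) (x : ((dat b).Jq q).V),
    (∀ σ ∈ a.L.fixingSubgroup, ((dat b).Jq q).ρ (b.q σ) x = x) → ∃ x₀, tJ h q x₀ = x)
  (tC_j : ∀ {a b : du_Lev S} (h : a ≤ b) (q : ↥S) (x : ((dat a).Jq q).V),
    tC h (((dat a).j q).hom x) = ((dat b).j q).hom (tJ h q x))
  (tC_trans : ∀ {a b c : du_Lev S} (h : a ≤ b) (h' : b ≤ c) (x : (dat a).C.V),
    tC h' (tC h x) = tC (le_trans (α := IntermediateField ℚ Qbar) h h') x)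
  (tJ_trans : ∀ {a b c : du_Lev S} (h : a ≤ b) (h' : b ≤ c) (q : ↥S) (x : ((dat a).Jq q).V),
    tJ h' q (tJ h q x) = tJ (le_trans (α := IntermediateField ℚ Qbar) h h') q x)

include tC_equiv tC_range in
/-- Transitivity of the norms of `C` along `K ≤ a ≤ b`. -/
theorem are_exists_trans {K a b : du_Lev S} (hKa : K ≤ a) (hab : a ≤ b) (c : (dat b).C.V) :
    ∃ c' : (dat a).C.V, tC hab c' = are_nrm (dat b).C (b.rel a) c ∧
      are_nrm (dat b).C (b.rel K) c = tC hab (are_nrm (dat a).C (a.rel K) c') := by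
  obtain ⟨c', hc'⟩ := tC_range hab (are_nrm (dat b).C (b.rel a) c)
    (fun σ hσ => are_smul_nrm (dat b).C (b.rel a) (are_q_mem_rel b a hσ) c)
  exact ⟨c', hc', are_nrm_trans hKa hab (dat a).C (dat b).C (tC hab) (tC_equiv hab) c c' hc'⟩

include tJ_range in
/-- Norms of semilocal classes are semilocal classes of the smaller level. -/
theorem are_nrm_Co {K a : du_Lev S} (hKa : K ≤ a) (y : ∀ q : ↥S, ((dat a).Jq q).V) :
    ∃ x : ∀ q : ↥S, ((dat K).Jq q).V,
      are_nrm (dat a).C (a.rel K) (∑ q, ((dat a).j q).hom (y q)) =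
        ∑ q, ((dat a).j q).hom (tJ hKa q (x q)) := by
  have h : ∀ q : ↥S, ∃ x₀, tJ hKa q x₀ = are_nrm ((dat a).Jq q) (a.rel K) (y q) := fun q =>
    tJ_range hKa q _ (fun σ hσ => are_smul_nrm ((dat a).Jq q) (a.rel K) (are_q_mem_rel a K hσ) (y q))
  choose x hx using h
  refine ⟨x, ?_⟩
  rw [are_nrm_sum]
  refine Finset.sum_congr rfl fun q _ => ?_
  rw [hx q, are_hom_nrm]

include tC_j tC_trans tJ_trans in
/-- Transport of the shape `tC u + ∑ j (tJ w)` along `a ≤ b`. -/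
theorem are_tC_shape {K a b : du_Lev S} (hKa : K ≤ a) (hab : a ≤ b) (u : (dat K).C.V)
    (w : ∀ q : ↥S, ((dat K).Jq q).V) :
    tC hab (tC hKa u + ∑ q, ((dat a).j q).hom (tJ hKa q (w q))) =
      tC (le_trans (α := IntermediateField ℚ Qbar) hKa hab) u +
        ∑ q, ((dat b).j q).hom (tJ (le_trans (α := IntermediateField ℚ Qbar) hKa hab) q (w q)) := by
  rw [map_add, tC_trans hKa hab, map_sum]
  congr 1
  refine Finset.sum_congr rfl fun q _ => ?_
  rw [tC_j hab, tJ_trans hKa hab]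

/-- An element of `C°` is a sum of semilocal classes. -/
theorem are_mem_Co {Γ : Type} [Group Γ] (𝔻 : ld_Data p Γ ↥S) {d : 𝔻.C.V} (hd : d ∈ du_Co 𝔻) :
    ∃ y : ∀ q : ↥S, (𝔻.Jq q).V, d = ∑ q, (𝔻.j q).hom (y q) := by
  classical
  unfold du_Co at hd
  refine AddSubgroup.iSup_induction (fun q => (𝔻.j q).hom.toAddMonoidHom.range)
    (C := fun d => ∃ y : ∀ q : ↥S, (𝔻.Jq q).V, d = ∑ q, (𝔻.j q).hom (y q)) hd ?_ ?_ ?_
  · rintro i _ ⟨z, rfl⟩
    refine ⟨Pi.single i z, ?_⟩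
    rw [Finset.sum_eq_single i]
    · rw [Pi.single_eq_same]
      rfl
    · intro q _ hq
      rw [Pi.single_eq_of_ne hq, map_zero]
    · intro h
      exact absurd (Finset.mem_univ i) h
  · exact ⟨0, by simp⟩
  · rintro x y ⟨u, rfl⟩ ⟨v, rfl⟩
    refine ⟨u + v, ?_⟩
    rw [← Finset.sum_add_distrib]
    refine Finset.sum_congr rfl fun q _ => ?_
    rw [Pi.add_apply, map_add]

variable (hp : p.Prime)
  (Z : du_Lev S → Prop) (hZmono : ∀ a b : du_Lev S, a ≤ b → Z a → Z b)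
  (hE1 : ∀ K : du_Lev S, Z K → ∃ b : du_Lev S, ∃ h : K ≤ b, ∀ c : (dat b).C.V,
    ∃ n : ℕ, ¬ p ∣ n ∧ ∃ (d : (dat K).C.V) (x : ∀ q : ↥S, ((dat K).Jq q).V),
      n • are_nrm (dat b).C (b.rel K) c =
        tC h (p • d) + ∑ q, ((dat b).j q).hom (tJ h q (x q)))

include tC_inj tC_equiv tC_range tJ_range tC_j tC_trans tJ_trans hp hZmono hE1 in
/-- Iterating (E1): for every `i` there is a level `a ≥ K` all of whose norms to `K` lie in
`tC (p^i • C_K) + C°` up to prime-to-`p` multiples. -/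
theorem are_exists_good {K : du_Lev S} (hK : Z K) (i : ℕ) :
    ∃ a : du_Lev S, ∃ hKa : K ≤ a, ∀ c : (dat a).C.V, are_Good dat tC tJ i hKa c := by
  induction i with
  | zero =>
    refine ⟨K, le_refl K, fun c => ?_⟩
    obtain ⟨d, hd⟩ := tC_range (le_refl K) (are_nrm (dat K).C (K.rel K) c)
      (fun σ hσ => are_smul_nrm (dat K).C (K.rel K) (are_q_mem_rel K K hσ) c)
    refine ⟨1, fun h => hp.one_lt.ne' (Nat.dvd_one.1 h), d, 0, ?_⟩
    rw [one_smul, pow_zero, one_smul, hd]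
    simp
  | succ i ih =>
    obtain ⟨a, hKa, ha⟩ := ih
    obtain ⟨b, hab, hb⟩ := hE1 a (hZmono K a hKa hK)
    have hKb : K ≤ b := le_trans hKa hab
    refine ⟨b, hKb, fun c => ?_⟩
    obtain ⟨n₁, hn₁, d₁, x₁, h₁⟩ := hb c
    obtain ⟨c', hc', hN⟩ := are_exists_trans dat tC tC_equiv tC_range hKa hab c
    -- `n₁ • c' = p • d₁ + ∑ j (x₁)`
    have e₁ : n₁ • c' = p • d₁ + ∑ q, ((dat a).j q).hom (x₁ q) := by
      apply tC_inj hab
      rw [map_nsmul, hc', h₁, map_add, map_sum]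
      congr 1
      refine Finset.sum_congr rfl fun q _ => ?_
      rw [tC_j hab]
    obtain ⟨n₂, hn₂, d₂, x₂, h₂⟩ := ha d₁
    obtain ⟨x₃, h₃⟩ := are_nrm_Co dat tJ tJ_range hKa x₁
    refine ⟨n₂ * n₁, ?_, d₂, fun q => p • x₂ q + n₂ • x₃ q, ?_⟩
    · intro h
      rcases (Nat.Prime.dvd_mul hp).1 h with h | h
      · exact hn₂ h
      · exact hn₁ h
    · have e₂ : n₂ • are_nrm (dat a).C (a.rel K) (n₁ • c') =
          tC hKa (p ^ (i + 1) • d₂) +
            ∑ q, ((dat a).j q).hom (tJ hKa q (p • x₂ q + n₂ • x₃ q)) := by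
        rw [e₁, are_nrm_add, are_nrm_nsmul, h₃, smul_add, smul_comm n₂ p, h₂, smul_add,
          ← map_nsmul (tC hKa), ← mul_smul, ← pow_succ', add_assoc, Finset.smul_sum,
          Finset.smul_sum, ← Finset.sum_add_distrib]
        congr 1
        refine Finset.sum_congr rfl fun q _ => ?_
        rw [map_add, map_add, map_nsmul, map_nsmul, map_nsmul, map_nsmul]
      rw [hN, mul_smul, ← map_nsmul (tC hab), ← are_nrm_nsmul, ← map_nsmul (tC hab), e₂,
        are_tC_shape dat tC tJ tC_j tC_trans tJ_trans hKa hab]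

include tC_equiv tC_range tC_j tJ_trans in
/-- Going up: absorption for `a₁` implies absorption for every `a ≥ a₁`. -/
theorem are_abs_up {K a₁ a : du_Lev S} (hKa₁ : K ≤ a₁) (ha₁a : a₁ ≤ a)
    (H : ∀ c : (dat a₁).C.V, are_Abs dat tJ hKa₁ c) (c : (dat a).C.V) :
    are_Abs dat tJ (le_trans (α := IntermediateField ℚ Qbar) hKa₁ ha₁a) c := by
  obtain ⟨c', -, hN⟩ := are_exists_trans dat tC tC_equiv tC_range hKa₁ ha₁a c
  obtain ⟨n, hn, x, h⟩ := H c'
  refine ⟨n, hn, x, ?_⟩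
  rw [hN, ← map_nsmul (tC ha₁a), h, map_sum]
  refine Finset.sum_congr rfl fun q _ => ?_
  rw [tC_j ha₁a, tJ_trans hKa₁ ha₁a]

include tC_inj tC_equiv tC_range tJ_range tC_j tJ_trans in
/-- Going down: absorption for `K' ≥ K` implies absorption for `K`. -/
theorem are_abs_down {K K' a : du_Lev S} (hKK' : K ≤ K') (hK'a : K' ≤ a)
    (H : ∀ c : (dat a).C.V, are_Abs dat tJ hK'a c) (c : (dat a).C.V) :
    are_Abs dat tJ (le_trans (α := IntermediateField ℚ Qbar) hKK' hK'a) c := by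
  obtain ⟨c', hc', hN⟩ := are_exists_trans dat tC tC_equiv tC_range hKK' hK'a c
  obtain ⟨n, hn, x, h⟩ := H c
  have e₁ : n • c' = ∑ q, ((dat K').j q).hom (x q) := by
    apply tC_inj hK'a
    rw [map_nsmul, hc', h, map_sum]
    refine Finset.sum_congr rfl fun q _ => ?_
    rw [tC_j hK'a]
  obtain ⟨x', h'⟩ := are_nrm_Co dat tJ tJ_range hKK' x
  refine ⟨n, hn, x', ?_⟩
  rw [hN, ← map_nsmul (tC hK'a), ← are_nrm_nsmul, e₁, h', map_sum]
  refine Finset.sum_congr rfl fun q _ => ?_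
  rw [tC_j hK'a, tJ_trans hKK' hK'a]

variable (hfin : ∀ K : du_Lev S, (du_Co (dat K)).index ≠ 0)

include tC_inj tC_equiv tC_range tJ_range tC_j tC_trans tJ_trans hp hZmono hE1 hfin in
/-- Absorption at the top of the chain, for a level `K` with property `Z`. -/
theorem are_abs_top {K : du_Lev S} (hK : Z K) :
    ∃ a₁ : du_Lev S, ∃ hKa₁ : K ≤ a₁, ∀ c : (dat a₁).C.V, are_Abs dat tJ hKa₁ c := by
  obtain ⟨k, m, hm, hkm⟩ := Nat.exists_eq_pow_mul_and_not_dvd (hfin K) p hp.ne_one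
  obtain ⟨a, hKa, ha⟩ := are_exists_good dat tC tJ tC_inj tC_equiv tC_range tJ_range tC_j tC_trans
    tJ_trans hp Z hZmono hE1 hK k
  refine ⟨a, hKa, fun c => ?_⟩
  obtain ⟨n, hn, d, x, h⟩ := ha c
  have hd : (m * p ^ k) • d ∈ du_Co (dat K) := by
    have := AddSubgroup.nsmul_index_mem (du_Co (dat K)) d
    rwa [hkm, mul_comm] at this
  obtain ⟨y, hy⟩ := are_mem_Co (dat K) hd
  refine ⟨m * n, ?_, fun q => y q + m • x q, ?_⟩
  · intro h'
    rcases (Nat.Prime.dvd_mul hp).1 h' with h' | h'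
    · exact hm h'
    · exact hn h'
  · rw [mul_smul, h, smul_add, ← map_nsmul (tC hKa), ← mul_smul, hy, map_sum, Finset.smul_sum,
      ← Finset.sum_add_distrib]
    refine Finset.sum_congr rfl fun q _ => ?_
    rw [tC_j hKa, map_add, map_add, map_nsmul, map_nsmul]

variable (hZex : ∀ K : du_Lev S, ∃ K' : du_Lev S, K ≤ K' ∧ Z K')

include tC_inj tC_equiv tC_range tJ_range tC_j tC_trans tJ_trans hp hZmono hE1 hfin hZex in
open Classical in
/-- **Reduction of (G-abs) to (E1).**  The conclusion is the field `abs` of `du_Seam` verbatim. -/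
theorem are_abs_of_E1 :
    ∀ K : du_Lev S, ∃ a₁ : du_Lev S, K ≤ a₁ ∧ ∀ a : du_Lev S, a₁ ≤ a → ∀ hKa : K ≤ a,
      ∀ c : (dat a).C.V, ∃ n : ℕ, ¬ p ∣ n ∧ ∃ x : ∀ q : ↥S, ((dat K).Jq q).V,
        n • (∑ h ∈ Finset.univ.filter (fun h : a.Γ => h ∈ a.rel K), (dat a).C.ρ h c) =
          ∑ q, ((dat a).j q).hom (tJ hKa q (x q)) := by
  intro K
  obtain ⟨K', hKK', hZK'⟩ := hZex K
  obtain ⟨a₁, hK'a₁, H⟩ := are_abs_top dat tC tJ tC_inj tC_equiv tC_range tJ_range tC_j tC_trans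
    tJ_trans hp Z hZmono hE1 hfin hZK'
  refine ⟨a₁, le_trans (α := IntermediateField ℚ Qbar) hKK' hK'a₁, fun a ha₁a hKa c => ?_⟩
  have h1 := are_abs_up dat tC tJ tC_equiv tC_range tC_j tJ_trans hK'a₁ ha₁a H
  exact are_abs_down dat tC tJ tC_inj tC_equiv tC_range tJ_range tC_j tJ_trans hKK'
    (le_trans (α := IntermediateField ℚ Qbar) hK'a₁ ha₁a) h1 c

end Main

end Fermat.Agent.S55
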