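import Mathlib
import Fermat.Agent.S55.Idele.Defs
import Fermat.Agent.S55.Idele.EnlargeS

/-!
# S55 / block [G5]: the count `|C_T(K)/p| · |E_T/p| = |J_T/p|` when `Cl_T(K) = 1`

* `icc_index_pow_quotient`: for a subgroup `E` of a commutative group `J` with `E ∩ J^p = E^p`,
  `[J/E : (J/E)^p] * [E : E^p] = [J : J^p]`.
* `icc_index_pow_pi`: `[∏ G_i : (∏ G_i)^p] = ∏ [G_i : G_i^p]` (dependent finite products).
* `icc_ker_jS`, `icc_classEquiv`: when every divisor prime to `T` is principal,
  `id_C T K ≃* id_JS T K ⧸ (image of the T-units)`.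
* `icc_index_pow`: the count for `id_C T K`.
-/

set_option autoImplicit false

open scoped TensorProduct NumberField Pointwise
open IsDedekindDomain

noncomputable section

namespace Fermat.Agent.S55

universe u

/-! ### Abstract group theory -/

section abstract

variable {J : Type*} [CommGroup J]

theorem icc_range_pow_map {A B : Type*} [CommGroup A] [CommGroup B] (f : A →* B)
    (hf : Function.Surjective f) (p : ℕ) :
    (powMonoidHom p : B →* B).range = (powMonoidHom p : A →* A).range.map f := by
  ext b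
  constructor
  · rintro ⟨b', rfl⟩
    obtain ⟨a, rfl⟩ := hf b'
    exact ⟨a ^ p, ⟨a, rfl⟩, by simp⟩
  · rintro ⟨a, ⟨a', rfl⟩, rfl⟩
    exact ⟨f a', by simp⟩

/-- Invariance of `[A : A^p]` under group isomorphisms. -/
theorem icc_index_pow_equiv {A B : Type*} [CommGroup A] [CommGroup B] (e : A ≃* B) (p : ℕ) :
    (powMonoidHom p : B →* B).range.index = (powMonoidHom p : A →* A).range.index := by
  rw [icc_range_pow_map (e : A →* B) e.surjective p, Subgroup.index_map_equiv]

/-- `[J/E : (J/E)^p] * [E : E^p] = [J : J^p]` when `E ∩ J^p = E^p`. -/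
theorem icc_index_pow_quotient (E : Subgroup J) (p : ℕ)
    (hcap : ∀ x ∈ E, x ∈ (powMonoidHom p : J →* J).range → ∃ z ∈ E, z ^ p = x) :
    (powMonoidHom p : J ⧸ E →* J ⧸ E).range.index *
        (powMonoidHom p : ↥E →* ↥E).range.index =
      (powMonoidHom p : J →* J).range.index := by
  set P : Subgroup J := (powMonoidHom p : J →* J).range with hP
  have h1 : (powMonoidHom p : J ⧸ E →* J ⧸ E).range.index = (P ⊔ E).index := by
    rw [icc_range_pow_map (QuotientGroup.mk' E) (QuotientGroup.mk'_surjective E) p,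
      Subgroup.index_map, QuotientGroup.ker_mk',
      MonoidHom.range_eq_top_of_surjective _ (QuotientGroup.mk'_surjective E),
      Subgroup.index_top, mul_one]
  have h2 : (powMonoidHom p : ↥E →* ↥E).range = P.subgroupOf E := by
    ext x
    rw [Subgroup.mem_subgroupOf]
    constructor
    · rintro ⟨y, rfl⟩
      exact ⟨(y : J), by simp⟩
    · intro hx
      obtain ⟨z, hz, hzx⟩ := hcap (x : J) x.2 hx
      exact ⟨⟨z, hz⟩, Subtype.ext (by simpa using hzx)⟩
  rw [h1, h2, mul_comm]
  change P.relIndex E * (P ⊔ E).index = P.index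
  rw [← Subgroup.relIndex_sup_left (K := P) (H := E)]
  exact Subgroup.relIndex_mul_index le_sup_left

/-- `[∏ G_i : (∏ G_i)^p] = ∏ [G_i : G_i^p]` for a finite dependent product. -/
theorem icc_index_pow_pi {ι : Type*} [Fintype ι] (G : ι → Type*) [∀ i, CommGroup (G i)] (p : ℕ) :
    (powMonoidHom p : (∀ i, G i) →* (∀ i, G i)).range.index =
      ∏ i, (powMonoidHom p : G i →* G i).range.index := by
  have h1 : (powMonoidHom p : (∀ i, G i) →* (∀ i, G i)).range =
      Subgroup.pi Set.univ (fun i => (powMonoidHom p : G i →* G i).range) := by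
    ext x
    rw [Subgroup.mem_pi]
    constructor
    · rintro ⟨y, rfl⟩ i _
      exact ⟨y i, rfl⟩
    · intro h
      choose y hy using fun i => h i (Set.mem_univ i)
      exact ⟨y, funext hy⟩
  rw [h1]
  simp_rw [Subgroup.index, ← Nat.card_pi]
  refine Nat.card_congr
    ((Quotient.congrRight (fun x y ↦ ?_)).trans (Setoid.piQuotientEquiv _).symm)
  rw [QuotientGroup.leftRel_pi]

end abstract

/-! ### The idele class group when the class group is trivial -/

variable (T : Finset Nat.Primes) (K : Type u) [Field K] [NumberField K]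

/-- The image of the `T`-units in the `T`-semilocal units. -/
def icc_E : Subgroup (id_JS T K) := (id_ES T K).map (id_diagS T K)

theorem icc_ker_jS : (id_jS T K).ker = icc_E T K := by
  ext x
  rw [MonoidHom.mem_ker]
  change id_toC T K (id_inS T K x) = 1 ↔ _
  rw [id_toC_eq_one_iff]
  constructor
  · rintro ⟨y, hy⟩
    have h1 : id_diagS T K y = x := congrArg Prod.fst hy
    have h2 : id_div T K y = 1 := congrArg Prod.snd hy
    exact ⟨y, h2, h1⟩
  · rintro ⟨y, hy, rfl⟩
    refine ⟨y, ?_⟩
    have h2 : id_div T K y = 1 := hy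
    apply Prod.ext
    · rfl
    · exact h2

theorem icc_jS_surjective (hcl : (id_div T K).range = ⊤) : Function.Surjective (id_jS T K) := by
  rw [← MonoidHom.range_eq_top]
  exact ie_CSo_eq_top K hcl

/-- When every divisor prime to `T` is principal, `C_T(K) = J_T / E_T`. -/
def icc_classEquiv (hcl : (id_div T K).range = ⊤) : id_JS T K ⧸ icc_E T K ≃* id_C T K :=
  (QuotientGroup.quotientMulEquivOfEq (icc_ker_jS T K).symm).trans
    (QuotientGroup.quotientKerEquivOfSurjective (id_jS T K) (icc_jS_surjective T K hcl))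

theorem icc_classEquiv_mk (hcl : (id_div T K).range = ⊤) (x : id_JS T K) :
    icc_classEquiv T K hcl (QuotientGroup.mk x) = id_jS T K x := rfl

/-- The `T`-units as a subgroup of the semilocal units (`T ≠ ∅`). -/
def icc_EEquiv (hT : T.Nonempty) : ↥(id_ES T K) ≃* ↥(icc_E T K) :=
  (id_ES T K).equivMapOfInjective (id_diagS T K) (by
    intro x y hxy
    obtain ⟨q, hq⟩ := hT
    apply id_inclU_injective K q
    have := congrFun hxy ⟨q, hq⟩
    exact this)

/-- **The count** `|C_T(K)/p| * |E_T/p| = |J_T/p|` when `Cl_T(K) = 1` and a `T`-unit which is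
everywhere locally (at `T`) a `p`-th power is a `p`-th power of a `T`-unit. -/
theorem icc_index_pow (hT : T.Nonempty) (hcl : (id_div T K).range = ⊤) (p : ℕ)
    (hcap : ∀ x ∈ id_ES T K, (∃ y : id_JS T K, y ^ p = id_diagS T K x) →
      ∃ z ∈ id_ES T K, z ^ p = x) :
    (powMonoidHom (α := id_C T K) p).range.index *
        (powMonoidHom (α := ↥(id_ES T K)) p).range.index =
      (powMonoidHom (α := id_JS T K) p).range.index := by
  have h1 := icc_index_pow_equiv (A := id_JS T K ⧸ icc_E T K) (B := id_C T K)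
    (icc_classEquiv T K hcl) p
  have h2 := icc_index_pow_equiv (A := ↥(id_ES T K)) (B := ↥(icc_E T K)) (icc_EEquiv T K hT) p
  have h3 := icc_index_pow_quotient (icc_E T K) p (by
    rintro _ ⟨x, hx, rfl⟩ ⟨y, hy⟩
    obtain ⟨z, hz, hzx⟩ := hcap x hx ⟨y, hy⟩
    exact ⟨id_diagS T K z, ⟨z, hz, rfl⟩, by rw [← map_pow, hzx]⟩)
  rw [← h3, ← h2]
  exact congrArg (· * _) h1

/-- The semilocal index is the product of the local ones. -/
theorem icc_index_pow_JS (p : ℕ) :
    (powMonoidHom (α := id_JS T K) p).range.index =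
      ∏ q : ↥T, (powMonoidHom (α := (id_A K q.1)ˣ) p).range.index :=
  icc_index_pow_pi (fun q : ↥T => (id_A K q.1)ˣ) p

end Fermat.Agent.S55
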