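import Fermat.Agent.S55.Idele.Dictionary
import Fermat.Agent.S55.Idele.Semilocal
import Fermat.Agent.S55.LocalQ.PowerIndexQ
import Fermat.Agent.S55.SUnit.SemilocalRing
import Fermat.Agent.S55.SUnit.HerbrandPi

/-!
# S55 / block [G0]/[G5]: the semilocal algebra as a product of local fields; power index

For a number field `K` and a prime `q`, `A := ℚ_[q] ⊗[ℚ] K` is a finite product of the local
fields `L_𝔪 = ℚ_q · φ_𝔪(K) ⊆ PadicAlgCl q` (`id_sp_fieldOf 𝔪 : LqField q`), one for every maximal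
ideal `𝔪` of `A`:

* `id_sp_field φ : LqField q`, `id_sp_toField φ : A →ₐ[ℚ_[q]] id_sp_field φ` (surjective, kernel
  `id_dc_max φ`), `id_sp_quotEquiv`;
* `id_sp_algEquiv : A ≃ₐ[ℚ_[q]] ∀ 𝔪, id_sp_fieldOf 𝔪`, `id_sp_unitsEquiv : Aˣ ≃* ∀ 𝔪, (L_𝔪)ˣ`;
* `id_sp_sum_finrank : ∑ 𝔪, [L_𝔪 : ℚ_q] = [K : ℚ]`;
* `id_sp_index_pow`: if `K` contains a primitive `p`-th root of unity then
  `[Aˣ : (Aˣ)^p] = p ^ (2 g)` (`q ≠ p`), `p ^ (2 g + [K : ℚ])` (`q = p`), `g = #MaxSpec A`.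
-/

set_option autoImplicit false
set_option linter.unusedSectionVars false

open scoped TensorProduct NumberField
open IsDedekindDomain

noncomputable section

namespace Fermat.Agent.S55

universe u

variable {K : Type u} [Field K] [NumberField K] {q : ℕ} [Fact q.Prime]

/-! ### The local field attached to an embedding -/

/-- The local field `ℚ_q · φ(K) ⊆ PadicAlgCl q`: the range of `id_dc_lift φ`. -/
def id_sp_field (φ : K →ₐ[ℚ] PadicAlgCl q) : LqField q :=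
  Subalgebra.toIntermediateField' (id_dc_lift φ).range (Subalgebra.isField_of_algebraic _)

theorem id_sp_mem_field (φ : K →ₐ[ℚ] PadicAlgCl q) (y : PadicAlgCl q) :
    y ∈ id_sp_field φ ↔ ∃ z, id_dc_lift φ z = y := Iff.rfl

theorem id_sp_lift_mem (φ : K →ₐ[ℚ] PadicAlgCl q) (z : ℚ_[q] ⊗[ℚ] K) :
    id_dc_lift φ z ∈ id_sp_field φ := ⟨z, rfl⟩

/-- `id_dc_lift φ` with codomain restricted to its range field. -/
def id_sp_toField (φ : K →ₐ[ℚ] PadicAlgCl q) : ℚ_[q] ⊗[ℚ] K →ₐ[ℚ_[q]] id_sp_field φ :=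
  (id_dc_lift φ).codRestrict (id_sp_field φ).toSubalgebra (id_sp_lift_mem φ)

@[simp]
theorem id_sp_toField_coe (φ : K →ₐ[ℚ] PadicAlgCl q) (z : ℚ_[q] ⊗[ℚ] K) :
    ((id_sp_toField φ z : id_sp_field φ) : PadicAlgCl q) = id_dc_lift φ z := rfl

theorem id_sp_toField_surjective (φ : K →ₐ[ℚ] PadicAlgCl q) :
    Function.Surjective (id_sp_toField φ) := by
  rintro ⟨y, z, rfl⟩
  exact ⟨z, rfl⟩

theorem id_sp_toField_ker (φ : K →ₐ[ℚ] PadicAlgCl q) :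
    RingHom.ker (id_sp_toField φ) = (id_dc_max φ).asIdeal := by
  ext z
  rw [RingHom.mem_ker, id_dc_mem_max, ← id_sp_toField_coe, ← ZeroMemClass.coe_eq_zero]

instance id_sp_finiteDimensional (φ : K →ₐ[ℚ] PadicAlgCl q) :
    FiniteDimensional ℚ_[q] (id_sp_field φ) :=
  Module.Finite.of_surjective (id_sp_toField φ).toLinearMap (id_sp_toField_surjective φ)

/-! ### The local field attached to a maximal ideal -/

/-- A chosen embedding with kernel `𝔪`. -/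
def id_sp_emb (𝔪 : MaximalSpectrum (ℚ_[q] ⊗[ℚ] K)) : K →ₐ[ℚ] PadicAlgCl q :=
  Classical.choose (id_dc_max_surjective 𝔪)

theorem id_sp_max_emb (𝔪 : MaximalSpectrum (ℚ_[q] ⊗[ℚ] K)) : id_dc_max (id_sp_emb 𝔪) = 𝔪 :=
  Classical.choose_spec (id_dc_max_surjective 𝔪)

/-- The local field `L_𝔪 ⊆ PadicAlgCl q` attached to a maximal ideal of `ℚ_[q] ⊗ K`. -/
def id_sp_fieldOf (𝔪 : MaximalSpectrum (ℚ_[q] ⊗[ℚ] K)) : LqField q := id_sp_field (id_sp_emb 𝔪)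

instance id_sp_finiteDimensional_fieldOf (𝔪 : MaximalSpectrum (ℚ_[q] ⊗[ℚ] K)) :
    FiniteDimensional ℚ_[q] (id_sp_fieldOf 𝔪) := id_sp_finiteDimensional _

/-- The projection `A → L_𝔪`. -/
def id_sp_proj (𝔪 : MaximalSpectrum (ℚ_[q] ⊗[ℚ] K)) :
    ℚ_[q] ⊗[ℚ] K →ₐ[ℚ_[q]] id_sp_fieldOf 𝔪 := id_sp_toField (id_sp_emb 𝔪)

@[simp]
theorem id_sp_proj_coe (𝔪 : MaximalSpectrum (ℚ_[q] ⊗[ℚ] K)) (z : ℚ_[q] ⊗[ℚ] K) :
    ((id_sp_proj 𝔪 z : id_sp_fieldOf 𝔪) : PadicAlgCl q) = id_dc_lift (id_sp_emb 𝔪) z := rfl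

theorem id_sp_proj_surjective (𝔪 : MaximalSpectrum (ℚ_[q] ⊗[ℚ] K)) :
    Function.Surjective (id_sp_proj 𝔪) := id_sp_toField_surjective _

theorem id_sp_proj_ker (𝔪 : MaximalSpectrum (ℚ_[q] ⊗[ℚ] K)) :
    RingHom.ker (id_sp_proj 𝔪) = 𝔪.asIdeal :=
  (id_sp_toField_ker (id_sp_emb 𝔪)).trans (congrArg MaximalSpectrum.asIdeal (id_sp_max_emb 𝔪))

theorem id_sp_proj_eq_zero_iff (𝔪 : MaximalSpectrum (ℚ_[q] ⊗[ℚ] K)) (z : ℚ_[q] ⊗[ℚ] K) :
    id_sp_proj 𝔪 z = 0 ↔ z ∈ 𝔪.asIdeal := by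
  rw [← id_sp_proj_ker, RingHom.mem_ker]

/-- `A ⧸ 𝔪 ≃ L_𝔪`. -/
def id_sp_quotEquiv (𝔪 : MaximalSpectrum (ℚ_[q] ⊗[ℚ] K)) :
    ((ℚ_[q] ⊗[ℚ] K) ⧸ 𝔪.asIdeal) ≃ₐ[ℚ_[q]] id_sp_fieldOf 𝔪 :=
  (Ideal.quotientEquivAlgOfEq ℚ_[q] (id_sp_proj_ker 𝔪).symm).trans
    (Ideal.quotientKerAlgEquivOfSurjective (id_sp_proj_surjective 𝔪))

@[simp]
theorem id_sp_quotEquiv_mk (𝔪 : MaximalSpectrum (ℚ_[q] ⊗[ℚ] K)) (z : ℚ_[q] ⊗[ℚ] K) :
    id_sp_quotEquiv 𝔪 (Ideal.Quotient.mk 𝔪.asIdeal z) = id_sp_proj 𝔪 z := rfl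

/-- **The semilocal algebra is the product of its local fields.** -/
def id_sp_algEquiv :
    (ℚ_[q] ⊗[ℚ] K) ≃ₐ[ℚ_[q]] ∀ 𝔪 : MaximalSpectrum (ℚ_[q] ⊗[ℚ] K), id_sp_fieldOf 𝔪 :=
  ((IsArtinianRing.equivPi (ℚ_[q] ⊗[ℚ] K)).restrictScalars ℚ_[q]).trans
    (AlgEquiv.piCongrRight fun 𝔪 => id_sp_quotEquiv 𝔪)

@[simp]
theorem id_sp_algEquiv_apply (z : ℚ_[q] ⊗[ℚ] K) (𝔪 : MaximalSpectrum (ℚ_[q] ⊗[ℚ] K)) :
    id_sp_algEquiv z 𝔪 = id_sp_proj 𝔪 z := rfl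

/-- **The semilocal unit group is the product of the local unit groups.** -/
def id_sp_unitsEquiv :
    (ℚ_[q] ⊗[ℚ] K)ˣ ≃* ∀ 𝔪 : MaximalSpectrum (ℚ_[q] ⊗[ℚ] K), (id_sp_fieldOf 𝔪)ˣ :=
  (Units.mapEquiv (id_sp_algEquiv (K := K) (q := q)).toMulEquiv).trans MulEquiv.piUnits

@[simp]
theorem id_sp_unitsEquiv_apply (u : (ℚ_[q] ⊗[ℚ] K)ˣ) (𝔪 : MaximalSpectrum (ℚ_[q] ⊗[ℚ] K)) :
    ((id_sp_unitsEquiv u 𝔪 : (id_sp_fieldOf 𝔪)ˣ) : id_sp_fieldOf 𝔪) = id_sp_proj 𝔪 (u : _) := rfl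

theorem id_sp_unitsEquiv_coe (u : (ℚ_[q] ⊗[ℚ] K)ˣ) (𝔪 : MaximalSpectrum (ℚ_[q] ⊗[ℚ] K)) :
    (((id_sp_unitsEquiv u 𝔪 : (id_sp_fieldOf 𝔪)ˣ) : id_sp_fieldOf 𝔪) : PadicAlgCl q) =
      id_dc_lift (id_sp_emb 𝔪) (u : _) := rfl

/-! ### Degrees -/

theorem id_sp_finrank_tensor : Module.finrank ℚ_[q] (ℚ_[q] ⊗[ℚ] K) = Module.finrank ℚ K :=
  Module.finrank_baseChange

theorem id_sp_sum_finrank [Fintype (MaximalSpectrum (ℚ_[q] ⊗[ℚ] K))] :
    ∑ 𝔪 : MaximalSpectrum (ℚ_[q] ⊗[ℚ] K), Module.finrank ℚ_[q] (id_sp_fieldOf 𝔪) =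
      Module.finrank ℚ K := by
  rw [← id_sp_finrank_tensor (K := K) (q := q),
    (id_sp_algEquiv (K := K) (q := q)).toLinearEquiv.finrank_eq, Module.finrank_pi_fintype]

/-! ### Generic lemmas on the index of `p`-th powers -/

section Generic

theorem id_sp_range_pow_map {G H : Type*} [CommGroup G] [CommGroup H] (e : G ≃* H) (n : ℕ) :
    (powMonoidHom n : G →* G).range.map (e : G →* H) = (powMonoidHom n : H →* H).range := by
  ext y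
  constructor
  · rintro ⟨_, ⟨x, rfl⟩, rfl⟩
    exact ⟨e x, by simp [powMonoidHom_apply]⟩
  · rintro ⟨x, rfl⟩
    refine ⟨e.symm x ^ n, ⟨e.symm x, rfl⟩, ?_⟩
    simp [powMonoidHom_apply]

theorem id_sp_index_pow_congr {G H : Type*} [CommGroup G] [CommGroup H] (e : G ≃* H) (n : ℕ) :
    (powMonoidHom n : G →* G).range.index = (powMonoidHom n : H →* H).range.index := by
  rw [← id_sp_range_pow_map e n]
  exact (Subgroup.index_map_equiv _ e).symm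

theorem id_sp_range_pow_pi {ι : Type*} {G : ι → Type*} [∀ i, CommGroup (G i)] (n : ℕ) :
    (powMonoidHom n : (∀ i, G i) →* ∀ i, G i).range =
      Subgroup.pi Set.univ fun i => (powMonoidHom n : G i →* G i).range := by
  ext x
  simp only [MonoidHom.mem_range, Subgroup.mem_pi, Set.mem_univ, forall_const, powMonoidHom_apply]
  constructor
  · rintro ⟨y, rfl⟩ i
    exact ⟨y i, rfl⟩
  · intro h
    choose y hy using h
    exact ⟨y, funext hy⟩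

theorem id_sp_index_pow_pi {ι : Type*} [Fintype ι] {G : ι → Type*} [∀ i, CommGroup (G i)]
    (n : ℕ) :
    (powMonoidHom n : (∀ i, G i) →* ∀ i, G i).range.index =
      ∏ i, (powMonoidHom n : G i →* G i).range.index := by
  rw [id_sp_range_pow_pi, hq_index_pi]

end Generic

/-! ### The semilocal power index -/

/-- The index of the `n`-th powers in `(ℚ_[q] ⊗ K)ˣ` is the product of the local indices. -/
theorem id_sp_index_pow_eq_prod [Fintype (MaximalSpectrum (ℚ_[q] ⊗[ℚ] K))] (n : ℕ) :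
    (powMonoidHom n : (ℚ_[q] ⊗[ℚ] K)ˣ →* (ℚ_[q] ⊗[ℚ] K)ˣ).range.index =
      ∏ 𝔪 : MaximalSpectrum (ℚ_[q] ⊗[ℚ] K),
        (powMonoidHom n : (id_sp_fieldOf 𝔪)ˣ →* (id_sp_fieldOf 𝔪)ˣ).range.index := by
  rw [id_sp_index_pow_congr (id_sp_unitsEquiv (K := K) (q := q)) n, id_sp_index_pow_pi]

/-- The embedding `K → L_𝔪`. -/
def id_sp_incl (𝔪 : MaximalSpectrum (ℚ_[q] ⊗[ℚ] K)) : K →ₐ[ℚ] id_sp_fieldOf 𝔪 :=
  ((id_sp_proj 𝔪).restrictScalars ℚ).comp Algebra.TensorProduct.includeRight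

@[simp]
theorem id_sp_incl_coe (𝔪 : MaximalSpectrum (ℚ_[q] ⊗[ℚ] K)) (x : K) :
    ((id_sp_incl 𝔪 x : id_sp_fieldOf 𝔪) : PadicAlgCl q) = id_sp_emb 𝔪 x := by
  show id_dc_lift (id_sp_emb 𝔪) ((1 : ℚ_[q]) ⊗ₜ[ℚ] x) = _
  rw [id_dc_lift_one_tmul]

theorem id_sp_incl_injective (𝔪 : MaximalSpectrum (ℚ_[q] ⊗[ℚ] K)) :
    Function.Injective (id_sp_incl 𝔪) := (id_sp_incl 𝔪).toRingHom.injective

/-- **Semilocal power index.**  If `K` contains a primitive `p`-th root of unity then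
`[(ℚ_q ⊗ K)ˣ : p-th powers] = p ^ (2 g)` for `q ≠ p` and `p ^ (2 g + [K : ℚ])` for `q = p`, where
`g` is the number of maximal ideals of `ℚ_q ⊗ K` (= the number of primes of `K` over `q`). -/
theorem id_sp_index_pow (p : ℕ) [Fact p.Prime] {ζ : K} (hζ : IsPrimitiveRoot ζ p) :
    (powMonoidHom p : (ℚ_[q] ⊗[ℚ] K)ˣ →* (ℚ_[q] ⊗[ℚ] K)ˣ).range.index =
      if p = q then p ^ (2 * Nat.card (MaximalSpectrum (ℚ_[q] ⊗[ℚ] K)) + Module.finrank ℚ K)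
      else p ^ (2 * Nat.card (MaximalSpectrum (ℚ_[q] ⊗[ℚ] K))) := by
  classical
  have : Fintype (MaximalSpectrum (ℚ_[q] ⊗[ℚ] K)) := Fintype.ofFinite _
  rw [id_sp_index_pow_eq_prod]
  have hloc : ∀ 𝔪 : MaximalSpectrum (ℚ_[q] ⊗[ℚ] K),
      (powMonoidHom p : (id_sp_fieldOf 𝔪)ˣ →* (id_sp_fieldOf 𝔪)ˣ).range.index =
        if p = q then p ^ (2 + Module.finrank ℚ_[q] (id_sp_fieldOf 𝔪)) else p ^ 2 := fun 𝔪 =>
    piq_index_pow_of_primitiveRoot (id_sp_fieldOf 𝔪) p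
      (hζ.map_of_injective (id_sp_incl_injective 𝔪))
  simp only [hloc]
  rw [Nat.card_eq_fintype_card]
  split_ifs with hpq
  · rw [Finset.prod_pow_eq_pow_sum, Finset.sum_add_distrib, Finset.sum_const, Finset.card_univ,
      id_sp_sum_finrank, smul_eq_mul, mul_comm]
  · rw [Finset.prod_pow_eq_pow_sum, Finset.sum_const, Finset.card_univ, smul_eq_mul, mul_comm]

theorem id_sp_index_pow_ne_zero (p : ℕ) [Fact p.Prime] {ζ : K} (hζ : IsPrimitiveRoot ζ p) :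
    (powMonoidHom p : (ℚ_[q] ⊗[ℚ] K)ˣ →* (ℚ_[q] ⊗[ℚ] K)ˣ).range.index ≠ 0 := by
  rw [id_sp_index_pow p hζ]
  have hp : p ≠ 0 := (Fact.out : p.Prime).ne_zero
  split_ifs <;> exact pow_ne_zero _ hp

/-! ### In terms of primes of `K`; the `S`-part of the idele group -/

theorem id_sp_card_max : Nat.card (MaximalSpectrum (ℚ_[q] ⊗[ℚ] K)) =
    Nat.card {w : HeightOneSpectrum (𝓞 K) // ((q : ℕ) : 𝓞 K) ∈ w.asIdeal} :=
  Nat.card_congr (id_dc_maxEquiv K q)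

instance id_sp_finite_primesOver :
    Finite {w : HeightOneSpectrum (𝓞 K) // ((q : ℕ) : 𝓞 K) ∈ w.asIdeal} :=
  Finite.of_equiv _ (id_dc_maxEquiv K q)

/-- A prime of `K` lies over only one rational prime. -/
theorem id_sp_prime_unique (w : HeightOneSpectrum (𝓞 K)) {a b : ℕ} (ha : a.Prime) (hb : b.Prime)
    (haw : ((a : ℕ) : 𝓞 K) ∈ w.asIdeal) (hbw : ((b : ℕ) : 𝓞 K) ∈ w.asIdeal) : a = b := by
  by_contra hne
  have hcop : IsCoprime (a : ℤ) (b : ℤ) :=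
    Nat.isCoprime_iff_coprime.2 ((Nat.coprime_primes ha hb).2 hne)
  obtain ⟨u, v, huv⟩ := hcop
  have h1 : (1 : 𝓞 K) ∈ w.asIdeal := by
    have h2 : ((u : 𝓞 K) * ((a : ℕ) : 𝓞 K) + (v : 𝓞 K) * ((b : ℕ) : 𝓞 K)) = 1 := by
      have := congrArg (fun z : ℤ => (z : 𝓞 K)) huv
      simpa using this
    rw [← h2]
    exact w.asIdeal.add_mem (w.asIdeal.mul_mem_left _ haw) (w.asIdeal.mul_mem_left _ hbw)
  exact w.isPrime.ne_top ((Ideal.eq_top_iff_one _).2 h1)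

variable (K) in
/-- The primes of `K` over a finite set `S` of rational primes, fibred over `S`. -/
def id_sp_primesOverMap (S : Finset Nat.Primes) :
    (Σ q : S, {w : HeightOneSpectrum (𝓞 K) // (((q : Nat.Primes) : ℕ) : 𝓞 K) ∈ w.asIdeal}) →
      {w : HeightOneSpectrum (𝓞 K) // ∃ q ∈ S, (((q : Nat.Primes) : ℕ) : 𝓞 K) ∈ w.asIdeal} :=
  fun x => ⟨x.2.1, x.1.1, x.1.2, x.2.2⟩

theorem id_sp_primesOverMap_bijective (S : Finset Nat.Primes) :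
    Function.Bijective (id_sp_primesOverMap K S) := by
  constructor
  · rintro ⟨⟨q, hq⟩, w, hw⟩ ⟨⟨q', hq'⟩, w', hw'⟩ h
    have h1 : w = w' := congrArg Subtype.val h
    subst h1
    have h2 : q = q' := Subtype.ext (id_sp_prime_unique w q.2 q'.2 hw hw')
    subst h2
    rfl
  · rintro ⟨w, q, hq, hw⟩
    exact ⟨⟨⟨q, hq⟩, w, hw⟩, rfl⟩

/-- The number of primes of `K` over `S` is the sum over `q ∈ S` of the numbers of maximal ideals
of `ℚ_q ⊗ K`. -/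
theorem id_sp_card_primesOver (S : Finset Nat.Primes) :
    Nat.card {w : HeightOneSpectrum (𝓞 K) // ∃ q ∈ S, (((q : Nat.Primes) : ℕ) : 𝓞 K) ∈ w.asIdeal} =
      ∑ q : S, Nat.card (MaximalSpectrum (ℚ_[((q : Nat.Primes) : ℕ)] ⊗[ℚ] K)) := by
  rw [← Nat.card_congr (Equiv.ofBijective _ (id_sp_primesOverMap_bijective (K := K) S)),
    Nat.card_sigma]
  exact Finset.sum_congr rfl fun q _ => id_sp_card_max.symm

/-- Uniform exponent form of `id_sp_index_pow`. -/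
theorem id_sp_index_pow' (p : ℕ) [Fact p.Prime] {ζ : K} (hζ : IsPrimitiveRoot ζ p) :
    (powMonoidHom p : (ℚ_[q] ⊗[ℚ] K)ˣ →* (ℚ_[q] ⊗[ℚ] K)ˣ).range.index =
      p ^ (2 * Nat.card (MaximalSpectrum (ℚ_[q] ⊗[ℚ] K)) +
        if p = q then Module.finrank ℚ K else 0) := by
  rw [id_sp_index_pow p hζ]
  split_ifs <;> rfl

/-- **The `p`-power index of the `S`-part of the idele group**: if `K ∋ ζ_p` then
`[J_S : J_S^p] = p ^ (2 |S_K| + [K : ℚ])` if `p ∈ S` (and `p ^ (2 |S_K|)` otherwise), where `S_K` is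
the set of primes of `K` over `S`. -/
theorem id_sp_index_pow_JS (S : Finset Nat.Primes) (p : ℕ) [hp : Fact p.Prime] {ζ : K}
    (hζ : IsPrimitiveRoot ζ p) :
    (powMonoidHom p : id_JS S K →* id_JS S K).range.index =
      p ^ (2 * Nat.card {w : HeightOneSpectrum (𝓞 K) //
          ∃ q ∈ S, (((q : Nat.Primes) : ℕ) : 𝓞 K) ∈ w.asIdeal} +
        if (⟨p, hp.out⟩ : Nat.Primes) ∈ S then Module.finrank ℚ K else 0) := by
  classical
  rw [id_sp_index_pow_pi]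
  have hloc : ∀ r : S, (powMonoidHom p : (id_A K r.1)ˣ →* (id_A K r.1)ˣ).range.index =
      p ^ (2 * Nat.card (MaximalSpectrum (ℚ_[((r : Nat.Primes) : ℕ)] ⊗[ℚ] K)) +
        if p = ((r : Nat.Primes) : ℕ) then Module.finrank ℚ K else 0) := fun r =>
    id_sp_index_pow' p hζ
  simp only [hloc]
  rw [Finset.prod_pow_eq_pow_sum, Finset.sum_add_distrib, ← Finset.mul_sum,
    ← id_sp_card_primesOver]
  congr 2
  split_ifs with hpS
  · rw [Finset.sum_eq_single_of_mem (⟨⟨p, hp.out⟩, hpS⟩ : S) (Finset.mem_univ _)]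
    · simp
    · intro r _ hr
      rw [if_neg]
      intro h
      apply hr
      apply Subtype.ext
      apply Subtype.ext
      exact h.symm
  · apply Finset.sum_eq_zero
    intro r _
    rw [if_neg]
    intro h
    apply hpS
    have : (⟨p, hp.out⟩ : Nat.Primes) = r.1 := Subtype.ext h
    rw [this]
    exact r.2

theorem id_sp_index_pow_JS_ne_zero (S : Finset Nat.Primes) (p : ℕ) [hp : Fact p.Prime] {ζ : K}
    (hζ : IsPrimitiveRoot ζ p) :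
    (powMonoidHom p : id_JS S K →* id_JS S K).range.index ≠ 0 := by
  rw [id_sp_index_pow_JS S p hζ]
  exact pow_ne_zero _ hp.out.ne_zero

end Fermat.Agent.S55
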