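import Fermat.Agent.S55.Idele.SplitKummer
import Fermat.Agent.S55.G1.Main

/-!
# S55 / block [G5]: `E_S ∩ J_S^p = E_S^p`, unconditional (universe `0`)

`id_sk_hFI` discharges the hypothesis `hFI` of `id_sk_hint` from the first inequality
`fq_first_ineq`; `id_sk_hint_uncond`, `id_sk_hint_uncond'` are the resulting unconditional
statements for `K : Type`.
-/

set_option autoImplicit false

open scoped NumberField
open Finset

namespace Fermat.Agent.S55

/-- The first inequality in the form consumed by `id_sk_hint`: in a cyclic layer of odd prime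
degree `p` some invariant class is not a norm. -/
theorem id_sk_hFI (S : Finset Nat.Primes) (hS : S.Nonempty) (p : ℕ) [Fact p.Prime] (hp2 : p ≠ 2)
    (L : Type) [Field L] [NumberField L] (σ : L ≃ₐ[ℚ] L) (hσ : orderOf σ = p) :
    ∃ c : id_C S L, σ • c = c ∧ ∀ d : id_C S L, (∏ k ∈ range p, σ ^ k • d) ≠ c := by
  obtain ⟨h0, h1, h⟩ := fq_first_ineq S L hS σ p hp2 hσ
  have hp : p.Prime := Fact.out
  have hne : (fq_nuC S L σ p).range.relIndex (fq_thetaC S L σ).ker ≠ 1 := by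
    rw [h]
    intro h2
    have h3 : p ∣ 1 := ⟨_, h2.symm⟩
    exact hp.one_lt.ne' (Nat.dvd_one.1 h3)
  have hnle : ¬ (fq_thetaC S L σ).ker ≤ (fq_nuC S L σ p).range := fun hle =>
    hne (Subgroup.relIndex_eq_one.2 hle)
  obtain ⟨c, hc, hcn⟩ := Set.not_subset.1 hnle
  refine ⟨c, ?_, ?_⟩
  · have h4 : fq_thetaC S L σ c = 1 := hc
    rw [fq_thetaC_apply, div_eq_one] at h4
    exact h4
  · intro d hd
    exact hcn ⟨d, hd⟩

/-- **`E_S ∩ J_S^p = E_S^p`** for a number field `K ∋ ζ_p` (`p` odd, `p ∈ S`, `Cl_S(K) = 1`). -/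
theorem id_sk_hint_uncond (S : Finset Nat.Primes) (K : Type) [Field K] [NumberField K] (p : ℕ)
    [hp : Fact p.Prime] (hp2 : p ≠ 2) {ζ : K} (hζ : IsPrimitiveRoot ζ p)
    (hpS : (⟨p, hp.out⟩ : Nat.Primes) ∈ S) (hCl : (id_div S K).range = ⊤)
    (x : Kˣ) (hx : x ∈ id_ES S K) (hloc : ∃ y : id_JS S K, y ^ p = id_diagS S K x) :
    ∃ z : Kˣ, z ^ p = x :=
  id_sk_hint S K p hζ hpS hCl (fun L _ _ σ hσ => id_sk_hFI S ⟨_, hpS⟩ p hp2 L σ hσ) x hx hloc

theorem id_sk_hint_uncond' (S : Finset Nat.Primes) (K : Type) [Field K] [NumberField K] (p : ℕ)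
    [hp : Fact p.Prime] (hp2 : p ≠ 2) {ζ : K} (hζ : IsPrimitiveRoot ζ p)
    (hpS : (⟨p, hp.out⟩ : Nat.Primes) ∈ S) (hCl : (id_div S K).range = ⊤)
    (x : Kˣ) (hx : x ∈ id_ES S K) (hloc : ∃ y : id_JS S K, y ^ p = id_diagS S K x) :
    ∃ z ∈ id_ES S K, z ^ p = x :=
  id_sk_hint' S K p hζ hpS hCl (fun L _ _ σ hσ => id_sk_hFI S ⟨_, hpS⟩ p hp2 L σ hσ) x hx hloc

end Fermat.Agent.S55
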