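/-
S55 / block [G5] : the count `|C_S(K) / C_S(K)^p| = |E_S / E_S^p|` when `Cl_S(K) = 1`
(step (E2) of the existence theorem in exponent `p`).  Prefix `ce_`.

(A) abstract: for a surjection `f : J ↠ C` of commutative groups,
    `[C : C^p] · [ker f : ker f ∩ J^p] = [J : J^p]`;
(B) `id_` model: if `Cl_S(K) = 1` then `id_jS : id_JS S K → id_C S K` is onto with kernel the
    diagonal image of the `S`-units;
(C) numbers: with the semilocal power index `(hJ)` and `E_S ∩ J_S^p = E_S^p` `(hint)` as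
    hypotheses, `[C_S(K) : C_S(K)^p] = p ^ (|S_K| + [K:ℚ]/2) = [E_S Kˣᵖ : Kˣᵖ]`;
(D) final export `ce_index_pow_C` (universe `0`, unconditional): `(hJ)` from `id_sp_index_pow_JS`
    and `(hint)` from `id_sk_hint_uncond`.
-/
import Fermat.Agent.S55.Idele.EnlargeS
import Fermat.Agent.S55.Idele.TVersion
import Fermat.Agent.S55.Kummer.SUnitDegree
import Fermat.Agent.S55.Idele.SemilocalPower
import Fermat.Agent.S55.Idele.SplitKummerFI

set_option autoImplicit false
set_option maxHeartbeats 400000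

open scoped NumberField
open IsDedekindDomain

noncomputable section

namespace Fermat.Agent.S55

universe u

section Abstract

/-- the `p`-th powers of a quotient are the image of the `p`-th powers. -/
theorem ce_range_pow_map {J C : Type*} [CommGroup J] [CommGroup C] (f : J →* C)
    (hf : Function.Surjective f) (p : ℕ) :
    (powMonoidHom p : C →* C).range = ((powMonoidHom p : J →* J).range).map f := by
  ext c
  simp only [MonoidHom.mem_range, Subgroup.mem_map, powMonoidHom_apply]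
  constructor
  · rintro ⟨d, rfl⟩
    obtain ⟨x, rfl⟩ := hf d
    exact ⟨x ^ p, ⟨x, rfl⟩, map_pow f x p⟩
  · rintro ⟨_, ⟨x, rfl⟩, rfl⟩
    exact ⟨f x, (map_pow f x p).symm⟩

/-- `[C : C^p] · [ker f : ker f ∩ J^p] = [J : J^p]` for a surjection `f : J ↠ C`. -/
theorem ce_index_pow_of_surjective {J C : Type*} [CommGroup J] [CommGroup C] (f : J →* C)
    (hf : Function.Surjective f) (p : ℕ) :
    (powMonoidHom p : C →* C).range.index * (powMonoidHom p : J →* J).range.relIndex f.ker =
      (powMonoidHom p : J →* J).range.index := by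
  rw [ce_range_pow_map f hf p, Subgroup.index_map, MonoidHom.range_eq_top.2 hf,
    Subgroup.index_top, mul_one,
    ← Subgroup.relIndex_sup_left (K := (powMonoidHom p : J →* J).range) (H := f.ker), mul_comm]
  exact Subgroup.relIndex_mul_index le_sup_left

/-- bridge to the additive (`Rep`) language: `[Additive G : p • Additive G] = [G : G^p]`. -/
theorem ce_index_nsmul_additive (G : Type*) [CommGroup G] (p : ℕ) :
    (nsmulAddMonoidHom p : Additive G →+ Additive G).range.index =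
      (powMonoidHom p : G →* G).range.index := by
  rw [← Subgroup.index_toAddSubgroup]
  congr 1

end Abstract

section Model

variable (S : Finset Nat.Primes) (K : Type u) [Field K] [NumberField K]

/-- the kernel of `j_S : ∏_{v ∣ S} K_vˣ → C_S(K)` is the diagonal image of the `S`-units. -/
theorem ce_jS_ker : (id_jS S K).ker = (id_ES S K).map (id_diagS S K) := by
  ext x
  rw [MonoidHom.mem_ker, Subgroup.mem_map]
  change id_toC S K (id_inS S K x) = 1 ↔ _
  rw [id_toC_eq_one_iff]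
  constructor
  · rintro ⟨u, hu⟩
    refine ⟨u, ?_, ?_⟩
    · change id_div S K u = 1
      have := congrArg Prod.snd hu
      simpa [id_inS] using this
    · have := congrArg Prod.fst hu
      simpa [id_inS] using this
  · rintro ⟨u, hu, rfl⟩
    refine ⟨u, ?_⟩
    have h1 : id_div S K u = 1 := hu
    apply Prod.ext
    · rfl
    · rw [id_diag_snd, h1]
      rfl

variable {S K}

/-- if `Cl_S(K) = 1` then `j_S` is onto. -/
theorem ce_jS_surjective (hCl : (id_div S K).range = ⊤) : Function.Surjective (id_jS S K) := by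
  rw [← MonoidHom.range_eq_top]
  exact ie_CSo_eq_top K hCl

variable (p : ℕ)

/-- `[C_S : C_S^p] · [E_S : E_S ∩ J_S^p] = [J_S : J_S^p]` when `Cl_S(K) = 1`. -/
theorem ce_index_pow_C_comap (hCl : (id_div S K).range = ⊤) :
    (powMonoidHom (α := id_C S K) p).range.index *
        ((powMonoidHom p : id_JS S K →* id_JS S K).range.comap (id_diagS S K)).relIndex
          (id_ES S K) =
      (powMonoidHom p : id_JS S K →* id_JS S K).range.index := by
  have h := ce_index_pow_of_surjective (J := id_JS S K) (C := id_C S K) (id_jS S K)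
    (ce_jS_surjective hCl) p
  rw [Subgroup.relIndex_comap, ← ce_jS_ker]
  exact h

/-- under `(hint)`, `E_S ∩ J_S^p = E_S ∩ Kˣᵖ`. -/
theorem ce_relIndex_comap_eq
    (hint : ∀ x ∈ id_ES S K, (∃ y : id_JS S K, y ^ p = id_diagS S K x) → ∃ z : Kˣ, z ^ p = x) :
    ((powMonoidHom p : id_JS S K →* id_JS S K).range.comap (id_diagS S K)).relIndex (id_ES S K) =
      (powMonoidHom p : Kˣ →* Kˣ).range.relIndex (id_ES S K) := by
  rw [← Subgroup.inf_relIndex_right, ← Subgroup.inf_relIndex_right (powMonoidHom p : Kˣ →* Kˣ).range]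
  congr 1
  ext x
  simp only [Subgroup.mem_inf, Subgroup.mem_comap, MonoidHom.mem_range, powMonoidHom_apply]
  constructor
  · rintro ⟨h1, h2⟩
    exact ⟨hint x h2 h1, h2⟩
  · rintro ⟨⟨z, rfl⟩, h2⟩
    exact ⟨⟨id_diagS S K z, (map_pow _ _ _).symm⟩, h2⟩

end Model

section Numbers

variable (S : Finset Nat.Primes) (K : Type u) [Field K] [NumberField K]

/-- the (finitely many) primes of `K` above `S`. -/
def ce_T : Finset (HeightOneSpectrum (𝓞 K)) := (id_finite_not_primeToS S K).toFinset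

theorem ce_mem_T_iff (w : HeightOneSpectrum (𝓞 K)) : w ∈ ce_T S K ↔ ¬ id_PrimeToS S K w := by
  rw [ce_T, Set.Finite.mem_toFinset]
  rfl

theorem ce_mem_T_iff_exists (w : HeightOneSpectrum (𝓞 K)) :
    w ∈ ce_T S K ↔ ∃ q ∈ S, ((q : ℕ) : 𝓞 K) ∈ w.asIdeal := by
  rw [ce_mem_T_iff, id_PrimeToS]
  push Not
  rfl

/-- the number of primes above `S`, as the cardinality of a subtype. -/
theorem ce_card_T :
    (ce_T S K).card =
      Nat.card {w : HeightOneSpectrum (𝓞 K) // ∃ q ∈ S, ((q : ℕ) : 𝓞 K) ∈ w.asIdeal} := by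
  rw [← Nat.card_eq_finsetCard]
  exact Nat.card_congr (Equiv.subtypeEquivRight (ce_mem_T_iff_exists S K))

/-- `id_ES S K` is Mathlib's group of `S`-units for the set of primes above `S`. -/
theorem ce_ES_eq_unit : id_ES S K = ((ce_T S K : Finset _) : Set (HeightOneSpectrum (𝓞 K))).unit K := by
  ext x
  rw [id_mem_ES_iff]
  constructor
  · intro h w hw
    refine h w ?_
    by_contra hw'
    exact hw (Finset.mem_coe.2 ((ce_mem_T_iff S K w).2 hw'))
  · intro h v hv
    refine h v ?_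
    intro hv'
    exact (ce_mem_T_iff S K v).1 (Finset.mem_coe.1 hv') hv

variable {S K} {p : ℕ} [hp : Fact p.Prime] {ζ : K}

/-- `[E_S Kˣᵖ : Kˣᵖ] = p ^ (|S_K| + [K:ℚ]/2)`. -/
theorem ce_relIndex_ES (hζ : IsPrimitiveRoot ζ p) (hp2 : p ≠ 2) :
    (powMonoidHom p : Kˣ →* Kˣ).range.relIndex (id_ES S K) =
      p ^ ((ce_T S K).card + Module.finrank ℚ K / 2) := by
  rw [ce_ES_eq_unit]
  exact kds_relIndex_unit' (ce_T S K) hζ hp2

omit hp in
/-- **(E2) count, product form**: `[C_S : C_S^p] · [E_S Kˣᵖ : Kˣᵖ] = [J_S : J_S^p]` when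
`Cl_S(K) = 1` and `E_S ∩ J_S^p = E_S^p`. -/
theorem ce_index_pow_C_mul (hCl : (id_div S K).range = ⊤)
    (hint : ∀ x ∈ id_ES S K, (∃ y : id_JS S K, y ^ p = id_diagS S K x) → ∃ z : Kˣ, z ^ p = x) :
    (powMonoidHom (α := id_C S K) p).range.index *
        (powMonoidHom p : Kˣ →* Kˣ).range.relIndex (id_ES S K) =
      (powMonoidHom p : id_JS S K →* id_JS S K).range.index := by
  rw [← ce_relIndex_comap_eq p hint]
  exact ce_index_pow_C_comap p hCl

/-- **(E2) count**: `[C_S(K) : C_S(K)^p] = p ^ (|S_K| + [K:ℚ]/2)` when `Cl_S(K) = 1`, given the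
semilocal power index `(hJ)` and `E_S ∩ J_S^p = E_S^p` `(hint)`. -/
theorem ce_index_pow_C_eq (hζ : IsPrimitiveRoot ζ p) (hp2 : p ≠ 2)
    (hCl : (id_div S K).range = ⊤)
    (hJ : (powMonoidHom p : id_JS S K →* id_JS S K).range.index =
      p ^ (2 * (ce_T S K).card + Module.finrank ℚ K))
    (hint : ∀ x ∈ id_ES S K, (∃ y : id_JS S K, y ^ p = id_diagS S K x) → ∃ z : Kˣ, z ^ p = x) :
    (powMonoidHom (α := id_C S K) p).range.index =
      p ^ ((ce_T S K).card + Module.finrank ℚ K / 2) := by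
  have h1 := ce_index_pow_C_mul hCl hint
  rw [hJ, ce_relIndex_ES hζ hp2] at h1
  have h2 : 2 * (ce_T S K).card + Module.finrank ℚ K =
      ((ce_T S K).card + Module.finrank ℚ K / 2) + ((ce_T S K).card + Module.finrank ℚ K / 2) := by
    have := kds_two_mul_rank_add_one (K := K) hζ hp2
    omega
  rw [h2] at h1
  rw [pow_add p ((ce_T S K).card + Module.finrank ℚ K / 2)] at h1
  exact Nat.eq_of_mul_eq_mul_right (pow_pos hp.out.pos _) h1

/-- the same count expressed through the `S`-units: `[C_S : C_S^p] = [E_S Kˣᵖ : Kˣᵖ]`. -/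
theorem ce_index_pow_C_eq_relIndex (hζ : IsPrimitiveRoot ζ p) (hp2 : p ≠ 2)
    (hCl : (id_div S K).range = ⊤)
    (hJ : (powMonoidHom p : id_JS S K →* id_JS S K).range.index =
      p ^ (2 * (ce_T S K).card + Module.finrank ℚ K))
    (hint : ∀ x ∈ id_ES S K, (∃ y : id_JS S K, y ^ p = id_diagS S K x) → ∃ z : Kˣ, z ^ p = x) :
    (powMonoidHom (α := id_C S K) p).range.index =
      (powMonoidHom p : Kˣ →* Kˣ).range.relIndex (id_ES S K) := by
  rw [ce_index_pow_C_eq hζ hp2 hCl hJ hint, ce_relIndex_ES hζ hp2]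

/-- `[E_S Kˣᵖ : Kˣᵖ] ≠ 0` (the finiteness hypothesis `hfin` of the `kd_` API for `W = E_S`). -/
theorem ce_relIndex_ES_ne_zero (hζ : IsPrimitiveRoot ζ p) (hp2 : p ≠ 2) :
    (powMonoidHom p : Kˣ →* Kˣ).range.relIndex (id_ES S K) ≠ 0 := by
  rw [ce_relIndex_ES hζ hp2]
  exact pow_ne_zero _ hp.out.ne_zero

/-- **(E2) count, Galois form**: for `L = K(E_S^{1/p})` (in the `kd_` hypotheses),
`|Gal(L/K)| = [L : K] = [C_S(K) : C_S(K)^p]`. -/
theorem ce_card_aut_eq_index {L : Type*} [Field L] [Algebra K L] (hζ : IsPrimitiveRoot ζ p)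
    (hp2 : p ≠ 2)
    (hroot : ∀ w ∈ id_ES S K, ∃ y : L, y ^ p = algebraMap K L ((w : Kˣ) : K))
    (hgen : IntermediateField.adjoin K (kd_roots (id_ES S K) L p) = ⊤)
    (hCl : (id_div S K).range = ⊤)
    (hJ : (powMonoidHom p : id_JS S K →* id_JS S K).range.index =
      p ^ (2 * (ce_T S K).card + Module.finrank ℚ K))
    (hint : ∀ x ∈ id_ES S K, (∃ y : id_JS S K, y ^ p = id_diagS S K x) → ∃ z : Kˣ, z ^ p = x) :
    Nat.card (L ≃ₐ[K] L) = (powMonoidHom (α := id_C S K) p).range.index ∧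
      Module.finrank K L = (powMonoidHom (α := id_C S K) p).range.index := by
  have hfin := ce_relIndex_ES_ne_zero (S := S) hζ hp2
  rw [ce_index_pow_C_eq_relIndex hζ hp2 hCl hJ hint]
  exact ⟨kd_card_aut hζ _ hroot hgen hfin, kd_finrank hζ _ hroot hgen hfin⟩

end Numbers

section Final

variable (S : Finset Nat.Primes) (K : Type) [Field K] [NumberField K] (p : ℕ) [hp : Fact p.Prime]
  {ζ : K}

/-- the semilocal power index in the shape `(hJ)`. -/
theorem ce_hJ (hζ : IsPrimitiveRoot ζ p) (hpS : (⟨p, hp.out⟩ : Nat.Primes) ∈ S) :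
    (powMonoidHom p : id_JS S K →* id_JS S K).range.index =
      p ^ (2 * (ce_T S K).card + Module.finrank ℚ K) := by
  rw [id_sp_index_pow_JS S p hζ, if_pos hpS, ce_card_T]

/-- **(E2) count, final export** (`T6` of the G-abs leaf table): for a number field `K ∋ ζ_p`,
`p` odd, `p ∈ S`, `Cl_S(K) = 1`:
`[C_S(K) : C_S(K)^p] = [E_S Kˣᵖ : Kˣᵖ] = p ^ (|S_K| + [K:ℚ]/2) ≠ 0`. -/
theorem ce_index_pow_C (hp2 : p ≠ 2) (hζ : IsPrimitiveRoot ζ p)
    (hpS : (⟨p, hp.out⟩ : Nat.Primes) ∈ S) (hCl : (id_div S K).range = ⊤) :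
    (powMonoidHom (α := id_C S K) p).range.index =
        (powMonoidHom p : Kˣ →* Kˣ).range.relIndex (id_ES S K) ∧
      (powMonoidHom (α := id_C S K) p).range.index ≠ 0 ∧
      (powMonoidHom (α := id_C S K) p).range.index =
        p ^ ((ce_T S K).card + Module.finrank ℚ K / 2) := by
  have hint := id_sk_hint_uncond S K p hp2 hζ hpS hCl
  have hJ := ce_hJ S K p hζ hpS
  have h1 := ce_index_pow_C_eq hζ hp2 hCl hJ hint
  refine ⟨ce_index_pow_C_eq_relIndex hζ hp2 hCl hJ hint, ?_, h1⟩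
  rw [h1]
  exact pow_ne_zero _ hp.out.ne_zero

end Final

end Fermat.Agent.S55
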