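import Fermat.Agent.S55.Idele.AbsE2
import Fermat.Agent.S55.Tate.E1Dual
import Fermat.Agent.S55.Places.Galois

/-!
# S55, block G5 (G-abs): the inclusion (E1') from the unramified-character statement (prefix `ia_`)

`S ⊆ T`, `K ≤ L` levels for `S`, `b ⊇ L` a field level for `T` such that `G = Gal(b/K)` is
commutative of exponent `p` with `|G| = [C_T(K) : p C_T(K)]` (the Kummer level), `Gal(b/L)`
generated by the inertia groups at the primes outside `S`, and `P` a `p`-class module structure on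
`C_T(b)` satisfying `ia_UNR` (a `p`-primary character of `G` orthogonal to the classes of the
unit ideles at `T ∖ S` is trivial on the inertia groups outside `S`).  Then
`N_{L/K} C_S(L) ⊆ t (p • C_S(K))` (`ia_hE1_of`), which is the hypothesis `hE1` of `isa_habs`.
-/

set_option autoImplicit false
set_option linter.style.haveILetI false
set_option linter.unusedSectionVars false

open CategoryTheory

noncomputable section

namespace Fermat.Agent.S55

local notation "Qbar" => AlgebraicClosure ℚ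
local notation "GQ" => (AlgebraicClosure ℚ ≃ₐ[ℚ] AlgebraicClosure ℚ)

/-! ### Unit ideles and their classes -/

section units

variable (S T : Finset Nat.Primes) (L : Type) [Field L] [NumberField L]

/-- The `T`-ideles which are `1` at the primes of `S` and units at all primes over `T ∖ S`. -/
def ia_unitIdeles : Subgroup (id_JS T L) where
  carrier := {x | (∀ q : T, q.1 ∈ S → x q = 1) ∧
    ∀ q : T, q.1 ∉ S → ∀ 𝔪 : MaximalSpectrum (id_A L q.1), dc_ordZ 𝔪 (x q) = 0}
  one_mem' := ⟨fun _ _ => rfl, fun q _ 𝔪 => dc_ordZ_one 𝔪⟩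
  mul_mem' := by
    rintro x y ⟨hx1, hx2⟩ ⟨hy1, hy2⟩
    refine ⟨fun q hq => ?_, fun q hq 𝔪 => ?_⟩
    · rw [Pi.mul_apply, hx1 q hq, hy1 q hq, one_mul]
    · rw [Pi.mul_apply, dc_ordZ_mul, hx2 q hq 𝔪, hy2 q hq 𝔪, add_zero]
  inv_mem' := by
    rintro x ⟨hx1, hx2⟩
    refine ⟨fun q hq => ?_, fun q hq 𝔪 => ?_⟩
    · rw [Pi.inv_apply, hx1 q hq, inv_one]
    · have h1 : dc_ordZ 𝔪 ((x q)⁻¹ * x q) = 0 := by rw [inv_mul_cancel]; exact dc_ordZ_one 𝔪
      rw [dc_ordZ_mul, hx2 q hq 𝔪, add_zero] at h1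
      rw [Pi.inv_apply]; exact h1

/-- The class of a `T`-idele supported at `T`, in `Rep` (additive) form. -/
def ia_cls : Additive (id_JS T L) →+ (id_CRep T L).V :=
  (MonoidHom.toAdditive ((id_toC T L).comp (id_inS T L)) :
    Additive (id_JS T L) →+ Additive (id_C T L))

theorem ia_cls_apply (x : id_JS T L) :
    ia_cls T L (Additive.ofMul x) = Additive.ofMul (id_toC T L (id_inS T L x)) := rfl

/-- The classes of the unit ideles. -/
def ia_unitClasses : AddSubgroup (id_CRep T L).V :=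
  (Subgroup.toAddSubgroup (ia_unitIdeles S T L)).map (ia_cls T L)

variable {S T L}

theorem ia_mem_unitClasses {u : (id_CRep T L).V} :
    u ∈ ia_unitClasses S T L ↔ ∃ x ∈ ia_unitIdeles S T L, ia_cls T L (Additive.ofMul x) = u := by
  constructor
  · rintro ⟨x, hx, rfl⟩
    exact ⟨Additive.toMul x, hx, rfl⟩
  · rintro ⟨x, hx, rfl⟩
    exact ⟨Additive.ofMul x, hx, rfl⟩

/-- The comparison map kills the classes of the unit ideles. -/
theorem ia_kappa_unitClasses (hST : S ⊆ T) {u : (id_CRep T L).V} (hu : u ∈ ia_unitClasses S T L) :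
    e2_kappa hST L u = 0 := by
  obtain ⟨x, ⟨h1, h2⟩, rfl⟩ := ia_mem_unitClasses.1 hu
  exact e2_kappa_unit hST x h1 h2

end units

/-! ### The unramified-character statement -/

section UNR

variable {S T : Finset Nat.Primes} {p : ℕ} [Fact p.Prime]

/-- The elements of `Gal(b/ℚ)` lying in an inertia group at a prime outside `S`. -/
def ia_inertiaSet (S : Finset Nat.Primes) (b : ia_Lev T) : Set b.Γ :=
  {σ | ∃ (q : Nat.Primes) (A : ValuationSubring Qbar), q ∉ S ∧ A.LiesOverPrime (q : ℕ) ∧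
    σ ∈ (pl_ideal b.L A).toAddSubgroup.inertia (b.L ≃ₐ[ℚ] b.L)}

/-- **(UNR)** for the layer `G` of the field level `b`: a `p`-primary character of `G` orthogonal
to the (`G`-invariant) classes of the unit ideles at `T ∖ S` kills the inertia elements outside
`S`. -/
def ia_UNR (S : Finset Nat.Primes) {b : ia_Lev T} (P : PClassModule p (id_CRep T b.L))
    (G : Subgroup b.Γ) : Prop :=
  ∀ χ : Additive ↥G →+ tt_QZ, tt_IsPPrimary p χ →
    (∀ (u : (id_CRep T b.L).V) (_ : u ∈ ia_unitClasses S T b.L)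
      (hinv : ∀ s : ↥G, (tt_res G (id_CRep T b.L)).ρ s u = u),
      rcp_pair (P.restrict G) ⟨u, hinv⟩ χ = 0) →
    ∀ σ : ↥G, (σ : b.Γ) ∈ ia_inertiaSet S b → χ (Additive.ofMul σ) = 0

end UNR

/-! ### The inclusion (E1') -/

section main

variable {S T : Finset Nat.Primes} {p : ℕ} [Fact p.Prime]

/-- A character of `G` killing the elements of a set `Sg₀ ⊆ Γ` whose closure lies in `G` kills
that closure. -/
theorem ia_char_closure {Γ : Type} [Group Γ] (G : Subgroup Γ) (Sg₀ : Set Γ)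
    (hle : Subgroup.closure Sg₀ ≤ G) (χ : Additive ↥G →+ tt_QZ)
    (h : ∀ σ : ↥G, (σ : Γ) ∈ Sg₀ → χ (Additive.ofMul σ) = 0) :
    ∀ i : ↥G, (i : Γ) ∈ Subgroup.closure Sg₀ → χ (Additive.ofMul i) = 0 := by
  have key : ∀ g (hg : g ∈ Subgroup.closure Sg₀), χ (Additive.ofMul (⟨g, hle hg⟩ : ↥G)) = 0 := by
    intro g hg
    induction hg using Subgroup.closure_induction with
    | mem x hx => exact h ⟨x, _⟩ hx
    | one => exact map_zero χ
    | mul x y hx hy ihx ihy =>
      have : (⟨x * y, hle (mul_mem hx hy)⟩ : ↥G) = ⟨x, hle hx⟩ * ⟨y, hle hy⟩ := rfl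
      rw [this, ofMul_mul, map_add, ihx, ihy, add_zero]
    | inv x hx ihx =>
      have : (⟨x⁻¹, hle (inv_mem hx)⟩ : ↥G) = (⟨x, hle hx⟩ : ↥G)⁻¹ := rfl
      rw [this, ofMul_inv, map_neg, ihx, neg_zero]
  intro i hi
  exact key i.1 hi

/-- The Bézout step removing a prime-to-`p` multiple. -/
theorem ia_bezout_step {A B : Type*} [AddCommGroup A] [AddCommGroup B] (t : B →+ A) (N u₁ : A)
    (d d₂ : B) (n p : ℕ) (a b' : ℤ) (hab : a * (n : ℤ) + b' * (p : ℤ) = 1)
    (h1 : u₁ + t (p • d) = n • N) (h2 : p • N = t (p • d₂)) :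
    N = t (p • (a • d + b' • d₂)) + a • u₁ := by
  have hN : N = a • (n • N) + b' • (p • N) := by
    rw [← natCast_zsmul N n, ← natCast_zsmul N p, ← mul_smul, ← mul_smul, ← add_smul, hab, one_smul]
  rw [smul_add, map_add, smul_comm p a d, smul_comm p b' d₂, map_zsmul, map_zsmul, ← h2]
  conv_lhs => rw [hN, ← h1]
  rw [smul_add]
  abel

/-- A sum over elements of a subgroup, in the two languages. -/
theorem ia_sum_res {Γ : Type} [Group Γ] (G : Subgroup Γ) (C : Rep.{0} ℤ Γ) {ι : Type} [Fintype ι]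
    (s : ι → ↥G) (c : C.V) :
    ∑ i, C.ρ ((s i : ↥G) : Γ) c = ∑ i, (tt_res G C).ρ (s i) c := rfl

/-- **(E1') from (UNR).** -/
theorem ia_hE1_of (hST : S ⊆ T) (hS : S.Nonempty) {K L : du_Lev S} (hKL : K ≤ L)
    (b : ia_Lev T) (hLb : ia_ofLev hST L ≤ b)
    (hexp : ∀ g ∈ b.rel (ia_ofLev hST K), g ^ p = 1)
    (hcomm : ∀ g ∈ b.rel (ia_ofLev hST K), ∀ g' ∈ b.rel (ia_ofLev hST K), g * g' = g' * g)
    (hcard : (e2_pow (id_CRep T K.L).V p).index = Nat.card ↥(b.rel (ia_ofLev hST K)))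
    (hI : b.rel (ia_ofLev hST L) = Subgroup.closure (ia_inertiaSet S b))
    (P : PClassModule p (id_CRep T b.L))
    (hUNR : ia_UNR S P (b.rel (ia_ofLev hST K)))
    (c : (id_CRep S L.L).V) :
    ∃ d : (id_CRep S K.L).V, e2_nrm (L.rel K) (id_CRep S L.L) c = id_tC hKL (p • d) := by
  classical
  have hT : T.Nonempty := hS.mono hST
  have hKLb : ia_ofLev hST K ≤ ia_ofLev hST L := hKL
  have hKb : ia_ofLev hST K ≤ b := le_trans hKLb hLb
  letI : Fintype ↥(b.rel (ia_ofLev hST K)) := Fintype.ofFinite _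
  letI algL : Algebra L.L b.L := ia_algebra hLb
  letI algK : Algebra K.L b.L := ia_algebra hKb
  have htower : letI := id_levAlgebra hKL; IsScalarTower K.L L.L b.L := by
    letI := id_levAlgebra hKL
    exact IsScalarTower.of_algebraMap_eq (fun x => rfl)
  have hinj : Function.Injective (id_Cmap S L.L b.L) := (ia_isGal hLb).Cmap_injective S hS
  refine e2_push_lev hST hKL (L' := b.L) htower hinj p ?_ c
  intro c'
  -- the relative norm of `t c'`
  obtain ⟨s, hs_res, hs_bij⟩ := ia_exists_transversal (K := ia_ofLev hST K) hLb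
  have hnrm := ia_tC_nrm (K := ia_ofLev hST K) hLb
    (fun x => ((s x : ↥(b.rel (ia_ofLev hST K))) : b.Γ)) (Equiv.refl _) (fun x => hs_res x) c'
  -- (E2) and the count
  obtain ⟨hkill, -⟩ := ia_layer_count P (b.rel (ia_ofLev hST K)) hexp hcomm
  obtain ⟨hE2, -⟩ := ia_E2 hT hKb P hexp hcomm hcard
  -- invariance of `N := t (N_{L/K} c')`
  have hNinv : ia_tC hLb (e2_nrm ((ia_ofLev hST L).rel (ia_ofLev hST K)) (id_CRep T L.L) c') ∈
      e2_inv (b.rel (ia_ofLev hST K)) (id_CRep T b.L) := by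
    intro g hg
    rw [← ia_tC_rho]
    congr 1
    exact e2_nrm_mem_inv _ _ c' _ (ia_Lev.res_mem_rel hLb hg)
  -- [DUAL-core]
  have hUinv : (ia_unitClasses S T b.L ⊓ rcp_inv (tt_res (b.rel (ia_ofLev hST K)) (id_CRep T b.L))) ⊔
      rcp_norms (tt_res (b.rel (ia_ofLev hST K)) (id_CRep T b.L)) ≤
      rcp_inv (tt_res (b.rel (ia_ofLev hST K)) (id_CRep T b.L)) :=
    sup_le inf_le_right (rcp_norms_le_inv _)
  have hIle : Subgroup.closure (ia_inertiaSet S b) ≤ b.rel (ia_ofLev hST K) := by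
    rw [← hI]; exact ia_Lev.rel_anti hKLb
  obtain ⟨n, hn, hnU⟩ := e1d_dual (P.restrict (b.rel (ia_ofLev hST K)))
    ((b.rel (ia_ofLev hST L)).subgroupOf (b.rel (ia_ofLev hST K))) _ hUinv le_sup_right
    (fun χ hχ hχU i hi => by
      rw [Subgroup.mem_subgroupOf, hI] at hi
      exact ia_char_closure _ _ hIle χ
        (hUNR χ hχ (fun u hu hinv => hχU u (AddSubgroup.mem_sup_left ⟨hu, hinv⟩))) i hi)
    (ia_tC hLb c') (fun i hi => ia_tC_fixed hLb (Subgroup.mem_subgroupOf.1 hi) c') s hs_bij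
  rw [AddSubgroup.mem_sup] at hnU
  obtain ⟨u₁, ⟨hu₁, -⟩, v, ⟨a, rfl⟩, huv⟩ := hnU
  -- the norm part is `t (p • d)`
  obtain ⟨d, hd⟩ := hE2 a
  rw [← ia_nrm_eq, hd] at huv
  -- `p • N` is a norm
  obtain ⟨a₂, ha₂⟩ := hkill _ hNinv
  obtain ⟨d₂, hd₂⟩ := hE2 a₂
  rw [hd₂] at ha₂
  -- Bezout
  have hp : p.Prime := Fact.out
  have hcop : Nat.Coprime n p := ((Nat.Prime.coprime_iff_not_dvd hp).2 hn).symm
  have hb := Nat.gcd_eq_gcd_ab n p
  rw [hcop.gcd_eq_one] at hb
  refine ⟨n.gcdA p • d + n.gcdB p • d₂, n.gcdA p • u₁, ?_, ?_⟩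
  · rw [map_zsmul, ia_kappa_unitClasses hST hu₁, smul_zero]
  · have h4 : n.gcdA p * (n : ℤ) + n.gcdB p * (p : ℤ) = 1 := by
      push_cast at hb ⊢
      linarith
    rw [← hnrm, ia_sum_res] at ha₂
    have key := ia_bezout_step (ia_tC hKb) _ u₁ d d₂ n p _ _ h4 huv ha₂
    rw [← ia_sum_res, hnrm] at key
    exact key

end main

end Fermat.Agent.S55
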