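import Fermat.Agent.S55.Idele.E1
import Fermat.Agent.S55.Idele.CountE2
import Fermat.Agent.S55.Kummer.AbsField
import Fermat.Agent.S55.Idele.EnlargeS

/-!
# S55, block G5 (G-abs), leaf K: the Kummer data of `ia_hE1_of` (prefix `ied_`)

For every level `K` for `S ∋ p` (`p` odd) there are an enlarged set `T ⊇ S` with `Cl_T(K) = 1`,
the Kummer field level `b = K(E_T(K)^{1/p})` for `T`, and the maximal subfield `L` of `b`
unramified outside `S` (a level for `S`), such that `Gal(b/K)` is commutative of exponent `p` of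
order `[C_T(K) : p C_T(K)]` and `Gal(b/L)` is generated by the inertia elements outside `S`:
exactly the data consumed by `ia_hE1_of` (`ied_exists_kummerData`).
-/

set_option autoImplicit false
set_option linter.style.haveILetI false
set_option linter.unusedSectionVars false

open CategoryTheory ExtCitation

noncomputable section

namespace Fermat.Agent.S55

local notation "Qbar" => AlgebraicClosure ℚ
local notation "GQ" => (AlgebraicClosure ℚ ≃ₐ[ℚ] AlgebraicClosure ℚ)

/-- Every level for `S ∋ p` contains a primitive `p`-th root of unity. -/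
theorem ied_exists_primitiveRoot {S : Finset Nat.Primes} (p : ℕ) [Fact p.Prime]
    (hpS : pPrime p ∈ S) (K : du_Lev S) : ∃ ζ : ↥K.L, IsPrimitiveRoot ζ p := by
  have hp : p.Prime := Fact.out
  have : NeZero p := ⟨hp.ne_zero⟩
  obtain ⟨ζ, hζ⟩ := HasEnoughRootsOfUnity.exists_primitiveRoot Qbar p
  have hmem : ζ ∈ K.L := K.pow_eq_one_mem hpS (x := ζ) hζ.pow_eq_one
  refine ⟨⟨ζ, hmem⟩, ?_⟩
  exact IsPrimitiveRoot.of_map_of_injective (f := (algebraMap ↥K.L Qbar))
    (by simpa using hζ) (algebraMap ↥K.L Qbar).injective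

/-- **Leaf K**: the Kummer data of `ia_hE1_of`. -/
theorem ied_exists_kummerData {S : Finset Nat.Primes} (p : ℕ) [hp : Fact p.Prime] (hp2 : p ≠ 2)
    (hpS : pPrime p ∈ S) (K : du_Lev S) :
    ∃ (T : Finset Nat.Primes) (hST : S ⊆ T) (L : du_Lev S) (_ : K ≤ L) (b : ia_Lev T)
      (_ : ia_ofLev hST L ≤ b),
      (∀ ζ : Qbar, ζ ^ p = 1 → ζ ∈ b.L) ∧
      (∀ g ∈ b.rel (ia_ofLev hST K), g ^ p = 1) ∧
      (∀ g ∈ b.rel (ia_ofLev hST K), ∀ g' ∈ b.rel (ia_ofLev hST K), g * g' = g' * g) ∧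
      (e2_pow (id_CRep T ↥K.L).V p).index = Nat.card ↥(b.rel (ia_ofLev hST K)) ∧
      b.rel (ia_ofLev hST L) = Subgroup.closure (ia_inertiaSet S b) := by
  -- (1) enlarge `S`
  obtain ⟨T, hST, hCl⟩ := ie_exists_ClS_trivial S ↥K.L
  -- (2) `ζ_p ∈ K`
  obtain ⟨ζ, hζ⟩ := ied_exists_primitiveRoot p hpS K
  -- (3) the Kummer field
  obtain ⟨L', hnor, hKL', hunr, hexp, hcomm, hcard⟩ :=
    kaf_exists_kummerLevel (S' := T) p (hST hpS) K.L (K.unr.mono hST) ⟨ζ, hζ⟩
  let b : ia_Lev T := ⟨L', hunr, hnor⟩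
  -- (4) the maximal subfield unramified outside `S`
  haveI : FiniteDimensional ℚ L' := hunr.1
  haveI : NumberField ↥L' := ⟨⟩
  obtain ⟨L, hLL', hmax, hclos⟩ :=
    kaf_maxUnram S L' (le_trans (α := IntermediateField ℚ Qbar) K.cyc hKL')
  have hKL : K ≤ L := hmax K.L hKL' K.unr
  refine ⟨T, hST, L, hKL, b, hLL', ?_, hexp, hcomm, ?_, hclos⟩
  · intro x hx
    exact hKL' (K.pow_eq_one_mem hpS (x := x) hx)
  · -- (5) the count
    have h1 := ce_index_nsmul_additive (id_C T ↥K.L) p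
    have h2 := (ce_index_pow_C T ↥K.L p hp2 hζ (hST hpS) hCl).1
    exact h1.trans (h2.trans hcard.symm)

end Fermat.Agent.S55
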