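import Fermat.Agent.S55.Idele.E1Unr
import Fermat.Agent.S55.Idele.E1Data
import Fermat.Agent.S55.Recip.FieldData

/-!
# S55, block G5 (G-abs): the hypothesis `hE1` of `isa_habs` / `ism_seam` (prefix `ia_`)

`ia_hE1`: from the export of block G4 (a `p`-class module structure on `C_T(b)` for every field
level `b ∋ ζ_p` for every `T ∋ p`, whose invariant on every layer is the total invariant
`rc_INV (rc_fd_data p b)`), the inclusion (E1') `N_{L/K} C_S(L) ⊆ t (p • C_S(K))` holds for a
suitable level `L ≥ K`, for every level `K` for `S`.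
-/

set_option autoImplicit false
set_option linter.style.haveILetI false
set_option linter.unusedSectionVars false

open CategoryTheory groupCohomology ExtCitation

noncomputable section

namespace Fermat.Agent.S55

local notation "Qbar" => AlgebraicClosure ℚ

/-- The export of block G4 at the field level `b` for `T`: a `p`-class module structure on
`C_T(b)` whose invariant on every layer is the total invariant. -/
def ia_G4 (p : ℕ) [Fact p.Prime] {T : Finset Nat.Primes} (b : ia_Lev T) : Prop :=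
  ∃ P : PClassModule p (id_CRep T ↥b.L), ∀ (H : Subgroup b.Γ)
    (w : groupCohomology (tt_res H (id_JRep T ↥b.L)) 2), tt_IsPPrimary p w →
      P.inv H ((tt_coeffMap (rc_ci_resMor (id_toCRep T ↥b.L) H) 2).hom w) =
        rc_INV (rc_fd_data p b) (rc_fd_finSupp p b) H w

/-- The dictionary "units at all conjugates of the canonical place ⟹ units at all places". -/
def ia_UnitDict : Prop :=
  ∀ (q : Nat.Primes) (L : IntermediateField ℚ Qbar) [FiniteDimensional ℚ L] [Normal ℚ L]
    [NumberField L] (u : (id_A ↥L q)ˣ),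
    (∀ k : ↥L ≃ₐ[ℚ] ↥L, ‖((il_prU q L (k • u) : (↥(il_Lq (q : ℕ) L))ˣ) :
      ↥(il_Lq (q : ℕ) L))‖ = 1) →
    ∀ 𝔪 : MaximalSpectrum (id_A ↥L q), dc_ordZ 𝔪 u = 0

/-- **(E1') for the levels of `S`**, from the export of block G4 and the unit dictionary. -/
theorem ia_hE1_of_G4 {S : Finset Nat.Primes} (p : ℕ) [Fact p.Prime] (hp2 : p ≠ 2)
    (hS : S.Nonempty) (hpS : pPrime p ∈ S)
    (hG4 : ∀ (T : Finset Nat.Primes) (b : ia_Lev T), pPrime p ∈ T →
      (∀ ζ : Qbar, ζ ^ p = 1 → ζ ∈ b.L) → ia_G4 p b)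
    (hD : ia_UnitDict) (K : du_Lev S) :
    ∃ (K₁ L : du_Lev S) (_ : K ≤ K₁) (h : K₁ ≤ L), ∀ c : (id_CRep S L.L).V,
      ∃ d : (id_CRep S K₁.L).V, e2_nrm (L.rel K₁) (id_CRep S L.L) c = id_tC h (p • d) := by
  obtain ⟨T, hST, L, hKL, b, hLb, hζ, hexp, hcomm, hcard, hI⟩ :=
    ied_exists_kummerData p hp2 hpS K
  obtain ⟨P, hP⟩ := hG4 T b (hST hpS) hζ
  refine ⟨K, L, le_refl K, hKL, fun c => ?_⟩
  exact ia_hE1_of hST hS hKL b hLb hexp hcomm hcard hI P
    (ia_UNR_of b (rc_fd_out p b) (fun q' x => rc_fd_pr_inS p b q' x) (rc_fd_coind p b)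
      (rc_fd_finSupp p b) P _ (hP _) (fun q u => hD q b.L u)) c

end Fermat.Agent.S55
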