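/-
S55 / [L]→[G] (L-unr), part 4 (helper24; leaf T4 of the G-abs table #1002): the concrete instance
for the local modules `il_Xq q L` of the seam (`X_q = (L·ℚ_q)ˣ` over the decomposition group
`D_q(L)`, acting through `il_galEquiv`).  Prefix `ilu_`.

* `ilu_inertia q L : Subgroup ↥(il_D q L)`, the image of `lq_inertia (il_Lq q L)` under
  `il_galEquiv` (`ilu_mem_inertia_iff`, `ilu_inertia_eq_map`);
* `ilu_unr_char q L D' P' χ hχ h d hd`: for a layer `D' ≤ D_q(L)` and ANY
  `P' : PClassModule p (tt_res D' (il_Xq q L))` (e.g. `(ils_Pq p q L).restrict D'`), a `p`-primary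
  character `χ` of `D'` with `rcp_pair P' c χ = 0` for all `D'`-invariant units `c` (norm one) is
  trivial on `ilu_inertia q L ⊓ D'`.
-/
import Fermat.Agent.S55.LocalCF.UnrChar
import Fermat.Agent.S55.Idele.LocalUnits

set_option autoImplicit false
set_option linter.unusedSectionVars false

open ExtCitation NumberField

namespace Fermat.Agent.S55

local notation "Qbar" => AlgebraicClosure ℚ

open CategoryTheory groupCohomology

noncomputable section

variable {p : ℕ} [Fact p.Prime] (q : Nat.Primes) (L : IntermediateField ℚ Qbar)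
  [FiniteDimensional ℚ L] [Normal ℚ L]

/-- The inertia subgroup of the decomposition group `D_q(L)`: the image of `lq_inertia (L·ℚ_q)`
under `il_galEquiv`. -/
def ilu_inertia : Subgroup ↥(il_D (q : ℕ) L) :=
  (lq_inertia (il_Lq (q : ℕ) L)).comap (il_galEquiv (q : ℕ) L).symm.toMonoidHom

theorem ilu_mem_inertia_iff (d : ↥(il_D (q : ℕ) L)) :
    d ∈ ilu_inertia q L ↔ (il_galEquiv (q : ℕ) L).symm d ∈ lq_inertia (il_Lq (q : ℕ) L) := Iff.rfl

theorem ilu_inertia_eq_map :
    ilu_inertia q L = (lq_inertia (il_Lq (q : ℕ) L)).map (il_galEquiv (q : ℕ) L).toMonoidHom := by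
  unfold ilu_inertia
  exact (Subgroup.map_equiv_eq_comap_symm (il_galEquiv (q : ℕ) L) _).symm

/-- In `Gal(L/ℚ)`: the image of `ilu_inertia` is the image of `lq_inertia (L·ℚ_q)` under
`il_theta` (= the inertia group of the chosen prime of `L` over `q`, by `Idele/LocalInertia`). -/
theorem ilu_inertia_map_subtype :
    (ilu_inertia q L).map (il_D (q : ℕ) L).subtype =
      (lq_inertia (il_Lq (q : ℕ) L)).map (il_theta (q : ℕ) L) := by
  rw [ilu_inertia_eq_map, Subgroup.map_map]
  congr 1

/-- **(L-unr) for the local modules of the seam**: for a layer `D' ≤ D_q(L)` and ANY `p`-class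
module structure `P'` on the `D'`-module `X_q = (L·ℚ_q)ˣ` (e.g. `(ils_Pq p q L).restrict D'`), a
`p`-primary character of `D'` whose reciprocity pairing with all `D'`-invariant units vanishes is
trivial on the inertia subgroup of `D'`. -/
theorem ilu_unr_char (D' : Subgroup ↥(il_D (q : ℕ) L))
    (P' : PClassModule p (tt_res D' (il_Xq q L)))
    (χ : Additive ↥D' →+ tt_QZ) (hχ : tt_IsPPrimary p χ)
    (h : ∀ c : ↥(rcp_inv (tt_res D' (il_Xq q L))),
      ‖((il_Xq.val q L c.1 : (↥(il_Lq (q : ℕ) L))ˣ) : ↥(il_Lq (q : ℕ) L))‖ = 1 →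
        rcp_pair P' c χ = 0)
    (d : ↥D') (hd : (d : ↥(il_D (q : ℕ) L)) ∈ ilu_inertia q L) : χ (Additive.ofMul d) = 0 := by
  have hinj : Function.Injective
      ((il_galEquiv (q : ℕ) L).symm.toMonoidHom.comp D'.subtype) :=
    (il_galEquiv (q : ℕ) L).symm.injective.comp Subtype.val_injective
  refine lu_unr_char (lq_formation (il_Lq (q : ℕ) L))
    ((il_galEquiv (q : ℕ) L).symm.toMonoidHom.comp D'.subtype) hinj P' χ hχ
    (fun c hvc => h c ?_) d hd
  rw [lq_formation_v, lq_ordZ_eq_zero_iff _ (lq_elt_ne_zero _ c.1)] at hvc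
  exact hvc

end

end Fermat.Agent.S55
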