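import Fermat.Agent.S55.Idele.E1
import Fermat.Agent.S55.Tate.E1Char
import Fermat.Agent.S55.Idele.LocalUnr
import Fermat.Agent.S55.Idele.LocalInertia
import Fermat.Agent.S55.Recip.IdeleIn
import Fermat.Agent.S55.Recip.TChange
import Fermat.Agent.S55.Recip.ClassInv

/-!
# S55, block G5 (G-abs): (UNR) from the total invariant (prefix `ia_`)

`b` a field level for `T`, `𝔻 = rc_tc_sum (rc_ii_data p T b.L) 𝔻out` the local data of the total
invariant (inside `T`: the local fields `L·ℚ_q`; outside: any datum vanishing on the `T`-part),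
`P` a `p`-class module structure on `C_T(b)` whose invariant on the layer `G` is the total
invariant.  Then `ia_UNR S P G` holds: a `p`-primary character of `G` orthogonal to the classes of
the unit ideles at `T ∖ S` kills the inertia elements outside `S` (`ia_UNR_of`).  The proof is
helper3's `e1_unr_char` with helper24's local input `ilu_unr_char`; the dictionary
"local units at all conjugates ⟹ `dc_ordZ = 0` at all maximal ideals" is the hypothesis `hD`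
(`Idele/LocalUnitsDict.lean`).
-/

set_option autoImplicit false
set_option linter.style.haveILetI false
set_option linter.unusedSectionVars false

open CategoryTheory groupCohomology

noncomputable section

namespace Fermat.Agent.S55

local notation "Qbar" => AlgebraicClosure ℚ

theorem ia_resMor_eq {k G : Type} [CommRing k] [Group G] {J A : Rep.{0} k G}
    (g : J ⟶ A) (K : Subgroup G) : rc_ci_resMor g K = (Rep.resFunctor K.subtype).map g := rfl

section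
variable (T : Finset Nat.Primes) (K : Type) [Field K] [NumberField K]

theorem ia_rho_inS (k : K ≃ₐ[ℚ] K) (y : id_JS T K) :
    (id_JRep T K).ρ k (Additive.ofMul (id_inS T K y) : Additive (id_J T K)) =
      (Additive.ofMul (id_inS T K (k • y)) : Additive (id_J T K)) :=
  congrArg Additive.ofMul (id_smul_inS T K k y)

end


variable {S T : Finset Nat.Primes} {p : ℕ} [Fact p.Prime]

instance ia_Lev.isGalois (a : ia_Lev T) : IsGalois ℚ a.L := ⟨⟩

/-- The units of the local module `X_q`. -/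
def ia_localUnits (q : Nat.Primes) (L : IntermediateField ℚ Qbar) [FiniteDimensional ℚ L]
    [Normal ℚ L] : AddSubgroup (il_Xq q L).V where
  carrier := {v | ‖((il_Xq.val q L v : (↥(il_Lq (q : ℕ) L))ˣ) : ↥(il_Lq (q : ℕ) L))‖ = 1}
  zero_mem' := by
    show ‖(((1 : (↥(il_Lq (q : ℕ) L))ˣ)) : ↥(il_Lq (q : ℕ) L))‖ = 1
    rw [Units.val_one, norm_one]
  add_mem' := by
    intro v w hv hw
    show ‖((il_Xq.val q L v * il_Xq.val q L w : (↥(il_Lq (q : ℕ) L))ˣ) : ↥(il_Lq (q : ℕ) L))‖ = 1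
    rw [Units.val_mul, norm_mul, hv, hw, one_mul]
  neg_mem' := by
    intro v hv
    show ‖(((il_Xq.val q L v)⁻¹ : (↥(il_Lq (q : ℕ) L))ˣ) : ↥(il_Lq (q : ℕ) L))‖ = 1
    rw [Units.val_inv_eq_inv_val, norm_inv, hv, inv_one]

theorem ia_localUnits_stable (q : Nat.Primes) (L : IntermediateField ℚ Qbar)
    [FiniteDimensional ℚ L] [Normal ℚ L] (d : ↥(il_D (q : ℕ) L)) (v : (il_Xq q L).V)
    (hv : v ∈ ia_localUnits q L) : (il_Xq q L).ρ d v ∈ ia_localUnits q L := by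
  show ‖((il_Xq.val q L ((il_Xq q L).ρ d v) : (↥(il_Lq (q : ℕ) L))ˣ) : ↥(il_Lq (q : ℕ) L))‖ = 1
  rw [il_Xq_ρ_coe]
  have h := lq_norm_algHom (q := (q : ℕ))
    (((il_galEquiv (q : ℕ) L).symm d : ↥(il_Lq (q : ℕ) L) ≃ₐ[ℚ_[(q : ℕ)]] ↥(il_Lq (q : ℕ) L)) :
      ↥(il_Lq (q : ℕ) L) →ₐ[ℚ_[(q : ℕ)]] ↥(il_Lq (q : ℕ) L))
    ((il_Xq.val q L v : (↥(il_Lq (q : ℕ) L))ˣ) : ↥(il_Lq (q : ℕ) L))
  exact h.trans hv

/-- An idele all of whose components outside `T` vanish comes from the `T`-part. -/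
theorem ia_eq_inS (L : IntermediateField ℚ Qbar) [FiniteDimensional ℚ L] [Normal ℚ L]
    [NumberField L]
    {Qout : Type} (𝔻out : rc_InvData p (id_JRep T ↥L) Qout)
    (hout : ∀ (q' : Qout) (x : id_JS T ↥L),
      (𝔻out.pr q').hom (Additive.ofMul (id_inS T ↥L x) : Additive (id_J T ↥L)) = 0)
    (hcoind : hs_IsCoindSum (rc_tc_sum (rc_ii_data p T L) 𝔻out))
    (x : (id_JRep T ↥L).V)
    (hx0 : ∀ (q' : Qout) (k : ↥L ≃ₐ[ℚ] ↥L),
      ((rc_tc_sum (rc_ii_data p T L) 𝔻out).pr (Sum.inr q')).hom ((id_JRep T ↥L).ρ k x) = 0) :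
    x = (Additive.ofMul (id_inS T ↥L (Additive.toMul x).1) : Additive (id_J T ↥L)) := by
  refine hcoind.ext' fun q' k => ?_
  rcases q' with q' | q'
  · rfl
  · refine (hx0 q' k).trans ?_
    refine Eq.symm (Eq.trans ?_ (hout q' (k • (Additive.toMul x).1)))
    exact congrArg _ (ia_rho_inS T ↥L k _)


theorem ia_comp_eq_one (L : IntermediateField ℚ Qbar) [FiniteDimensional ℚ L] [Normal ℚ L]
    [NumberField L] (x : (id_JRep T ↥L).V) (q'' : ↥T)
    (h : ∀ k : ↥L ≃ₐ[ℚ] ↥L, (rc_ii_pr T L q'').hom ((id_JRep T ↥L).ρ k x) = 0) :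
    (Additive.toMul x).1 q'' = 1 :=
  (rc_ii_isCoind q''.1 L).ext (Additive.ofMul ((Additive.toMul x).1 q'')) (fun k => h k)

theorem ia_mem_unitClasses_of {q : Nat.Primes} (hqS : q ∉ S) (hqT : q ∈ T)
    (L : IntermediateField ℚ Qbar) [FiniteDimensional ℚ L] [Normal ℚ L] [NumberField L]
    {Qout : Type} (𝔻out : rc_InvData p (id_JRep T ↥L) Qout)
    (hout : ∀ (q' : Qout) (x : id_JS T ↥L),
      (𝔻out.pr q').hom (Additive.ofMul (id_inS T ↥L x) : Additive (id_J T ↥L)) = 0)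
    (hcoind : hs_IsCoindSum (rc_tc_sum (rc_ii_data p T L) 𝔻out))
    (hD : ∀ (u : (id_A ↥L q)ˣ),
      (∀ k : ↥L ≃ₐ[ℚ] ↥L, ‖((il_prU q L (k • u) : (↥(il_Lq (q : ℕ) L))ˣ) :
        ↥(il_Lq (q : ℕ) L))‖ = 1) →
      ∀ 𝔪 : MaximalSpectrum (id_A ↥L q), dc_ordZ 𝔪 u = 0)
    (x : (id_JRep T ↥L).V)
    (hxU : ∀ k : ↥L ≃ₐ[ℚ] ↥L, ‖((il_prU q L ((k • (Additive.toMul x : id_J T ↥L)).1 ⟨q, hqT⟩) :
      (↥(il_Lq (q : ℕ) L))ˣ) : ↥(il_Lq (q : ℕ) L))‖ = 1)
    (hx0 : ∀ (q' : ↥T ⊕ Qout) (k : ↥L ≃ₐ[ℚ] ↥L), q' ≠ Sum.inl ⟨q, hqT⟩ →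
      ((rc_tc_sum (rc_ii_data p T L) 𝔻out).pr q').hom ((id_JRep T ↥L).ρ k x) = 0) :
    (id_toCRep T ↥L).hom x ∈ ia_unitClasses S T ↥L := by
  have hone : ∀ q'' : ↥T, q'' ≠ ⟨q, hqT⟩ → (Additive.toMul x).1 q'' = 1 := fun q'' hne =>
    ia_comp_eq_one L x q'' (fun k => hx0 (Sum.inl q'') k (fun h => hne (Sum.inl_injective h)))
  have hx1 := ia_eq_inS L 𝔻out hout hcoind x
    (fun q' k => hx0 (Sum.inr q') k (fun h => Sum.inr_ne_inl h))
  refine ia_mem_unitClasses.2 ⟨(Additive.toMul x).1, ⟨?_, ?_⟩, ?_⟩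
  · intro q'' hq''S
    refine hone q'' (fun h => hqS ?_)
    have h5 : (q'' : Nat.Primes) = q := congrArg Subtype.val h
    exact h5 ▸ hq''S
  · intro q'' hq''S 𝔪
    by_cases hq'' : q'' = ⟨q, hqT⟩
    · subst hq''
      exact hD _ (fun k => hxU k) 𝔪
    · rw [hone q'' hq'']
      exact dc_ordZ_one 𝔪
  · rw [ia_cls_apply]
    exact (congrArg (id_toCRep T ↥L).hom hx1).symm

/-- **(UNR) from the total invariant.** -/
theorem ia_UNR_of (b : ia_Lev T)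
    {Qout : Type} (𝔻out : rc_InvData p (id_JRep T ↥b.L) Qout)
    (hout : ∀ (q' : Qout) (x : id_JS T ↥b.L),
      (𝔻out.pr q').hom (Additive.ofMul (id_inS T ↥b.L x) : Additive (id_J T ↥b.L)) = 0)
    (hcoind : hs_IsCoindSum (rc_tc_sum (rc_ii_data p T b.L) 𝔻out))
    (hfin : rc_FinSupp (rc_tc_sum (rc_ii_data p T b.L) 𝔻out))
    (P : PClassModule p (id_CRep T ↥b.L)) (G : Subgroup b.Γ)
    (hINV : ∀ w : groupCohomology (tt_res G (id_JRep T ↥b.L)) 2, tt_IsPPrimary p w →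
      P.inv G ((tt_coeffMap (rc_ci_resMor (id_toCRep T ↥b.L) G) 2).hom w) =
        rc_INV (rc_tc_sum (rc_ii_data p T b.L) 𝔻out) hfin G w)
    (hD : ∀ (q : Nat.Primes) (u : (id_A ↥b.L q)ˣ),
      (∀ k : b.Γ, ‖((il_prU q b.L (k • u) : (↥(il_Lq (q : ℕ) b.L))ˣ) :
        ↥(il_Lq (q : ℕ) b.L))‖ = 1) →
      ∀ 𝔪 : MaximalSpectrum (id_A ↥b.L q), dc_ordZ 𝔪 u = 0) :
    ia_UNR S P G := by
  intro χ hχ hort σ hσ
  obtain ⟨q, A, hqS, hA, hσI⟩ := hσ
  by_cases hqT : q ∈ T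
  · obtain ⟨g, hg⟩ := (il_mem_inertia_iff_conj (q : ℕ) b.L (σ : b.Γ)).1 ⟨A, hA, hσI⟩
    rw [← ilu_inertia_map_subtype] at hg
    obtain ⟨d, hdI, hd⟩ := hg
    have hσ' : g * (d : b.Γ) * g⁻¹ = (σ : b.Γ) := by
      have h1 : (d : b.Γ) = g⁻¹ * (σ : b.Γ) * g := hd
      rw [h1]; group
    have hgd : g * (d : b.Γ) * g⁻¹ ∈ G := hσ' ▸ σ.2
    have key := e1_unr_char (id_toCRep T ↥b.L) P (rc_tc_sum (rc_ii_data p T b.L) 𝔻out) hfin
      hcoind G hINV (Sum.inl ⟨q, hqT⟩) (ia_localUnits q b.L) (ia_localUnits_stable q b.L)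
      (ilu_inertia q b.L)
      (fun E χ' hχ' h j hj =>
        ilu_unr_char q b.L E ((ils_Pq p q b.L).restrict E) χ' hχ' (fun c hc => h c hc) j hj)
      χ hχ ?_ g d hdI hgd
    · have h2 : (⟨g * (d : b.Γ) * g⁻¹, hgd⟩ : ↥G) = σ := Subtype.ext hσ'
      rw [h2] at key
      exact key
    · intro x hx hxU hx0
      exact hort _ (ia_mem_unitClasses_of hqS hqT b.L 𝔻out hout hcoind (hD q) x
        (fun k => hxU k) hx0) _
  · have h1 := pl_inertia_eq_bot b.L A b.unr q hqT hA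
    rw [h1, Subgroup.mem_bot] at hσI
    have : σ = 1 := Subtype.ext hσI
    rw [this, ofMul_one, map_zero]

end Fermat.Agent.S55
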