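import Fermat.Agent.S55.Idele.E2Abstract
import Fermat.Agent.S55.Tate.Reciprocity

/-!
# The norm-index inputs of (E2) from the reciprocity pairing

For a `p`-class module `P` on a `Γ`-module `C` (`Γ` finite) and a `p`-subgroup `G ≤ Γ`, the
hypotheses `hkill` and `hcard` of `e2_norm_eq` (in the `e2_inv` / `e2_nrm` / `e2_norms` shapes):
`G` of exponent `p` ⟹ `p` kills `C^G / N_G C`, and `G` commutative ⟹ `[C^G : N_G C] = |G|`.
-/

set_option autoImplicit false
set_option linter.style.haveILetI false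
set_option linter.unusedSectionVars false

open CategoryTheory

namespace Fermat.Agent.S55

noncomputable section

section bridge

variable {Γ : Type} [Group Γ] [Fintype Γ] (G : Subgroup Γ) (C : Rep.{0} ℤ Γ)

/-- invariants of the layer `G`: the two shapes agree -/
theorem rcp_inv_res_eq : rcp_inv (tt_res G C) = e2_inv G C := by
  ext c
  constructor
  · intro h g hg
    exact h ⟨g, hg⟩
  · intro h g
    exact h g.1 g.2

/-- the norm of the layer `G`: the two shapes agree -/
theorem rcp_norm_res_eq [Fintype ↥G] (a : C.V) : rcp_norm (tt_res G C) a = e2_nrm G C a := by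
  classical
  rw [rcp_norm_apply, e2_nrm_apply]
  have h := Finset.sum_subtype (F := ‹Fintype ↥G›) (Finset.univ.filter (fun h : Γ => h ∈ G))
    (p := fun h => h ∈ G) (fun x => by simp) (fun h => C.ρ h a)
  rw [h]
  rfl

theorem rcp_norms_res_eq [Fintype ↥G] : rcp_norms (tt_res G C) = e2_norms G C := by
  ext c
  constructor
  · rintro ⟨a, rfl⟩
    exact ⟨a, (rcp_norm_res_eq G C a).symm⟩
  · rintro ⟨a, rfl⟩
    exact ⟨a, rcp_norm_res_eq G C a⟩

end bridge

section inputs

variable {Γ : Type} [Group Γ] [Fintype Γ] {p : ℕ} [Fact p.Prime] {C : Rep.{0} ℤ Γ}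

/-- **`hkill` of `e2_norm_eq`**: for a `p`-subgroup `G` of exponent dividing `e`, `e` kills
`C^G / N_G C`. -/
theorem rcp_e2_hkill (P : PClassModule p C) (G : Subgroup Γ) (hG : IsPGroup p G) (e : ℕ) (he : ∀ g ∈ G, g ^ e = 1) :
    ∀ c ∈ e2_inv G C, ∃ a, e • c = e2_nrm G C a := by
  intro c hc
  haveI : Fintype ↥G := Fintype.ofFinite ↥G
  have hc' : c ∈ rcp_inv (tt_res G C) := by rw [rcp_inv_res_eq]; exact hc
  have h := rcp_exponent_smul_mem_pGroup (P.restrict G) hG e (fun g => by
    have : g ^ e = 1 := Subtype.ext (by simpa using he g.1 g.2)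
    rw [this]
    exact one_mem _) hc'
  obtain ⟨a, ha⟩ := h
  exact ⟨a, by rw [← rcp_norm_res_eq G C a]; exact ha.symm⟩

/-- **`hcard` of `e2_norm_eq`**: for a `p`-subgroup `G`, `[C^G : N_G C] = |G^ab|`. -/
theorem rcp_e2_hcard_ab (P : PClassModule p C) (G : Subgroup Γ) (hG : IsPGroup p G) :
    (e2_norms G C).relIndex (e2_inv G C) = Nat.card (Abelianization ↥G) := by
  haveI : Fintype ↥G := Fintype.ofFinite ↥G
  have h := (rcp_card_quot_pGroup (P.restrict G) hG).2
  rw [rcp_inv_res_eq, rcp_norms_res_eq] at h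
  exact h

/-- **`hcard` of `e2_norm_eq`**, commutative case: `[C^G : N_G C] = |G|`. -/
theorem rcp_e2_hcard (P : PClassModule p C) (G : Subgroup Γ) (hG : IsPGroup p G) (hcomm : ∀ g ∈ G, ∀ g' ∈ G, g * g' = g' * g) :
    (e2_norms G C).relIndex (e2_inv G C) = Nat.card ↥G := by
  rw [rcp_e2_hcard_ab P G hG]
  have hbot : commutator ↥G = ⊥ := by
    rw [commutator_eq_closure, Subgroup.closure_eq_bot_iff]
    rintro _ ⟨a, b, rfl⟩
    rw [Set.mem_singleton_iff, commutatorElement_eq_one_iff_mul_comm]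
    exact Subtype.ext (hcomm a.1 a.2 b.1 b.2)
  have h1 : Nat.card (Abelianization ↥G) = (commutator ↥G).index := rfl
  rw [h1, hbot, Subgroup.index_bot]

end inputs

end

end Fermat.Agent.S55
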