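import Fermat.Agent.S55.Idele.E2Abstract
import Fermat.Agent.S55.Idele.LevUnram

/-!
# S55 / block [G5]: the final push of (E1') with a prime-to-`p` factor, and relative norms
against the transition maps on fields (prefix `e2_`, continuation of `Idele/E2Abstract.lean`)

* `e2_rho_tCf`, `e2_sum_tCf`: for number fields `K ⊆ L`, a family `t i` of automorphisms of `L`
  restricting to `r i` on `K`, `r` a bijection onto `G ≤ Gal(K/ℚ)`:
  `∑ i, t i • (tC c) = tC (N_G c)` (relative norm `N_{G'/I}` of an element coming from `K`).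
* `e2_push_coprime`: as `e2_push`, but the hypothesis only gives
  `n • tC (N_G c') = tC (p • d') + u` with `n` prime to `p` (the output of the duality step
  `e1d_dual`); needs that `G`-invariant classes of `C_S(L)` descend to `K`.
* `e2_push_lev_coprime`: the level form; conclusion = the body of `hE1` of `isa_habs`.
-/

set_option autoImplicit false
set_option linter.style.haveILetI false
set_option linter.unusedSectionVars false

open CategoryTheory

namespace Fermat.Agent.S55

open scoped TensorProduct NumberField nonZeroDivisors Pointwise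

universe u

section norms

variable (S : Finset Nat.Primes) {K L : Type u} [Field K] [NumberField K] [Field L] [NumberField L]
  [Algebra K L]

/-- The transition map is equivariant along compatible automorphisms. -/
theorem e2_rho_tCf {σK : K ≃ₐ[ℚ] K} {σL : L ≃ₐ[ℚ] L} (h : id_Compat K L σK σL)
    (c : (id_CRep S K).V) :
    (id_CRep S L).ρ σL (e2_tCf S K L c) = e2_tCf S K L ((id_CRep S K).ρ σK c) :=
  (congrArg Additive.ofMul (id_Cmap_smul S K L h (Additive.toMul c))).symm

/-- **Relative norms against the transition map.**  If the automorphisms `t i` of `L` restrict to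
`r i` on `K` and `r` is a bijection from the index set onto the subgroup `G`, then
`∑ i, t i • (tC c) = tC (N_G c)`. -/
theorem e2_sum_tCf [Fintype (K ≃ₐ[ℚ] K)] {ι : Type*} [Fintype ι] (t : ι → (L ≃ₐ[ℚ] L))
    (r : ι → (K ≃ₐ[ℚ] K)) (hcompat : ∀ i, id_Compat K L (r i) (t i))
    (G : Subgroup (K ≃ₐ[ℚ] K)) (hr : Function.Injective r) (hrG : ∀ g, g ∈ G ↔ ∃ i, r i = g)
    (c : (id_CRep S K).V) :
    ∑ i, (id_CRep S L).ρ (t i) (e2_tCf S K L c) = e2_tCf S K L (e2_nrm G (id_CRep S K) c) := by
  classical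
  rw [e2_nrm_apply, map_sum]
  have h1 : ∀ i, (id_CRep S L).ρ (t i) (e2_tCf S K L c) =
      e2_tCf S K L ((id_CRep S K).ρ (r i) c) := fun i => e2_rho_tCf S (hcompat i) c
  rw [Finset.sum_congr rfl (fun i _ => h1 i)]
  refine Finset.sum_bij (fun i _ => r i) ?_ ?_ ?_ ?_
  · intro i _
    simp only [Finset.mem_filter, Finset.mem_univ, true_and]
    exact (hrG (r i)).2 ⟨i, rfl⟩
  · intro i _ j _ hij
    exact hr hij
  · intro g hg
    simp only [Finset.mem_filter, Finset.mem_univ, true_and] at hg
    obtain ⟨i, hi⟩ := (hrG g).1 hg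
    exact ⟨i, Finset.mem_univ _, hi⟩
  · intro i _
    rfl

end norms

section push

variable {S T : Finset Nat.Primes} (hST : S ⊆ T)

variable {K : Type u} [Field K] [NumberField K]

/-- **The final push of (E1'), field form with a prime-to-`p` factor.**  Let `K ⊆ L ⊆ L'` be
number fields, `G` a group of automorphisms of `L` such that the `G`-invariant classes of
`C_S(L)` come from `C_S(K)`.  If in `C_T(L')`, for every `c' ∈ C_T(L)`, a prime-to-`p` multiple of
the norm `N_G c'` is a `p`-th multiple from `C_T(K)` up to an element killed by the comparison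
map `κ : C_T → C_S`, and `C_S(L) → C_S(L')` is injective, then `N_G C_S(L) ⊆ t(p • C_S(K))`. -/
theorem e2_push_coprime {L L' : Type u} [Field L] [NumberField L] [Field L'] [NumberField L']
    [Algebra K L] [Algebra L L'] [Algebra K L'] [IsScalarTower K L L']
    (hinj : Function.Injective (id_Cmap S L L')) [Fintype (L ≃ₐ[ℚ] L)]
    (G : Subgroup (L ≃ₐ[ℚ] L)) (p : ℕ) [hp : Fact p.Prime]
    (hdesc : ∀ c ∈ e2_inv G (id_CRep S L), ∃ d₀ : (id_CRep S K).V, e2_tCf S K L d₀ = c)
    (H : ∀ c' : (id_CRep T L).V, ∃ n : ℕ, ¬ p ∣ n ∧ ∃ d' : (id_CRep T K).V,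
      ∃ u : (id_CRep T L').V, e2_kappa hST L' u = 0 ∧
        n • e2_tCf T L L' (e2_nrm G (id_CRep T L) c') = e2_tCf T K L' (p • d') + u)
    (c : (id_CRep S L).V) :
    ∃ d : (id_CRep S K).V, e2_nrm G (id_CRep S L) c = e2_tCf S K L (p • d) := by
  obtain ⟨c', rfl⟩ := e2_kappa_surjective hST c
  obtain ⟨n, hn, d', u, hu, hN⟩ := H c'
  obtain ⟨d₀, hd₀⟩ := hdesc _ (e2_nrm_mem_inv G (id_CRep S L) (e2_kappa hST L c'))
  -- `n • N c = tC (p • κ d')`
  have h1 := congrArg (e2_kappa hST L') hN
  rw [map_add, hu, add_zero, map_nsmul] at h1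
  have h2 : e2_kappa hST L' (e2_tCf T L L' (e2_nrm G (id_CRep T L) c')) =
      e2_tCf S L L' (e2_nrm G (id_CRep S L) (e2_kappa hST L c')) :=
    (e2_kappa_tCf hST (K := L) (L := L') _).trans
      (congrArg (e2_tCf S L L') (e2_kappa_nrm hST G c'))
  have h3 : e2_kappa hST L' (e2_tCf T K L' (p • d')) =
      e2_tCf S L L' (e2_tCf S K L (p • e2_kappa hST K d')) := by
    refine (e2_kappa_tCf hST (K := K) (L := L') (p • d')).trans ?_
    refine (e2_tCf_trans S K L L' _).symm.trans ?_
    exact congrArg (fun x => e2_tCf S L L' (e2_tCf S K L x)) (map_nsmul (e2_kappa hST K) p d')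
  have h4 : e2_tCf S L L' (n • e2_nrm G (id_CRep S L) (e2_kappa hST L c')) =
      e2_tCf S L L' (e2_tCf S K L (p • e2_kappa hST K d')) := by
    rw [map_nsmul]
    exact ((congrArg (fun x => n • x) h2).symm.trans h1).trans h3
  have h5 : n • e2_nrm G (id_CRep S L) (e2_kappa hST L c') =
      e2_tCf S K L (p • e2_kappa hST K d') :=
    Additive.toMul.injective (hinj (Additive.ofMul.injective h4))
  -- Bézout
  have hcop : IsCoprime (n : ℤ) (p : ℤ) := by
    have : Nat.Coprime n p := (Nat.Coprime.symm ((Nat.Prime.coprime_iff_not_dvd hp.out).2 hn))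
    exact Nat.isCoprime_iff_coprime.2 this
  obtain ⟨a, b, hab⟩ := hcop
  refine ⟨a • e2_kappa hST K d' + b • d₀, ?_⟩
  set N := e2_nrm G (id_CRep S L) (e2_kappa hST L c') with hNdef
  have h6 : N = a • ((n : ℤ) • N) + b • ((p : ℤ) • N) := by
    rw [smul_smul, smul_smul, ← add_smul, hab, one_smul]
  have h7 : ((n : ℤ) • N) = e2_tCf S K L (p • e2_kappa hST K d') := by
    rw [natCast_zsmul]
    exact h5
  have h8 : ((p : ℤ) • N) = e2_tCf S K L (p • d₀) := by
    rw [natCast_zsmul, map_nsmul, hd₀]
  rw [h6, h7, h8]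
  simp only [map_add, map_nsmul, map_zsmul]
  rw [smul_comm a p, smul_comm b p, smul_add]

/-- **The final push of (E1'), level form with a prime-to-`p` factor**: `K ≤ L` levels for `S`,
`L'` any number field over `L.L`; the conclusion is the body of `hE1` of `isa_habs`. -/
theorem e2_push_lev_coprime (hS : S.Nonempty) {K L : du_Lev S} (h : K ≤ L) {L' : Type} [Field L']
    [NumberField L'] [Algebra L.L L'] [Algebra K.L L']
    (htower : letI := id_levAlgebra h; IsScalarTower K.L L.L L')
    (hinj : Function.Injective (id_Cmap S L.L L')) (p : ℕ) [Fact p.Prime]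
    (H : ∀ c' : (id_CRep T L.L).V, ∃ n : ℕ, ¬ p ∣ n ∧ ∃ d' : (id_CRep T K.L).V,
      ∃ u : (id_CRep T L').V, e2_kappa hST L' u = 0 ∧
        n • e2_tCf T L.L L' (e2_nrm (L.rel K) (id_CRep T L.L) c') = e2_tCf T K.L L' (p • d') + u)
    (c : (id_CRep S L.L).V) :
    ∃ d : (id_CRep S K.L).V, e2_nrm (L.rel K) (id_CRep S L.L) c = id_tC h (p • d) := by
  letI := id_levAlgebra h
  haveI := htower
  refine e2_push_coprime hST (K := K.L) (L := L.L) (L' := L') hinj (L.rel K) p ?_ H c
  intro c hc
  exact id_tC_range hS (iu_levUnram S) h c (fun σ hσ => hc _ ⟨σ, hσ, rfl⟩)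

end push

end Fermat.Agent.S55
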