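import Fermat.Agent.S55.Idele.LocalSeam
import Fermat.Agent.S55.Idele.SUnitSeam

/-!
# S55 / glue [L] → [G]: the field `lam_Eval` of `du_Seam` (prefix `ils_`)

Global `S`-units map to local units through `padicEmbedding`:
`lam ∘ pr ∘ ε = padicEmbedding ∘ Eval` for `E := ie_ERep S a.L`, `ε := ie_eps S a.L`,
`Eval := ie_eval S a.L` (`Idele/SUnitSeam`) and `pr`, `lam` from `Idele/LocalSeam`.
-/

set_option autoImplicit false
set_option linter.unusedSectionVars false

open scoped TensorProduct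
open ExtCitation NumberField

namespace Fermat.Agent.S55

local notation "Qbar" => AlgebraicClosure ℚ

noncomputable section

variable {S : Finset Nat.Primes} (a : du_Lev S) (q : ↥S)

/-- The field `lam_Eval` of `du_Seam`. -/
theorem ils_lam_Eval (e : (ie_ERep S ↥a.L).V) :
    letI : Fact (q.1 : ℕ).Prime := ⟨q.1.2⟩
    (((tl_locUnits.val q.1 (ils_lam a q ((ils_pr a q).hom ((ie_eps S ↥a.L q).hom e))) :
        (PadicAlgCl (q.1 : ℕ))ˣ) : PadicAlgCl (q.1 : ℕ))) =
      padicEmbedding (q.1 : ℕ) (((ie_eval S a.L e).toMul : Qbarˣ) : Qbar) :=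
  il_lam_pr_inclU q.1 a.L ((Additive.toMul (α := ↥(id_ES S ↥a.L)) e : ↥(id_ES S ↥a.L)) : (↥a.L)ˣ)

end

end Fermat.Agent.S55
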