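import Fermat.Agent.S55.Idele.LocalSeamUnr
import Fermat.Agent.S55.Idele.LocalInertia
import Fermat.Agent.S55.Places.Galois

/-!
# S55 / glue [L] → [G]: unramified primes have trivial local inertia

If `L ⊆ ℚ̄` (finite normal) is unramified outside `S` in the prelude's sense and `q ∉ S`, then the
local extension `L·ℚ_q/ℚ_q` has trivial inertia group (`ils_inertia_eq_bot`), hence the inertia
subgroup of the unramified formula `ils_unr p q L` is trivial (`ils_unr_I_eq_bot_of_unram`).
-/

set_option autoImplicit false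
set_option linter.unusedSectionVars false
set_option linter.style.haveILetI false

open scoped Pointwise
open NumberField

namespace Fermat.Agent.S55

local notation "Qbar" => AlgebraicClosure ℚ

noncomputable section

variable (S : Finset Nat.Primes) (L : IntermediateField ℚ Qbar) [FiniteDimensional ℚ L]
  [Normal ℚ L]

/-- **Unramified at `q` in the prelude's sense ⟹ `L·ℚ_q/ℚ_q` has trivial inertia.** -/
theorem ils_inertia_eq_bot (hL : L.IsUnramifiedOutside S) (q : Nat.Primes) (hq : q ∉ S) :
    lq_inertia (il_Lq (q : ℕ) L) = ⊥ := by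
  haveI : IsGalois ℚ L := ⟨⟩
  haveI : NumberField L := ⟨⟩
  have h1 := il_inertia_eq_map (q : ℕ) L
  rw [pl_inertia_eq_bot L (padicPlace (q : ℕ)) hL q hq (pl_padicPlace_liesOver (q : ℕ))] at h1
  rw [eq_bot_iff]
  intro τ hτ
  have h2 : il_theta (q : ℕ) L τ ∈ (⊥ : Subgroup (L ≃ₐ[ℚ] L)) := by
    rw [h1]
    exact Subgroup.mem_map_of_mem _ hτ
  rw [Subgroup.mem_bot] at h2 ⊢
  exact il_theta_injective (q : ℕ) L (h2.trans (map_one _).symm)

/-- The inertia subgroup of the unramified formula is trivial at the unramified primes. -/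
theorem ils_unr_I_eq_bot_of_unram (p : ℕ) [Fact p.Prime] (hL : L.IsUnramifiedOutside S)
    (q : Nat.Primes) (hq : q ∉ S) : (ils_unr p q L).I = ⊥ :=
  ils_unr_I_eq_bot p q L (ils_inertia_eq_bot S L hL q hq)

/-- If `L·ℚ_q/ℚ_q` has trivial inertia, the Frobenius of the unramified formula generates the
decomposition group. -/
theorem ils_unr_frob_gen (p : ℕ) [Fact p.Prime] (q : Nat.Primes)
    (h : lq_inertia (il_Lq (q : ℕ) L) = ⊥) (d : ↥(il_D (q : ℕ) L)) :
    d ∈ Subgroup.zpowers (ils_unr p q L).frob := by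
  obtain ⟨k, hk⟩ := (lq_formation (il_Lq (q : ℕ) L)).frob_gen ((il_galEquiv (q : ℕ) L).symm d)
  rw [lq_formation_I, h, Subgroup.mem_bot, inv_mul_eq_one] at hk
  rw [ils_unr_frob', Subgroup.mem_zpowers_iff]
  refine ⟨(k : ℤ), ?_⟩
  have h1 : il_galEquiv (q : ℕ) L ((lq_formation (il_Lq (q : ℕ) L)).frob ^ k) = d := by
    rw [← hk, MulEquiv.apply_symm_apply]
  rw [map_pow] at h1
  exact (zpow_natCast _ k).trans h1

/-- At the unramified primes the Frobenius of the unramified formula generates the decomposition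
group. -/
theorem ils_unr_frob_gen_of_unram (p : ℕ) [Fact p.Prime] (hL : L.IsUnramifiedOutside S)
    (q : Nat.Primes) (hq : q ∉ S) (d : ↥(il_D (q : ℕ) L)) :
    d ∈ Subgroup.zpowers (ils_unr p q L).frob :=
  ils_unr_frob_gen L p q (ils_inertia_eq_bot S L hL q hq) d

end

end Fermat.Agent.S55
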