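import Fermat.Agent.S55.Idele.LocalUnits
import Fermat.Agent.S55.Idele.DictExports

/-!
# S55, block G5, leaf D: the unit dictionary (prefix `ild_`)

For a finite normal `L ⊆ ℚ̄` and a prime `q`: a unit `u` of `ℚ_q ⊗ L` all of whose Galois
translates have norm one at the canonical place (the place cut out by the fixed embedding
`ℚ̄ → PadicAlgCl q`) has order `0` at **every** maximal ideal of `ℚ_q ⊗ L`
(`ild_ordZ_eq_zero`): every maximal ideal is the kernel of the lift of an embedding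
`φ : L → PadicAlgCl q`, every such embedding is `il_emb ∘ σ` for some `σ ∈ Gal(L/ℚ)` because `L`
is normal (`ild_exists_aut_of_emb`), and the spectral norm at the kernel of `il_emb ∘ σ` of `u` is
the norm at the canonical place of `σ • u`.
-/

set_option autoImplicit false
set_option linter.unusedSectionVars false
set_option linter.style.haveILetI false

open scoped TensorProduct
open ExtCitation NumberField

namespace Fermat.Agent.S55

local notation "Qbar" => AlgebraicClosure ℚ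

noncomputable section

variable (q : Nat.Primes) (L : IntermediateField ℚ Qbar) [FiniteDimensional ℚ L] [Normal ℚ L]
  [NumberField L]

/-- Every embedding of the normal field `L` into `PadicAlgCl q` is the canonical embedding
precomposed with an automorphism of `L`. -/
theorem ild_exists_aut_of_emb (φ : ↥L →ₐ[ℚ] PadicAlgCl (q : ℕ)) :
    ∃ σ : ↥L ≃ₐ[ℚ] ↥L, ∀ x, φ x = il_emb (q : ℕ) L (σ x) := by
  letI : Algebra ↥L (PadicAlgCl (q : ℕ)) := (il_emb (q : ℕ) L).toRingHom.toAlgebra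
  haveI : IsScalarTower ℚ ↥L (PadicAlgCl (q : ℕ)) :=
    IsScalarTower.of_algebraMap_eq fun a => ((il_emb (q : ℕ) L).commutes a).symm
  refine ⟨Normal.algHomEquivAut ℚ (PadicAlgCl (q : ℕ)) ↥L φ, fun x => ?_⟩
  have h := (Normal.algHomEquivAut ℚ (PadicAlgCl (q : ℕ)) ↥L).left_inv φ
  exact (DFunLike.congr_fun h x).symm

/-- the lift of the canonical embedding is the evaluation map -/
theorem ild_lift_eq (z : id_A ↥L q) :
    id_dc_lift (il_emb (q : ℕ) L) z = il_ev (q : ℕ) L z := by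
  induction z using TensorProduct.induction_on with
  | zero => rw [map_zero, map_zero]
  | tmul a x => rw [id_dc_lift_tmul, il_ev_tmul, il_emb_apply]
  | add z₁ z₂ h₁ h₂ => rw [map_add, map_add, h₁, h₂]

/-- the spectral norm at the maximal ideal of the embedding `il_emb ∘ σ⁻¹` is the norm at the
canonical place of the translate by `σ⁻¹` -/
theorem ild_norm_comp_symm (σ : ↥L ≃ₐ[ℚ] ↥L) (z : id_A ↥L q) :
    dc_norm ↥L q (id_dc_max ((il_emb (q : ℕ) L).comp (σ.symm : ↥L →ₐ[ℚ] ↥L))) z =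
      ‖il_ev (q : ℕ) L (σ⁻¹ • z)‖ := by
  rw [dc_norm_eq_norm_lift, id_dc_lift_comp_symm, ild_lift_eq]

/-- every maximal ideal of `ℚ_q ⊗ L` is the one of `il_emb ∘ σ⁻¹` for some `σ` -/
theorem ild_exists_max_eq (𝔪 : MaximalSpectrum (id_A ↥L q)) :
    ∃ σ : ↥L ≃ₐ[ℚ] ↥L,
      id_dc_max ((il_emb (q : ℕ) L).comp (σ.symm : ↥L →ₐ[ℚ] ↥L)) = 𝔪 := by
  obtain ⟨φ, hφ⟩ := id_dc_max_surjective 𝔪
  obtain ⟨τ, hτ⟩ := ild_exists_aut_of_emb q L φ
  refine ⟨τ.symm, ?_⟩
  have h : (il_emb (q : ℕ) L).comp ((τ.symm.symm : ↥L ≃ₐ[ℚ] ↥L) : ↥L →ₐ[ℚ] ↥L) = φ := by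
    apply AlgHom.ext
    intro x
    exact (hτ x).symm
  rw [h]
  exact hφ

/-- **The spectral norm at any maximal ideal is the norm at the canonical place of a Galois
translate.** -/
theorem ild_exists_norm_eq (𝔪 : MaximalSpectrum (id_A ↥L q)) :
    ∃ k : ↥L ≃ₐ[ℚ] ↥L, ∀ z : id_A ↥L q, dc_norm ↥L q 𝔪 z = ‖il_ev (q : ℕ) L (k • z)‖ := by
  obtain ⟨σ, hσ⟩ := ild_exists_max_eq q L 𝔪
  refine ⟨σ⁻¹, fun z => ?_⟩
  rw [← hσ]
  exact ild_norm_comp_symm q L σ z

/-- **Leaf D: the unit dictionary.**  A unit of `ℚ_q ⊗ L` all of whose Galois translates are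
units at the canonical place has order `0` at every maximal ideal. -/
theorem ild_ordZ_eq_zero (u : (id_A ↥L q)ˣ)
    (h : ∀ k : ↥L ≃ₐ[ℚ] ↥L, ‖((il_prU q L (k • u) : (↥(il_Lq (q : ℕ) L))ˣ) :
      ↥(il_Lq (q : ℕ) L))‖ = 1) :
    ∀ 𝔪 : MaximalSpectrum (id_A ↥L q), dc_ordZ 𝔪 u = 0 := by
  intro 𝔪
  rw [dc_ordZ_eq_zero_iff]
  obtain ⟨k, hk⟩ := ild_exists_norm_eq q L 𝔪
  rw [hk, ← ga_coe_smul_units, ← il_prU_coe]
  exact h k

end

end Fermat.Agent.S55
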