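import Fermat.Agent.S55.Idele.SUnitSeam
import Fermat.Agent.S55.G1.ClassFinite

/-!
# S55 / block [G0]: finiteness of `C_S / C_S°` in the shape of the seam (prefix `ie_`)

`du_Co 𝔻 = ⨆ q, range (𝔻.j q)` for the level data `𝔻` with `C := id_CRep S K`,
`j q := id_jqRep S K q`.  We identify this additive subgroup with `id_CSo S K` and export the
finiteness hypotheses `hfin` of the two reductions of (G-abs)
(`Dual/AbsReduce.lean : ar_abs`, `Idele/AbsReduction.lean : are_abs_of_E1`).
-/

set_option autoImplicit false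
set_option linter.style.haveILetI false

open scoped TensorProduct NumberField nonZeroDivisors Pointwise
open IsDedekindDomain CategoryTheory

noncomputable section

namespace Fermat.Agent.S55

universe u

variable (S : Finset Nat.Primes) (K : Type u) [Field K] [NumberField K]

/-- The additive subgroup generated by the semilocal images, in the shape of `du_Co`. -/
def ie_Co : AddSubgroup (id_CRep S K).V := ⨆ q : ↥S, (id_jqRep S K q).hom.toAddMonoidHom.range

theorem ie_Co_def :
    ie_Co S K = ⨆ q : ↥S, (id_jqRep S K q).hom.toAddMonoidHom.range := rfl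

/-- Membership in `ie_Co` is membership in `C_S°`. -/
theorem ie_mem_Co_iff (c : id_C S K) :
    (Additive.ofMul c : (id_CRep S K).V) ∈ ie_Co S K ↔ c ∈ id_CSo S K := by
  constructor
  · intro hc
    unfold ie_Co at hc
    refine AddSubgroup.iSup_induction (fun q : ↥S => (id_jqRep S K q).hom.toAddMonoidHom.range)
      (C := fun d : (id_CRep S K).V => (Additive.toMul (α := id_C S K) d) ∈ id_CSo S K) hc ?_ ?_ ?_
    · rintro q _ ⟨z, rfl⟩
      exact ⟨id_inq S K q (Additive.toMul (α := (id_A K q.1)ˣ) z), rfl⟩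
    · exact one_mem (id_CSo S K)
    · intro x y hx hy
      exact mul_mem hx hy
  · rintro ⟨X, rfl⟩
    have h := ie_sum_jq S K (fun q => (Additive.ofMul (X q) : (id_ARep K q.1).V))
    have h' : (Additive.ofMul (id_jS S K X) : (id_CRep S K).V) =
        ∑ q, (id_jqRep S K q).hom (Additive.ofMul (X q) : (id_ARep K q.1).V) := h.symm
    rw [h']
    refine AddSubgroup.sum_mem (ie_Co S K) fun q _ => ?_
    have hle : (id_jqRep S K q).hom.toAddMonoidHom.range ≤ ie_Co S K :=
      le_iSup (fun q : ↥S => (id_jqRep S K q).hom.toAddMonoidHom.range) q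
    exact hle ⟨_, rfl⟩

/-- **`hfin` of `ar_abs`**: a positive multiple of every class lies in `C_S°`. -/
theorem ie_exists_nsmul_mem_Co :
    ∃ m : ℕ, 0 < m ∧ ∀ d : (id_CRep S K).V, m • d ∈ ie_Co S K := by
  haveI := fq_finite_ClS S K
  refine ⟨Nat.card (id_ClS S K), Nat.card_pos, fun d => ?_⟩
  set c : id_C S K := Additive.toMul (α := id_C S K) d with hc
  have h0 : fq_CToClS S K (c ^ Nat.card (id_ClS S K)) = 1 := by
    rw [map_pow]
    exact pow_card_eq_one'
  have h1 : c ^ Nat.card (id_ClS S K) ∈ id_CSo S K := by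
    have h2 : c ^ Nat.card (id_ClS S K) ∈ (fq_CToClS S K).ker := MonoidHom.mem_ker.2 h0
    have h3 := fq_ker_CToClS S K
    exact h3 ▸ h2
  exact (ie_mem_Co_iff S K (c ^ Nat.card (id_ClS S K))).2 h1

/-- **`hfin` of `are_abs_of_E1`**: `C_S°` has finite index. -/
theorem ie_index_Co_ne_zero : (ie_Co S K).index ≠ 0 := by
  have h : ie_Co S K = Subgroup.toAddSubgroup (id_CSo S K) := by
    ext d
    exact ie_mem_Co_iff S K (Additive.toMul (α := id_C S K) d)
  have h2 : (Subgroup.toAddSubgroup (id_CSo S K)).index = (id_CSo S K).index :=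
    Subgroup.index_toAddSubgroup
  intro h0
  apply fq_index_CSo_ne_zero S K
  rw [← h2, ← h]
  exact h0

end Fermat.Agent.S55
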