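import Fermat.Agent.S55.Idele.SeamCap
import Fermat.Agent.S55.Idele.SeamFinite
import Fermat.Agent.S55.Idele.E2Abstract

/-!
# S55 / block [G]: the absorption input `habs` of `id_seam` from (E1') (prefix `isa_`)

* `isa_tower` : the `ar_Tower` of the raw idele data (`id_ldData`, `id_tC`, `id_tJ`);
* `isa_hfin` : `hfin` of `ar_abs` for this tower (finiteness of the `S`-class group);
* **`isa_habs`** : the hypothesis `habs` of `id_seam`, verbatim, from the existence theorem in
  exponent `p` (E1') in `id_` language (the conclusion of `e2_push_lev`).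
-/

set_option autoImplicit false
set_option linter.unusedSectionVars false
set_option linter.style.haveILetI false

open scoped NumberField
open IsDedekindDomain CategoryTheory ExtCitation

noncomputable section

namespace Fermat.Agent.S55

local notation "Qbar" => AlgebraicClosure ℚ

variable {S : Finset Nat.Primes} (p : ℕ) [Fact p.Prime]

/-- The tower of the raw idele data. -/
def isa_tower (hS : S.Nonempty) (P : ∀ a : du_Lev S, PClassModule p (id_CRep S a.L))
    (hsum : ∀ (a : du_Lev S) (q : ↥S) (z : groupCohomology (id_ARep a.L q.1) 2),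
      tt_IsPPrimary p z →
      (P a).invTop ((tt_coeffMap (id_jqRep S a.L q) 2).hom z) =
        (id_levPq p a q.1).invTop ((tt_coeffMap (il_pr q.1 a.L) 2).hom
          ((tt_resMap (il_D (q.1 : ℕ) a.L) (id_ARep a.L q.1) 2).hom z))) :
    ar_Tower p S where
  dat a := id_ldData p a (P a) (hsum a)
  tC h := id_tC h
  tJ h q := id_tJ h q
  tC_inj h := id_tC_inj hS h
  tC_equiv h σ c := id_tC_equiv h σ c
  tC_range h c hc := id_tC_range hS (iu_levUnram S) h c hc
  tC_j h q x := id_tC_j h q x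
  tC_trans h h' x := id_tC_trans h h' x

/-- `du_Co` of the idele data is `ie_Co`. -/
theorem isa_du_Co_eq (a : du_Lev S) (P : PClassModule p (id_CRep S a.L))
    (hsum : ∀ (q : ↥S) (z : groupCohomology (id_ARep a.L q.1) 2), tt_IsPPrimary p z →
      P.invTop ((tt_coeffMap (id_jqRep S a.L q) 2).hom z) =
        (id_levPq p a q.1).invTop ((tt_coeffMap (il_pr q.1 a.L) 2).hom
          ((tt_resMap (il_D (q.1 : ℕ) a.L) (id_ARep a.L q.1) 2).hom z))) :
    du_Co (id_ldData p a P hsum) = ie_Co S a.L := rfl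

/-- **`hfin`** of `ar_abs` for the idele tower. -/
theorem isa_hfin (a : du_Lev S) (P : PClassModule p (id_CRep S a.L))
    (hsum : ∀ (q : ↥S) (z : groupCohomology (id_ARep a.L q.1) 2), tt_IsPPrimary p z →
      P.invTop ((tt_coeffMap (id_jqRep S a.L q) 2).hom z) =
        (id_levPq p a q.1).invTop ((tt_coeffMap (il_pr q.1 a.L) 2).hom
          ((tt_resMap (il_D (q.1 : ℕ) a.L) (id_ARep a.L q.1) 2).hom z))) :
    ∃ m : ℕ, 0 < m ∧ ∀ d : (id_CRep S a.L).V, m • d ∈ du_Co (id_ldData p a P hsum) :=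
  ie_exists_nsmul_mem_Co S a.L

/-- The index form of `hfin`. -/
theorem isa_index_ne_zero (a : du_Lev S) (P : PClassModule p (id_CRep S a.L))
    (hsum : ∀ (q : ↥S) (z : groupCohomology (id_ARep a.L q.1) 2), tt_IsPPrimary p z →
      P.invTop ((tt_coeffMap (id_jqRep S a.L q) 2).hom z) =
        (id_levPq p a q.1).invTop ((tt_coeffMap (il_pr q.1 a.L) 2).hom
          ((tt_resMap (il_D (q.1 : ℕ) a.L) (id_ARep a.L q.1) 2).hom z))) :
    (du_Co (id_ldData p a P hsum)).index ≠ 0 :=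
  ie_index_Co_ne_zero S a.L

open Classical in
/-- **The hypothesis `habs` of `id_seam`, verbatim**, from the existence theorem in exponent `p`
(E1') in `id_` language. -/
theorem isa_habs (hS : S.Nonempty) (P : ∀ a : du_Lev S, PClassModule p (id_CRep S a.L))
    (hsum : ∀ (a : du_Lev S) (q : ↥S) (z : groupCohomology (id_ARep a.L q.1) 2),
      tt_IsPPrimary p z →
      (P a).invTop ((tt_coeffMap (id_jqRep S a.L q) 2).hom z) =
        (id_levPq p a q.1).invTop ((tt_coeffMap (il_pr q.1 a.L) 2).hom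
          ((tt_resMap (il_D (q.1 : ℕ) a.L) (id_ARep a.L q.1) 2).hom z)))
    (hE1 : ∀ K : du_Lev S, ∃ (K₁ L : du_Lev S) (_ : K ≤ K₁) (h : K₁ ≤ L),
      ∀ c : (id_CRep S L.L).V, ∃ d : (id_CRep S K₁.L).V,
        e2_nrm (L.rel K₁) (id_CRep S L.L) c = id_tC h (p • d)) :
    ∀ K : du_Lev S, ∃ a₁ : du_Lev S, K ≤ a₁ ∧ ∀ a : du_Lev S, a₁ ≤ a → ∀ hKa : K ≤ a,
      ∀ c : (id_CRep S a.L).V, ∃ n : ℕ, ¬ p ∣ n ∧ ∃ x : ∀ q : ↥S, (id_ARep K.L q.1).V,
        n • (∑ h ∈ Finset.univ.filter (fun h : a.Γ => h ∈ a.rel K), (id_CRep S a.L).ρ h c) =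
          ∑ q, (id_jqRep S a.L q).hom (id_tJ hKa q (x q)) := by
  refine ar_abs (isa_tower p hS P hsum) (fun K => isa_hfin p K (P K) (hsum K)) ?_
  intro K
  obtain ⟨K₁, L, hKK₁, h, H⟩ := hE1 K
  refine ⟨K₁, L, hKK₁, h, fun c => ?_⟩
  obtain ⟨d, hd⟩ := H c
  exact ⟨d, (e2_ar_N_eq (isa_tower p hS P hsum) L K₁ c).trans hd⟩

/-- Test: the seam from the global class modules, the sum formula and (E1'). -/
example (hS : S.Nonempty) (hpS : pPrime p ∈ S)
    (P : ∀ a : du_Lev S, PClassModule p (id_CRep S a.L))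
    (hsum : ∀ (a : du_Lev S) (q : ↥S) (z : groupCohomology (id_ARep a.L q.1) 2),
      tt_IsPPrimary p z →
      (P a).invTop ((tt_coeffMap (id_jqRep S a.L q) 2).hom z) =
        (id_levPq p a q.1).invTop ((tt_coeffMap (il_pr q.1 a.L) 2).hom
          ((tt_resMap (il_D (q.1 : ℕ) a.L) (id_ARep a.L q.1) 2).hom z)))
    (hE1 : ∀ K : du_Lev S, ∃ (K₁ L : du_Lev S) (_ : K ≤ K₁) (h : K₁ ≤ L),
      ∀ c : (id_CRep S L.L).V, ∃ d : (id_CRep S K₁.L).V,
        e2_nrm (L.rel K₁) (id_CRep S L.L) c = id_tC h (p • d)) : du_Seam p S :=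
  id_seam p hS P hsum (isc_hcap p hpS P hsum) (isa_habs p hS P hsum hE1)

end Fermat.Agent.S55
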