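import Fermat.Agent.S55.Idele.Descent
import Fermat.Agent.S55.Idele.EnlargeS

/-!
# S55 / block [G5]: split Kummer layers; `E_S ∩ J_S^p = E_S^p`

* `id_sk_norm_of_idempotents`, `id_sk_idempotent_data`, `id_sk_exists_norm_abstract`: pure algebra.
  If `σ` acts on a commutative ring `R`, `t ^ p = 1`, `σ • t = z * t` with `z` a "primitive" `p`-th
  root of unity fixed by `σ` and `p` invertible, then every `σ`-fixed unit of `R` is a `σ`-norm
  `∏_{k<p} σ^k • v` of a unit.
* `id_sk_exists_norm`: the tensor-model instance: if `x = y ^ p` in `(ℚ_q ⊗ K)ˣ` and `L ∋ α`,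
  `α ^ p = x`, `σ α = ζ α`, every unit of `ℚ_q ⊗ K` is a `σ`-norm from `(ℚ_q ⊗ L)ˣ`.
* `id_sk_e_eq_one_of_inertia`, `id_sk_kummer_inertia`, `id_sk_e_eq_one`: a Kummer layer
  `K(x^{1/p})/K` by an `S`-unit `x`, `p ∈ S`, is unramified outside `S` (`id_e K L w = 1`).
* `id_sk_invariant_is_norm`: in such a layer with `x ∈ J_S(K)^p` and `Cl_S(K) = 1` every
  `σ`-invariant class of `C_S(L)` is a `σ`-norm; `id_sk_false_of_layer`.
* `id_sk_hint`, `id_sk_hint'`: **`E_S ∩ J_S^p = E_S^p`** given the first inequality `hFI`.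
-/

set_option autoImplicit false
set_option linter.unusedSectionVars false

open scoped TensorProduct NumberField
open IsDedekindDomain Finset

noncomputable section

namespace Fermat.Agent.S55

universe u

/-! ### Pure algebra: norms from orthogonal idempotents -/

section Abstract

variable {G R : Type*} [Group G] [CommRing R] [MulSemiringAction G R]

theorem id_sk_prod_one_add {ι : Type*} [DecidableEq ι] (s : Finset ι) (c : R) (e : ι → R)
    (horth : ∀ i ∈ s, ∀ j ∈ s, i ≠ j → e i * e j = 0) :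
    ∏ k ∈ s, (1 + c * e k) = 1 + c * ∑ k ∈ s, e k := by
  induction s using Finset.induction_on with
  | empty => simp
  | insert j s hj ih =>
    rw [prod_insert hj, sum_insert hj, ih fun i hi k hk hik =>
      horth i (mem_insert_of_mem hi) k (mem_insert_of_mem hk) hik]
    have h0 : ∀ k ∈ s, e j * e k = 0 := fun k hk =>
      horth j (mem_insert_self j s) k (mem_insert_of_mem hk) (fun h => hj (h ▸ hk))
    have h1 : e j * ∑ k ∈ s, e k = 0 := by
      rw [mul_sum]
      exact sum_eq_zero h0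
    have : (1 + c * e j) * (1 + c * ∑ k ∈ s, e k) =
        1 + c * (e j + ∑ k ∈ s, e k) + c * c * (e j * ∑ k ∈ s, e k) := by ring
    rw [this, h1, mul_zero, add_zero]

/-- If the `σ`-translates of `e` are orthogonal idempotents with sum `1`, every `σ`-fixed unit is
a `σ`-norm of a unit. -/
theorem id_sk_norm_of_idempotents (σ : G) (p : ℕ) (hp : 0 < p) (e : R)
    (hsum : ∑ k ∈ range p, σ ^ k • e = 1)
    (horth : ∀ m, 0 < m → m < p → e * σ ^ m • e = 0) (U : Rˣ) (hU : σ • (U : R) = U) :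
    ∃ v : Rˣ, ∏ k ∈ range p, σ ^ k • (v : R) = U := by
  classical
  -- pairwise orthogonality
  have horth' : ∀ i ∈ range p, ∀ j ∈ range p, i ≠ j → σ ^ i • e * σ ^ j • e = 0 := by
    have key : ∀ i j, i < j → j < p → σ ^ i • e * σ ^ j • e = 0 := by
      intro i j hij hjp
      have h1 : σ ^ j • e = σ ^ i • σ ^ (j - i) • e := by
        rw [← mul_smul, ← pow_add, Nat.add_sub_cancel' hij.le]
      rw [h1, ← smul_mul', horth (j - i) (Nat.sub_pos_of_lt hij) (by omega), smul_zero]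
    intro i hi j hj hij
    rcases Nat.lt_or_gt_of_ne hij with h | h
    · exact key i j h (mem_range.1 hj)
    · rw [mul_comm]
      exact key j i h (mem_range.1 hi)
  -- `e` is idempotent
  have he : e * e = e := by
    have h1 : e * ∑ k ∈ range p, σ ^ k • e = e := by rw [hsum, mul_one]
    rw [mul_sum, sum_eq_single_of_mem 0 (mem_range.2 hp)] at h1
    · simpa using h1
    · intro k hk hk0
      exact horth k (Nat.pos_of_ne_zero hk0) (mem_range.1 hk)
  have hUk : ∀ k : ℕ, σ ^ k • (U : R) = U := by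
    intro k
    induction k with
    | zero => simp
    | succ k ih => rw [pow_succ, mul_smul, hU, ih]
  set a : R := 1 + ((U : R) - 1) * e with ha
  set b : R := 1 + (((U⁻¹ : Rˣ) : R) - 1) * e with hb
  have hab : a * b = 1 := by
    have h1 : (U : R) * ((U⁻¹ : Rˣ) : R) = 1 := by
      rw [← Units.val_mul, mul_inv_cancel, Units.val_one]
    have : a * b = 1 + (((U : R) - 1) + (((U⁻¹ : Rˣ) : R) - 1)) * e +
        ((U : R) * ((U⁻¹ : Rˣ) : R) - (U : R) - ((U⁻¹ : Rˣ) : R) + 1) * (e * e) := by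
      rw [ha, hb]; ring
    rw [this, he, h1]
    ring
  refine ⟨⟨a, b, hab, by rw [mul_comm]; exact hab⟩, ?_⟩
  show ∏ k ∈ range p, σ ^ k • a = U
  have h2 : ∀ k, σ ^ k • a = 1 + ((U : R) - 1) * σ ^ k • e := by
    intro k
    rw [ha, smul_add, smul_one, smul_mul', smul_sub, smul_one, hUk]
  simp only [h2]
  rw [id_sk_prod_one_add (range p) ((U : R) - 1) (fun k => σ ^ k • e) horth', hsum]
  ring

/-- The idempotent attached to `t` with `t ^ p = 1`, `σ • t = z * t`. -/
theorem id_sk_idempotent_data (σ : G) (p : ℕ) (hp : 0 < p) (t z c : R) (ht : t ^ p = 1)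
    (hσt : σ • t = z * t) (hσz : σ • z = z) (hσc : σ • c = c) (hc : c * (p : R) = 1)
    (hz : ∀ m, 0 < m → m < p → ∑ k ∈ range p, (z ^ m) ^ k = 0) :
    (∑ m ∈ range p, σ ^ m • (c * ∑ k ∈ range p, t ^ k) = 1) ∧
      ∀ m, 0 < m → m < p →
        (c * ∑ k ∈ range p, t ^ k) * σ ^ m • (c * ∑ k ∈ range p, t ^ k) = 0 := by
  have hzm : ∀ m : ℕ, σ ^ m • z = z := by
    intro m
    induction m with
    | zero => simp
    | succ m ih => rw [pow_succ, mul_smul, hσz, ih]
  have hcm : ∀ m : ℕ, σ ^ m • c = c := by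
    intro m
    induction m with
    | zero => simp
    | succ m ih => rw [pow_succ, mul_smul, hσc, ih]
  have htm : ∀ m : ℕ, σ ^ m • t = z ^ m * t := by
    intro m
    induction m with
    | zero => simp
    | succ m ih =>
      rw [pow_succ', mul_smul, ih, smul_mul', smul_pow', hσz, hσt]
      ring
  have hem : ∀ m : ℕ, σ ^ m • (c * ∑ k ∈ range p, t ^ k) =
      c * ∑ k ∈ range p, (z ^ m) ^ k * t ^ k := by
    intro m
    rw [smul_mul', hcm, smul_sum]
    congr 1
    refine sum_congr rfl fun k _ => ?_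
    rw [smul_pow', htm, mul_pow]
  -- `t * E = E`
  have htE : t * ∑ k ∈ range p, t ^ k = ∑ k ∈ range p, t ^ k := by
    rw [mul_sum]
    have h1 : ∀ k, t * t ^ k = t ^ (k + 1) := fun k => (pow_succ' t k).symm
    simp only [h1]
    have h2 := sum_range_succ' (fun k => t ^ k) p
    have h3 := sum_range_succ (fun k => t ^ k) p
    rw [ht] at h3
    rw [pow_zero] at h2
    exact add_right_cancel (h2.symm.trans h3)
  have htkE : ∀ k : ℕ, t ^ k * ∑ j ∈ range p, t ^ j = ∑ j ∈ range p, t ^ j := by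
    intro k
    induction k with
    | zero => simp
    | succ k ih => rw [pow_succ, mul_assoc, htE, ih]
  constructor
  · -- the sum is `1`
    simp only [hem]
    rw [← mul_sum, sum_comm]
    have h4 : ∀ k ∈ range p, ∑ m ∈ range p, (z ^ m) ^ k * t ^ k =
        if k = 0 then (p : R) else 0 := by
      intro k hk
      split_ifs with hk0
      · subst hk0
        simp
      · rw [← sum_mul]
        have h5 : ∑ m ∈ range p, (z ^ m) ^ k = ∑ m ∈ range p, (z ^ k) ^ m :=
          sum_congr rfl fun m _ => by rw [← pow_mul, ← pow_mul, mul_comm]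
        rw [h5, hz k (Nat.pos_of_ne_zero hk0) (mem_range.1 hk), zero_mul]
    rw [sum_congr rfl h4, sum_ite_eq' (range p) 0 (fun _ => (p : R)), if_pos (mem_range.2 hp), hc]
  · intro m hm0 hmp
    rw [hem m]
    have h6 : (c * ∑ k ∈ range p, t ^ k) * (c * ∑ k ∈ range p, (z ^ m) ^ k * t ^ k) =
        c * c * ∑ k ∈ range p, (z ^ m) ^ k * (t ^ k * ∑ j ∈ range p, t ^ j) := by
      rw [mul_sum (range p) _ (c * c)]
      rw [mul_mul_mul_comm, mul_comm (∑ k ∈ range p, t ^ k), sum_mul, mul_sum]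
      refine sum_congr rfl fun k _ => ?_
      ring
    rw [h6]
    simp only [htkE]
    rw [← sum_mul, hz m hm0 hmp, zero_mul, mul_zero]

/-- **Abstract split norm lemma.** -/
theorem id_sk_exists_norm_abstract (σ : G) (p : ℕ) (hp : 0 < p) (t z c : R) (ht : t ^ p = 1)
    (hσt : σ • t = z * t) (hσz : σ • z = z) (hσc : σ • c = c) (hc : c * (p : R) = 1)
    (hz : ∀ m, 0 < m → m < p → ∑ k ∈ range p, (z ^ m) ^ k = 0) (U : Rˣ)
    (hU : σ • (U : R) = U) :
    ∃ v : Rˣ, ∏ k ∈ range p, σ ^ k • (v : R) = U := by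
  obtain ⟨h1, h2⟩ := id_sk_idempotent_data σ p hp t z c ht hσt hσz hσc hc hz
  exact id_sk_norm_of_idempotents σ p hp _ h1 h2 U hU

end Abstract

/-! ### The split norm lemma in the tensor model -/

section Tensor

variable (K L : Type u) [Field K] [NumberField K] [Field L] [NumberField L] [Algebra K L]

theorem id_sk_smul_incl (q : Nat.Primes) (σ : L ≃ₐ[ℚ] L) (a : L) :
    σ • id_incl L q a = id_incl L q (σ a) := by
  rw [id_incl_apply, id_incl_apply, ga_smul_tmul]

theorem id_sk_pow_smul_units (q : Nat.Primes) (σ : L ≃ₐ[ℚ] L) (k : ℕ) (v : (id_A L q)ˣ) :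
    ((σ ^ k • v : (id_A L q)ˣ) : id_A L q) = σ ^ k • (v : id_A L q) := rfl

/-- **Split norm lemma.**  Let `L ⊇ K` contain `α` with `α ^ p = x ∈ K` and let `σ` be an
automorphism of `L` over `K` with `σ α = ζ α`, `ζ ∈ K` a primitive `p`-th root of unity.  If `x` is
a `p`-th power in `(ℚ_q ⊗ K)ˣ` then every unit of `ℚ_q ⊗ K` is a `σ`-norm from `(ℚ_q ⊗ L)ˣ`. -/
theorem id_sk_exists_norm (q : Nat.Primes) (p : ℕ) (hp : p.Prime) {ζ : K}
    (hζ : IsPrimitiveRoot ζ p) (x : K) (α : L) (hα : α ^ p = algebraMap K L x) (σ : L ≃ₐ[ℚ] L)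
    (hσK : ∀ a : K, σ (algebraMap K L a) = algebraMap K L a)
    (hσα : σ α = algebraMap K L ζ * α)
    (y : (id_A K q)ˣ) (hy : (y : id_A K q) ^ p = id_incl K q x) (u : (id_A K q)ˣ) :
    ∃ v : (id_A L q)ˣ, ∏ k ∈ range p, σ ^ k • v = id_AmapU K L q u := by
  have hcompat : ∀ a : K, σ (algebraMap K L a) = algebraMap K L ((1 : K ≃ₐ[ℚ] K) a) := hσK
  set Y : (id_A L q)ˣ := id_AmapU K L q y with hY
  have hσunits : ∀ w : (id_A K q)ˣ, σ • id_AmapU K L q w = id_AmapU K L q w := by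
    intro w
    have := id_AmapU_smul K L q 1 σ hcompat w
    rw [one_smul] at this
    exact this.symm
  have hYp : ((Y : (id_A L q)ˣ) : id_A L q) ^ p = id_incl L q α ^ p := by
    rw [hY, id_AmapU_coe, ← map_pow, hy, id_Amap_incl, ← map_pow, hα]
  have hpQ : ((p : ℕ) : ℚ_[(q : ℕ)]) ≠ 0 := Nat.cast_ne_zero.2 hp.ne_zero
  obtain ⟨v, hv⟩ := id_sk_exists_norm_abstract (G := L ≃ₐ[ℚ] L) (R := id_A L q) σ p hp.pos
    (id_incl L q α * ((Y⁻¹ : (id_A L q)ˣ) : id_A L q))
    (id_incl L q (algebraMap K L ζ))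
    (algebraMap ℚ_[(q : ℕ)] (id_A L q) ((p : ℚ_[(q : ℕ)])⁻¹))
    (by
      rw [mul_pow, ← hYp, ← Units.val_pow_eq_pow_val, ← Units.val_pow_eq_pow_val,
        ← Units.val_mul, inv_pow, mul_inv_cancel, Units.val_one])
    (by
      rw [smul_mul', id_sk_smul_incl, hσα, map_mul, ← ga_coe_smul_units, smul_inv',
        hσunits y, mul_assoc])
    (by rw [id_sk_smul_incl, hσK])
    (ga_smul_algebraMap _ σ _)
    (by
      have h1 : ((p : ℕ) : id_A L q) = algebraMap ℚ_[(q : ℕ)] (id_A L q) (p : ℚ_[(q : ℕ)]) :=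
        (map_natCast _ p).symm
      rw [h1, ← map_mul, inv_mul_cancel₀ hpQ, map_one])
    (by
      intro m hm0 hmp
      have hcop : Nat.Coprime m p :=
        ((Nat.Prime.coprime_iff_not_dvd hp).2 fun h => by
          have := Nat.le_of_dvd hm0 h; omega).symm
      have hprim : IsPrimitiveRoot (ζ ^ m) p := hζ.pow_of_coprime m hcop
      have hsum : ∑ k ∈ range p, (ζ ^ m) ^ k = 0 := hprim.geom_sum_eq_zero hp.one_lt
      have := congrArg (fun a : K => id_incl L q (algebraMap K L a)) hsum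
      simpa [map_sum, map_pow] using this)
    (id_AmapU K L q u)
    (by rw [← ga_coe_smul_units, hσunits u])
  refine ⟨v, ?_⟩
  apply Units.ext
  rw [Units.coe_prod]
  exact hv

end Tensor

/-! ### Kummer layers by `S`-units are unramified outside `S` -/

section Unramified

variable (S : Finset Nat.Primes) (K L : Type u) [Field K] [NumberField K] [Field L]
  [NumberField L] [Algebra K L]

/-- Trivial inertia group implies ramification index one. -/
theorem id_sk_e_eq_one_of_inertia [IsGalois K L] (w : HeightOneSpectrum (𝓞 L))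
    (h : ∀ τ : L ≃ₐ[K] L, (∀ r : 𝓞 L, τ • r - r ∈ w.asIdeal) → τ = 1) : id_e K L w = 1 := by
  have : w.asIdeal.IsPrime := w.isPrime
  have : (id_under K L w).asIdeal.IsPrime := (id_under K L w).isPrime
  have hcard := Ideal.card_inertia_eq_ramificationIdxIn (G := L ≃ₐ[K] L)
    (id_under K L w).asIdeal w.asIdeal
  rw [Ideal.ramificationIdxIn_eq_ramificationIdx (id_under K L w).asIdeal w.asIdeal (L ≃ₐ[K] L),
    ← Ideal.ramificationIdx'_eq_ramificationIdx (id_under K L w).asIdeal w.asIdeal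
      (id_under K L w).ne_bot] at hcard
  have hbot : w.asIdeal.inertia (L ≃ₐ[K] L) = ⊥ := by
    rw [eq_bot_iff]
    intro τ hτ
    rw [Subgroup.mem_bot]
    exact h τ hτ
  rw [hbot, Subgroup.card_bot] at hcard
  exact hcard.symm

/-- **Kummer inertia is trivial away from `p` and the radicand.**  Let `α ^ p = x ∈ K`, `w` a prime
of `L` with `w(x) = 1` and `p ∉ w`.  Every `τ ∈ Gal(L/K)` in the inertia group of `w` fixes `α`. -/
theorem id_sk_kummer_inertia (p : ℕ) (hp : p.Prime) (x : K) (α : L)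
    (hα : α ^ p = algebraMap K L x) (w : HeightOneSpectrum (𝓞 L))
    (hxw : w.valuation L (algebraMap K L x) = 1) (hpw : ((p : ℕ) : 𝓞 L) ∉ w.asIdeal)
    (τ : L ≃ₐ[K] L) (hτ : ∀ r : 𝓞 L, τ • r - r ∈ w.asIdeal) : τ α = α := by
  have hpow1 : ∀ a : WithZero (Multiplicative ℤ), a ^ p = 1 → a = 1 := by
    intro a h
    rcases pow_eq_one_iff.1 h with h | h
    · exact h
    · exact absurd h hp.ne_zero
  have hvα : w.valuation L α = 1 := by
    apply hpow1
    rw [← map_pow, hα, hxw]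
  have hα0 : α ≠ 0 := by
    rintro rfl
    simp at hvα
  by_contra hne
  -- the root of unity `η = τ α / α`
  set η : L := τ α * α⁻¹ with hη
  have hτα : τ α = η * α := by
    rw [hη, mul_assoc, inv_mul_cancel₀ hα0, mul_one]
  have hηp : η ^ p = 1 := by
    rw [hη, mul_pow, ← map_pow, hα, τ.commutes, inv_pow, ← hα, mul_inv_cancel₀ (pow_ne_zero p hα0)]
  have hη1 : η ≠ 1 := by
    intro h
    apply hne
    rw [hτα, h, one_mul]
  have hvη : w.valuation L η = 1 := by
    apply hpow1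
    rw [← map_pow, hηp, map_one]
  -- write `α = n / d` with `d ∉ w`
  obtain ⟨n, d, hnd⟩ := w.exists_primeCompl_mul_eq_of_integer α hvα.le
  have hvd : w.valuation L (algebraMap (𝓞 L) L d) = 1 := by
    rw [HeightOneSpectrum.valuation_of_algebraMap]
    exact (w.intValuation_eq_one_iff_mem_primeCompl d).2 d.2
  have hτn : w.valuation L (τ (algebraMap (𝓞 L) L n) - algebraMap (𝓞 L) L n) < 1 := by
    have : τ (algebraMap (𝓞 L) L n) - algebraMap (𝓞 L) L n = algebraMap (𝓞 L) L (τ • n - n) := by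
      rw [map_sub]; rfl
    rw [this, HeightOneSpectrum.valuation_lt_one_iff_mem]
    exact hτ n
  have hτd : w.valuation L (τ (algebraMap (𝓞 L) L d) - algebraMap (𝓞 L) L d) < 1 := by
    have : τ (algebraMap (𝓞 L) L d) - algebraMap (𝓞 L) L d =
        algebraMap (𝓞 L) L (τ • (d : 𝓞 L) - d) := by
      rw [map_sub]; rfl
    rw [this, HeightOneSpectrum.valuation_lt_one_iff_mem]
    exact hτ d
  have hkey : (η - 1) * α * algebraMap (𝓞 L) L d =
      (τ (algebraMap (𝓞 L) L n) - algebraMap (𝓞 L) L n) -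
        η * α * (τ (algebraMap (𝓞 L) L d) - algebraMap (𝓞 L) L d) := by
    have h1 : τ (algebraMap (𝓞 L) L n) = η * α * τ (algebraMap (𝓞 L) L d) := by
      rw [← hnd, map_mul, hτα]
    rw [h1, ← hnd]
    ring
  have hlt : w.valuation L (η - 1) < 1 := by
    have h2 : w.valuation L ((η - 1) * α * algebraMap (𝓞 L) L d) < 1 := by
      rw [hkey]
      refine lt_of_le_of_lt (Valuation.map_sub _ _ _) (max_lt hτn ?_)
      rw [map_mul, map_mul, hvη, hvα, one_mul, one_mul]
      exact hτd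
    rwa [map_mul, map_mul, hvα, hvd, mul_one, mul_one] at h2
  -- `η` is a primitive `p`-th root of unity, so `1 - η` divides `p`
  have hprim : IsPrimitiveRoot η p := by
    have := Fact.mk hp
    have := orderOf_eq_prime hηp hη1
    rw [← this]
    exact IsPrimitiveRoot.orderOf η
  have hgeom : ∑ k ∈ range p, η ^ k = 0 := hprim.geom_sum_eq_zero hp.one_lt
  have hpeq : ((p : ℕ) : L) = (1 - η) * ∑ k ∈ range p, ∑ j ∈ range k, η ^ j := by
    rw [mul_sum]
    have h3 : ∀ k ∈ range p, (1 - η) * ∑ j ∈ range k, η ^ j = 1 - η ^ k := fun k _ =>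
      mul_neg_geom_sum η k
    rw [sum_congr rfl h3, sum_sub_distrib, hgeom, sub_zero, sum_const, card_range, nsmul_eq_mul,
      mul_one]
  have hvc : w.valuation L (∑ k ∈ range p, ∑ j ∈ range k, η ^ j) ≤ 1 := by
    apply Valuation.map_sum_le
    intro k _
    apply Valuation.map_sum_le
    intro j _
    rw [map_pow, hvη, one_pow]
  have hvp : w.valuation L ((p : ℕ) : L) < 1 := by
    rw [hpeq, map_mul, Valuation.map_sub_swap]
    exact mul_lt_one_of_lt_of_le hlt hvc
  apply hpw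
  have hcast : algebraMap (𝓞 L) L ((p : ℕ) : 𝓞 L) = ((p : ℕ) : L) := map_natCast _ p
  rw [← HeightOneSpectrum.valuation_lt_one_iff_mem (K := L)]
  show w.valuation L (algebraMap (𝓞 L) L ((p : ℕ) : 𝓞 L)) < 1
  rw [hcast]
  exact hvp

/-- **A Kummer layer `K(x^{1/p})/K` by an `S`-unit `x`, `p ∈ S`, is unramified outside `S`.** -/
theorem id_sk_e_eq_one [IsGalois K L] (p : ℕ) (hp : p.Prime) (hpS : (⟨p, hp⟩ : Nat.Primes) ∈ S)
    (x : Kˣ) (hx : x ∈ id_ES S K) (α : L) (hα : α ^ p = algebraMap K L (x : K))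
    (hgen : ∀ τ : L ≃ₐ[K] L, τ α = α → τ = 1) (w : HeightOneSpectrum (𝓞 L))
    (hw : id_PrimeToS S L w) : id_e K L w = 1 := by
  apply id_sk_e_eq_one_of_inertia
  intro τ hτ
  apply hgen
  refine id_sk_kummer_inertia K L p hp (x : K) α hα w ?_ (hw ⟨p, hp⟩ hpS) τ hτ
  rw [id_valuation_map, (id_mem_ES_iff S K x).1 hx _ ((id_primeToS_under_iff S K L w).2 hw),
    one_pow]

end Unramified

/-! ### Assembly: in a split Kummer layer every invariant class is a norm -/

section Assembly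

variable (S : Finset Nat.Primes) (K L : Type u) [Field K] [NumberField K] [Field L]
  [NumberField L] [Algebra K L]

/-- Let `L = K(α)`, `α ^ p = x` an `S`-unit which is a `p`-th power in `J_S(K)`, `p ∈ S`,
`Cl_S(K) = 1`, `Gal(L/K) = ⟨σ⟩`, `σ α = ζ α`.  Then every `σ`-invariant class of `C_S(L)` is a
`σ`-norm. -/
theorem id_sk_invariant_is_norm [IsGalois K L] (p : ℕ) (hp : p.Prime)
    (hpS : (⟨p, hp⟩ : Nat.Primes) ∈ S) {ζ : K} (hζ : IsPrimitiveRoot ζ p)
    (hCl : (id_div S K).range = ⊤) (x : Kˣ) (hx : x ∈ id_ES S K) (y : id_JS S K)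
    (hy : y ^ p = id_diagS S K x) (α : L) (hα : α ^ p = algebraMap K L (x : K))
    (σ : L ≃ₐ[K] L) (hσα : σ α = algebraMap K L ζ * α)
    (hσgen : ∀ τ : L ≃ₐ[K] L, τ ∈ Subgroup.zpowers σ)
    (hgen : ∀ τ : L ≃ₐ[K] L, τ α = α → τ = 1)
    (c : id_C S L) (hc : AlgEquiv.restrictScalarsHom ℚ σ • c = c) :
    ∃ d : id_C S L, ∏ k ∈ range p, AlgEquiv.restrictScalarsHom ℚ σ ^ k • d = c := by
  set σQ : L ≃ₐ[ℚ] L := AlgEquiv.restrictScalarsHom ℚ σ with hσQ
  have hS : S.Nonempty := ⟨_, hpS⟩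
  -- the Galois datum
  have hmemH : ∀ τ' ∈ Subgroup.zpowers σQ, ∃ τ : L ≃ₐ[K] L,
      τ' = AlgEquiv.restrictScalarsHom ℚ τ := by
    intro τ' hτ'
    obtain ⟨k, rfl⟩ := Subgroup.mem_zpowers_iff.1 hτ'
    exact ⟨σ ^ k, by rw [hσQ, map_zpow]⟩
  have hH : id_IsGal K L (Subgroup.zpowers σQ) := by
    constructor
    · intro τ' hτ' a
      obtain ⟨τ, rfl⟩ := hmemH τ' hτ'
      exact τ.commutes a
    · intro b hb
      have h1 : ∀ τ : L ≃ₐ[K] L, τ b = b := by
        intro τ
        obtain ⟨k, rfl⟩ := Subgroup.mem_zpowers_iff.1 (hσgen τ)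
        have := hb (σQ ^ k) (Subgroup.zpow_mem_zpowers σQ k)
        rw [hσQ, ← map_zpow] at this
        exact this
      have h2 := (IsGalois.mem_bot_iff_fixed (F := K) (E := L) b).2 h1
      rw [IntermediateField.mem_bot] at h2
      obtain ⟨a, ha⟩ := h2
      exact ⟨a, ha⟩
  have hunr : ∀ w : id_P S L, id_e K L w.1 = 1 := fun w =>
    id_sk_e_eq_one S K L p hp hpS x hx α hα hgen w.1 w.2
  have hstab : Subgroup.zpowers σQ ≤ MulAction.stabilizer (L ≃ₐ[ℚ] L) c :=
    Subgroup.zpowers_le.2 (MulAction.mem_stabilizer_iff.2 hc)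
  have hcH : ∀ τ' ∈ Subgroup.zpowers σQ, τ' • c = c := fun τ' hτ' =>
    MulAction.mem_stabilizer_iff.1 (hstab hτ')
  -- descend `c` to `K`, then to the semilocal part
  obtain ⟨c₀, rfl⟩ := hH.Cmap_range S hS hunr c hcH
  have hsurj : Function.Surjective (id_jS S K) := by
    rw [← MonoidHom.range_eq_top]
    exact ie_CSo_eq_top K hCl
  obtain ⟨u, rfl⟩ := hsurj c₀
  -- semilocal norms
  have hσK : ∀ a : K, σQ (algebraMap K L a) = algebraMap K L a := fun a => σ.commutes a
  have hnorm : ∀ q : S, ∃ v : (id_A L q.1)ˣ,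
      ∏ k ∈ range p, σQ ^ k • v = id_AmapU K L q.1 (u q) := by
    intro q
    refine id_sk_exists_norm K L q.1 p hp hζ (x : K) α hα σQ hσK hσα (y q) ?_ (u q)
    have h1 := congrFun hy q
    rw [id_diagS_apply] at h1
    have h2 := congrArg (fun w : (id_A K q.1)ˣ => (w : id_A K q.1)) h1
    simpa using h2
  choose V hV using hnorm
  refine ⟨id_jS S L V, ?_⟩
  have h3 : ∀ k : ℕ, σQ ^ k • id_jS S L V = id_jS S L (σQ ^ k • V) := fun k =>
    id_smul_jS S L (σQ ^ k) V
  simp only [h3]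
  rw [← map_prod, id_Cmap_jS]
  congr 1
  funext q
  rw [Finset.prod_apply, id_JSmap_apply, ← hV q]
  rfl

/-- The first inequality forbids such a layer. -/
theorem id_sk_false_of_layer [IsGalois K L] (p : ℕ) (hp : p.Prime)
    (hpS : (⟨p, hp⟩ : Nat.Primes) ∈ S) {ζ : K} (hζ : IsPrimitiveRoot ζ p)
    (hCl : (id_div S K).range = ⊤) (x : Kˣ) (hx : x ∈ id_ES S K) (y : id_JS S K)
    (hy : y ^ p = id_diagS S K x) (α : L) (hα : α ^ p = algebraMap K L (x : K))
    (σ : L ≃ₐ[K] L) (hσα : σ α = algebraMap K L ζ * α) (horder : orderOf σ = p)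
    (hσgen : ∀ τ : L ≃ₐ[K] L, τ ∈ Subgroup.zpowers σ)
    (hgen : ∀ τ : L ≃ₐ[K] L, τ α = α → τ = 1)
    (hFI : ∀ σ' : L ≃ₐ[ℚ] L, orderOf σ' = p →
      ∃ c : id_C S L, σ' • c = c ∧ ∀ d : id_C S L, (∏ k ∈ range p, σ' ^ k • d) ≠ c) : False := by
  have hord : orderOf (AlgEquiv.restrictScalarsHom ℚ σ) = p := by
    rw [orderOf_injective _ (AlgEquiv.restrictScalarsHom_injective ℚ) σ, horder]
  obtain ⟨c, hc, hno⟩ := hFI _ hord
  obtain ⟨d, hd⟩ := id_sk_invariant_is_norm S K L p hp hpS hζ hCl x hx y hy α hα σ hσα hσgen hgen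
    c hc
  exact hno d hd

end Assembly

/-! ### The Kummer layer `K(x^{1/p})` and the main theorem -/

section Main

open Polynomial AdjoinRoot

variable (S : Finset Nat.Primes) (K : Type u) [Field K] [NumberField K]

/-- **`E_S ∩ J_S^p = E_S^p`** when `ζ_p ∈ K`, `p ∈ S` and `Cl_S(K) = 1`, given the first
inequality (for cyclic layers of degree `p`) in the form `hFI`. -/
theorem id_sk_hint (p : ℕ) [hp : Fact p.Prime] {ζ : K} (hζ : IsPrimitiveRoot ζ p)
    (hpS : (⟨p, hp.out⟩ : Nat.Primes) ∈ S) (hCl : (id_div S K).range = ⊤)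
    (hFI : ∀ (L : Type u) [Field L] [NumberField L] (σ : L ≃ₐ[ℚ] L), orderOf σ = p →
      ∃ c : id_C S L, σ • c = c ∧ ∀ d : id_C S L, (∏ k ∈ range p, σ ^ k • d) ≠ c)
    (x : Kˣ) (hx : x ∈ id_ES S K) (hloc : ∃ y : id_JS S K, y ^ p = id_diagS S K x) :
    ∃ z : Kˣ, z ^ p = x := by
  by_contra hno'
  have hno : ∀ z : Kˣ, z ^ p ≠ x := fun z hz => hno' ⟨z, hz⟩
  obtain ⟨y, hy⟩ := hloc
  have hno' : ∀ b : K, b ^ p ≠ (x : K) := by
    intro b hb
    have hb0 : b ≠ 0 := by
      rintro rfl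
      rw [zero_pow hp.out.ne_zero] at hb
      exact x.ne_zero hb.symm
    apply hno (Units.mk0 b hb0)
    apply Units.ext
    rw [Units.val_pow_eq_pow_val, Units.val_mk0, hb]
  have H : Irreducible (X ^ p - C (x : K)) := X_pow_sub_C_irreducible_of_prime hp.out hno'
  haveI : Fact (Irreducible (X ^ p - C (x : K))) := ⟨H⟩
  have hζ' : (primitiveRoots p K).Nonempty := ⟨ζ, (mem_primitiveRoots hp.out.pos).2 hζ⟩
  haveI : NeZero p := ⟨hp.out.ne_zero⟩
  -- the layer `L = K(x^{1/p})`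
  haveI hsplit : IsSplittingField K (AdjoinRoot (X ^ p - C (x : K))) (X ^ p - C (x : K)) :=
    isSplittingField_AdjoinRoot_X_pow_sub_C hζ' H
  haveI hgal : IsGalois K (AdjoinRoot (X ^ p - C (x : K))) :=
    isGalois_of_isSplittingField_X_pow_sub_C hζ' H _
  haveI hfd : FiniteDimensional K (AdjoinRoot (X ^ p - C (x : K))) :=
    Polynomial.IsSplittingField.finiteDimensional _ (X ^ p - C (x : K))
  haveI hnf : NumberField (AdjoinRoot (X ^ p - C (x : K))) := NumberField.of_module_finite K _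
  set α : AdjoinRoot (X ^ p - C (x : K)) := root (X ^ p - C (x : K)) with hαdef
  have hα : α ^ p = algebraMap K (AdjoinRoot (X ^ p - C (x : K))) (x : K) :=
    root_X_pow_sub_C_pow p (x : K)
  have hα0 : α ≠ 0 := by
    intro h0
    rw [h0, zero_pow hp.out.ne_zero] at hα
    exact x.ne_zero ((map_eq_zero _).1 hα.symm)
  set σ := autAdjoinRootXPowSubC p (x : K) hζ.toRootsOfUnity with hσdef
  have hσα : σ α = algebraMap K (AdjoinRoot (X ^ p - C (x : K))) ζ * α := by
    rw [hσdef, hαdef, autAdjoinRootXPowSubC_root, Algebra.smul_def]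
    rfl
  have hσ1 : σ ≠ 1 := by
    intro h1
    rw [h1, AlgEquiv.one_apply] at hσα
    have h2 : (algebraMap K (AdjoinRoot (X ^ p - C (x : K))) ζ - 1) * α = 0 := by
      rw [sub_mul, one_mul, ← hσα, sub_self]
    rcases mul_eq_zero.1 h2 with h3 | h3
    · rw [sub_eq_zero, ← map_one (algebraMap K (AdjoinRoot (X ^ p - C (x : K))))] at h3
      exact hζ.ne_one hp.out.one_lt ((algebraMap K _).injective h3)
    · exact hα0 h3
  have hσp : σ ^ p = 1 := by
    rw [hσdef, ← map_pow]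
    have : hζ.toRootsOfUnity ^ p = 1 := by
      apply Subtype.ext
      apply Units.ext
      simp [hζ.pow_eq_one]
    rw [this, map_one]
  have horder : orderOf σ = p := orderOf_eq_prime hσp hσ1
  have hcard : Nat.card (AdjoinRoot (X ^ p - C (x : K)) ≃ₐ[K] AdjoinRoot (X ^ p - C (x : K))) = p := by
    rw [IsGalois.card_aut_eq_finrank, finrank_of_isSplittingField_X_pow_sub_C hζ' H]
  have hσgen : ∀ τ : AdjoinRoot (X ^ p - C (x : K)) ≃ₐ[K] AdjoinRoot (X ^ p - C (x : K)),
      τ ∈ Subgroup.zpowers σ := by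
    intro τ
    rw [zpowers_eq_top_of_prime_card hcard hσ1]
    exact Subgroup.mem_top τ
  have hgen : ∀ τ : AdjoinRoot (X ^ p - C (x : K)) ≃ₐ[K] AdjoinRoot (X ^ p - C (x : K)),
      τ α = α → τ = 1 := by
    intro τ hτ
    apply AlgEquiv.coe_toAlgHom_injective
    apply AdjoinRoot.algHom_ext
    exact hτ
  exact id_sk_false_of_layer S K (AdjoinRoot (X ^ p - C (x : K))) p hp.out hpS hζ hCl x hx y hy α hα
    σ hσα horder hσgen hgen (fun σ' hσ' => hFI _ σ' hσ')

/-- A `p`-th root of an `S`-unit is an `S`-unit. -/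
theorem id_sk_mem_ES_of_pow {p : ℕ} (hp : p ≠ 0) (z : Kˣ) (hz : z ^ p ∈ id_ES S K) :
    z ∈ id_ES S K := by
  rw [id_mem_ES_iff] at hz ⊢
  intro v hv
  have h := hz v hv
  rw [Units.val_pow_eq_pow_val, map_pow] at h
  rcases pow_eq_one_iff.1 h with h | h
  · exact h
  · exact absurd h hp

/-- `id_sk_hint` with the root in `E_S` (the `hcap` shape of `icc_index_pow`). -/
theorem id_sk_hint' (p : ℕ) [hp : Fact p.Prime] {ζ : K} (hζ : IsPrimitiveRoot ζ p)
    (hpS : (⟨p, hp.out⟩ : Nat.Primes) ∈ S) (hCl : (id_div S K).range = ⊤)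
    (hFI : ∀ (L : Type u) [Field L] [NumberField L] (σ : L ≃ₐ[ℚ] L), orderOf σ = p →
      ∃ c : id_C S L, σ • c = c ∧ ∀ d : id_C S L, (∏ k ∈ range p, σ ^ k • d) ≠ c)
    (x : Kˣ) (hx : x ∈ id_ES S K) (hloc : ∃ y : id_JS S K, y ^ p = id_diagS S K x) :
    ∃ z ∈ id_ES S K, z ^ p = x := by
  obtain ⟨z, hz⟩ := id_sk_hint S K p hζ hpS hCl hFI x hx hloc
  exact ⟨z, id_sk_mem_ES_of_pow S K hp.out.ne_zero z (hz ▸ hx), hz⟩

end Main

end Fermat.Agent.S55
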